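import Mathlib
import Fermat.Prelude.Def_ModularCurve_IgusaScheme
import Fermat.Prelude.Def_ModularCurve_X0ModL

/-!
# S28, package Q1: the content valuation ring

`ℤ_(ℓ) = GaloisRep.ratLocalizedAt ℓ`.  We work with the three Laurent series rings
`ℤ_(ℓ)((q))`, `ℚ((q))`, `𝔽_ℓ((q))` and the coefficientwise maps

* `intToQ ℓ : ℤ_(ℓ)((q)) →+* ℚ((q))` (injective),
* `intRed ℓ : ℤ_(ℓ)((q)) →+* 𝔽_ℓ((q))` (surjective, kernel generated by `ℓ`).

The *content ring* `contentRing ℓ ⊆ ℚ((q))` consists of the quotients `x / y` with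
`x, y ∈ ℤ_(ℓ)((q))`, `y ≢ 0 mod ℓ`.  It carries the reduction map
`red ℓ : contentRing ℓ →+* 𝔽_ℓ((q))`, `x / y ↦ x̄ / ȳ`, whose kernel is generated by `ℓ`,
and it is a valuation ring of the field `fracInt ℓ` of all quotients `x / y`, `y ≠ 0`
(which contains every `modularFunctionFieldFull N`).
-/

set_option autoImplicit false

noncomputable section

namespace Fermat.Agent.S28

open ModularCurve Polynomial

variable (ℓ : ℕ) [Fact ℓ.Prime]

/-! ### The residue map `ℤ_(ℓ) → 𝔽_ℓ` -/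

theorem Content.den_ne_zero_zmod (x : ↥(GaloisRep.ratLocalizedAt ℓ)) :
    (((x : ℚ).den : ℕ) : ZMod ℓ) ≠ 0 := by
  intro h
  have hdvd : ℓ ∣ (x : ℚ).den := (ZMod.natCast_eq_zero_iff _ _).mp h
  have hcop : (x : ℚ).den.Coprime ℓ := x.2
  exact (Fact.out : ℓ.Prime).one_lt.ne' (Nat.Coprime.eq_one_of_dvd hcop.symm hdvd)

/-- The residue map `ℤ_(ℓ) → 𝔽_ℓ`. -/
def resHom : ↥(GaloisRep.ratLocalizedAt ℓ) →+* ZMod ℓ where
  toFun x := ((x : ℚ) : ZMod ℓ)
  map_one' := by simp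
  map_zero' := by simp
  map_add' x y := Rat.cast_add_of_ne_zero (Content.den_ne_zero_zmod ℓ x) (Content.den_ne_zero_zmod ℓ y)
  map_mul' x y := Rat.cast_mul_of_ne_zero (Content.den_ne_zero_zmod ℓ x) (Content.den_ne_zero_zmod ℓ y)

theorem resHom_apply (x : ↥(GaloisRep.ratLocalizedAt ℓ)) :
    resHom ℓ x = ((x : ℚ) : ZMod ℓ) := rfl

theorem resHom_surjective : Function.Surjective (resHom ℓ) := by
  intro a
  refine ⟨(a.val : ↥(GaloisRep.ratLocalizedAt ℓ)), ?_⟩
  rw [map_natCast]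
  have : NeZero ℓ := ⟨(Fact.out : ℓ.Prime).ne_zero⟩
  exact ZMod.natCast_zmod_val a

omit [Fact ℓ.Prime] in
theorem Content.inv_natCast_mem {d : ℕ} (hd : d.Coprime ℓ) :
    ((d : ℚ))⁻¹ ∈ GaloisRep.ratLocalizedAt ℓ := by
  show (((d : ℚ))⁻¹).den.Coprime ℓ
  rw [Rat.inv_natCast_den]
  split_ifs with h
  · exact Nat.coprime_one_left ℓ
  · exact hd

theorem Content.natCast_prime_ne_zero : (ℓ : ↥(GaloisRep.ratLocalizedAt ℓ)) ≠ 0 := by
  intro h
  have h' := congrArg (Subtype.val) h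
  simp only [SubringClass.coe_natCast, ZeroMemClass.coe_zero, Nat.cast_eq_zero] at h'
  exact (Fact.out : ℓ.Prime).ne_zero h'

theorem resHom_eq_zero_iff (x : ↥(GaloisRep.ratLocalizedAt ℓ)) :
    resHom ℓ x = 0 ↔ ∃ y : ↥(GaloisRep.ratLocalizedAt ℓ), x = (ℓ : ↥(GaloisRep.ratLocalizedAt ℓ)) * y := by
  constructor
  · intro h
    rw [resHom_apply, Rat.cast_def, div_eq_zero_iff] at h
    have hnum : (((x : ℚ).num : ℤ) : ZMod ℓ) = 0 := h.resolve_right (Content.den_ne_zero_zmod ℓ x)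
    obtain ⟨m, hm⟩ := (ZMod.intCast_zmod_eq_zero_iff_dvd _ _).mp hnum
    have hmem : (m : ℚ) * (((x : ℚ).den : ℚ))⁻¹ ∈ GaloisRep.ratLocalizedAt ℓ :=
      mul_mem (intCast_mem _ m) (Content.inv_natCast_mem ℓ x.2)
    refine ⟨⟨_, hmem⟩, Subtype.ext ?_⟩
    simp only [MulMemClass.coe_mul, SubringClass.coe_natCast]
    have hx : (x : ℚ) = ((x : ℚ).num : ℚ) / ((x : ℚ).den : ℚ) := (Rat.num_div_den _).symm
    have hm' : (((x : ℚ).num : ℤ) : ℚ) = (ℓ : ℚ) * (m : ℚ) := by exact_mod_cast hm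
    rw [hm'] at hx
    refine hx.trans ?_
    ring
  · rintro ⟨y, rfl⟩
    rw [map_mul, map_natCast, ZMod.natCast_self, zero_mul]

/-! ### Coefficientwise maps -/

/-- The inclusion `ℤ_(ℓ)((q)) → ℚ((q))`. -/
def intToQ : LaurentSeries ↥(GaloisRep.ratLocalizedAt ℓ) →+* LaurentSeries ℚ :=
  coeffMap (GaloisRep.ratLocalizedAt ℓ).subtype

/-- The reduction `ℤ_(ℓ)((q)) → 𝔽_ℓ((q))`. -/
def intRed : LaurentSeries ↥(GaloisRep.ratLocalizedAt ℓ) →+* LaurentSeries (ZMod ℓ) :=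
  coeffMap (resHom ℓ)

omit [Fact ℓ.Prime] in
@[simp] theorem intToQ_coeff (x : LaurentSeries ↥(GaloisRep.ratLocalizedAt ℓ)) (k : ℤ) :
    (intToQ ℓ x).coeff k = (x.coeff k : ℚ) := rfl

@[simp] theorem intRed_coeff (x : LaurentSeries ↥(GaloisRep.ratLocalizedAt ℓ)) (k : ℤ) :
    (intRed ℓ x).coeff k = resHom ℓ (x.coeff k) := rfl

omit [Fact ℓ.Prime] in
theorem intToQ_injective : Function.Injective (intToQ ℓ) := by
  intro x y h
  ext k
  have := congrArg (fun z => z.coeff k) h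
  simpa using this

omit [Fact ℓ.Prime] in
theorem intToQ_eq_zero_iff (x : LaurentSeries ↥(GaloisRep.ratLocalizedAt ℓ)) :
    intToQ ℓ x = 0 ↔ x = 0 :=
  map_eq_zero_iff _ (intToQ_injective ℓ)

theorem intRed_surjective : Function.Surjective (intRed ℓ) := by
  intro g
  let lift : ZeroHom (ZMod ℓ) ↥(GaloisRep.ratLocalizedAt ℓ) :=
    ⟨fun a => (a.val : ↥(GaloisRep.ratLocalizedAt ℓ)), by simp⟩
  refine ⟨g.map lift, ?_⟩
  ext k
  rw [intRed_coeff, HahnSeries.map_coeff]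
  show resHom ℓ (((g.coeff k).val : ↥(GaloisRep.ratLocalizedAt ℓ))) = _
  rw [map_natCast]
  have : NeZero ℓ := ⟨(Fact.out : ℓ.Prime).ne_zero⟩
  exact ZMod.natCast_zmod_val _

theorem Content.natCast_mul_coeff {R : Type*} [CommRing R] (n : ℕ) (x : LaurentSeries R) (k : ℤ) :
    ((n : LaurentSeries R) * x).coeff k = (n : R) * x.coeff k := by
  rw [← map_natCast (HahnSeries.C (Γ := ℤ) (R := R)) n, HahnSeries.C_mul_eq_smul,
    HahnSeries.coeff_smul, smul_eq_mul]

theorem intRed_natCast_self : intRed ℓ (ℓ : LaurentSeries ↥(GaloisRep.ratLocalizedAt ℓ)) = 0 := by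
  rw [map_natCast]
  rw [← map_natCast (HahnSeries.C (Γ := ℤ) (R := ZMod ℓ)) ℓ, ZMod.natCast_self, map_zero]

theorem intRed_eq_zero_iff (x : LaurentSeries ↥(GaloisRep.ratLocalizedAt ℓ)) :
    intRed ℓ x = 0 ↔
      ∃ y : LaurentSeries ↥(GaloisRep.ratLocalizedAt ℓ),
        x = (ℓ : LaurentSeries ↥(GaloisRep.ratLocalizedAt ℓ)) * y := by
  classical
  constructor
  · intro h
    have hc : ∀ k, resHom ℓ (x.coeff k) = 0 := fun k => by
      rw [← intRed_coeff, h, HahnSeries.coeff_zero]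
    let dv : ↥(GaloisRep.ratLocalizedAt ℓ) → ↥(GaloisRep.ratLocalizedAt ℓ) := fun c =>
      if hc : resHom ℓ c = 0 then Classical.choose ((resHom_eq_zero_iff ℓ c).mp hc) else 0
    have hdv : ∀ c, resHom ℓ c = 0 → c = (ℓ : ↥(GaloisRep.ratLocalizedAt ℓ)) * dv c := by
      intro c hc
      simp only [dv, dif_pos hc]
      exact Classical.choose_spec ((resHom_eq_zero_iff ℓ c).mp hc)
    have hdv0 : dv 0 = 0 := by
      have h0 := hdv 0 (map_zero _)
      rcases mul_eq_zero.mp h0.symm with h1 | h1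
      · exact absurd h1 (Content.natCast_prime_ne_zero ℓ)
      · exact h1
    refine ⟨x.map (⟨dv, hdv0⟩ : ZeroHom _ _), HahnSeries.ext (funext fun k => ?_)⟩
    rw [Content.natCast_mul_coeff, HahnSeries.map_coeff]
    exact hdv _ (hc k)
  · rintro ⟨y, rfl⟩
    rw [map_mul, intRed_natCast_self, zero_mul]

/-! ### The content ring and its reduction map -/

/-- The content ring: quotients `x / y` of `ℓ`-integral Laurent series with `y ≢ 0 mod ℓ`. -/
def contentRing : Subring (LaurentSeries ℚ) where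
  carrier := {f | ∃ x y : LaurentSeries ↥(GaloisRep.ratLocalizedAt ℓ),
    intRed ℓ y ≠ 0 ∧ f * intToQ ℓ y = intToQ ℓ x}
  mul_mem' := by
    rintro f g ⟨x, y, hy, h⟩ ⟨x', y', hy', h'⟩
    refine ⟨x * x', y * y', ?_, ?_⟩
    · rw [map_mul]; exact mul_ne_zero hy hy'
    · rw [map_mul, map_mul, ← h, ← h']; ring
  one_mem' := ⟨1, 1, by simp, by simp⟩
  add_mem' := by
    rintro f g ⟨x, y, hy, h⟩ ⟨x', y', hy', h'⟩
    refine ⟨x * y' + x' * y, y * y', ?_, ?_⟩
    · rw [map_mul]; exact mul_ne_zero hy hy'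
    · rw [map_add, map_mul, map_mul, map_mul, ← h, ← h']; ring
  zero_mem' := ⟨0, 1, by simp, by simp⟩
  neg_mem' := by
    rintro f ⟨x, y, hy, h⟩
    exact ⟨-x, y, hy, by rw [map_neg, ← h]; ring⟩

theorem mem_contentRing_iff {f : LaurentSeries ℚ} :
    f ∈ contentRing ℓ ↔ ∃ x y : LaurentSeries ↥(GaloisRep.ratLocalizedAt ℓ),
      intRed ℓ y ≠ 0 ∧ f * intToQ ℓ y = intToQ ℓ x := Iff.rfl

theorem intToQ_mem_contentRing (x : LaurentSeries ↥(GaloisRep.ratLocalizedAt ℓ)) :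
    intToQ ℓ x ∈ contentRing ℓ :=
  ⟨x, 1, by simp, by simp⟩

theorem Content.exists_rep (f : contentRing ℓ) :
    ∃ p : LaurentSeries ↥(GaloisRep.ratLocalizedAt ℓ) × LaurentSeries ↥(GaloisRep.ratLocalizedAt ℓ),
      intRed ℓ p.2 ≠ 0 ∧ (f : LaurentSeries ℚ) * intToQ ℓ p.2 = intToQ ℓ p.1 := by
  obtain ⟨x, y, hy, h⟩ := f.2
  exact ⟨(x, y), hy, h⟩

/-- A chosen numerator/denominator pair of an element of the content ring. -/
def Content.rep (f : contentRing ℓ) :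
    LaurentSeries ↥(GaloisRep.ratLocalizedAt ℓ) × LaurentSeries ↥(GaloisRep.ratLocalizedAt ℓ) :=
  Classical.choose (Content.exists_rep ℓ f)

theorem Content.rep_spec (f : contentRing ℓ) :
    intRed ℓ (Content.rep ℓ f).2 ≠ 0 ∧
      (f : LaurentSeries ℚ) * intToQ ℓ (Content.rep ℓ f).2 = intToQ ℓ (Content.rep ℓ f).1 :=
  Classical.choose_spec (Content.exists_rep ℓ f)

/-- The underlying function of `red`. -/
def Content.redFun (f : contentRing ℓ) : LaurentSeries (ZMod ℓ) :=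
  intRed ℓ (Content.rep ℓ f).1 / intRed ℓ (Content.rep ℓ f).2

theorem Content.redFun_eq (f : contentRing ℓ) {x y : LaurentSeries ↥(GaloisRep.ratLocalizedAt ℓ)}
    (hy : intRed ℓ y ≠ 0) (h : (f : LaurentSeries ℚ) * intToQ ℓ y = intToQ ℓ x) :
    Content.redFun ℓ f = intRed ℓ x / intRed ℓ y := by
  obtain ⟨hy0, h0⟩ := Content.rep_spec ℓ f
  rw [Content.redFun, div_eq_div_iff hy0 hy, ← map_mul, ← map_mul]
  congr 1
  apply intToQ_injective ℓ
  rw [map_mul, map_mul, ← h0, ← h]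
  ring

theorem Content.redFun_one : Content.redFun ℓ 1 = 1 := by
  have key : ((1 : contentRing ℓ) : LaurentSeries ℚ) * intToQ ℓ 1 = intToQ ℓ 1 := by
    rw [Subring.coe_one, one_mul]
  rw [Content.redFun_eq ℓ 1 (by rw [map_one]; exact one_ne_zero) key, map_one, div_one]

theorem Content.redFun_zero : Content.redFun ℓ 0 = 0 := by
  have key : ((0 : contentRing ℓ) : LaurentSeries ℚ) * intToQ ℓ 1 = intToQ ℓ 0 := by
    rw [Subring.coe_zero, zero_mul, map_zero]
  rw [Content.redFun_eq ℓ 0 (by rw [map_one]; exact one_ne_zero) key, map_zero, zero_div]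

theorem Content.redFun_mul (f g : contentRing ℓ) : Content.redFun ℓ (f * g) = Content.redFun ℓ f * Content.redFun ℓ g := by
  obtain ⟨hy, h⟩ := Content.rep_spec ℓ f
  obtain ⟨hy', h'⟩ := Content.rep_spec ℓ g
  have hyy : intRed ℓ ((Content.rep ℓ f).2 * (Content.rep ℓ g).2) ≠ 0 := by
    rw [map_mul]; exact mul_ne_zero hy hy'
  have key : ((f * g : contentRing ℓ) : LaurentSeries ℚ) * intToQ ℓ ((Content.rep ℓ f).2 * (Content.rep ℓ g).2) =
      intToQ ℓ ((Content.rep ℓ f).1 * (Content.rep ℓ g).1) := by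
    rw [Subring.coe_mul, map_mul, map_mul, ← h, ← h']; ring
  rw [Content.redFun_eq ℓ (f * g) hyy key, map_mul, map_mul, ← div_mul_div_comm]
  rfl

theorem Content.redFun_add (f g : contentRing ℓ) : Content.redFun ℓ (f + g) = Content.redFun ℓ f + Content.redFun ℓ g := by
  obtain ⟨hy, h⟩ := Content.rep_spec ℓ f
  obtain ⟨hy', h'⟩ := Content.rep_spec ℓ g
  have hyy : intRed ℓ ((Content.rep ℓ f).2 * (Content.rep ℓ g).2) ≠ 0 := by
    rw [map_mul]; exact mul_ne_zero hy hy'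
  have key : ((f + g : contentRing ℓ) : LaurentSeries ℚ) * intToQ ℓ ((Content.rep ℓ f).2 * (Content.rep ℓ g).2) =
      intToQ ℓ ((Content.rep ℓ f).1 * (Content.rep ℓ g).2 + (Content.rep ℓ f).2 * (Content.rep ℓ g).1) := by
    rw [Subring.coe_add, map_add, map_mul, map_mul, map_mul, ← h, ← h']; ring
  rw [Content.redFun_eq ℓ (f + g) hyy key, map_add, map_mul, map_mul, map_mul, ← div_add_div _ _ hy hy']
  rfl

/-- The reduction map `contentRing ℓ → 𝔽_ℓ((q))`, `x / y ↦ x̄ / ȳ`. -/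
def red : contentRing ℓ →+* LaurentSeries (ZMod ℓ) where
  toFun := Content.redFun ℓ
  map_one' := Content.redFun_one ℓ
  map_zero' := Content.redFun_zero ℓ
  map_mul' := Content.redFun_mul ℓ
  map_add' := Content.redFun_add ℓ

theorem red_eq (f : contentRing ℓ) {x y : LaurentSeries ↥(GaloisRep.ratLocalizedAt ℓ)}
    (hy : intRed ℓ y ≠ 0) (h : (f : LaurentSeries ℚ) * intToQ ℓ y = intToQ ℓ x) :
    red ℓ f = intRed ℓ x / intRed ℓ y :=
  Content.redFun_eq ℓ f hy h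

theorem red_mk_eq {f : LaurentSeries ℚ} (hf : f ∈ contentRing ℓ)
    {x y : LaurentSeries ↥(GaloisRep.ratLocalizedAt ℓ)}
    (hy : intRed ℓ y ≠ 0) (h : f * intToQ ℓ y = intToQ ℓ x) :
    red ℓ ⟨f, hf⟩ = intRed ℓ x / intRed ℓ y :=
  Content.redFun_eq ℓ ⟨f, hf⟩ hy h

theorem red_intToQ (x : LaurentSeries ↥(GaloisRep.ratLocalizedAt ℓ)) :
    red ℓ ⟨intToQ ℓ x, intToQ_mem_contentRing ℓ x⟩ = intRed ℓ x := by
  have key : intToQ ℓ x * intToQ ℓ 1 = intToQ ℓ x := by rw [map_one, mul_one]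
  rw [red_mk_eq ℓ _ (by rw [map_one]; exact one_ne_zero) key, map_one, div_one]

theorem red_surjective : Function.Surjective (red ℓ) := fun g => by
  obtain ⟨x, rfl⟩ := intRed_surjective ℓ g
  exact ⟨_, red_intToQ ℓ x⟩

/-- `ℓ` reduces to zero. -/
theorem red_natCast_self : red ℓ (ℓ : contentRing ℓ) = 0 := by
  rw [map_natCast]
  rw [← map_natCast (HahnSeries.C (Γ := ℤ) (R := ZMod ℓ)) ℓ, ZMod.natCast_self, map_zero]

/-- The kernel of `red` is generated by `ℓ`. -/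
theorem red_eq_zero_iff (f : contentRing ℓ) :
    red ℓ f = 0 ↔ ∃ g : contentRing ℓ, f = (ℓ : contentRing ℓ) * g := by
  constructor
  · intro hf
    obtain ⟨x, y, hy, h⟩ := f.2
    rw [red_eq ℓ f hy h, div_eq_zero_iff] at hf
    obtain ⟨x', rfl⟩ := (intRed_eq_zero_iff ℓ x).mp (hf.resolve_right hy)
    have hy0 : intToQ ℓ y ≠ 0 := fun h0 => hy (by rw [(intToQ_eq_zero_iff ℓ y).mp h0, map_zero])
    have hmem : intToQ ℓ x' / intToQ ℓ y ∈ contentRing ℓ := ⟨x', y, hy, div_mul_cancel₀ _ hy0⟩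
    refine ⟨⟨_, hmem⟩, Subtype.ext ?_⟩
    rw [Subring.coe_mul, Subring.coe_natCast]
    rw [map_mul, map_natCast] at h
    rw [← mul_div_assoc, eq_div_iff hy0]
    exact h
  · rintro ⟨g, rfl⟩
    rw [map_mul, red_natCast_self, zero_mul]

/-- Elements with nonzero reduction are units of the content ring. -/
theorem inv_mem_contentRing {f : LaurentSeries ℚ} (hf : f ∈ contentRing ℓ)
    (hred : red ℓ ⟨f, hf⟩ ≠ 0) : f⁻¹ ∈ contentRing ℓ := by
  obtain ⟨x, y, hy, h⟩ := id hf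
  rw [red_mk_eq ℓ hf hy h] at hred
  have hx : intRed ℓ x ≠ 0 := fun h0 => hred (by rw [h0, zero_div])
  have hx0 : intToQ ℓ x ≠ 0 := fun h0 => hx (by rw [(intToQ_eq_zero_iff ℓ x).mp h0, map_zero])
  have hf0 : f ≠ 0 := fun h0 => hx0 (by rw [← h, h0, zero_mul])
  refine ⟨y, x, hx, ?_⟩
  rw [← h, ← mul_assoc, inv_mul_cancel₀ hf0, one_mul]

theorem red_inv {f : LaurentSeries ℚ} (hf : f ∈ contentRing ℓ) (hf' : f⁻¹ ∈ contentRing ℓ) :
    red ℓ ⟨f⁻¹, hf'⟩ = (red ℓ ⟨f, hf⟩)⁻¹ := by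
  rcases eq_or_ne f 0 with rfl | hf0
  · have h0 : (⟨(0 : LaurentSeries ℚ)⁻¹, hf'⟩ : contentRing ℓ) = 0 := Subtype.ext inv_zero
    have h1 : (⟨(0 : LaurentSeries ℚ), hf⟩ : contentRing ℓ) = 0 := rfl
    rw [h0, h1, map_zero, inv_zero]
  · have hmul : (⟨f⁻¹, hf'⟩ : contentRing ℓ) * ⟨f, hf⟩ = 1 := Subtype.ext (inv_mul_cancel₀ hf0)
    have := congrArg (red ℓ) hmul
    rw [map_mul, map_one] at this
    exact eq_inv_of_mul_eq_one_left this

/-! ### Content normalisation -/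

theorem Content.padicValRat_nonneg_of_mem (c : ↥(GaloisRep.ratLocalizedAt ℓ)) :
    0 ≤ padicValRat ℓ (c : ℚ) := by
  have hden : padicValNat ℓ (c : ℚ).den = 0 := by
    apply padicValNat.eq_zero_of_not_dvd
    intro hdvd
    have hcop : (c : ℚ).den.Coprime ℓ := c.2
    exact (Fact.out : ℓ.Prime).one_lt.ne' (Nat.Coprime.eq_one_of_dvd hcop.symm hdvd)
  unfold padicValRat
  rw [hden]
  simp

theorem Content.exists_pow_mul_aux : ∀ (n : ℕ) (x : LaurentSeries ↥(GaloisRep.ratLocalizedAt ℓ)) (k : ℤ),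
    x.coeff k ≠ 0 → padicValRat ℓ (x.coeff k : ℚ) < n →
    ∃ (a : ℕ) (x' : LaurentSeries ↥(GaloisRep.ratLocalizedAt ℓ)),
      intRed ℓ x' ≠ 0 ∧ x = (ℓ : LaurentSeries ↥(GaloisRep.ratLocalizedAt ℓ)) ^ a * x'
  | 0, x, k, _, hlt =>
      absurd hlt (not_lt.mpr (by exact_mod_cast Content.padicValRat_nonneg_of_mem ℓ (x.coeff k)))
  | n + 1, x, k, hk, hlt => by
    by_cases hx : intRed ℓ x = 0
    · obtain ⟨y, rfl⟩ := (intRed_eq_zero_iff ℓ x).mp hx
      rw [Content.natCast_mul_coeff] at hk hlt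
      have hyk : y.coeff k ≠ 0 := fun h0 => hk (by rw [h0, mul_zero])
      have hyk' : ((y.coeff k : ↥(GaloisRep.ratLocalizedAt ℓ)) : ℚ) ≠ 0 := fun h0 =>
        hyk (Subtype.ext h0)
      have hval : padicValRat ℓ ((y.coeff k : ℚ)) < n := by
        have hcast : ((((ℓ : ↥(GaloisRep.ratLocalizedAt ℓ)) * y.coeff k :
            ↥(GaloisRep.ratLocalizedAt ℓ))) : ℚ) = (ℓ : ℚ) * (y.coeff k : ℚ) := by
          push_cast; rfl
        rw [hcast, padicValRat.mul (by exact_mod_cast (Fact.out : ℓ.Prime).ne_zero) hyk',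
          padicValRat.self (Fact.out : ℓ.Prime).one_lt] at hlt
        push_cast at hlt
        linarith
      obtain ⟨a, x', hx', rfl⟩ := Content.exists_pow_mul_aux n y k hyk hval
      exact ⟨a + 1, x', hx', by rw [pow_succ]; ring⟩
    · exact ⟨0, x, hx, by simp⟩

/-- Content normalisation: a nonzero `ℓ`-integral series is `ℓ^a` times one that is nonzero
modulo `ℓ`. -/
theorem exists_pow_mul_intRed_ne_zero (x : LaurentSeries ↥(GaloisRep.ratLocalizedAt ℓ)) (hx : x ≠ 0) :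
    ∃ (a : ℕ) (x' : LaurentSeries ↥(GaloisRep.ratLocalizedAt ℓ)),
      intRed ℓ x' ≠ 0 ∧ x = (ℓ : LaurentSeries ↥(GaloisRep.ratLocalizedAt ℓ)) ^ a * x' := by
  obtain ⟨k, hk⟩ : ∃ k, x.coeff k ≠ 0 := by
    by_contra h
    push Not at h
    exact hx (HahnSeries.ext (funext h))
  refine Content.exists_pow_mul_aux ℓ ((padicValRat ℓ (x.coeff k : ℚ)).toNat + 1) x k hk ?_
  have := Int.self_le_toNat (padicValRat ℓ (x.coeff k : ℚ))
  push_cast
  omega

/-! ### The field of quotients of `ℓ`-integral series; the valuation ring property -/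

/-- The field of quotients `x / y` of `ℓ`-integral Laurent series (`y ≠ 0`). -/
def fracInt : Subfield (LaurentSeries ℚ) where
  carrier := {f | ∃ x y : LaurentSeries ↥(GaloisRep.ratLocalizedAt ℓ),
    y ≠ 0 ∧ f * intToQ ℓ y = intToQ ℓ x}
  mul_mem' := by
    rintro f g ⟨x, y, hy, h⟩ ⟨x', y', hy', h'⟩
    refine ⟨x * x', y * y', mul_ne_zero hy hy', ?_⟩
    rw [map_mul, map_mul, ← h, ← h']; ring
  one_mem' := ⟨1, 1, one_ne_zero, by simp⟩
  add_mem' := by
    rintro f g ⟨x, y, hy, h⟩ ⟨x', y', hy', h'⟩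
    refine ⟨x * y' + x' * y, y * y', mul_ne_zero hy hy', ?_⟩
    rw [map_add, map_mul, map_mul, map_mul, ← h, ← h']; ring
  zero_mem' := ⟨0, 1, one_ne_zero, by simp⟩
  neg_mem' := by
    rintro f ⟨x, y, hy, h⟩
    exact ⟨-x, y, hy, by rw [map_neg, ← h]; ring⟩
  inv_mem' := by
    rintro f ⟨x, y, hy, h⟩
    rcases eq_or_ne f 0 with rfl | hf
    · rw [inv_zero]; exact ⟨0, 1, one_ne_zero, by simp⟩
    · have hx : x ≠ 0 := by
        rintro rfl
        rw [map_zero] at h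
        rcases mul_eq_zero.mp h with h1 | h1
        · exact hf h1
        · exact hy ((intToQ_eq_zero_iff ℓ y).mp h1)
      exact ⟨y, x, hx, by rw [← h, ← mul_assoc, inv_mul_cancel₀ hf, one_mul]⟩

omit [Fact ℓ.Prime] in
theorem mem_fracInt_iff {f : LaurentSeries ℚ} :
    f ∈ fracInt ℓ ↔ ∃ x y : LaurentSeries ↥(GaloisRep.ratLocalizedAt ℓ),
      y ≠ 0 ∧ f * intToQ ℓ y = intToQ ℓ x := Iff.rfl

theorem contentRing_le_fracInt {f : LaurentSeries ℚ} (hf : f ∈ contentRing ℓ) :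
    f ∈ fracInt ℓ := by
  obtain ⟨x, y, hy, h⟩ := hf
  exact ⟨x, y, fun h0 => hy (by rw [h0, map_zero]), h⟩

theorem Content.natCast_laurent_ne_zero : (ℓ : LaurentSeries ℚ) ≠ 0 := by
  rw [← map_natCast (HahnSeries.C (Γ := ℤ) (R := ℚ)) ℓ]
  exact HahnSeries.C_ne_zero (Nat.cast_ne_zero.mpr (Fact.out : ℓ.Prime).ne_zero)

theorem natCast_mem_contentRing (n : ℕ) : (n : LaurentSeries ℚ) ∈ contentRing ℓ :=
  natCast_mem _ n

/-- Every nonzero element of `fracInt ℓ` is `ℓ^n` times a unit of the content ring. -/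
theorem fracInt_exists_zpow_mul_unit {f : LaurentSeries ℚ} (hf : f ∈ fracInt ℓ) (hf0 : f ≠ 0) :
    ∃ (n : ℤ) (u : LaurentSeries ℚ) (hu : u ∈ contentRing ℓ),
      red ℓ ⟨u, hu⟩ ≠ 0 ∧ f = (ℓ : LaurentSeries ℚ) ^ n * u := by
  obtain ⟨x, y, hy, h⟩ := hf
  have hy0 : intToQ ℓ y ≠ 0 := fun h0 => hy ((intToQ_eq_zero_iff ℓ y).mp h0)
  have hx : x ≠ 0 := by
    rintro rfl
    rw [map_zero] at h
    rcases mul_eq_zero.mp h with h1 | h1
    · exact hf0 h1
    · exact hy0 h1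
  obtain ⟨a, x', hx', rfl⟩ := exists_pow_mul_intRed_ne_zero ℓ x hx
  obtain ⟨b, y', hy', rfl⟩ := exists_pow_mul_intRed_ne_zero ℓ y hy
  have hy'0 : intToQ ℓ y' ≠ 0 := fun h0 =>
    hy' (by rw [(intToQ_eq_zero_iff ℓ y').mp h0, map_zero])
  have hu : intToQ ℓ x' / intToQ ℓ y' ∈ contentRing ℓ := ⟨x', y', hy', div_mul_cancel₀ _ hy'0⟩
  refine ⟨(a : ℤ) - b, _, hu, ?_, ?_⟩
  · rw [red_mk_eq ℓ hu hy' (div_mul_cancel₀ _ hy'0)]
    exact div_ne_zero hx' hy'
  · have hℓ := Content.natCast_laurent_ne_zero ℓ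
    rw [map_mul, map_mul, map_pow, map_pow, map_natCast] at h
    rw [zpow_sub₀ hℓ, zpow_natCast, zpow_natCast]
    have hb : (ℓ : LaurentSeries ℚ) ^ b ≠ 0 := pow_ne_zero _ hℓ
    field_simp
    rw [← h]
    ring

/-- `contentRing ℓ` is a valuation ring of `fracInt ℓ`. -/
theorem mem_contentRing_or_inv_mem {f : LaurentSeries ℚ} (hf : f ∈ fracInt ℓ) :
    f ∈ contentRing ℓ ∨ f⁻¹ ∈ contentRing ℓ := by
  rcases eq_or_ne f 0 with rfl | hf0
  · exact Or.inl (zero_mem _)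
  obtain ⟨n, u, hu, hured, rfl⟩ := fracInt_exists_zpow_mul_unit ℓ hf hf0
  rcases le_or_gt 0 n with hn | hn
  · left
    lift n to ℕ using hn
    rw [zpow_natCast]
    exact mul_mem (pow_mem (natCast_mem_contentRing ℓ ℓ) n) hu
  · right
    obtain ⟨m, rfl⟩ : ∃ m : ℕ, n = -(m : ℤ) := ⟨(-n).toNat, by omega⟩
    rw [mul_inv, zpow_neg, inv_inv, zpow_natCast]
    exact mul_mem (pow_mem (natCast_mem_contentRing ℓ ℓ) m) (inv_mem_contentRing ℓ hu hured)

/-- An element of `fracInt ℓ` outside the content ring has its inverse in the maximal ideal. -/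
theorem inv_mem_contentRing_of_not_mem {f : LaurentSeries ℚ} (hf : f ∈ fracInt ℓ)
    (hnot : f ∉ contentRing ℓ) :
    ∃ h : f⁻¹ ∈ contentRing ℓ, red ℓ ⟨f⁻¹, h⟩ = 0 := by
  have hf0 : f ≠ 0 := fun h0 => hnot (by rw [h0]; exact zero_mem _)
  obtain ⟨n, u, hu, hured, rfl⟩ := fracInt_exists_zpow_mul_unit ℓ hf hf0
  rcases le_or_gt 0 n with hn | hn
  · exfalso
    apply hnot
    lift n to ℕ using hn
    rw [zpow_natCast]
    exact mul_mem (pow_mem (natCast_mem_contentRing ℓ ℓ) n) hu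
  · obtain ⟨m, rfl⟩ : ∃ m : ℕ, n = -((m : ℤ) + 1) := ⟨(-n).toNat - 1, by omega⟩
    have hg : (ℓ : LaurentSeries ℚ) ^ m * u⁻¹ ∈ contentRing ℓ :=
      mul_mem (pow_mem (natCast_mem_contentRing ℓ ℓ) m) (inv_mem_contentRing ℓ hu hured)
    have heq : ((ℓ : LaurentSeries ℚ) ^ (-((m : ℤ) + 1)) * u)⁻¹ =
        (ℓ : LaurentSeries ℚ) * ((ℓ : LaurentSeries ℚ) ^ m * u⁻¹) := by
      rw [mul_inv, zpow_neg, inv_inv, zpow_add₀ (Content.natCast_laurent_ne_zero ℓ), zpow_natCast,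
        zpow_one]
      ring
    have hmem : ((ℓ : LaurentSeries ℚ) ^ (-((m : ℤ) + 1)) * u)⁻¹ ∈ contentRing ℓ := by
      rw [heq]; exact mul_mem (natCast_mem_contentRing ℓ ℓ) hg
    refine ⟨hmem, (red_eq_zero_iff ℓ _).mpr ⟨⟨_, hg⟩, Subtype.ext ?_⟩⟩
    rw [Subring.coe_mul, Subring.coe_natCast]
    exact heq

/-! ### Compatibility with `q ↦ q^d` -/

omit [Fact ℓ.Prime] in
theorem intToQ_qExpand (d : ℕ) [NeZero d] (x : LaurentSeries ↥(GaloisRep.ratLocalizedAt ℓ)) :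
    intToQ ℓ (qExpand _ d x) = qExpand ℚ d (intToQ ℓ x) :=
  coeffMap_qExpand _ d x

theorem intRed_qExpand (d : ℕ) [NeZero d] (x : LaurentSeries ↥(GaloisRep.ratLocalizedAt ℓ)) :
    intRed ℓ (qExpand _ d x) = qExpand (ZMod ℓ) d (intRed ℓ x) :=
  coeffMap_qExpand _ d x

theorem qExpand_mem_contentRing (d : ℕ) [NeZero d] {f : LaurentSeries ℚ}
    (hf : f ∈ contentRing ℓ) : qExpand ℚ d f ∈ contentRing ℓ := by
  obtain ⟨x, y, hy, h⟩ := hf
  refine ⟨qExpand _ d x, qExpand _ d y, ?_, ?_⟩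
  · rw [intRed_qExpand]
    exact fun h0 => hy (qExpand_injective d (by rw [h0, map_zero]))
  · rw [intToQ_qExpand, intToQ_qExpand, ← map_mul, h]

theorem red_qExpand (d : ℕ) [NeZero d] {f : LaurentSeries ℚ} (hf : f ∈ contentRing ℓ) :
    red ℓ ⟨qExpand ℚ d f, qExpand_mem_contentRing ℓ d hf⟩ =
      qExpand (ZMod ℓ) d (red ℓ ⟨f, hf⟩) := by
  obtain ⟨x, y, hy, h⟩ := id hf
  have hy' : intRed ℓ (qExpand _ d y) ≠ 0 := by
    rw [intRed_qExpand]
    exact fun h0 => hy (qExpand_injective d (by rw [h0, map_zero]))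
  have h' : qExpand ℚ d f * intToQ ℓ (qExpand _ d y) = intToQ ℓ (qExpand _ d x) := by
    rw [intToQ_qExpand, intToQ_qExpand, ← map_mul, h]
  rw [red_mk_eq ℓ _ hy' h', red_mk_eq ℓ hf hy h, intRed_qExpand, intRed_qExpand, map_div₀]

/-! ### The `j`-invariant -/

omit [Fact ℓ.Prime] in
theorem intToQ_jqModC : intToQ ℓ (jqModC _) = jq :=
  coeffMap_jqModC _

theorem intRed_jqModC : intRed ℓ (jqModC _) = jqModC (ZMod ℓ) :=
  coeffMap_jqModC _

theorem jq_mem_contentRing : jq ∈ contentRing ℓ := by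
  rw [← intToQ_jqModC ℓ]; exact intToQ_mem_contentRing ℓ _

theorem red_jq : red ℓ ⟨jq, jq_mem_contentRing ℓ⟩ = jqModC (ZMod ℓ) := by
  have h := red_intToQ ℓ (jqModC _)
  rw [intRed_jqModC] at h
  rw [← h]
  congr 1
  exact Subtype.ext (intToQ_jqModC ℓ).symm

theorem jqd_mem_contentRing (d : ℕ) [NeZero d] : qExpand ℚ d jq ∈ contentRing ℓ :=
  qExpand_mem_contentRing ℓ d (jq_mem_contentRing ℓ)

theorem red_jqd (d : ℕ) [NeZero d] :
    red ℓ ⟨qExpand ℚ d jq, jqd_mem_contentRing ℓ d⟩ = qExpand (ZMod ℓ) d (jqModC (ZMod ℓ)) := by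
  rw [← red_jq ℓ]
  exact red_qExpand ℓ d (jq_mem_contentRing ℓ)

/-- The modular function fields are contained in `fracInt ℓ`. -/
theorem modularFunctionFieldFull_le_fracInt (N : ℕ) {f : LaurentSeries ℚ}
    (hf : f ∈ modularFunctionFieldFull N) : f ∈ fracInt ℓ := by
  have hle : modularFunctionFieldFull N ≤
      (fracInt ℓ).toIntermediateField (fun c => by
        rw [eq_ratCast]; exact SubfieldClass.ratCast_mem _ c) := by
    rw [modularFunctionFieldFull, IntermediateField.adjoin_le_iff]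
    rintro x ⟨d, hd, -, rfl⟩
    exact contentRing_le_fracInt ℓ (jqd_mem_contentRing ℓ d)
  exact hle hf

/-- A nonzero element of a modular function field, or its inverse, lies in the content ring. -/
theorem mem_contentRing_or_inv_mem_of_mem_full (N : ℕ) {f : LaurentSeries ℚ}
    (hf : f ∈ modularFunctionFieldFull N) : f ∈ contentRing ℓ ∨ f⁻¹ ∈ contentRing ℓ :=
  mem_contentRing_or_inv_mem ℓ (modularFunctionFieldFull_le_fracInt ℓ N hf)

/-! ### Constants -/

/-- coefficient maps commute with the constant embeddings -/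
theorem Content.coeffMap_C {R S : Type*} [CommRing R] [CommRing S] (f : R →+* S) (r : R) :
    coeffMap f (HahnSeries.C r) = HahnSeries.C (f r) := by
  rw [HahnSeries.C_apply, HahnSeries.C_apply, coeffMap_single]

theorem Content.algebraMap_rat_eq_C (r : ℚ) :
    algebraMap ℚ (LaurentSeries ℚ) r = HahnSeries.C r := by
  rw [algebraMap_apply_eq_single, HahnSeries.C_apply]

omit [Fact ℓ.Prime] in
theorem intToQ_C (c : ↥(GaloisRep.ratLocalizedAt ℓ)) :
    intToQ ℓ (HahnSeries.C c) = algebraMap ℚ (LaurentSeries ℚ) (c : ℚ) := by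
  rw [Content.algebraMap_rat_eq_C]
  exact Content.coeffMap_C _ c

theorem intRed_C (c : ↥(GaloisRep.ratLocalizedAt ℓ)) :
    intRed ℓ (HahnSeries.C c) = HahnSeries.C (resHom ℓ c) :=
  Content.coeffMap_C _ c

/-- `ℓ`-integral constants lie in the content ring. -/
theorem algebraMap_mem_contentRing (c : ↥(GaloisRep.ratLocalizedAt ℓ)) :
    algebraMap ℚ (LaurentSeries ℚ) (c : ℚ) ∈ contentRing ℓ := by
  rw [← intToQ_C]; exact intToQ_mem_contentRing ℓ _

theorem red_algebraMap (c : ↥(GaloisRep.ratLocalizedAt ℓ)) :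
    red ℓ ⟨algebraMap ℚ (LaurentSeries ℚ) (c : ℚ), algebraMap_mem_contentRing ℓ c⟩ =
      HahnSeries.C (resHom ℓ c) := by
  have h := red_intToQ ℓ (HahnSeries.C c)
  rw [intRed_C] at h
  rw [← h]
  congr 1
  exact Subtype.ext (intToQ_C ℓ c).symm

theorem Content.inv_intCast_mem {m : ℤ} (hm : ¬ (ℓ : ℤ) ∣ m) :
    ((m : ℚ))⁻¹ ∈ GaloisRep.ratLocalizedAt ℓ := by
  have hcop : m.natAbs.Coprime ℓ := by
    refine (Nat.Coprime.symm ?_)
    rw [(Fact.out : ℓ.Prime).coprime_iff_not_dvd]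
    intro h
    exact hm (Int.natCast_dvd.mpr h)
  have h1 := Content.inv_natCast_mem ℓ hcop
  rcases Int.natAbs_eq m with h | h
  · have h2 : (m : ℚ) = ((m.natAbs : ℤ) : ℚ) := congrArg (Int.cast : ℤ → ℚ) h
    rw [h2, Int.cast_natCast]
    exact h1
  · have h2 : (m : ℚ) = ((-(m.natAbs : ℤ) : ℤ) : ℚ) := congrArg (Int.cast : ℤ → ℚ) h
    rw [h2, Int.cast_neg, Int.cast_natCast, inv_neg]
    exact neg_mem h1

/-- A rational number is `ℓ`-integral, or its inverse is divisible by `ℓ`. -/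
theorem Content.rat_mem_or_inv (r : ℚ) :
    r ∈ GaloisRep.ratLocalizedAt ℓ ∨
      ∃ y : ↥(GaloisRep.ratLocalizedAt ℓ), r⁻¹ = (ℓ : ℚ) * (y : ℚ) := by
  by_cases h : ℓ ∣ r.den
  · right
    obtain ⟨d, hd⟩ := h
    have hnum : ¬ (ℓ : ℤ) ∣ r.num := by
      intro hdvd
      have h1 : ℓ ∣ r.num.natAbs := Int.natCast_dvd.mp hdvd
      have h2 : ℓ ∣ Nat.gcd r.num.natAbs r.den := Nat.dvd_gcd h1 ⟨d, hd⟩
      rw [r.reduced] at h2
      exact (Fact.out : ℓ.Prime).one_lt.ne' (Nat.dvd_one.mp h2)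
    have hmem : (d : ℚ) * ((r.num : ℚ))⁻¹ ∈ GaloisRep.ratLocalizedAt ℓ :=
      mul_mem (natCast_mem _ d) (Content.inv_intCast_mem ℓ hnum)
    refine ⟨⟨_, hmem⟩, ?_⟩
    have hr : r = (r.num : ℚ) / (r.den : ℚ) := (Rat.num_div_den r).symm
    have hden : (r.den : ℚ) = (ℓ : ℚ) * (d : ℚ) := by exact_mod_cast hd
    rw [hden] at hr
    refine (congrArg Inv.inv hr).trans ?_
    rw [inv_div]
    show (ℓ : ℚ) * (d : ℚ) / (r.num : ℚ) = (ℓ : ℚ) * ((d : ℚ) * ((r.num : ℚ))⁻¹)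
    ring
  · left
    show r.den.Coprime ℓ
    exact (Nat.Coprime.symm ((Fact.out : ℓ.Prime).coprime_iff_not_dvd.mpr h))

/-- A constant lies in the content ring iff it is `ℓ`-integral. -/
theorem algebraMap_mem_contentRing_iff (r : ℚ) :
    algebraMap ℚ (LaurentSeries ℚ) r ∈ contentRing ℓ ↔ r ∈ GaloisRep.ratLocalizedAt ℓ := by
  constructor
  · intro hr
    rcases Content.rat_mem_or_inv ℓ r with h | ⟨y, hy⟩
    · exact h
    · rcases eq_or_ne r 0 with rfl | hr0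
      · exact zero_mem _
      exfalso
      have h1 : (1 : contentRing ℓ) = (ℓ : contentRing ℓ) *
          (⟨_, hr⟩ * ⟨_, algebraMap_mem_contentRing ℓ y⟩) := by
        apply Subtype.ext
        rw [Subring.coe_mul, Subring.coe_mul, Subring.coe_natCast, Subring.coe_one,
          ← map_natCast (algebraMap ℚ (LaurentSeries ℚ)) ℓ, ← map_mul, ← map_mul,
          mul_left_comm, ← hy, mul_inv_cancel₀ hr0, map_one]
      have h2 : red ℓ (1 : contentRing ℓ) = 0 := (red_eq_zero_iff ℓ 1).mpr ⟨_, h1⟩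
      rw [map_one] at h2
      exact one_ne_zero h2
  · intro hr
    exact algebraMap_mem_contentRing ℓ ⟨r, hr⟩

/-! ### Polynomials -/

/-- The constant embedding `ℤ_(ℓ) → ℚ((q))`. -/
def intConstQ : ↥(GaloisRep.ratLocalizedAt ℓ) →+* LaurentSeries ℚ :=
  (algebraMap ℚ (LaurentSeries ℚ)).comp (GaloisRep.ratLocalizedAt ℓ).subtype

omit [Fact ℓ.Prime] in
theorem intConstQ_apply (c : ↥(GaloisRep.ratLocalizedAt ℓ)) :
    intConstQ ℓ c = algebraMap ℚ (LaurentSeries ℚ) (c : ℚ) := rfl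

/-- The constant embedding `ℤ_(ℓ) → contentRing ℓ`. -/
def contentConst : ↥(GaloisRep.ratLocalizedAt ℓ) →+* contentRing ℓ :=
  (intConstQ ℓ).codRestrict (contentRing ℓ) (algebraMap_mem_contentRing ℓ)

theorem coe_contentConst (c : ↥(GaloisRep.ratLocalizedAt ℓ)) :
    ((contentConst ℓ c : contentRing ℓ) : LaurentSeries ℚ) = algebraMap ℚ (LaurentSeries ℚ) (c : ℚ) :=
  rfl

theorem red_contentConst (c : ↥(GaloisRep.ratLocalizedAt ℓ)) :
    red ℓ (contentConst ℓ c) = HahnSeries.C (resHom ℓ c) :=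
  red_algebraMap ℓ c

theorem red_comp_contentConst :
    (red ℓ).comp (contentConst ℓ) = (HahnSeries.C (Γ := ℤ) (R := ZMod ℓ)).comp (resHom ℓ) :=
  RingHom.ext fun c => red_contentConst ℓ c

/-- Polynomials with `ℓ`-integral coefficients preserve the content ring. -/
theorem eval₂_intConstQ_mem (P : (↥(GaloisRep.ratLocalizedAt ℓ))[X]) {u : LaurentSeries ℚ}
    (hu : u ∈ contentRing ℓ) : P.eval₂ (intConstQ ℓ) u ∈ contentRing ℓ := by
  have h : P.eval₂ (intConstQ ℓ) u =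
      ((P.eval₂ (contentConst ℓ) ⟨u, hu⟩ : contentRing ℓ) : LaurentSeries ℚ) := by
    have := Polynomial.hom_eval₂ P (contentConst ℓ) (contentRing ℓ).subtype ⟨u, hu⟩
    exact this.symm
  rw [h]
  exact Subtype.property _

/-- Reduction commutes with evaluation of `ℓ`-integral polynomials. -/
theorem red_eval₂_intConstQ (P : (↥(GaloisRep.ratLocalizedAt ℓ))[X]) {u : LaurentSeries ℚ}
    (hu : u ∈ contentRing ℓ) :
    red ℓ ⟨P.eval₂ (intConstQ ℓ) u, eval₂_intConstQ_mem ℓ P hu⟩ =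
      (P.map (resHom ℓ)).eval₂ (HahnSeries.C (Γ := ℤ) (R := ZMod ℓ)) (red ℓ ⟨u, hu⟩) := by
  have h : (⟨P.eval₂ (intConstQ ℓ) u, eval₂_intConstQ_mem ℓ P hu⟩ : contentRing ℓ) =
      P.eval₂ (contentConst ℓ) ⟨u, hu⟩ := by
    apply Subtype.ext
    have := Polynomial.hom_eval₂ P (contentConst ℓ) (contentRing ℓ).subtype ⟨u, hu⟩
    exact this.symm
  rw [h, Polynomial.hom_eval₂, red_comp_contentConst, Polynomial.eval₂_map]

/-- The polynomials vanishing modulo `ℓ` are the multiples of `ℓ`. -/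
theorem map_resHom_eq_zero_iff (P : (↥(GaloisRep.ratLocalizedAt ℓ))[X]) :
    P.map (resHom ℓ) = 0 ↔
      ∃ Q : (↥(GaloisRep.ratLocalizedAt ℓ))[X],
        P = Polynomial.C (ℓ : ↥(GaloisRep.ratLocalizedAt ℓ)) * Q := by
  constructor
  · intro h
    have hc : ∀ n, ∃ y, P.coeff n = (ℓ : ↥(GaloisRep.ratLocalizedAt ℓ)) * y := fun n => by
      apply (resHom_eq_zero_iff ℓ _).mp
      rw [← Polynomial.coeff_map, h, Polynomial.coeff_zero]
    choose y hy using hc
    refine ⟨∑ n ∈ P.support, Polynomial.monomial n (y n), Polynomial.ext fun n => ?_⟩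
    rw [Polynomial.coeff_C_mul, Polynomial.finsetSum_coeff]
    simp only [Polynomial.coeff_monomial]
    rw [Finset.sum_ite_eq' P.support n]
    split_ifs with hn
    · exact hy n
    · rw [Polynomial.notMem_support_iff.mp hn, mul_zero]
  · rintro ⟨Q, rfl⟩
    rw [Polynomial.map_mul, Polynomial.map_C, map_natCast, ZMod.natCast_self, map_zero,
      zero_mul]

/-! ### Transcendence of the reduced `j`-invariant -/

theorem Content.eval₂_jqModC_eq_zero {K : Type*} [Field K] {p : K[X]}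
    (hp : p.eval₂ (HahnSeries.C (Γ := ℤ) (R := K)) (jqModC K) = 0) : p = 0 := by
  by_contra hp0
  have hcoeff : (p.eval₂ (HahnSeries.C (Γ := ℤ) (R := K)) (jqModC K)).coeff
      (-(p.natDegree : ℤ)) = p.coeff p.natDegree := by
    rw [Polynomial.eval₂_eq_sum_range, HahnSeries.coeff_sum, Finset.sum_eq_single p.natDegree]
    · rw [HahnSeries.C_mul_eq_smul, HahnSeries.coeff_smul, coeff_jqModC_pow_self, smul_eq_mul,
        mul_one]
    · intro i hi hin
      have hilt : i < p.natDegree :=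
        lt_of_le_of_ne (Nat.lt_succ_iff.mp (Finset.mem_range.mp hi)) hin
      rw [HahnSeries.C_mul_eq_smul, HahnSeries.coeff_smul, coeff_jqModC_pow_of_lt, smul_zero]
      omega
    · intro hn'
      exact absurd (Finset.self_mem_range_succ p.natDegree) hn'
  rw [hp, HahnSeries.coeff_zero] at hcoeff
  exact hp0 (Polynomial.leadingCoeff_eq_zero.mp hcoeff.symm)

theorem Content.algebraMap_eq_C_of_field {K : Type*} [Field K] :
    algebraMap K (LaurentSeries K) = HahnSeries.C (Γ := ℤ) (R := K) :=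
  RingHom.ext fun c => by
    rw [algebraMap_laurentSeries_eq_single, HahnSeries.C_apply]

/-- The reduced `j`-invariant is transcendental. -/
theorem Content.transcendental_jqModC (K : Type*) [Field K] : Transcendental K (jqModC K) := by
  rw [transcendental_iff]
  intro p hp
  apply Content.eval₂_jqModC_eq_zero
  rw [← Content.algebraMap_eq_C_of_field]
  exact hp

/-- An `ℓ`-integral polynomial in `j` reduces to zero iff it vanishes modulo `ℓ`. -/
theorem red_eval₂_jq_eq_zero_iff (P : (↥(GaloisRep.ratLocalizedAt ℓ))[X]) :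
    red ℓ ⟨P.eval₂ (intConstQ ℓ) jq, eval₂_intConstQ_mem ℓ P (jq_mem_contentRing ℓ)⟩ = 0 ↔
      P.map (resHom ℓ) = 0 := by
  rw [red_eval₂_intConstQ ℓ P (jq_mem_contentRing ℓ), red_jq]
  constructor
  · exact Content.eval₂_jqModC_eq_zero
  · intro h; rw [h, Polynomial.eval₂_zero]

/-! ### Integer-coefficient series -/

omit [Fact ℓ.Prime] in
theorem intToQ_coeffMap_intCast (x : LaurentSeries ℤ) :
    intToQ ℓ (coeffMap (Int.castRingHom _) x) = coeffMap (Int.castRingHom ℚ) x := by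
  rw [intToQ, coeffMap_coeffMap]
  exact coeffMap_congr (RingHom.ext_int _ _) x

theorem intRed_coeffMap_intCast (x : LaurentSeries ℤ) :
    intRed ℓ (coeffMap (Int.castRingHom _) x) = coeffMap (Int.castRingHom (ZMod ℓ)) x := by
  rw [intRed, coeffMap_coeffMap]
  exact coeffMap_congr (RingHom.ext_int _ _) x

/-- Series with integer coefficients lie in the content ring. -/
theorem coeffMap_intCast_mem_contentRing (x : LaurentSeries ℤ) :
    coeffMap (Int.castRingHom ℚ) x ∈ contentRing ℓ := by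
  rw [← intToQ_coeffMap_intCast ℓ]; exact intToQ_mem_contentRing ℓ _

/-- The reduction of an integer-coefficient series is its coefficientwise reduction. -/
theorem red_coeffMap_intCast (x : LaurentSeries ℤ) :
    red ℓ ⟨coeffMap (Int.castRingHom ℚ) x, coeffMap_intCast_mem_contentRing ℓ x⟩ =
      coeffMap (Int.castRingHom (ZMod ℓ)) x := by
  have h := red_intToQ ℓ (coeffMap (Int.castRingHom _) x)
  rw [intRed_coeffMap_intCast] at h
  rw [← h]
  exact congrArg (red ℓ) (Subtype.ext (intToQ_coeffMap_intCast ℓ x).symm)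

/-! ### The content ring is integrally closed in `fracInt ℓ` -/

/-- A root in `fracInt ℓ` of a monic polynomial over the content ring lies in the content
ring. -/
theorem mem_contentRing_of_monic_root {f : LaurentSeries ℚ} (hf : f ∈ fracInt ℓ)
    (P : (contentRing ℓ)[X]) (hP : P.Monic) (h : P.eval₂ (contentRing ℓ).subtype f = 0) :
    f ∈ contentRing ℓ := by
  by_contra hnot
  obtain ⟨hg, hred⟩ := inv_mem_contentRing_of_not_mem ℓ hf hnot
  have hf0 : f ≠ 0 := fun h0 => hnot (by rw [h0]; exact zero_mem _)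
  let _ : Invertible f := invertibleOfNonzero hf0
  have h1 := Polynomial.eval₂_reverse_mul_pow (contentRing ℓ).subtype f P
  rw [h, invOf_eq_inv] at h1
  have h2 : P.reverse.eval₂ (contentRing ℓ).subtype f⁻¹ = 0 := by
    rcases mul_eq_zero.mp h1 with h3 | h3
    · exact h3
    · exact absurd (pow_eq_zero_iff (n := P.natDegree) (M₀ := LaurentSeries ℚ)
        (by intro hn; exact absurd h3 (by rw [hn, pow_zero]; exact one_ne_zero)) |>.mp h3) hf0
  have h4 : P.reverse.eval (⟨f⁻¹, hg⟩ : contentRing ℓ) = 0 := by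
    apply Subtype.ext
    have := Polynomial.hom_eval₂ P.reverse (RingHom.id _) (contentRing ℓ).subtype
      (⟨f⁻¹, hg⟩ : contentRing ℓ)
    rw [Polynomial.eval₂_id, RingHom.comp_id] at this
    exact this.trans h2
  have h5 := congrArg (red ℓ) h4
  rw [map_zero, ← Polynomial.eval₂_id, Polynomial.hom_eval₂, RingHom.comp_id, hred,
    Polynomial.eval₂_at_zero, Polynomial.coeff_zero_reverse, hP.leadingCoeff, map_one] at h5
  exact one_ne_zero h5

end Fermat.Agent.S28
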