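import Mathlib
import Fermat.Prelude.Def_ModularCurve_IgusaScheme
import Fermat.Agent.S24.BaseChange
import Fermat.Agent.S24.CoeffBC
import Fermat.Agent.S24.DescentLD
import Fermat.Agent.S24.QIsoFinal
import Fermat.Agent.S24.Counts
import Fermat.Agent.S24.Bridge
import Fermat.Agent.S24.Transport
import Fermat.Agent.S20.Comb

/-!
# S28 Block 4 (D0): `[ℚ(j(q^d) : d ∣ N) : ℚ(j)] ≤ ψ(N)`

The characteristic-zero degree bound over `ℚ` for the prelude field
`modularFunctionFieldFull N ⊆ ℚ((q))`, deduced from the complex degree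
(`S24.finrank_FF_eq`, `S24.exists_algEquiv_FF'`, `S20.card_quot`) and the descent of polynomial
dependence relations along `ℚ((q)) → ℂ((q))` (`S24.exists_polys_of_coeffMap_dep`).
-/

set_option autoImplicit false

open ModularCurve IntermediateField Polynomial
open scoped MatrixGroups

namespace Fermat.Agent.S28

namespace DegZero

variable (N : ℕ) [NeZero N]

/-- the complex degree: `j` is transcendental in `FF ℂ N` and `[FF ℂ N : ℂ(j)] = ψ(N)`. -/
theorem complex_degree :
    Transcendental ℂ (S24.jBC ℂ N) ∧ FiniteDimensional ℂ⟮S24.jBC ℂ N⟯ (S24.FF ℂ N) ∧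
      Module.finrank ℂ⟮S24.jBC ℂ N⟯ (S24.FF ℂ N) = dedekindPsi N := by
  obtain ⟨e, he, -⟩ := S24.exists_algEquiv_FF' N
  obtain ⟨htr, -, hrank⟩ := S24.bridge_finrank ℂ (S20.FF N)
  have htr' : Transcendental ℂ (S24.jBC ℂ N) := by
    rw [← he]
    intro halg
    exact htr ((isAlgebraic_algHom_iff (e : S20.FF N →ₐ[ℂ] S24.FF ℂ N) e.injective).mp halg)
  have hfr : Module.finrank ℂ⟮S24.jBC ℂ N⟯ (S24.FF ℂ N) = dedekindPsi N := by
    rw [← he, S24.finrank_adjoin_congr e, hrank, S24.finrank_FF_eq, S20.card_quot]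
  refine ⟨htr', ?_, hfr⟩
  have hpos : 0 < dedekindPsi N := by
    rw [← S20.card_quot N]
    exact Nat.card_pos
  haveI : Module.Free ℂ⟮S24.jBC ℂ N⟯ (S24.FF ℂ N) := Module.Free.of_divisionRing _ _
  exact Module.finite_of_finrank_pos (hfr ▸ hpos)

/-- `HahnSeries.C` is the algebra map (rational coefficients). -/
theorem C_eq_algebraMap_rat :
    (HahnSeries.C : ℚ →+* LaurentSeries ℚ) = algebraMap ℚ (LaurentSeries ℚ) :=
  RingHom.ext fun c => by rw [algebraMap_apply_eq_single]; rfl

/-- `HahnSeries.C` is the algebra map (complex coefficients). -/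
theorem C_eq_algebraMap_complex :
    (HahnSeries.C : ℂ →+* LaurentSeries ℂ) = algebraMap ℂ (LaurentSeries ℂ) :=
  RingHom.ext fun c => by rw [algebraMap_laurentSeries_eq_single]; rfl

/-- Core form: a family in `F_N` without nontrivial polynomial relation over `ℚ[j]` has at most
`ψ(N)` members. -/
theorem card_le_of_poly_indep (m : ℕ) (v : Fin m → LaurentSeries ℚ)
    (hv : ∀ i, v i ∈ modularFunctionFieldFull N)
    (hpoly : ∀ P : Fin m → ℚ[X], ∑ i, Polynomial.aeval jq (P i) * v i = 0 → P = 0) :
    m ≤ dedekindPsi N := by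
  obtain ⟨htr, hfin, hfr⟩ := complex_degree N
  -- no polynomial relation over `ℂ`
  have hpolyC : ∀ g : Fin m → ℂ[X],
      ∑ i, Polynomial.eval₂ HahnSeries.C (coeffMap (algebraMap ℚ ℂ) jq) (g i) *
        coeffMap (algebraMap ℚ ℂ) (v i) = 0 → g = 0 := by
    intro g hg
    by_contra hg0
    obtain ⟨c', hc'0, hc'⟩ := S24.exists_polys_of_coeffMap_dep (algebraMap ℚ ℂ) jq v g hg0 hg
    apply hc'0
    apply hpoly c'
    rw [← hc']
    refine Finset.sum_congr rfl fun i _ => ?_
    rw [Polynomial.aeval_def, C_eq_algebraMap_rat]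
  -- the family in `FF ℂ N`
  let w : Fin m → S24.FF ℂ N := fun i =>
    ⟨coeffEmb ℂ (v i), coeffEmb_mem_laurentBaseChange ℂ (hv i)⟩
  obtain ⟨i1, i2, h1, h2, h3, h4, h5, h6⟩ := S24.exists_ffInst (S24.jBC ℂ N) htr
  have hmap : ∀ g : ℂ[X], algebraMap ℂ[X] (S24.FF ℂ N) g = Polynomial.aeval (S24.jBC ℂ N) g := by
    intro g
    have h := Polynomial.aeval_algebraMap_apply (S24.FF ℂ N) (Polynomial.X : ℂ[X]) g
    rw [h1, Polynomial.aeval_X_left_apply] at h
    exact h.symm
  have hli : LinearIndependent ℂ[X] w := by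
    rw [Fintype.linearIndependent_iff]
    intro g hg i
    have h0 : g = 0 := by
      apply hpolyC g
      have h7 := congrArg (fun x : S24.FF ℂ N => (x : LaurentSeries ℂ)) hg
      simp only [ZeroMemClass.coe_zero] at h7
      rw [← h7, IntermediateField.coe_sum]
      refine Finset.sum_congr rfl fun i _ => ?_
      rw [Algebra.smul_def, hmap, MulMemClass.coe_mul]
      congr 1
      rw [← IntermediateField.algebraMap_apply, ← Polynomial.aeval_algebraMap_apply,
        Polynomial.aeval_def, C_eq_algebraMap_complex]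
      rfl
    rw [h0]
    rfl
  have hli' : LinearIndependent (RatFunc ℂ) w :=
    (LinearIndependent.iff_fractionRing ℂ[X] (RatFunc ℂ)).mp hli
  haveI : FiniteDimensional (RatFunc ℂ) (S24.FF ℂ N) := by
    have hpos : 0 < Module.finrank (RatFunc ℂ) (S24.FF ℂ N) := by
      rw [h6, hfr, ← S20.card_quot N]
      exact Nat.card_pos
    exact Module.finite_of_finrank_pos hpos
  have h8 := hli'.fintype_card_le_finrank
  rw [h6, hfr] at h8
  simpa using h8

/-- `j` is transcendental over `ℚ` (as a Laurent series). -/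
theorem transcendental_jq : Transcendental ℚ jq := by
  rw [transcendental_iff]
  intro P hP
  by_contra hP0
  have h := congrArg (fun f : LaurentSeries ℚ => f.coeff (-(P.natDegree : ℤ))) hP
  simp only [HahnSeries.coeff_zero] at h
  rw [Polynomial.aeval_eq_sum_range, HahnSeries.coeff_sum,
    Finset.sum_eq_single P.natDegree] at h
  · rw [Algebra.smul_def, algebraMap_apply_eq_single, HahnSeries.coeff_single_zero_mul,
      coeff_jq_pow_self, mul_one] at h
    exact hP0 (Polynomial.leadingCoeff_eq_zero.mp h)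
  · intro i hi hne
    have hlt : i < P.natDegree := lt_of_le_of_ne (Finset.mem_range_succ_iff.mp hi) hne
    rw [Algebra.smul_def, algebraMap_apply_eq_single, HahnSeries.coeff_single_zero_mul,
      coeff_jq_pow_of_lt (by exact_mod_cast neg_lt_neg (Nat.cast_lt.mpr hlt)), mul_zero]
  · intro h'
    exact absurd (Finset.self_mem_range_succ _) h'

end DegZero

/-- **Block 4 (D0)**, architect's form: a `ℚ(j)`-linearly independent family inside
`ℚ(j(q^d) : d ∣ N) ⊆ ℚ((q))` has at most `ψ(N)` members. -/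
theorem finrank_full_le (N : ℕ) [NeZero N] (m : ℕ) (v : Fin m → LaurentSeries ℚ)
    (hv : ∀ i, v i ∈ modularFunctionFieldFull N)
    (hli : LinearIndependent ↥(IntermediateField.adjoin ℚ {jq}) v) :
    m ≤ dedekindPsi N := by
  refine DegZero.card_le_of_poly_indep N m v hv fun P hP => ?_
  have hmem : ∀ Q : ℚ[X], Polynomial.aeval jq Q ∈ ℚ⟮jq⟯ := fun Q =>
    IntermediateField.algebra_adjoin_le_adjoin ℚ _ (Polynomial.aeval_mem_adjoin_singleton ℚ jq)
  have hli' := hli
  rw [Fintype.linearIndependent_iff] at hli'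
  have h0 := hli' (fun i => ⟨Polynomial.aeval jq (P i), hmem (P i)⟩) (by
    rw [← hP]
    refine Finset.sum_congr rfl fun i _ => ?_
    rw [IntermediateField.smul_def, smul_eq_mul])
  funext i
  have h7 : Polynomial.aeval jq (P i) = 0 := congrArg Subtype.val (h0 i)
  exact (transcendental_iff.mp DegZero.transcendental_jq) (P i) h7

open ModularCurve.IgusaScheme in
/-- evaluation of rational polynomials at `j` commutes with the inclusion `F_N ⊆ ℚ((q))`. -/
theorem DegZero.coe_aeval_jFull (N : ℕ) [NeZero N] (Q : ℚ[X]) :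
    ((Polynomial.aeval (jFull N) Q : ↥(modularFunctionFieldFull N)) : LaurentSeries ℚ) =
      Polynomial.aeval jq Q := by
  rw [Polynomial.aeval_def, Polynomial.aeval_def]
  have h := Polynomial.hom_eval₂ Q (algebraMap ℚ ↥(modularFunctionFieldFull N))
    (algebraMap ↥(modularFunctionFieldFull N) (LaurentSeries ℚ)) (jFull N)
  rw [Subsingleton.elim ((algebraMap ↥(modularFunctionFieldFull N) (LaurentSeries ℚ)).comp
    (algebraMap ℚ ↥(modularFunctionFieldFull N))) (algebraMap ℚ (LaurentSeries ℚ))] at h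
  exact h

open ModularCurve.IgusaScheme in
/-- `j` is transcendental over `ℚ` in the prelude field `F_N`. -/
theorem transcendental_jFull (N : ℕ) [NeZero N] : Transcendental ℚ (jFull N) := by
  rw [transcendental_iff]
  intro P hP
  apply (transcendental_iff.mp DegZero.transcendental_jq) P
  rw [← DegZero.coe_aeval_jFull N P, hP]
  rfl

open ModularCurve.IgusaScheme in
/-- family form over the prelude field: a `ℚ(j)`-linearly independent family in `F_N` has at most
`ψ(N)` members. -/
theorem card_le_of_linearIndependent_jFull (N : ℕ) [NeZero N] {n : ℕ}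
    (b : Fin n → ↥(modularFunctionFieldFull N))
    (hb : LinearIndependent ℚ⟮jFull N⟯ b) : n ≤ dedekindPsi N := by
  refine DegZero.card_le_of_poly_indep N n (fun i => (b i : LaurentSeries ℚ)) (fun i => (b i).2)
    fun P hP => ?_
  have hP' : ∑ i, Polynomial.aeval (jFull N) (P i) * b i = 0 := by
    apply Subtype.ext
    rw [IntermediateField.coe_sum, ZeroMemClass.coe_zero, ← hP]
    refine Finset.sum_congr rfl fun i _ => ?_
    rw [MulMemClass.coe_mul, DegZero.coe_aeval_jFull]
  have hmem : ∀ Q : ℚ[X], Polynomial.aeval (jFull N) Q ∈ ℚ⟮jFull N⟯ := fun Q =>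
    IntermediateField.algebra_adjoin_le_adjoin ℚ _
      (Polynomial.aeval_mem_adjoin_singleton ℚ (jFull N))
  have hli' := hb
  rw [Fintype.linearIndependent_iff] at hli'
  have h0 := hli' (fun i => ⟨Polynomial.aeval (jFull N) (P i), hmem (P i)⟩) (by
    rw [← hP']
    refine Finset.sum_congr rfl fun i _ => ?_
    rw [IntermediateField.smul_def, smul_eq_mul])
  funext i
  have h7 : Polynomial.aeval (jFull N) (P i) = 0 := congrArg Subtype.val (h0 i)
  exact (transcendental_iff.mp (transcendental_jFull N)) (P i) h7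

open ModularCurve.IgusaScheme in
/-- `F_N` is finite-dimensional over `ℚ(j)`, of degree at most `ψ(N)`. -/
theorem finiteDimensional_full_and_finrank_le (N : ℕ) [NeZero N] :
    FiniteDimensional ℚ⟮jFull N⟯ ↥(modularFunctionFieldFull N) ∧
      Module.finrank ℚ⟮jFull N⟯ ↥(modularFunctionFieldFull N) ≤ dedekindPsi N := by
  have hrank : Module.rank ℚ⟮jFull N⟯ ↥(modularFunctionFieldFull N) ≤ (dedekindPsi N : ℕ) := by
    apply rank_le
    intro s hs
    have hli : LinearIndependent ℚ⟮jFull N⟯
        (fun i : Fin s.card => ((s.equivFin.symm i : s) : ↥(modularFunctionFieldFull N))) :=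
      hs.comp _ s.equivFin.symm.injective
    exact card_le_of_linearIndependent_jFull N _ hli
  have hfin : FiniteDimensional ℚ⟮jFull N⟯ ↥(modularFunctionFieldFull N) :=
    Module.rank_lt_aleph0_iff.mp (lt_of_le_of_lt hrank (Cardinal.natCast_lt_aleph0))
  refine ⟨hfin, ?_⟩
  rw [← Module.finrank_eq_rank] at hrank
  exact_mod_cast hrank

open ModularCurve.IgusaScheme in
/-- `F_N` is finite-dimensional over `ℚ(j)`. -/
theorem finiteDimensional_full (N : ℕ) [NeZero N] :
    FiniteDimensional ℚ⟮jFull N⟯ ↥(modularFunctionFieldFull N) :=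
  (finiteDimensional_full_and_finrank_le N).1

open ModularCurve.IgusaScheme in
/-- `[F_N : ℚ(j)] ≤ ψ(N)`. -/
theorem finrank_adjoin_jFull_le (N : ℕ) [NeZero N] :
    Module.finrank ℚ⟮jFull N⟯ ↥(modularFunctionFieldFull N) ≤ dedekindPsi N :=
  (finiteDimensional_full_and_finrank_le N).2

end Fermat.Agent.S28
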