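import Mathlib
import Fermat.Prelude.Def_ModularCurve_X0
import Fermat.Prelude.Def_ModularCurve_LaurentCoeff

set_option autoImplicit false

/-! # S28 (Igusa): shared definitions

Universal (integral) `q`-series, the twist `q ↦ u q`, and the interface structure
`ModPolyData` between the analytic block and the mod-`ℓ` tower block. -/

namespace Fermat.Agent.S28

open ModularCurve Polynomial

noncomputable section

/-- The integral `j`-series `q⁻¹ E₄³ / ∏ (1 - qⁿ)²⁴ ∈ ℤ((q))`. -/
def jInt : LaurentSeries ℤ :=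
  HahnSeries.single (-1 : ℤ) 1 * HahnSeries.ofPowerSeries ℤ ℤ jNum

/-- The `j`-series over an arbitrary commutative ring. -/
def jS (R : Type*) [CommRing R] : LaurentSeries R := coeffMap (Int.castRingHom R) jInt

/-- The integral `Δ`-series `q ∏ (1 - qⁿ)²⁴`. -/
def deltaInt : LaurentSeries ℤ :=
  HahnSeries.single (1 : ℤ) 1 * HahnSeries.ofPowerSeries ℤ ℤ dedekindEtaUnit

/-- The inverse of the integral `Δ`-series. -/
def deltaInvInt : LaurentSeries ℤ :=
  HahnSeries.single (-1 : ℤ) 1 * HahnSeries.ofPowerSeries ℤ ℤ dedekindEtaUnitInv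

/-- `W_r(q) = Δ(q^r) / Δ(q) = q^(r-1) (1 + ...)`. -/
def WInt (r : ℕ) [NeZero r] : LaurentSeries ℤ := qExpand ℤ r deltaInt * deltaInvInt

/-- `V_r(t) = Δ(t) / Δ(t^r) = t^(1-r) (1 + ...)`; note `V_r(t) * W_r(t) = 1`. -/
def VInt (r : ℕ) [NeZero r] : LaurentSeries ℤ := deltaInt * qExpand ℤ r deltaInvInt

/-- `W_r` over an arbitrary commutative ring. -/
def WS (R : Type*) [CommRing R] (r : ℕ) [NeZero r] : LaurentSeries R :=
  coeffMap (Int.castRingHom R) (WInt r)

/-- `V_r` over an arbitrary commutative ring. -/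
def VS (R : Type*) [CommRing R] (r : ℕ) [NeZero r] : LaurentSeries R :=
  coeffMap (Int.castRingHom R) (VInt r)

section Twist

variable {R : Type*} [CommRing R]

/-- The twist `f(q) ↦ f(u q)`, coefficientwise `aₙ ↦ uⁿ aₙ`. -/
def twFun (u : Rˣ) (f : LaurentSeries R) : LaurentSeries R where
  coeff n := ((u ^ n : Rˣ) : R) * f.coeff n
  isPWO_support' := f.isPWO_support.mono (by
    intro n hn
    simp only [Function.mem_support, ne_eq] at hn
    simp only [HahnSeries.mem_support, ne_eq]
    intro h
    exact hn (by rw [h, mul_zero]))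

@[simp]
theorem twFun_coeff (u : Rˣ) (f : LaurentSeries R) (n : ℤ) :
    (twFun u f).coeff n = ((u ^ n : Rˣ) : R) * f.coeff n := rfl

theorem twFun_support_subset (u : Rˣ) (f : LaurentSeries R) :
    (twFun u f).support ⊆ f.support := by
  intro n hn
  simp only [HahnSeries.mem_support, ne_eq, twFun_coeff] at hn ⊢
  intro h
  exact hn (by rw [h, mul_zero])

/-- The twist `f(q) ↦ f(u q)` as a ring homomorphism. -/
def tw (u : Rˣ) : LaurentSeries R →+* LaurentSeries R where
  toFun := twFun u
  map_one' := by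
    ext n
    by_cases hn : n = 0
    · subst hn; simp
    · simp [HahnSeries.coeff_one, hn]
  map_zero' := by
    ext n
    simp
  map_add' x y := by
    ext n
    simp [mul_add]
  map_mul' x y := by
    ext n
    have h1 : (twFun u x * twFun u y).coeff n =
        ∑ ij ∈ Finset.antidiagonal x.isPWO_support y.isPWO_support n,
          (twFun u x).coeff ij.1 * (twFun u y).coeff ij.2 := by
      rw [HahnSeries.coeff_mul_left' x.isPWO_support (twFun_support_subset u x)]
      refine Finset.sum_subset ?_ ?_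
      · intro ij hij
        rw [Finset.mem_antidiagonal] at hij ⊢
        exact ⟨hij.1, twFun_support_subset u y hij.2.1, hij.2.2⟩
      · intro ij hij hnot
        rw [Finset.mem_antidiagonal] at hij hnot
        have : (twFun u y).coeff ij.2 = 0 := by
          by_contra h
          exact hnot ⟨hij.1, h, hij.2.2⟩
        rw [this, mul_zero]
    rw [h1, twFun_coeff, HahnSeries.coeff_mul, Finset.mul_sum]
    refine Finset.sum_congr rfl fun ij hij => ?_
    have hsum : ij.1 + ij.2 = n := (Finset.mem_antidiagonal.mp hij).2.2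
    rw [twFun_coeff, twFun_coeff, ← hsum, zpow_add, Units.val_mul]
    ring

@[simp]
theorem tw_coeff (u : Rˣ) (f : LaurentSeries R) (n : ℤ) :
    (tw u f).coeff n = ((u ^ n : Rˣ) : R) * f.coeff n := rfl

end Twist

/-- Evaluation of a polynomial with constant coefficients at a Laurent series. -/
def evalAt {k : Type*} [CommRing k] (x : LaurentSeries k) : Polynomial k →+* LaurentSeries k :=
  Polynomial.eval₂RingHom HahnSeries.C x

/-- **Interface between the analytic block and the tower block.**
For a prime `r` and a primitive `r`-th root of unity `ζ ∈ k`: the modular polynomial `Φ_r`,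
the integrality polynomial `Ψ_r` of `r¹² Δ(rz)/Δ(z)` and the Lagrange interpolation polynomial
`Λ_r`, all in `k[Y][X]`, with their factorisations over `k((t))` after `Y ↦ j(t^r)`.
The `r + 1` "conjugates" are `j(t^(r²))`, `j(ζ^c t)` resp. `r¹² W_r(t^r)`, `V_r(ζ^c t)`. -/
structure ModPolyData (k : Type*) [Field k] (r : ℕ) [NeZero r] (ζ : kˣ) where
  Φ : Polynomial (Polynomial k)
  Ψ : Polynomial (Polynomial k)
  Λ : Polynomial (Polynomial k)
  hΦ : Φ.map (evalAt (qExpand k r (jS k))) =
    (X - C (qExpand k (r * r) (jS k))) * ∏ c ∈ Finset.range r, (X - C (tw (ζ ^ c) (jS k)))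
  hΨ : Ψ.map (evalAt (qExpand k r (jS k))) =
    (X - C ((r : LaurentSeries k) ^ 12 * qExpand k r (WS k r))) *
      ∏ c ∈ Finset.range r, (X - C (tw (ζ ^ c) (VS k r)))
  hΛ : Λ.map (evalAt (qExpand k r (jS k))) =
    C ((r : LaurentSeries k) ^ 12 * qExpand k r (WS k r)) *
        ∏ c ∈ Finset.range r, (X - C (tw (ζ ^ c) (jS k))) +
      (X - C (qExpand k (r * r) (jS k))) *
        ∑ c ∈ Finset.range r, C (tw (ζ ^ c) (VS k r)) *
          ∏ c' ∈ (Finset.range r).erase c, (X - C (tw (ζ ^ c') (jS k)))

end

end Fermat.Agent.S28
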