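import Mathlib
import Fermat.Agent.S28.Defs
import Fermat.Prelude.Def_ModularCurve_JqCoeff

set_option autoImplicit false

/-! # S28: basic lemmas on the universal series and on `tw`, `qExpand`, `coeffMap` -/

namespace Fermat.Agent.S28

open ModularCurve

noncomputable section

/-- `Δ` over an arbitrary commutative ring. -/
def deltaS (R : Type*) [CommRing R] : LaurentSeries R := coeffMap (Int.castRingHom R) deltaInt

/-- `Δ⁻¹` over an arbitrary commutative ring. -/
def deltaInvS (R : Type*) [CommRing R] : LaurentSeries R :=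
  coeffMap (Int.castRingHom R) deltaInvInt

section

variable {R S : Type*} [CommRing R] [CommRing S]

/-! ### `coeffMap` and the basic operations -/

theorem coeffMap_ofPowerSeries (f : R →+* S) (p : PowerSeries R) :
    coeffMap f (HahnSeries.ofPowerSeries ℤ R p) = HahnSeries.ofPowerSeries ℤ S (p.map f) := by
  ext k
  rw [coeffMap_coeff]
  rcases lt_or_ge k 0 with hk | hk
  · rw [ofPowerSeries_coeff_of_neg _ hk, ofPowerSeries_coeff_of_neg _ hk, map_zero]
  · obtain ⟨n, rfl⟩ := Int.eq_ofNat_of_zero_le hk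
    rw [HahnSeries.ofPowerSeries_apply_coeff, HahnSeries.ofPowerSeries_apply_coeff,
      PowerSeries.coeff_map]

theorem coeffMap_qExpand (f : R →+* S) (d : ℕ) [NeZero d] (x : LaurentSeries R) :
    coeffMap f (qExpand R d x) = qExpand S d (coeffMap f x) := by
  ext k
  rw [coeffMap_coeff]
  by_cases hk : (d : ℤ) ∣ k
  · obtain ⟨m, rfl⟩ := hk
    rw [qExpand_coeff_mul, qExpand_coeff_mul, coeffMap_coeff]
  · rw [qExpand_coeff_of_not_dvd d _ hk, qExpand_coeff_of_not_dvd d _ hk, map_zero]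

theorem coeffMap_tw (f : R →+* S) (u : Rˣ) (x : LaurentSeries R) :
    coeffMap f (tw u x) = tw (Units.map (f : R →* S) u) (coeffMap f x) := by
  ext k
  rw [coeffMap_coeff, tw_coeff, tw_coeff, coeffMap_coeff, map_mul, ← map_zpow]
  rfl

theorem coeffMap_intCast (f : R →+* S) (x : LaurentSeries ℤ) :
    coeffMap f (coeffMap (Int.castRingHom R) x) = coeffMap (Int.castRingHom S) x := by
  rw [coeffMap_coeffMap]
  exact coeffMap_congr (RingHom.ext_int _ _) x

theorem coeffMap_jS (f : R →+* S) : coeffMap f (jS R) = jS S := coeffMap_intCast f _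

theorem coeffMap_deltaS (f : R →+* S) : coeffMap f (deltaS R) = deltaS S := coeffMap_intCast f _

theorem coeffMap_deltaInvS (f : R →+* S) : coeffMap f (deltaInvS R) = deltaInvS S :=
  coeffMap_intCast f _

theorem coeffMap_WS (f : R →+* S) (r : ℕ) [NeZero r] : coeffMap f (WS R r) = WS S r :=
  coeffMap_intCast f _

theorem coeffMap_VS (f : R →+* S) (r : ℕ) [NeZero r] : coeffMap f (VS R r) = VS S r :=
  coeffMap_intCast f _

/-- Our `jS R` is the Prelude series `jqModC R`. -/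
theorem jS_eq_jqModC (R : Type*) [CommRing R] : jS R = jqModC R := by
  rw [jS, jInt, map_mul, coeffMap_single, coeffMap_ofPowerSeries, map_one, jqModC]

theorem jS_rat : jS ℚ = jq := by
  rw [jS, jInt, map_mul, coeffMap_single, coeffMap_ofPowerSeries, map_one, jq, jNumQ]

theorem deltaInt_mul_deltaInvInt : deltaInt * deltaInvInt = 1 := by
  have h1 : HahnSeries.single (1 : ℤ) (1 : ℤ) * HahnSeries.single (-1 : ℤ) (1 : ℤ) = 1 := by
    rw [HahnSeries.single_mul_single]
    simp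
  have h2 : HahnSeries.ofPowerSeries ℤ ℤ dedekindEtaUnit *
      HahnSeries.ofPowerSeries ℤ ℤ dedekindEtaUnitInv = 1 := by
    rw [← map_mul, dedekindEtaUnit_mul_inv, map_one]
  rw [deltaInt, deltaInvInt]
  calc HahnSeries.single (1 : ℤ) (1 : ℤ) * HahnSeries.ofPowerSeries ℤ ℤ dedekindEtaUnit *
        (HahnSeries.single (-1 : ℤ) 1 * HahnSeries.ofPowerSeries ℤ ℤ dedekindEtaUnitInv)
      = (HahnSeries.single (1 : ℤ) (1 : ℤ) * HahnSeries.single (-1 : ℤ) 1) *
          (HahnSeries.ofPowerSeries ℤ ℤ dedekindEtaUnit *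
            HahnSeries.ofPowerSeries ℤ ℤ dedekindEtaUnitInv) := by ring
    _ = 1 := by rw [h1, h2, one_mul]

theorem deltaS_mul_deltaInvS : deltaS R * deltaInvS R = 1 := by
  rw [deltaS, deltaInvS, ← map_mul, deltaInt_mul_deltaInvInt, map_one]

theorem WS_eq (r : ℕ) [NeZero r] : WS R r = qExpand R r (deltaS R) * deltaInvS R := by
  rw [WS, WInt, map_mul, coeffMap_qExpand]
  rfl

theorem VS_eq (r : ℕ) [NeZero r] : VS R r = deltaS R * qExpand R r (deltaInvS R) := by
  rw [VS, VInt, map_mul, coeffMap_qExpand]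
  rfl

/-! ### the twist -/

theorem tw_one (x : LaurentSeries R) : tw (1 : Rˣ) x = x := by
  ext k
  simp [tw_coeff]

theorem tw_mul (u v : Rˣ) (x : LaurentSeries R) : tw (u * v) x = tw u (tw v x) := by
  ext k
  rw [tw_coeff, tw_coeff, tw_coeff, mul_zpow, Units.val_mul, mul_assoc]

theorem tw_qExpand (u : Rˣ) (d : ℕ) [NeZero d] (x : LaurentSeries R) :
    tw u (qExpand R d x) = qExpand R d (tw (u ^ d) x) := by
  ext k
  rw [tw_coeff]
  by_cases hk : (d : ℤ) ∣ k
  · obtain ⟨m, rfl⟩ := hk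
    rw [qExpand_coeff_mul, qExpand_coeff_mul, tw_coeff, zpow_mul, zpow_natCast]
  · rw [qExpand_coeff_of_not_dvd d _ hk, qExpand_coeff_of_not_dvd d _ hk, mul_zero]

theorem tw_injective (u : Rˣ) : Function.Injective (tw u : LaurentSeries R → LaurentSeries R) := by
  intro x y h
  have h2 : tw u⁻¹ (tw u x) = tw u⁻¹ (tw u y) := by rw [h]
  rwa [← tw_mul, ← tw_mul, inv_mul_cancel, tw_one, tw_one] at h2

/-- a series in `q^d` is fixed by the twist by a `d`-th root of unity -/
theorem tw_qExpand_of_pow_eq_one (u : Rˣ) (d : ℕ) [NeZero d] (hu : u ^ d = 1)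
    (x : LaurentSeries R) : tw u (qExpand R d x) = qExpand R d x := by
  rw [tw_qExpand, hu, tw_one]

/-! ### leading terms -/

/-- `x = q^e (1 + ...)`: the coefficient at `e` is `1` and all lower coefficients vanish. -/
def IsMonicAt (x : LaurentSeries R) (e : ℤ) : Prop :=
  x.coeff e = 1 ∧ ∀ n < e, x.coeff n = 0

theorem IsMonicAt.mul {x y : LaurentSeries R} {e₁ e₂ : ℤ} (hx : IsMonicAt x e₁)
    (hy : IsMonicAt y e₂) : IsMonicAt (x * y) (e₁ + e₂) := by
  refine ⟨?_, fun n hn => ?_⟩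
  · rw [HahnSeries.coeff_mul, Finset.sum_eq_single (e₁, e₂)]
    · rw [hx.1, hy.1, one_mul]
    · intro ij hij hne
      have hsum : ij.1 + ij.2 = e₁ + e₂ := (Finset.mem_antidiagonal.mp hij).2.2
      rcases lt_trichotomy ij.1 e₁ with h | h | h
      · rw [hx.2 _ h, zero_mul]
      · have h2 : ij.2 = e₂ := by omega
        exact absurd (Prod.ext h h2) hne
      · rw [hy.2 _ (by omega), mul_zero]
    · intro hnot
      rw [Finset.mem_antidiagonal] at hnot
      by_cases h1 : x.coeff e₁ = 0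
      · rw [h1, zero_mul]
      · by_cases h2 : y.coeff e₂ = 0
        · rw [h2, mul_zero]
        · exact absurd ⟨h1, h2, rfl⟩ hnot
  · rw [HahnSeries.coeff_mul]
    refine Finset.sum_eq_zero fun ij hij => ?_
    have hsum : ij.1 + ij.2 = n := (Finset.mem_antidiagonal.mp hij).2.2
    by_cases h : ij.1 < e₁
    · rw [hx.2 _ h, zero_mul]
    · rw [hy.2 _ (by omega), mul_zero]

theorem IsMonicAt.qExpand {x : LaurentSeries R} {e : ℤ} (hx : IsMonicAt x e) (d : ℕ) [NeZero d] :
    IsMonicAt (qExpand R d x) ((d : ℤ) * e) := by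
  have hd : (0 : ℤ) < d := by exact_mod_cast NeZero.pos d
  refine ⟨by rw [qExpand_coeff_mul, hx.1], fun n hn => ?_⟩
  by_cases hk : (d : ℤ) ∣ n
  · obtain ⟨m, rfl⟩ := hk
    rw [qExpand_coeff_mul]
    exact hx.2 _ (lt_of_mul_lt_mul_left hn hd.le)
  · exact qExpand_coeff_of_not_dvd d _ hk

theorem IsMonicAt.coeffMap {x : LaurentSeries R} {e : ℤ} (hx : IsMonicAt x e) (f : R →+* S) :
    IsMonicAt (coeffMap f x) e :=
  ⟨by rw [coeffMap_coeff, hx.1, map_one], fun n hn => by rw [coeffMap_coeff, hx.2 n hn, map_zero]⟩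

theorem IsMonicAt.tw_coeff {x : LaurentSeries R} {e : ℤ} (hx : IsMonicAt x e) (u : Rˣ) :
    (tw u x).coeff e = ((u ^ e : Rˣ) : R) ∧ ∀ n < e, (tw u x).coeff n = 0 :=
  ⟨by rw [Fermat.Agent.S28.tw_coeff, hx.1, mul_one],
    fun n hn => by rw [Fermat.Agent.S28.tw_coeff, hx.2 n hn, mul_zero]⟩

theorem isMonicAt_single_mul_ofPowerSeries (p : PowerSeries R)
    (hp : PowerSeries.constantCoeff p = 1) (e : ℤ) :
    IsMonicAt (HahnSeries.single e (1 : R) * HahnSeries.ofPowerSeries ℤ R p) e := by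
  refine ⟨?_, fun n hn => ?_⟩
  · rw [HahnSeries.coeff_single_mul, one_mul, sub_self, show (0 : ℤ) = ((0 : ℕ) : ℤ) from rfl,
      HahnSeries.ofPowerSeries_apply_coeff, PowerSeries.coeff_zero_eq_constantCoeff, hp]
  · rw [HahnSeries.coeff_single_mul, one_mul]
    exact ofPowerSeries_coeff_of_neg _ (by omega)

theorem isMonicAt_jInt : IsMonicAt jInt (-1) :=
  isMonicAt_single_mul_ofPowerSeries _ constantCoeff_jNum _

theorem isMonicAt_deltaInt : IsMonicAt deltaInt 1 :=
  isMonicAt_single_mul_ofPowerSeries _ constantCoeff_dedekindEtaUnit _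

theorem isMonicAt_deltaInvInt : IsMonicAt deltaInvInt (-1) :=
  isMonicAt_single_mul_ofPowerSeries _ constantCoeff_dedekindEtaUnitInv _

theorem isMonicAt_jS : IsMonicAt (jS R) (-1) := isMonicAt_jInt.coeffMap _

theorem isMonicAt_deltaS : IsMonicAt (deltaS R) 1 := isMonicAt_deltaInt.coeffMap _

theorem isMonicAt_deltaInvS : IsMonicAt (deltaInvS R) (-1) := isMonicAt_deltaInvInt.coeffMap _

theorem isMonicAt_WS (r : ℕ) [NeZero r] : IsMonicAt (WS R r) ((r : ℤ) - 1) := by
  have h := ((isMonicAt_deltaInt.qExpand r).mul isMonicAt_deltaInvInt).coeffMap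
    (Int.castRingHom R)
  have e : (r : ℤ) * 1 + -1 = (r : ℤ) - 1 := by ring
  rw [e] at h
  exact h

theorem isMonicAt_VS (r : ℕ) [NeZero r] : IsMonicAt (VS R r) (1 - (r : ℤ)) := by
  have h := (isMonicAt_deltaInt.mul (isMonicAt_deltaInvInt.qExpand r)).coeffMap
    (Int.castRingHom R)
  have e : (1 : ℤ) + (r : ℤ) * -1 = 1 - (r : ℤ) := by ring
  rw [e] at h
  exact h

theorem jS_coeff_neg_one : (jS R).coeff (-1) = 1 := isMonicAt_jS.1

theorem jS_coeff_of_lt {n : ℤ} (hn : n < -1) : (jS R).coeff n = 0 := isMonicAt_jS.2 n hn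

theorem deltaS_coeff_one : (deltaS R).coeff 1 = 1 := isMonicAt_deltaS.1

theorem deltaS_coeff_of_lt {n : ℤ} (hn : n < 1) : (deltaS R).coeff n = 0 :=
  isMonicAt_deltaS.2 n hn

theorem WS_coeff (r : ℕ) [NeZero r] : (WS R r).coeff ((r : ℤ) - 1) = 1 := (isMonicAt_WS r).1

theorem WS_coeff_of_lt (r : ℕ) [NeZero r] {n : ℤ} (hn : n < (r : ℤ) - 1) :
    (WS R r).coeff n = 0 := (isMonicAt_WS r).2 n hn

theorem VS_coeff (r : ℕ) [NeZero r] : (VS R r).coeff (1 - (r : ℤ)) = 1 := (isMonicAt_VS r).1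

theorem VS_coeff_of_lt (r : ℕ) [NeZero r] {n : ℤ} (hn : n < 1 - (r : ℤ)) :
    (VS R r).coeff n = 0 := (isMonicAt_VS r).2 n hn

end

end

end Fermat.Agent.S28
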