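import Mathlib
import Fermat.Agent.S28.SeriesBasic

set_option autoImplicit false

/-! # S28 Block 6, package H3: descent of the modular polynomial data from `ℂ` to any field -/

namespace Fermat.Agent.S28

open ModularCurve Polynomial

noncomputable section

namespace Descent

section Generic

variable {R S : Type*} [CommRing R] [CommRing S]

theorem coeffMap_C (f : R →+* S) (a : R) :
    coeffMap f (HahnSeries.C a : LaurentSeries R) = HahnSeries.C (f a) := by
  rw [HahnSeries.C_apply, HahnSeries.C_apply, coeffMap_single]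

theorem coeffMap_injective (f : R →+* S) (hf : Function.Injective f) :
    Function.Injective (coeffMap f) := by
  intro x y h
  ext n
  have := congrArg (fun z => z.coeff n) h
  simp only [coeffMap_coeff] at this
  exact hf this

/-- naturality of `evalAt` -/
theorem coeffMap_comp_evalAt (f : R →+* S) (x : LaurentSeries R) :
    (coeffMap f).comp (evalAt x) = (evalAt (coeffMap f x)).comp (mapRingHom f) := by
  apply Polynomial.ringHom_ext
  · intro a
    simp only [evalAt, RingHom.comp_apply, coe_eval₂RingHom, eval₂_C, coe_mapRingHom, map_C,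
      coeffMap_C]
  · simp only [evalAt, RingHom.comp_apply, coe_eval₂RingHom, eval₂_X, coe_mapRingHom, map_X]

theorem map_map_evalAt (f : R →+* S) (x : LaurentSeries R) (P : Polynomial (Polynomial R)) :
    (P.map (mapRingHom f)).map (evalAt (coeffMap f x)) = (P.map (evalAt x)).map (coeffMap f) := by
  rw [Polynomial.map_map, Polynomial.map_map, coeffMap_comp_evalAt]

/-- the right-hand side of `ModPolyData.hΦ` -/
def rhsΦ (R : Type*) [CommRing R] (r : ℕ) [NeZero r] (ζ : Rˣ) : Polynomial (LaurentSeries R) :=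
  (X - C (qExpand R (r * r) (jS R))) * ∏ c ∈ Finset.range r, (X - C (tw (ζ ^ c) (jS R)))

/-- the right-hand side of `ModPolyData.hΨ` -/
def rhsΨ (R : Type*) [CommRing R] (r : ℕ) [NeZero r] (ζ : Rˣ) : Polynomial (LaurentSeries R) :=
  (X - C ((r : LaurentSeries R) ^ 12 * qExpand R r (WS R r))) *
    ∏ c ∈ Finset.range r, (X - C (tw (ζ ^ c) (VS R r)))

/-- the right-hand side of `ModPolyData.hΛ` -/
def rhsΛ (R : Type*) [CommRing R] (r : ℕ) [NeZero r] (ζ : Rˣ) : Polynomial (LaurentSeries R) :=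
  C ((r : LaurentSeries R) ^ 12 * qExpand R r (WS R r)) *
      ∏ c ∈ Finset.range r, (X - C (tw (ζ ^ c) (jS R))) +
    (X - C (qExpand R (r * r) (jS R))) *
      ∑ c ∈ Finset.range r, C (tw (ζ ^ c) (VS R r)) *
        ∏ c' ∈ (Finset.range r).erase c, (X - C (tw (ζ ^ c') (jS R)))

theorem map_rhsΦ (f : R →+* S) (r : ℕ) [NeZero r] (ζ : Rˣ) :
    (rhsΦ R r ζ).map (coeffMap f) = rhsΦ S r (Units.map (f : R →* S) ζ) := by
  simp only [rhsΦ, Polynomial.map_mul, Polynomial.map_sub, Polynomial.map_X, Polynomial.map_C,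
    Polynomial.map_prod, coeffMap_qExpand, coeffMap_jS, coeffMap_tw, map_pow]

theorem map_rhsΨ (f : R →+* S) (r : ℕ) [NeZero r] (ζ : Rˣ) :
    (rhsΨ R r ζ).map (coeffMap f) = rhsΨ S r (Units.map (f : R →* S) ζ) := by
  simp only [rhsΨ, Polynomial.map_mul, Polynomial.map_sub, Polynomial.map_X, Polynomial.map_C,
    Polynomial.map_prod, coeffMap_qExpand, coeffMap_WS, coeffMap_VS, coeffMap_tw, map_pow,
    map_mul, map_natCast, Polynomial.map_pow, Polynomial.map_natCast]

theorem map_rhsΛ (f : R →+* S) (r : ℕ) [NeZero r] (ζ : Rˣ) :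
    (rhsΛ R r ζ).map (coeffMap f) = rhsΛ S r (Units.map (f : R →* S) ζ) := by
  simp only [rhsΛ, Polynomial.map_mul, Polynomial.map_sub, Polynomial.map_add, Polynomial.map_X,
    Polynomial.map_C, Polynomial.map_prod, Polynomial.map_sum, coeffMap_qExpand, coeffMap_jS,
    coeffMap_WS, coeffMap_VS, coeffMap_tw, map_pow, map_mul, map_natCast, Polynomial.map_pow,
    Polynomial.map_natCast]

end Generic

section Lifts

variable {A K : Type*} [CommRing A] [Field K]

/-- powers of a Laurent series with leading term `t^(-e)` -/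
theorem coeff_pow_of_leading (x : LaurentSeries K) (e : ℕ)
    (h1 : x.coeff (-(e : ℤ)) = 1) (h0 : ∀ n : ℤ, n < -(e : ℤ) → x.coeff n = 0) (m : ℕ) :
    (x ^ m).coeff (-((e : ℤ) * m)) = 1 ∧ ∀ n : ℤ, n < -((e : ℤ) * m) → (x ^ m).coeff n = 0 := by
  have hx : x ≠ 0 := by
    rintro rfl
    simp at h1
  have hord : x.order = -(e : ℤ) := by
    apply le_antisymm
    · exact HahnSeries.order_le_of_coeff_ne_zero (by rw [h1]; exact one_ne_zero)
    · by_contra hlt
      exact (HahnSeries.coeff_order_eq_zero.not.mpr hx) (h0 _ (not_le.mp hlt))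
  have hlc : x.leadingCoeff = 1 := by rw [HahnSeries.leadingCoeff_eq, hord, h1]
  have hxm : x ^ m ≠ 0 := pow_ne_zero m hx
  have hordm : (x ^ m).order = -((e : ℤ) * m) := by
    rw [HahnSeries.order_pow, hord, nsmul_eq_mul]
    ring
  have hlcm : (x ^ m).leadingCoeff = 1 := by
    induction m with
    | zero => simp
    | succ m ih =>
      rw [pow_succ, HahnSeries.leadingCoeff_mul, ih (pow_ne_zero m hx), hlc, one_mul]
      · rw [HahnSeries.order_pow, hord, nsmul_eq_mul]; ring
  refine ⟨?_, fun n hn => ?_⟩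
  · rw [← hordm, ← HahnSeries.leadingCoeff_eq, hlcm]
  · exact HahnSeries.coeff_eq_zero_of_lt_order (hordm ▸ hn)

/-- the leading-term lemma: a polynomial whose value at `j(t^e)`-like series has coefficients in
the image of `A` has itself coefficients in the image of `A`. -/
theorem mem_lifts_of_evalAt (f : A →+* K) (xA : LaurentSeries A) (e : ℕ) (he : 0 < e)
    (h1 : (coeffMap f xA).coeff (-(e : ℤ)) = 1)
    (h0 : ∀ n : ℤ, n < -(e : ℤ) → (coeffMap f xA).coeff n = 0) :
    ∀ (d : ℕ) (p : K[X]), p.natDegree ≤ d → evalAt (coeffMap f xA) p ∈ (coeffMap f).range →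
      p ∈ Polynomial.lifts f := by
  intro d
  induction d with
  | zero =>
    intro p hd hp
    rw [eq_C_of_natDegree_le_zero hd] at hp ⊢
    obtain ⟨y, hy⟩ := hp
    have : f (y.coeff 0) = p.coeff 0 := by
      have := congrArg (fun z => z.coeff 0) hy
      simpa [evalAt, coeffMap_coeff] using this
    rw [← this]
    exact Polynomial.C_mem_lifts f (y.coeff 0)
  | succ d ih =>
    intro p hd hp
    by_cases hlt : p.natDegree ≤ d
    · exact ih p hlt hp
    have hdeg : p.natDegree = d + 1 := le_antisymm hd (not_le.mp hlt)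
    set x := coeffMap f xA with hx
    -- the leading coefficient lies in the image
    have hcoeff : (evalAt x p).coeff (-((e : ℤ) * (d + 1 : ℕ))) = p.coeff (d + 1) := by
      rw [evalAt, coe_eval₂RingHom, eval₂_eq_sum_range, hdeg, HahnSeries.coeff_sum]
      rw [Finset.sum_eq_single (d + 1)]
      · rw [HahnSeries.C_mul_eq_smul, HahnSeries.coeff_smul,
          (coeff_pow_of_leading x e h1 h0 (d + 1)).1, smul_eq_mul, mul_one]
      · intro m hm hne
        have hm' : m < d + 1 := lt_of_le_of_ne (Nat.lt_succ_iff.mp (Finset.mem_range.mp hm)) hne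
        rw [HahnSeries.C_mul_eq_smul, HahnSeries.coeff_smul,
          (coeff_pow_of_leading x e h1 h0 m).2 _ (by
            have : (m : ℤ) < ((d + 1 : ℕ) : ℤ) := by exact_mod_cast hm'
            have he' : (0 : ℤ) < e := by exact_mod_cast he
            nlinarith), smul_zero]
      · intro hnot
        exact absurd (Finset.mem_range.mpr (Nat.lt_succ_self _)) hnot
    obtain ⟨y, hy⟩ := hp
    obtain ⟨a, ha⟩ : ∃ a : A, f a = p.coeff (d + 1) := by
      refine ⟨y.coeff (-((e : ℤ) * (d + 1 : ℕ))), ?_⟩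
      rw [← hcoeff, ← hy, coeffMap_coeff]
    -- subtract the leading term
    set p' := p - monomial (d + 1) (p.coeff (d + 1)) with hp'
    have hp'deg : p'.natDegree ≤ d := by
      rw [natDegree_le_iff_coeff_eq_zero]
      intro n hn
      rw [hp', coeff_sub, coeff_monomial]
      split_ifs with hnd
      · rw [← hnd, sub_self]
      · rw [sub_zero]
        exact coeff_eq_zero_of_natDegree_lt (by omega)
    have hp'mem : evalAt x p' ∈ (coeffMap f).range := by
      refine ⟨y - HahnSeries.C a * xA ^ (d + 1), ?_⟩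
      rw [map_sub, map_mul, map_pow, hy, coeffMap_C, ha, hp', map_sub]
      congr 1
      rw [evalAt, coe_eval₂RingHom, eval₂_monomial]
    have h1' := ih p' hp'deg hp'mem
    have : p = p' + monomial (d + 1) (p.coeff (d + 1)) := by rw [hp']; ring
    rw [this]
    exact Subsemiring.add_mem _ h1' (Polynomial.monomial_mem_lifts _ ⟨a, ha⟩)

/-- A bivariate polynomial whose specialisation has coefficients in the image of `A((t))`
comes from `A[Y][X]`. -/
theorem exists_map_eq (f : A →+* K) (xA : LaurentSeries A) (e : ℕ) (he : 0 < e)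
    (h1 : (coeffMap f xA).coeff (-(e : ℤ)) = 1)
    (h0 : ∀ n : ℤ, n < -(e : ℤ) → (coeffMap f xA).coeff n = 0)
    (P : Polynomial (Polynomial K)) (Q : Polynomial (LaurentSeries A))
    (h : P.map (evalAt (coeffMap f xA)) = Q.map (coeffMap f)) :
    ∃ PA : Polynomial (Polynomial A), PA.map (mapRingHom f) = P := by
  have hmem : P ∈ Polynomial.lifts (mapRingHom f) := by
    rw [Polynomial.lifts_iff_coeff_lifts]
    intro n
    have hn : evalAt (coeffMap f xA) (P.coeff n) ∈ (coeffMap f).range := by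
      refine ⟨Q.coeff n, ?_⟩
      rw [← coeff_map, ← h, coeff_map]
    have := mem_lifts_of_evalAt f xA e he h1 h0 _ (P.coeff n) le_rfl hn
    rw [Polynomial.mem_lifts] at this
    obtain ⟨q, hq⟩ := this
    exact ⟨q, hq⟩
  rw [Polynomial.mem_lifts] at hmem
  exact hmem

end Lifts

/-- Generic descent of modular polynomial data along `K ← A → k`. -/
theorem descent_generic {A K k : Type*} [CommRing A] [Field K] [Field k] (ι : A →+* K)
    (hι : Function.Injective ι) (φ : A →+* k) (r : ℕ) [NeZero r] (u : Aˣ)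
    (D : ModPolyData K r (Units.map (ι : A →* K) u)) :
    Nonempty (ModPolyData k r (Units.map (φ : A →* k) u)) := by
  set xA : LaurentSeries A := qExpand A r (jS A) with hxA
  have hxK : coeffMap ι xA = qExpand K r (jS K) := by rw [hxA, coeffMap_qExpand, coeffMap_jS]
  have hxk : coeffMap φ xA = qExpand k r (jS k) := by rw [hxA, coeffMap_qExpand, coeffMap_jS]
  have hr : 0 < r := NeZero.pos r
  have h1 : (coeffMap ι xA).coeff (-(r : ℤ)) = 1 := by
    rw [hxK, show (-(r : ℤ)) = (r : ℤ) * (-1) by ring, qExpand_coeff_mul, jS_coeff_neg_one]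
  have h0 : ∀ n : ℤ, n < -(r : ℤ) → (coeffMap ι xA).coeff n = 0 := by
    intro n hn
    rw [hxK]
    by_cases hdvd : (r : ℤ) ∣ n
    · obtain ⟨m, rfl⟩ := hdvd
      rw [qExpand_coeff_mul]
      apply jS_coeff_of_lt
      have hr' : (0 : ℤ) < r := by exact_mod_cast hr
      nlinarith
    · exact qExpand_coeff_of_not_dvd r _ hdvd
  have hinj : Function.Injective (Polynomial.map (coeffMap ι)) :=
    Polynomial.map_injective _ (coeffMap_injective ι hι)
  -- the three polynomials over `A`
  have hΦ : D.Φ.map (evalAt (coeffMap ι xA)) = (rhsΦ A r u).map (coeffMap ι) := by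
    rw [map_rhsΦ, hxK]; exact D.hΦ
  have hΨ : D.Ψ.map (evalAt (coeffMap ι xA)) = (rhsΨ A r u).map (coeffMap ι) := by
    rw [map_rhsΨ, hxK]; exact D.hΨ
  have hΛ : D.Λ.map (evalAt (coeffMap ι xA)) = (rhsΛ A r u).map (coeffMap ι) := by
    rw [map_rhsΛ, hxK]; exact D.hΛ
  obtain ⟨ΦA, hΦA⟩ := exists_map_eq ι xA r hr h1 h0 D.Φ _ hΦ
  obtain ⟨ΨA, hΨA⟩ := exists_map_eq ι xA r hr h1 h0 D.Ψ _ hΨ
  obtain ⟨ΛA, hΛA⟩ := exists_map_eq ι xA r hr h1 h0 D.Λ _ hΛ
  have eΦ : ΦA.map (evalAt xA) = rhsΦ A r u := by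
    apply hinj
    rw [← map_map_evalAt, hΦA, hΦ]
  have eΨ : ΨA.map (evalAt xA) = rhsΨ A r u := by
    apply hinj
    rw [← map_map_evalAt, hΨA, hΨ]
  have eΛ : ΛA.map (evalAt xA) = rhsΛ A r u := by
    apply hinj
    rw [← map_map_evalAt, hΛA, hΛ]
  refine ⟨{ Φ := ΦA.map (mapRingHom φ), Ψ := ΨA.map (mapRingHom φ), Λ := ΛA.map (mapRingHom φ),
            hΦ := ?_, hΨ := ?_, hΛ := ?_ }⟩
  · have := map_map_evalAt φ xA ΦA
    rw [hxk, eΦ, map_rhsΦ] at this
    exact this
  · have := map_map_evalAt φ xA ΨA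
    rw [hxk, eΨ, map_rhsΨ] at this
    exact this
  · have := map_map_evalAt φ xA ΛA
    rw [hxk, eΛ, map_rhsΛ] at this
    exact this

end Descent

end

end Fermat.Agent.S28

namespace Fermat.Agent.S28

open ModularCurve Polynomial

noncomputable section

namespace Descent

/-- the root of `AdjoinRoot (cyclotomic r ℤ)` as a unit -/
def cycUnit (r : ℕ) [NeZero r] : (AdjoinRoot (cyclotomic r ℤ))ˣ where
  val := AdjoinRoot.root (cyclotomic r ℤ)
  inv := AdjoinRoot.root (cyclotomic r ℤ) ^ (r - 1)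
  val_inv := by
    have hr : 0 < r := NeZero.pos r
    have h1 : AdjoinRoot.root (cyclotomic r ℤ) ^ r = 1 := by
      have hdvd : cyclotomic r ℤ ∣ X ^ r - 1 := cyclotomic.dvd_X_pow_sub_one r ℤ
      have := AdjoinRoot.mk_eq_zero.mpr hdvd
      rw [map_sub, map_pow, AdjoinRoot.mk_X, map_one, sub_eq_zero] at this
      exact this
    rw [← pow_succ', Nat.sub_add_cancel hr, h1]
  inv_val := by
    have hr : 0 < r := NeZero.pos r
    have h1 : AdjoinRoot.root (cyclotomic r ℤ) ^ r = 1 := by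
      have hdvd : cyclotomic r ℤ ∣ X ^ r - 1 := cyclotomic.dvd_X_pow_sub_one r ℤ
      have := AdjoinRoot.mk_eq_zero.mpr hdvd
      rw [map_sub, map_pow, AdjoinRoot.mk_X, map_one, sub_eq_zero] at this
      exact this
    rw [← pow_succ, Nat.sub_add_cancel hr, h1]

theorem eval₂_cyclotomic_eq_zero {F : Type*} [Field F] (r : ℕ) [NeZero r] (μ : F)
    (hμ : IsPrimitiveRoot μ r) : eval₂ (Int.castRingHom F) μ (cyclotomic r ℤ) = 0 := by
  rw [← eval_map, map_cyclotomic_int]
  exact hμ.isRoot_cyclotomic (NeZero.pos r)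

/-- the ring homomorphism `ℤ[X]/(Φ_r) → F`, `X ↦ μ` -/
def cycHom {F : Type*} [Field F] (r : ℕ) [NeZero r] (μ : F) (hμ : IsPrimitiveRoot μ r) :
    AdjoinRoot (cyclotomic r ℤ) →+* F :=
  AdjoinRoot.lift (Int.castRingHom F) μ (eval₂_cyclotomic_eq_zero r μ hμ)

theorem cycHom_root {F : Type*} [Field F] (r : ℕ) [NeZero r] (μ : F) (hμ : IsPrimitiveRoot μ r) :
    cycHom r μ hμ (AdjoinRoot.root (cyclotomic r ℤ)) = μ :=
  AdjoinRoot.lift_root _

theorem cycHom_injective {F : Type*} [Field F] [CharZero F] (r : ℕ) [NeZero r] (μ : F)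
    (hμ : IsPrimitiveRoot μ r) : Function.Injective (cycHom r μ hμ) := by
  rw [injective_iff_map_eq_zero]
  intro x hx
  obtain ⟨p, rfl⟩ := AdjoinRoot.mk_surjective x
  rw [cycHom, AdjoinRoot.lift_mk] at hx
  rw [AdjoinRoot.mk_eq_zero, cyclotomic_eq_minpoly hμ (NeZero.pos r)]
  refine minpoly.isIntegrallyClosed_dvd (hμ.isIntegral (NeZero.pos r)) ?_
  rw [aeval_def]
  convert hx using 2
  exact (algebraMap_int_eq F)

theorem units_map_cycHom {F : Type*} [Field F] (r : ℕ) [NeZero r] (μ : Fˣ)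
    (hμ : IsPrimitiveRoot (μ : F) r) :
    Units.map (cycHom r (μ : F) hμ : AdjoinRoot (cyclotomic r ℤ) →* F) (cycUnit r) = μ := by
  apply Units.ext
  exact cycHom_root r (μ : F) hμ

end Descent

open Descent in
/-- H3: the coefficients of `Φ, Ψ, Λ` lie in `ℤ[ζ₀]` (leading-term induction: the right-hand
sides have coefficients in `ℤ[ζ₀]((t))`, and `j(t^r) = t^(-r) + ...` is monic), and
`ℤ[ζ₀] → k`, `ζ₀ ↦ ζ` transports the three identities. -/
theorem modPolyData_descent (r : ℕ) [NeZero r] (hr : r.Prime) (ζ₀ : ℂˣ)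
    (hζ₀ : IsPrimitiveRoot ζ₀ r) (D : ModPolyData ℂ r ζ₀)
    (k : Type*) [Field k] (ζ : kˣ) (hζ : IsPrimitiveRoot ζ r) :
    Nonempty (ModPolyData k r ζ) := by
  have h₀ : IsPrimitiveRoot (ζ₀ : ℂ) r := IsPrimitiveRoot.coe_units_iff.mpr hζ₀
  have h₁ : IsPrimitiveRoot (ζ : k) r := IsPrimitiveRoot.coe_units_iff.mpr hζ
  have e₀ := units_map_cycHom r ζ₀ h₀
  have e₁ := units_map_cycHom r ζ h₁
  have D' : ModPolyData ℂ r (Units.map (cycHom r (ζ₀ : ℂ) h₀ : _ →* ℂ) (cycUnit r)) := by
    rw [e₀]; exact D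
  have := descent_generic (cycHom r (ζ₀ : ℂ) h₀) (cycHom_injective r _ h₀) (cycHom r (ζ : k) h₁)
    r (cycUnit r) D'
  rw [e₁] at this
  exact this

end

end Fermat.Agent.S28
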