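import Mathlib
import Fermat.Agent.S28.Defs
import Fermat.Agent.S20.Defs

set_option autoImplicit false

/-! # S28 Block 6 (analytic): shared definitions -/

open UpperHalfPlane
open scoped Real

namespace Fermat.Agent.S28

noncomputable section

/-- The point `r z` of the upper half plane. -/
def dilPt (r : ℕ) [NeZero r] (z : ℍ) : ℍ :=
  ⟨(r : ℂ) * z, by
    have hr : (0 : ℝ) < r := by exact_mod_cast NeZero.pos r
    have hz : 0 < (z : ℂ).im := z.im_pos
    simpa using mul_pos hr hz⟩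

@[simp] theorem coe_dilPt (r : ℕ) [NeZero r] (z : ℍ) : ((dilPt r z : ℍ) : ℂ) = (r : ℂ) * z := rfl

/-- The point `(z + c) / r` of the upper half plane. -/
def rootPt (r : ℕ) [NeZero r] (c : ℕ) (z : ℍ) : ℍ :=
  ⟨((z : ℂ) + c) / r, by
    have hr : (0 : ℝ) < r := by exact_mod_cast NeZero.pos r
    have hz : 0 < (z : ℂ).im := z.im_pos
    have h : (((z : ℂ) + c) / r).im = (z : ℂ).im / r := by
      rw [show ((z : ℂ) + c) / r = ((z : ℂ) + ((c : ℝ) : ℂ)) / ((r : ℝ) : ℂ) by push_cast; rfl,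
        Complex.div_ofReal_im]
      simp
    rw [h]
    exact div_pos hz hr⟩

@[simp] theorem coe_rootPt (r : ℕ) [NeZero r] (c : ℕ) (z : ℍ) :
    ((rootPt r c z : ℍ) : ℂ) = ((z : ℂ) + c) / r := rfl

/-- The point `z + c / r` of the upper half plane. -/
def shiftPt (r : ℕ) [NeZero r] (c : ℕ) (z : ℍ) : ℍ :=
  ⟨(z : ℂ) + (c : ℂ) / r, by
    have hz : 0 < (z : ℂ).im := z.im_pos
    have h : ((z : ℂ) + (c : ℂ) / r).im = (z : ℂ).im := by
      rw [show (z : ℂ) + (c : ℂ) / r = (z : ℂ) + (((c : ℝ) / (r : ℝ) : ℝ) : ℂ) by push_cast; rfl,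
        Complex.add_im, Complex.ofReal_im, add_zero]
    rw [h]
    exact hz⟩

@[simp] theorem coe_shiftPt (r : ℕ) [NeZero r] (c : ℕ) (z : ℍ) :
    ((shiftPt r c z : ℍ) : ℂ) = (z : ℂ) + (c : ℂ) / r := rfl

theorem rootPt_dilPt (r : ℕ) [NeZero r] (c : ℕ) (z : ℍ) :
    rootPt r c (dilPt r z) = shiftPt r c z := by
  apply UpperHalfPlane.ext
  have hr : (r : ℂ) ≠ 0 := by exact_mod_cast NeZero.ne r
  simp only [coe_rootPt, coe_dilPt, coe_shiftPt]
  field_simp

theorem dilPt_dilPt (r s : ℕ) [NeZero r] [NeZero s] (z : ℍ) :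
    dilPt r (dilPt s z) = dilPt (r * s) z := by
  apply UpperHalfPlane.ext
  simp only [coe_dilPt]
  push_cast
  ring

/-- `exp(2πi/r)` as a unit of `ℂ`. -/
def zetaC (r : ℕ) : ℂˣ := Units.mk0 (Complex.exp (2 * π * Complex.I / r)) (Complex.exp_ne_zero _)

theorem isPrimitiveRoot_zetaC (r : ℕ) [NeZero r] : IsPrimitiveRoot (zetaC r) r := by
  have h := Complex.isPrimitiveRoot_exp r (NeZero.ne r)
  rw [← IsPrimitiveRoot.coe_units_iff]
  exact h

end

end Fermat.Agent.S28
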