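import Mathlib
import Fermat.Agent.S28.AnalyticDefs
import Fermat.Agent.S20.Conjugates
import Fermat.Agent.S20.LevelOneBasic
import Fermat.Agent.S20.JSurj
import Fermat.Agent.S20.Comb
import Fermat.Agent.S24.DescentSep

set_option autoImplicit false

/-! # S28 (analytic block): the functions `j(rz)` and `r¹² Δ(rz)/Δ(z)` on `Γ₀(r)` and their
conjugates under the coset representatives `1`, `S T^c` -/

open UpperHalfPlane hiding I
open Complex Filter Function
open scoped Manifold MatrixGroups ModularForm Topology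

namespace Fermat.Agent.S28

open Fermat.Agent.S20 Fermat.Agent.S23.Sep Fermat.Agent.S24 CongruenceSubgroup

noncomputable section

theorem dil_smul_eq (r : ℕ) [NeZero r] (z : ℍ) : dil r • z = dilPt r z :=
  UpperHalfPlane.ext (by rw [coe_dil_smul, coe_dilPt])

theorem jN_eq (r : ℕ) [NeZero r] (z : ℍ) : jN r z = jFun (dilPt r z) := by
  rw [jN_apply, dil_smul_eq]

/-- `(Δ ∣[12] diag(r,1))(z) = r¹¹ Δ(r z)`. -/
theorem disc_slash_dil (r : ℕ) [NeZero r] (z : ℍ) :
    ((⇑CuspForm.discriminant) ∣[(12 : ℤ)] dil r) z =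
      ModularForm.discriminant (dilPt r z) * (r : ℂ) ^ 11 := by
  have hN : (0 : ℝ) < ((r : ℤ) : ℝ) := by exact_mod_cast NeZero.pos r
  have h1 : (0 : ℝ) < ((1 : ℤ) : ℝ) := by norm_num
  have h := triMat_slash 12 (⇑CuspForm.discriminant) ((r : ℤ) : ℝ) ((0 : ℤ) : ℝ)
    ((1 : ℤ) : ℝ) hN h1 z
  change ((⇑CuspForm.discriminant) ∣[(12 : ℤ)] dil r) z = CuspForm.discriminant (dil r • z) * _ * _
    at h
  rw [h, dil_smul_eq]
  push_cast
  simp

/-- `Δ(r z)` transforms with weight `12` under `Γ₀(r)`. -/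
theorem disc_dilPt_smul (r : ℕ) [NeZero r] (γ : SL(2, ℤ)) (hγ : γ ∈ Gamma0 r) (z : ℍ) :
    ModularForm.discriminant (dilPt r (γ • z)) =
      denom γ z ^ (12 : ℤ) * ModularForm.discriminant (dilPt r z) := by
  have hsl := (SlashInvariantForm.translate CuspForm.discriminant (dil r)).slash_action_eq'
    (Matrix.SpecialLinearGroup.mapGL ℝ γ) (Gamma0_le_conj r ⟨γ, hγ, rfl⟩)
  change ((⇑CuspForm.discriminant) ∣[(12 : ℤ)] dil r) ∣[(12 : ℤ)]
    Matrix.SpecialLinearGroup.mapGL ℝ γ = (⇑CuspForm.discriminant) ∣[(12 : ℤ)] dil r at hsl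
  have h2 := congrFun hsl z
  have h3 := ModularForm.SL_slash_apply (k := 12)
    ((⇑CuspForm.discriminant) ∣[(12 : ℤ)] dil r) γ z
  change (((⇑CuspForm.discriminant) ∣[(12 : ℤ)] dil r) ∣[(12 : ℤ)]
    Matrix.SpecialLinearGroup.mapGL ℝ γ) z = _ at h3
  rw [h2, disc_slash_dil, disc_slash_dil] at h3
  have hd : denom γ z ≠ 0 := denom_ne_zero γ z
  have hr : (r : ℂ) ≠ 0 := by exact_mod_cast NeZero.ne r
  have h12 : (denom γ z ^ (12 : ℤ)) = denom γ z ^ 12 := by norm_cast
  have hm12 : (denom γ z ^ (-(12 : ℤ))) = (denom γ z ^ 12)⁻¹ := by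
    rw [zpow_neg, h12]
  rw [hm12] at h3
  rw [h12]
  have h4 : ModularForm.discriminant (dilPt r z) * (r : ℂ) ^ 11 * denom γ z ^ 12 =
      ModularForm.discriminant (dilPt r (γ • z)) * (r : ℂ) ^ 11 := by
    rw [h3]
    field_simp
  have h5 := mul_right_cancel₀ (pow_ne_zero 11 hr) (h4.symm.trans (by ring :
    ModularForm.discriminant (dilPt r z) * (r : ℂ) ^ 11 * denom γ z ^ 12 =
      (denom γ z ^ 12 * ModularForm.discriminant (dilPt r z)) * (r : ℂ) ^ 11))
  exact h5

/-- The modular unit `r¹² Δ(rz)/Δ(z)` on `Γ₀(r)`. -/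
def wFun (r : ℕ) [NeZero r] (z : ℍ) : ℂ :=
  (r : ℂ) ^ 12 * ModularForm.discriminant (dilPt r z) / ModularForm.discriminant z

theorem wFun_smul (r : ℕ) [NeZero r] (γ : SL(2, ℤ)) (hγ : γ ∈ Gamma0 r) (z : ℍ) :
    wFun r (γ • z) = wFun r z := by
  unfold wFun
  rw [disc_dilPt_smul r γ hγ z, disc_smul]
  have hd : denom γ z ≠ 0 := denom_ne_zero γ z
  have hΔ := ModularForm.discriminant_ne_zero z
  have h12 : (denom γ z ^ (12 : ℤ)) = denom γ z ^ 12 := by norm_cast
  rw [h12]
  field_simp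

/-- The matrix `S T^c`. -/
def stMat (c : ℕ) : SL(2, ℤ) := ModularGroup.S * ModularGroup.T ^ (c : ℤ)

theorem stMat_coe (c : ℕ) :
    ((stMat c : SL(2, ℤ)) : Matrix (Fin 2) (Fin 2) ℤ) = !![0, -1; 1, (c : ℤ)] := by
  unfold stMat
  rw [Matrix.SpecialLinearGroup.coe_mul, ModularGroup.coe_S, ModularGroup.coe_T_zpow]
  ext i j
  fin_cases i <;> fin_cases j <;> simp [Matrix.mul_apply, Fin.sum_univ_two]

theorem stMat_mul_inv_coe (c c' : ℕ) :
    ((stMat c * (stMat c')⁻¹ : SL(2, ℤ)) : Matrix (Fin 2) (Fin 2) ℤ) =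
      !![1, 0; (c' : ℤ) - c, 1] := by
  rw [Matrix.SpecialLinearGroup.coe_mul, Matrix.SpecialLinearGroup.coe_inv, stMat_coe, stMat_coe,
    Matrix.adjugate_fin_two_of]
  ext i j
  fin_cases i <;> fin_cases j <;> simp [Matrix.mul_apply, Fin.sum_univ_two, sub_eq_add_neg]

theorem denom_stMat (c : ℕ) (z : ℍ) : denom (stMat c) z = (z : ℂ) + c := by
  rw [ModularGroup.denom_apply, stMat_coe]
  simp

theorem coe_stMat_smul (c : ℕ) (z : ℍ) :
    ((stMat c • z : ℍ) : ℂ) = -((z : ℂ) + c)⁻¹ := by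
  unfold stMat
  rw [mul_smul, UpperHalfPlane.modular_T_zpow_smul, UpperHalfPlane.modular_S_smul]
  simp [UpperHalfPlane.coe_vadd, add_comm, neg_inv]

theorem coe_add_natCast_ne_zero (c : ℕ) (z : ℍ) : (z : ℂ) + c ≠ 0 := by
  intro h
  have := congrArg Complex.im h
  simp at this
  exact z.im_pos.ne' this

theorem dilPt_stMat_smul (r : ℕ) [NeZero r] (c : ℕ) (z : ℍ) :
    dilPt r (stMat c • z) = ModularGroup.S • rootPt r c z := by
  apply UpperHalfPlane.ext
  rw [coe_dilPt, coe_stMat_smul, UpperHalfPlane.modular_S_smul]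
  have hr : (r : ℂ) ≠ 0 := by exact_mod_cast NeZero.ne r
  have hz := coe_add_natCast_ne_zero c z
  simp only [coe_rootPt]
  field_simp

/-- `j(r · S T^c z) = j((z + c)/r)`. -/
theorem jN_stMat (r : ℕ) [NeZero r] (c : ℕ) (z : ℍ) :
    jN r (stMat c • z) = jFun (rootPt r c z) := by
  rw [jN_eq, dilPt_stMat_smul, jFun_smul]

/-- `w(S T^c z) = Δ((z + c)/r) / Δ(z)`. -/
theorem wFun_stMat (r : ℕ) [NeZero r] (c : ℕ) (z : ℍ) :
    wFun r (stMat c • z) =
      ModularForm.discriminant (rootPt r c z) / ModularForm.discriminant z := by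
  unfold wFun
  rw [dilPt_stMat_smul, disc_smul, disc_smul, denom_stMat, ModularGroup.denom_S]
  have hr : (r : ℂ) ≠ 0 := by exact_mod_cast NeZero.ne r
  have hz := coe_add_natCast_ne_zero c z
  have hΔ := ModularForm.discriminant_ne_zero z
  have h12 : ∀ x : ℂ, x ^ (12 : ℤ) = x ^ 12 := fun x => by norm_cast
  rw [h12, h12, coe_rootPt]
  field_simp

theorem dedekindPsi_prime (r : ℕ) (hr : r.Prime) : ModularCurve.dedekindPsi r = r + 1 := by
  unfold ModularCurve.dedekindPsi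
  rw [Nat.Prime.divisors hr, Finset.filter_true_of_mem, Finset.sum_pair hr.one_lt.ne]
  · simp [Nat.div_self hr.pos]
  · intro d hd
    simp only [Finset.mem_insert, Finset.mem_singleton] at hd
    rcases hd with rfl | rfl
    · exact squarefree_one
    · exact hr.squarefree

/-- Representatives of `SL(2,ℤ) ⧸ Γ₀(r)` (`r` prime): `1` and `(S T^c)⁻¹`, `c < r`. -/
def cosetRep (r : ℕ) : Option (Fin r) → SL(2, ℤ)
  | none => 1
  | some c => (ModularGroup.S * ModularGroup.T ^ ((c : ℕ) : ℤ))⁻¹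

theorem cosetRep_injective (r : ℕ) [NeZero r] (hr : r.Prime) :
    Function.Injective
      (fun o : Option (Fin r) => ((cosetRep r o : SL(2, ℤ)) : SL(2, ℤ) ⧸ Gamma0 r)) := by
  have key : ∀ c : ℕ, stMat c ∉ Gamma0 r := by
    intro c hc
    rw [Gamma0_mem, stMat_coe] at hc
    simp at hc
    have : (r : ℕ) ∣ 1 := by
      have h1 : ((1 : ℕ) : ZMod r) = 0 := by simpa using hc
      exact (ZMod.natCast_eq_zero_iff 1 r).mp h1
    exact hr.one_lt.ne' (Nat.dvd_one.mp this)
  intro o₁ o₂ h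
  simp only at h
  rw [QuotientGroup.eq] at h
  rcases o₁ with _ | c₁ <;> rcases o₂ with _ | c₂
  · rfl
  · exfalso
    simp only [cosetRep, inv_one, one_mul] at h
    exact key c₂ (by simpa [stMat] using (Gamma0 r).inv_mem h)
  · exfalso
    simp only [cosetRep, inv_inv, mul_one] at h
    exact key c₁ h
  · simp only [cosetRep, inv_inv] at h
    have h' : stMat c₁ * (stMat c₂)⁻¹ ∈ Gamma0 r := h
    rw [Gamma0_mem, stMat_mul_inv_coe] at h'
    simp at h'
    have h2 : (((c₂ : ℕ) : ℤ) : ZMod r) = (((c₁ : ℕ) : ℤ) : ZMod r) := by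
      have := sub_eq_zero.mp h'
      simpa using this
    have h3 : ((c₂ : ℕ) : ZMod r) = ((c₁ : ℕ) : ZMod r) := by simpa using h2
    rw [ZMod.natCast_eq_natCast_iff'] at h3
    rw [Nat.mod_eq_of_lt c₂.isLt, Nat.mod_eq_of_lt c₁.isLt] at h3
    exact congrArg some (Fin.ext h3.symm)

theorem cosetRep_bijective (r : ℕ) [NeZero r] (hr : r.Prime) :
    Function.Bijective
      (fun o : Option (Fin r) => ((cosetRep r o : SL(2, ℤ)) : SL(2, ℤ) ⧸ Gamma0 r)) := by
  let _ := Fintype.ofFinite (SL(2, ℤ) ⧸ Gamma0 r)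
  rw [Fintype.bijective_iff_injective_and_card]
  refine ⟨cosetRep_injective r hr, ?_⟩
  rw [Fintype.card_option, Fintype.card_fin, ← Nat.card_eq_fintype_card, card_quot,
    dedekindPsi_prime r hr]

theorem jN_ST (r : ℕ) [NeZero r] (c : ℕ) (z : ℍ) :
    jN r ((ModularGroup.S * ModularGroup.T ^ (c : ℤ)) • z) = jFun (rootPt r c z) :=
  jN_stMat r c z

theorem wFun_ST (r : ℕ) [NeZero r] (c : ℕ) (z : ℍ) :
    wFun r ((ModularGroup.S * ModularGroup.T ^ (c : ℤ)) • z) =
      ModularForm.discriminant (rootPt r c z) / ModularForm.discriminant z :=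
  wFun_stMat r c z

theorem mdiff_disc_dilPt (r : ℕ) [NeZero r] :
    MDiff (fun z : ℍ => ModularForm.discriminant (dilPt r z)) := by
  have h : MDiff ((⇑CuspForm.discriminant) ∣[(12 : ℤ)] dil r) :=
    (ModularFormClass.holo CuspForm.discriminant).slash 12 (dil r)
  have hr : (r : ℂ) ≠ 0 := by exact_mod_cast NeZero.ne r
  have e : (fun z : ℍ => ModularForm.discriminant (dilPt r z)) =
      fun z : ℍ => ((⇑CuspForm.discriminant) ∣[(12 : ℤ)] dil r) z * ((r : ℂ) ^ 11)⁻¹ := by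
    funext z
    rw [disc_slash_dil]
    field_simp
  rw [e]
  exact h.mul mdifferentiable_const

theorem mdiff_wFun (r : ℕ) [NeZero r] : MDiff (wFun r) := by
  have h1 : MDiff (fun z : ℍ => (r : ℂ) ^ 12 * ModularForm.discriminant (dilPt r z)) :=
    mdifferentiable_const.mul (mdiff_disc_dilPt r)
  have hΔ : MDiff (fun z : ℍ => ModularForm.discriminant z) :=
    ModularFormClass.holo CuspForm.discriminant
  exact h1.div hΔ ModularForm.discriminant_ne_zero

theorem isBoundedAtImInfty_disc_dilPt (r : ℕ) [NeZero r] :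
    IsBoundedAtImInfty (fun z : ℍ => ModularForm.discriminant (dilPt r z)) := by
  have h := isBoundedAtImInfty_disc
  rw [UpperHalfPlane.isBoundedAtImInfty_iff] at h ⊢
  obtain ⟨M, A, hMA⟩ := h
  refine ⟨M, max A 0, fun z hz => hMA (dilPt r z) ?_⟩
  have hr : (1 : ℝ) ≤ r := by exact_mod_cast NeZero.one_le
  have him : (dilPt r z).im = r * z.im := by
    change ((r : ℂ) * (z : ℂ)).im = _
    simp
  rw [him]
  have hz0 : 0 < z.im := z.im_pos
  nlinarith [le_max_left A 0, le_max_right A 0]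

theorem isBoundedAtImInfty_disc_rootPt (r : ℕ) [NeZero r] (c : ℕ) :
    IsBoundedAtImInfty (fun z : ℍ => ModularForm.discriminant (rootPt r c z)) := by
  have h := isBoundedAtImInfty_disc
  rw [UpperHalfPlane.isBoundedAtImInfty_iff] at h ⊢
  obtain ⟨M, A, hMA⟩ := h
  refine ⟨M, r * A, fun z hz => hMA (rootPt r c z) ?_⟩
  have hr : (0 : ℝ) < r := by exact_mod_cast NeZero.pos r
  have him : (rootPt r c z).im = z.im / r := by
    change (((z : ℂ) + c) / r).im = _
    rw [show ((z : ℂ) + c) / r = ((z : ℂ) + ((c : ℝ) : ℂ)) / ((r : ℝ) : ℂ) by push_cast; rfl,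
      Complex.div_ofReal_im]
    simp
  rw [him, le_div_iff₀ hr]
  linarith

/-- `r¹² Δ(rz)/Δ(z)` is a weakly holomorphic modular function on `Γ₀(r)`, `r` prime. -/
theorem isWH_wFun (r : ℕ) [NeZero r] (hr : r.Prime) : IsWH (Gamma0 r) (wFun r) where
  mdiff := mdiff_wFun r
  inv := wFun_smul r
  bdd := by
    refine ⟨1, fun g => ?_⟩
    obtain ⟨o, ho⟩ := (cosetRep_bijective r hr).2 ((g⁻¹ : SL(2, ℤ)) : SL(2, ℤ) ⧸ Gamma0 r)
    simp only at ho
    rw [QuotientGroup.eq] at ho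
    have hg : ∀ z : ℍ, wFun r (g • z) = wFun r ((cosetRep r o)⁻¹ • z) := by
      intro z
      have h1 := wFun_smul r _ ((Gamma0 r).inv_mem ho) ((cosetRep r o)⁻¹ • z)
      rw [mul_inv_rev, inv_inv, inv_inv, mul_smul, smul_inv_smul] at h1
      exact h1
    rcases o with _ | c
    · have e : (fun z : ℍ => wFun r (g • z) * ModularForm.discriminant z ^ 1) =
          fun z : ℍ => (r : ℂ) ^ 12 * ModularForm.discriminant (dilPt r z) := by
        funext z
        rw [hg z]
        have hΔ := ModularForm.discriminant_ne_zero z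
        simp only [cosetRep, inv_one, one_smul, pow_one, wFun]
        field_simp
      rw [e]
      exact (Filter.const_boundedAtFilter _ ((r : ℂ) ^ 12)).mul (isBoundedAtImInfty_disc_dilPt r)
    · have e : (fun z : ℍ => wFun r (g • z) * ModularForm.discriminant z ^ 1) =
          fun z : ℍ => ModularForm.discriminant (rootPt r c z) := by
        funext z
        rw [hg z]
        have hΔ := ModularForm.discriminant_ne_zero z
        simp only [cosetRep, inv_inv, pow_one]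
        rw [wFun_ST]
        field_simp
      rw [e]
      exact isBoundedAtImInfty_disc_rootPt r c

theorem cosetConj_jN_none (r : ℕ) [NeZero r] (z : ℍ) :
    cosetConj (Gamma0 r) (jN r) ((cosetRep r none : SL(2, ℤ)) : SL(2, ℤ) ⧸ Gamma0 r) z =
      jFun (dilPt r z) := by
  rw [cosetConj_mk (isWH_jN r).inv]
  simp [cosetRep, jN_eq]

theorem cosetConj_jN_some (r : ℕ) [NeZero r] (c : Fin r) (z : ℍ) :
    cosetConj (Gamma0 r) (jN r) ((cosetRep r (some c) : SL(2, ℤ)) : SL(2, ℤ) ⧸ Gamma0 r) z =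
      jFun (rootPt r c z) := by
  rw [cosetConj_mk (isWH_jN r).inv]
  simp only [cosetRep, inv_inv]
  exact jN_ST r c z

theorem cosetConj_wFun_none (r : ℕ) [NeZero r] (z : ℍ) :
    cosetConj (Gamma0 r) (wFun r) ((cosetRep r none : SL(2, ℤ)) : SL(2, ℤ) ⧸ Gamma0 r) z =
      (r : ℂ) ^ 12 * ModularForm.discriminant (dilPt r z) / ModularForm.discriminant z := by
  rw [cosetConj_mk (wFun_smul r)]
  simp [cosetRep, wFun]

theorem cosetConj_wFun_some (r : ℕ) [NeZero r] (c : Fin r) (z : ℍ) :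
    cosetConj (Gamma0 r) (wFun r) ((cosetRep r (some c) : SL(2, ℤ)) : SL(2, ℤ) ⧸ Gamma0 r) z =
      ModularForm.discriminant (rootPt r c z) / ModularForm.discriminant z := by
  rw [cosetConj_mk (wFun_smul r)]
  simp only [cosetRep, inv_inv]
  exact wFun_ST r c z

end

end Fermat.Agent.S28
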