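import Mathlib
import Fermat.Agent.S28.CosetFun

set_option autoImplicit false

/-! # S28 Block 6, package H1: coset polynomials on `Γ₀(r)` as functions on `ℍ` -/

open UpperHalfPlane Polynomial
open Fermat.Agent.S20 Fermat.Agent.S24
open scoped MatrixGroups

namespace Fermat.Agent.S28

namespace CosetPolys

section generic

variable {ι κ M : Type*} [CommRing M]

/-- Reindexing a Lagrange-type sum along an equivalence. -/
theorem sum_erase_equiv [Fintype ι] [Fintype κ] [DecidableEq ι] [DecidableEq κ] (e : κ ≃ ι)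
    (W F : ι → M) :
    ∑ x : ι, W x * ∏ y ∈ Finset.univ.erase x, F y =
      ∑ o : κ, W (e o) * ∏ o' ∈ Finset.univ.erase o, F (e o') := by
  rw [← Equiv.sum_comp e]
  refine Finset.sum_congr rfl (fun o _ => ?_)
  congr 1
  exact (Finset.prod_equiv e (by simp) (by simp)).symm

/-- A Lagrange-type sum over `Option (Fin n)` split into the `none` term and the `some` terms,
rewritten over `Finset.range n`. -/
theorem lagrange_option {n : ℕ} (W F : Option (Fin n) → M) (w g : ℕ → M)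
    (hW : ∀ c : Fin n, W (some c) = w c) (hF : ∀ c : Fin n, F (some c) = g c) :
    ∑ o : Option (Fin n), W o * ∏ o' ∈ Finset.univ.erase o, F o' =
      W none * ∏ c ∈ Finset.range n, g c +
        F none * ∑ c ∈ Finset.range n, w c * ∏ c' ∈ (Finset.range n).erase c, g c' := by
  rw [Fintype.sum_option]
  have h1 : (Finset.univ : Finset (Option (Fin n))).erase none =
      Finset.univ.map Function.Embedding.some := by
    ext o
    cases o <;> simp
  have h2 : ∀ c : Fin n, (Finset.univ : Finset (Option (Fin n))).erase (some c) =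
      insert none ((Finset.univ.erase c).map Function.Embedding.some) := by
    intro c
    ext o
    cases o <;> simp
  have h3 : ∀ c : Fin n, ((Finset.univ : Finset (Fin n)).erase c).map Fin.valEmbedding =
      (Finset.range n).erase (c : ℕ) := by
    intro c
    ext m
    simp only [Finset.mem_map, Finset.mem_erase, Finset.mem_univ, and_true,
      Fin.valEmbedding_apply, Finset.mem_range]
    constructor
    · rintro ⟨a, ha, rfl⟩
      exact ⟨fun h => ha (Fin.ext h), a.isLt⟩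
    · rintro ⟨hm, hlt⟩
      exact ⟨⟨m, hlt⟩, fun h => hm (by rw [← h]), rfl⟩
  congr 1
  · rw [h1, Finset.prod_map]
    simp only [Function.Embedding.some_apply, hF]
    rw [Fin.prod_univ_eq_prod_range]
  · rw [Finset.mul_sum, ← Fin.sum_univ_eq_sum_range
      (fun c => F none * (w c * ∏ c' ∈ (Finset.range n).erase c, g c')) n]
    refine Finset.sum_congr rfl (fun c _ => ?_)
    rw [h2 c, Finset.prod_insert (by simp), Finset.prod_map, hW, ← h3 c, Finset.prod_map]
    simp only [Function.Embedding.some_apply, hF, Fin.valEmbedding_apply]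
    ring

end generic

section lagr

variable (Γ : Subgroup SL(2, ℤ)) [Γ.FiniteIndex]

/-- The Lagrange interpolation polynomial `∑ₓ wₓ ∏_{y ≠ x} (T - f_y)` over the cosets of `Γ`. -/
noncomputable def cosetLagrange (w f : ℍ → ℂ) : Polynomial (ℍ → ℂ) :=
  letI := Fintype.ofFinite (SL(2, ℤ) ⧸ Γ)
  letI := Classical.decEq (SL(2, ℤ) ⧸ Γ)
  ∑ x : SL(2, ℤ) ⧸ Γ, C (cosetConj Γ w x) *
    ∏ y ∈ Finset.univ.erase x, (X - C (cosetConj Γ f y))

/-- Pointwise form of the Lagrange polynomial. -/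
theorem cosetLagrange_map_eval (w f : ℍ → ℂ) (z : ℍ) :
    (cosetLagrange Γ w f).map (Pi.evalRingHom (fun _ : ℍ => ℂ) z) =
      letI := Fintype.ofFinite (SL(2, ℤ) ⧸ Γ)
      letI := Classical.decEq (SL(2, ℤ) ⧸ Γ)
      ∑ x : SL(2, ℤ) ⧸ Γ, C (cosetConj Γ w x z) *
        ∏ y ∈ Finset.univ.erase x, (X - C (cosetConj Γ f y z)) := by
  unfold cosetLagrange
  let _ := Fintype.ofFinite (SL(2, ℤ) ⧸ Γ)
  let _ := Classical.decEq (SL(2, ℤ) ⧸ Γ)
  rw [Polynomial.map_sum]
  refine Finset.sum_congr rfl (fun x _ => ?_)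
  rw [Polynomial.map_mul, Polynomial.map_prod]
  simp

theorem cosetLagrange_coeff_smul {w f : ℍ → ℂ} (hw : ∀ γ ∈ Γ, ∀ z : ℍ, w (γ • z) = w z)
    (hf : ∀ γ ∈ Γ, ∀ z : ℍ, f (γ • z) = f z) (i : ℕ) (g : SL(2, ℤ)) (z : ℍ) :
    (cosetLagrange Γ w f).coeff i (g • z) = (cosetLagrange Γ w f).coeff i z := by
  have h1 : ∀ u : ℍ, (cosetLagrange Γ w f).coeff i u =
      ((cosetLagrange Γ w f).map (Pi.evalRingHom (fun _ : ℍ => ℂ) u)).coeff i := by
    intro u
    rw [Polynomial.coeff_map]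
    rfl
  rw [h1, h1, cosetLagrange_map_eval, cosetLagrange_map_eval]
  let _ := Fintype.ofFinite (SL(2, ℤ) ⧸ Γ)
  let _ := Classical.decEq (SL(2, ℤ) ⧸ Γ)
  have key : (∑ x : SL(2, ℤ) ⧸ Γ, (C (cosetConj Γ w x (g • z)) : Polynomial ℂ) *
      ∏ y ∈ Finset.univ.erase x, (X - C (cosetConj Γ f y (g • z)))) =
      ∑ x : SL(2, ℤ) ⧸ Γ, (C (cosetConj Γ w x z) : Polynomial ℂ) *
        ∏ y ∈ Finset.univ.erase x, (X - C (cosetConj Γ f y z)) := by
    have key0 := sum_erase_equiv (MulAction.toPerm g⁻¹ : (SL(2, ℤ) ⧸ Γ) ≃ (SL(2, ℤ) ⧸ Γ))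
      (fun x => (C (cosetConj Γ w x z) : Polynomial ℂ))
      (fun y => (X - C (cosetConj Γ f y z) : Polynomial ℂ))
    refine Eq.trans ?_ key0.symm
    refine Finset.sum_congr rfl (fun x _ => ?_)
    have e1 : cosetConj Γ w x (g • z) = cosetConj Γ w (MulAction.toPerm g⁻¹ x) z :=
      cosetConj_smul hw g x z
    have e2 : ∀ y : SL(2, ℤ) ⧸ Γ,
        cosetConj Γ f y (g • z) = cosetConj Γ f (MulAction.toPerm g⁻¹ y) z :=
      fun y => cosetConj_smul hf g y z
    rw [e1]
    refine congrArg (fun t => (C (cosetConj Γ w (MulAction.toPerm g⁻¹ x) z) : Polynomial ℂ) * t) ?_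
    exact Finset.prod_congr rfl (fun y _ => by rw [e2 y])
  exact congrArg (fun P : Polynomial ℂ => P.coeff i) key

theorem cosetLagrange_coeff_mem_bot {w f : ℍ → ℂ} (hw : IsWH Γ w) (hf : IsWH Γ f) (i : ℕ) :
    (cosetLagrange Γ w f).coeff i ∈ WH ⊥ := by
  let _ := Fintype.ofFinite (SL(2, ℤ) ⧸ Γ)
  let _ := Classical.decEq (SL(2, ℤ) ⧸ Γ)
  have h : cosetLagrange Γ w f = (∑ x : SL(2, ℤ) ⧸ Γ,
      C (⟨cosetConj Γ w x, isWH_cosetConj hw x⟩ : WH ⊥) *
        ∏ y ∈ Finset.univ.erase x,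
          (X - C (⟨cosetConj Γ f y, isWH_cosetConj hf y⟩ : WH ⊥))).map
        (WH ⊥).val.toRingHom := by
    unfold cosetLagrange
    rw [Polynomial.map_sum]
    refine Finset.sum_congr rfl (fun x _ => ?_)
    rw [Polynomial.map_mul, Polynomial.map_prod]
    simp
  rw [h, Polynomial.coeff_map]
  exact Subtype.property _

/-- The coefficients of the Lagrange polynomial are weakly holomorphic of level one. -/
theorem cosetLagrange_coeff_isWH {w f : ℍ → ℂ} (hw : IsWH Γ w) (hf : IsWH Γ f) (i : ℕ) :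
    IsWH ⊤ ((cosetLagrange Γ w f).coeff i) :=
  IsWH.of_bot (cosetLagrange_coeff_mem_bot Γ hw hf i)
    (fun g z => cosetLagrange_coeff_smul Γ hw.inv hf.inv i g z)

end lagr

/-- A polynomial over functions on `ℍ` whose coefficients are weakly holomorphic of level one is
the specialisation `Y ↦ j` of a polynomial in `ℂ[Y][X]`. -/
theorem exists_lift_of_coeff_isWH (P : Polynomial (ℍ → ℂ)) (hP : ∀ i, IsWH ⊤ (P.coeff i)) :
    ∃ Φ : Polynomial (Polynomial ℂ), ∀ z : ℍ,
      Φ.map (Polynomial.evalRingHom (jFun z)) =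
        P.map (Pi.evalRingHom (fun _ : ℍ => ℂ) z) := by
  choose p hp using fun i => exists_poly_of_isWH_top (P.coeff i) (hP i)
  refine ⟨∑ i ∈ Finset.range (P.natDegree + 1), monomial i (p i), fun z => ?_⟩
  ext n
  rw [coeff_map, coeff_map, finsetSum_coeff]
  simp only [coeff_monomial]
  rw [Finset.sum_ite_eq' (Finset.range (P.natDegree + 1)) n (fun i => p i)]
  by_cases hn : n ∈ Finset.range (P.natDegree + 1)
  · rw [if_pos hn]
    exact (hp n z).symm
  · rw [if_neg hn]
    have hlt : P.natDegree < n := by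
      rw [Finset.mem_range, not_lt] at hn
      omega
    rw [coeff_eq_zero_of_natDegree_lt hlt]
    simp

section quot

open CongruenceSubgroup

variable {M : Type*} [CommRing M]

/-- A product over `SL(2,ℤ) ⧸ Γ₀(r)` in terms of the representatives `1`, `(S T^c)⁻¹`. -/
theorem prod_quot (r : ℕ) [NeZero r] (hr : r.Prime) (F : SL(2, ℤ) ⧸ Gamma0 r → M) (g : ℕ → M)
    (hF : ∀ c : Fin r, F ((cosetRep r (some c) : SL(2, ℤ)) : SL(2, ℤ) ⧸ Gamma0 r) = g c) :
    letI := Fintype.ofFinite (SL(2, ℤ) ⧸ Gamma0 r)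
    ∏ x : SL(2, ℤ) ⧸ Gamma0 r, F x =
      F ((cosetRep r none : SL(2, ℤ)) : SL(2, ℤ) ⧸ Gamma0 r) * ∏ c ∈ Finset.range r, g c := by
  let _ := Fintype.ofFinite (SL(2, ℤ) ⧸ Gamma0 r)
  rw [← Equiv.prod_comp (Equiv.ofBijective _ (cosetRep_bijective r hr)) F, Fintype.prod_option]
  simp only [Equiv.ofBijective_apply, hF]
  rw [Fin.prod_univ_eq_prod_range]

/-- A Lagrange-type sum over `SL(2,ℤ) ⧸ Γ₀(r)` in terms of the representatives `1`,
`(S T^c)⁻¹`. -/
theorem sum_quot (r : ℕ) [NeZero r] (hr : r.Prime) (W F : SL(2, ℤ) ⧸ Gamma0 r → M)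
    (w g : ℕ → M)
    (hW : ∀ c : Fin r, W ((cosetRep r (some c) : SL(2, ℤ)) : SL(2, ℤ) ⧸ Gamma0 r) = w c)
    (hF : ∀ c : Fin r, F ((cosetRep r (some c) : SL(2, ℤ)) : SL(2, ℤ) ⧸ Gamma0 r) = g c) :
    letI := Fintype.ofFinite (SL(2, ℤ) ⧸ Gamma0 r)
    letI := Classical.decEq (SL(2, ℤ) ⧸ Gamma0 r)
    ∑ x : SL(2, ℤ) ⧸ Gamma0 r, W x * ∏ y ∈ Finset.univ.erase x, F y =
      W ((cosetRep r none : SL(2, ℤ)) : SL(2, ℤ) ⧸ Gamma0 r) * ∏ c ∈ Finset.range r, g c +
        F ((cosetRep r none : SL(2, ℤ)) : SL(2, ℤ) ⧸ Gamma0 r) *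
          ∑ c ∈ Finset.range r, w c * ∏ c' ∈ (Finset.range r).erase c, g c' := by
  let _ := Fintype.ofFinite (SL(2, ℤ) ⧸ Gamma0 r)
  let _ := Classical.decEq (SL(2, ℤ) ⧸ Gamma0 r)
  rw [sum_erase_equiv (Equiv.ofBijective _ (cosetRep_bijective r hr)) W F]
  exact lagrange_option (fun o => W (Equiv.ofBijective _ (cosetRep_bijective r hr) o))
    (fun o => F (Equiv.ofBijective _ (cosetRep_bijective r hr) o)) w g hW hF

end quot

end CosetPolys

open CongruenceSubgroup in
/-- H1: for a prime `r` there are `Φ, Ψ, Λ ∈ ℂ[Y][X]` which, after `Y ↦ j(z)`, are the coset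
polynomial of `j(rz)`, the coset polynomial of `r¹² Δ(rz)/Δ(z)` and the Lagrange interpolation
polynomial of the latter against the former, over the `r + 1` cosets of `Γ₀(r)`
(representatives `1`, `S T^c`: `j(r · ST^c z) = j((z+c)/r)`,
`r¹² Δ(r · ST^c z)/Δ(ST^c z) = Δ((z+c)/r)/Δ(z)`). -/
theorem exists_cosetPolys (r : ℕ) [NeZero r] (hr : r.Prime) :
    ∃ Φ Ψ Λ : Polynomial (Polynomial ℂ), ∀ z : ℍ,
      Φ.map (Polynomial.evalRingHom (jFun z)) =
          (X - C (jFun (dilPt r z))) *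
            ∏ c ∈ Finset.range r, (X - C (jFun (rootPt r c z))) ∧
      Ψ.map (Polynomial.evalRingHom (jFun z)) =
          (X - C ((r : ℂ) ^ 12 * ModularForm.discriminant (dilPt r z) /
              ModularForm.discriminant z)) *
            ∏ c ∈ Finset.range r,
              (X - C (ModularForm.discriminant (rootPt r c z) / ModularForm.discriminant z)) ∧
      Λ.map (Polynomial.evalRingHom (jFun z)) =
          C ((r : ℂ) ^ 12 * ModularForm.discriminant (dilPt r z) / ModularForm.discriminant z) *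
              ∏ c ∈ Finset.range r, (X - C (jFun (rootPt r c z))) +
            (X - C (jFun (dilPt r z))) *
              ∑ c ∈ Finset.range r,
                C (ModularForm.discriminant (rootPt r c z) / ModularForm.discriminant z) *
                  ∏ c' ∈ (Finset.range r).erase c, (X - C (jFun (rootPt r c' z))) := by
  have hj : IsWH (Gamma0 r) (jN r) := isWH_jN r
  have hw : IsWH (Gamma0 r) (wFun r) := isWH_wFun r hr
  obtain ⟨Φ, hΦ⟩ := CosetPolys.exists_lift_of_coeff_isWH (cosetPoly (Gamma0 r) (jN r))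
    (cosetPoly_coeff_isWH _ hj)
  obtain ⟨Ψ, hΨ⟩ := CosetPolys.exists_lift_of_coeff_isWH (cosetPoly (Gamma0 r) (wFun r))
    (cosetPoly_coeff_isWH _ hw)
  obtain ⟨Λ, hΛ⟩ := CosetPolys.exists_lift_of_coeff_isWH
    (CosetPolys.cosetLagrange (Gamma0 r) (wFun r) (jN r))
    (CosetPolys.cosetLagrange_coeff_isWH _ hw hj)
  refine ⟨Φ, Ψ, Λ, fun z => ⟨?_, ?_, ?_⟩⟩
  · rw [hΦ z, cosetPoly_map_eval]
    have h := CosetPolys.prod_quot r hr
      (fun x => (X - C (cosetConj (Gamma0 r) (jN r) x z) : Polynomial ℂ))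
      (fun c => (X - C (jFun (rootPt r c z)) : Polynomial ℂ))
      (fun c => by rw [cosetConj_jN_some])
    rw [cosetConj_jN_none] at h
    exact h
  · rw [hΨ z, cosetPoly_map_eval]
    have h := CosetPolys.prod_quot r hr
      (fun x => (X - C (cosetConj (Gamma0 r) (wFun r) x z) : Polynomial ℂ))
      (fun c => (X - C (ModularForm.discriminant (rootPt r c z) / ModularForm.discriminant z) :
        Polynomial ℂ))
      (fun c => by rw [cosetConj_wFun_some])
    rw [cosetConj_wFun_none] at h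
    exact h
  · rw [hΛ z, CosetPolys.cosetLagrange_map_eval]
    have h := CosetPolys.sum_quot r hr
      (fun x => (C (cosetConj (Gamma0 r) (wFun r) x z) : Polynomial ℂ))
      (fun x => (X - C (cosetConj (Gamma0 r) (jN r) x z) : Polynomial ℂ))
      (fun c => (C (ModularForm.discriminant (rootPt r c z) / ModularForm.discriminant z) :
        Polynomial ℂ))
      (fun c => (X - C (jFun (rootPt r c z)) : Polynomial ℂ))
      (fun c => by rw [cosetConj_wFun_some])
      (fun c => by rw [cosetConj_jN_some])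
    rw [cosetConj_wFun_none, cosetConj_jN_none] at h
    exact h

end Fermat.Agent.S28
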