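import Mathlib
import Fermat.Agent.S28.Defs
import Fermat.Agent.S28.SeriesBasic
import Fermat.Agent.S24.QLaurent

set_option autoImplicit false

/-! # S28: analytic `q`-expansion lemmas, core

For a `1`-periodic holomorphic function `f` on `ℍ` that is meromorphic at `i∞` (`S24.IsPM`):
* scaling `z ↦ d z` acts on the Laurent expansion by `q ↦ q^d` (`isPM_comp_scale`);
* a real translation `z ↦ z + t` acts by the twist `q ↦ e^{2πit} q` (`isPM_comp_translate`);
* the expansions of `Δ`, `Δ⁻¹` and `j` are the integral series `deltaInt`, `deltaInvInt`, `jInt`.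
-/

open UpperHalfPlane hiding I
open Complex Filter Function
open scoped Topology Manifold MatrixGroups

namespace Fermat.Agent.S28.PMCore

open Fermat.Agent.S20 Fermat.Agent.S24 ModularCurve

/-- Composition with a self-map of `ℍ` induced by an entire function. -/
theorem mdiff_comp {f : ℍ → ℂ} (hf : MDiff f) (φ : ℍ → ℍ) (g : ℂ → ℂ)
    (hg : Differentiable ℂ g) (hφ : ∀ z : ℍ, (φ z : ℂ) = g z) : MDiff (fun z => f (φ z)) := by
  rw [UpperHalfPlane.mdifferentiable_iff]
  have hj := UpperHalfPlane.mdifferentiable_iff.mp hf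
  have hmaps : Set.MapsTo g {z : ℂ | 0 < z.im} {z : ℂ | 0 < z.im} := by
    intro w hw
    have h := (φ ⟨w, hw⟩).im_pos
    have e : g w = (φ ⟨w, hw⟩ : ℂ) := (hφ ⟨w, hw⟩).symm
    show 0 < (g w).im
    rw [e]
    exact h
  have hcomp : DifferentiableOn ℂ ((f ∘ ofComplex) ∘ g) {z : ℂ | 0 < z.im} :=
    hj.comp hg.differentiableOn hmaps
  refine hcomp.congr fun w hw => ?_
  have hw' : 0 < (g w).im := hmaps hw
  simp only [comp_apply]
  congr 1
  apply UpperHalfPlane.ext
  rw [hφ, ofComplex_apply_of_im_pos hw, ofComplex_apply_of_im_pos hw']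

/-- A `1`-periodic function on `ℍ` is invariant under integer translations. -/
theorem eq_of_coe_eq_add_nat {f : ℍ → ℂ} (h : Function.Periodic (f ∘ ofComplex) ((1 : ℝ) : ℂ))
    (d : ℕ) (w w' : ℍ) (hw : (w' : ℂ) = w + d) : f w' = f w := by
  have h1 := (h.nat_mul d) (w : ℂ)
  simp only [comp_apply] at h1
  have e : (w : ℂ) + (d : ℂ) * ((1 : ℝ) : ℂ) = (w' : ℂ) := by
    rw [hw]; push_cast; ring
  rw [e, ofComplex_apply, ofComplex_apply] at h1
  exact h1

/-- Coefficients of `q^(-n) * (power series)`. -/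
theorem coeff_single_mul_ofPowerSeries (n : ℕ) (p : PowerSeries ℂ) (m : ℕ) :
    (HahnSeries.single (-(n : ℤ)) (1 : ℂ) * HahnSeries.ofPowerSeries ℤ ℂ p).coeff
      ((m : ℤ) - n) = PowerSeries.coeff m p := by
  rw [HahnSeries.coeff_single_mul, one_mul, sub_neg_eq_add, sub_add_cancel,
    HahnSeries.ofPowerSeries_apply_coeff]

theorem coeff_single_mul_ofPowerSeries_of_lt (n : ℕ) (p : PowerSeries ℂ) {k : ℤ}
    (hk : k + n < 0) :
    (HahnSeries.single (-(n : ℤ)) (1 : ℂ) * HahnSeries.ofPowerSeries ℤ ℂ p).coeff k = 0 := by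
  rw [HahnSeries.coeff_single_mul, one_mul, sub_neg_eq_add, ofPowerSeries_coeff_of_neg _ hk]

/-- The convergent expansion behind `qLaurentFun`. -/
theorem exists_expansion {f : ℍ → ℂ} (hf : IsPM f) :
    ∃ (n : ℕ) (P : PowerSeries ℂ),
      (∀ τ : ℍ, HasSum (fun m : ℕ => PowerSeries.coeff m P * qH τ ^ m) (qH τ ^ n * f τ)) ∧
      qLaurentFun f = HahnSeries.single (-(n : ℤ)) (1 : ℂ) * HahnSeries.ofPowerSeries ℤ ℂ P := by
  obtain ⟨n, hn⟩ := hf.bdd
  exact ⟨n, _, fun τ => (hf.isHPB hn).hasSum τ, qLaurentFun_eq hf hn⟩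

/-- **Scaling.** `z ↦ d z` acts on Laurent expansions by `q ↦ q^d`. -/
theorem isPM_comp_scale (d : ℕ) [NeZero d] (φ : ℍ → ℍ) (hφ : ∀ z : ℍ, (φ z : ℂ) = d * z)
    {f : ℍ → ℂ} (hf : IsPM f) :
    IsPM (fun z => f (φ z)) ∧ qLaurentFun (fun z => f (φ z)) = qExpand ℂ d (qLaurentFun f) := by
  have hd0 : d ≠ 0 := NeZero.ne d
  obtain ⟨n, P, hsum, hP⟩ := exists_expansion hf
  have hmd : MDiff (fun z => f (φ z)) :=
    mdiff_comp hf.mdiff φ (fun w => (d : ℂ) * w) (by fun_prop) hφ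
  have hper : Function.Periodic ((fun z => f (φ z)) ∘ ofComplex) ((1 : ℝ) : ℂ) := by
    refine periodic_comp_ofComplex_of fun z => ?_
    refine eq_of_coe_eq_add_nat hf.per d _ _ ?_
    rw [hφ, hφ, UpperHalfPlane.coe_vadd]
    push_cast
    ring
  have hq : ∀ τ : ℍ, qH (φ τ) = qH τ ^ d := fun τ => qParam_mul_nat d τ (φ τ) (hφ τ)
  set c : ℕ → ℂ := fun k => if d ∣ k then PowerSeries.coeff (k / d) P else 0 with hc
  have hsum' : ∀ τ : ℍ, HasSum (fun k : ℕ => c k * qH τ ^ k) (qH τ ^ (n * d) * f (φ τ)) := by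
    intro τ
    have h := hsum (φ τ)
    rw [hq] at h
    have hinj : Function.Injective (fun m : ℕ => d * m) := mul_right_injective₀ hd0
    have hzero : ∀ k ∉ Set.range (fun m : ℕ => d * m), c k * qH τ ^ k = 0 := by
      intro k hk
      have : ¬ d ∣ k := fun ⟨m, hm⟩ => hk ⟨m, hm.symm⟩
      simp [hc, this]
    rw [← hinj.hasSum_iff hzero]
    have e : (fun k : ℕ => c k * qH τ ^ k) ∘ (fun m : ℕ => d * m) =
        fun m : ℕ => PowerSeries.coeff m P * (qH τ ^ d) ^ m := by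
      funext m
      simp only [comp_apply, hc, dvd_mul_right, if_true, Nat.mul_div_cancel_left m
        (Nat.pos_of_ne_zero hd0), pow_mul]
    rw [e, show qH τ ^ (n * d) = (qH τ ^ d) ^ n by rw [← pow_mul, mul_comm]]
    exact h
  obtain ⟨hpm, hL⟩ := qLaurentFun_eq_of_hasSum hmd hper hsum'
  refine ⟨hpm, ?_⟩
  rw [hL, hP, map_mul, qExpand_single]
  have hneg : (-((n * d : ℕ) : ℤ)) = (d : ℤ) * -(n : ℤ) := by
    rw [Nat.cast_mul]
    ring
  rw [hneg]
  congr 1
  · ext k
    rcases lt_or_ge k 0 with hk | hk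
    · rw [ofPowerSeries_coeff_of_neg _ hk]
      by_cases hdk : (d : ℤ) ∣ k
      · obtain ⟨m, rfl⟩ := hdk
        rw [qExpand_coeff_mul, ofPowerSeries_coeff_of_neg]
        have hdpos : (0 : ℤ) < d := by exact_mod_cast Nat.pos_of_ne_zero hd0
        by_contra hm
        push Not at hm
        nlinarith
      · rw [qExpand_coeff_of_not_dvd d _ hdk]
    · obtain ⟨j, rfl⟩ := Int.eq_ofNat_of_zero_le hk
      rw [HahnSeries.ofPowerSeries_apply_coeff, PowerSeries.coeff_mk]
      by_cases hdj : d ∣ j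
      · obtain ⟨m, rfl⟩ := hdj
        rw [show ((d * m : ℕ) : ℤ) = (d : ℤ) * (m : ℤ) by push_cast; ring, qExpand_coeff_mul,
          HahnSeries.ofPowerSeries_apply_coeff]
        simp only [hc, dvd_mul_right, if_true, Nat.mul_div_cancel_left m (Nat.pos_of_ne_zero hd0)]
      · rw [qExpand_coeff_of_not_dvd d _ (by exact_mod_cast hdj)]
        simp [hc, hdj]

/-- **Translation.** A real translation `z ↦ z + t` acts on Laurent expansions by the twist
`q ↦ e^{2πit} q`. -/
theorem isPM_comp_translate (t : ℝ) (u : ℂˣ) (hu : (u : ℂ) = Complex.exp (2 * Real.pi * I * t))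
    (ψ : ℍ → ℍ) (hψ : ∀ z : ℍ, (ψ z : ℂ) = z + t) {f : ℍ → ℂ} (hf : IsPM f) :
    IsPM (fun z => f (ψ z)) ∧ qLaurentFun (fun z => f (ψ z)) = tw u (qLaurentFun f) := by
  obtain ⟨n, P, hsum, hP⟩ := exists_expansion hf
  have hmd : MDiff (fun z => f (ψ z)) :=
    mdiff_comp hf.mdiff ψ (fun w => w + (t : ℂ)) (by fun_prop) hψ
  have hper : Function.Periodic ((fun z => f (ψ z)) ∘ ofComplex) ((1 : ℝ) : ℂ) := by
    refine periodic_comp_ofComplex_of fun z => ?_
    refine eq_of_coe_eq_add_nat hf.per 1 _ _ ?_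
    rw [hψ, hψ, UpperHalfPlane.coe_vadd]
    push_cast
    ring
  have hq : ∀ τ : ℍ, qH (ψ τ) = (u : ℂ) * qH τ := by
    intro τ
    unfold qH Function.Periodic.qParam
    rw [hψ, hu, ← Complex.exp_add]
    congr 1
    simp only [ofReal_one, div_one]
    ring
  set c : ℕ → ℂ := fun m => ((u ^ ((m : ℤ) - n) : ℂˣ) : ℂ) * PowerSeries.coeff m P with hc
  have hsum' : ∀ τ : ℍ, HasSum (fun m : ℕ => c m * qH τ ^ m) (qH τ ^ n * f (ψ τ)) := by
    intro τ
    have h := (hsum (ψ τ)).mul_left (((u ^ n : ℂˣ)⁻¹ : ℂˣ) : ℂ)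
    rw [hq] at h
    have e1 : (((u ^ n : ℂˣ)⁻¹ : ℂˣ) : ℂ) * (((u : ℂ) * qH τ) ^ n * f (ψ τ)) =
        qH τ ^ n * f (ψ τ) := by
      rw [mul_pow, ← mul_assoc, ← mul_assoc, ← Units.val_pow_eq_pow_val, Units.inv_mul, one_mul]
    rw [e1] at h
    refine h.congr_fun fun m => ?_
    simp only [hc]
    rw [zpow_sub, zpow_natCast, zpow_natCast, Units.val_mul, mul_pow,
      ← Units.val_pow_eq_pow_val]
    ring
  obtain ⟨hpm, hL⟩ := qLaurentFun_eq_of_hasSum hmd hper hsum'
  refine ⟨hpm, ?_⟩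
  rw [hL, hP]
  ext k
  rw [tw_coeff]
  rcases lt_or_ge (k + n) 0 with hk | hk
  · rw [coeff_single_mul_ofPowerSeries_of_lt n _ hk, coeff_single_mul_ofPowerSeries_of_lt n _ hk,
      mul_zero]
  · obtain ⟨m, hm⟩ := Int.eq_ofNat_of_zero_le hk
    have hk' : k = (m : ℤ) - n := by omega
    rw [hk', coeff_single_mul_ofPowerSeries, coeff_single_mul_ofPowerSeries, PowerSeries.coeff_mk]

/-- The Laurent expansion of `j`. -/
theorem isPM_jFun : IsPM jFun ∧ qLaurentFun jFun = coeffMap (Int.castRingHom ℂ) jInt := by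
  obtain ⟨h1, h2⟩ := qLaurentFun_jd 1 id (fun z => by simp)
  refine ⟨h1, ?_⟩
  have e : (fun z => jFun (id z)) = jFun := rfl
  rw [e] at h2
  rw [h2, qExpand_one_apply, ← jS_rat, jS, coeffMap_intCast]

/-- The Laurent expansion of `Δ`. -/
theorem isPM_disc : IsPM (fun z : ℍ => ModularForm.discriminant z) ∧
    qLaurentFun (fun z : ℍ => ModularForm.discriminant z) =
      coeffMap (Int.castRingHom ℂ) deltaInt := by
  have hmd : MDiff (fun z : ℍ => ModularForm.discriminant z) :=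
    ModularFormClass.holo CuspForm.discriminant
  have hper : Function.Periodic ((fun z : ℍ => ModularForm.discriminant z) ∘ ofComplex)
      ((1 : ℝ) : ℂ) := by
    exact SlashInvariantFormClass.periodic_comp_ofComplex CuspForm.discriminant
      _root_.one_mem_strictPeriods_SL
  have hsum : ∀ τ : ℍ, HasSum (fun m : ℕ =>
      PowerSeries.coeff m (PowerSeries.X * JqExp.etaC ^ 24) * qH τ ^ m)
      (qH τ ^ 0 * ModularForm.discriminant τ) := by
    intro τ
    show HasSum (fun m : ℕ => PowerSeries.coeff m (PowerSeries.X * JqExp.etaC ^ 24) *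
      Function.Periodic.qParam 1 (τ : ℂ) ^ m)
      (Function.Periodic.qParam 1 (τ : ℂ) ^ 0 * ModularForm.discriminant τ)
    set q : ℂ := Function.Periodic.qParam 1 (τ : ℂ) with hqdef
    have hq1 : ‖q‖ < 1 := norm_qH_lt_one τ
    have hX : HasSum (fun m : ℕ => PowerSeries.coeff m (PowerSeries.X : PowerSeries ℂ) * q ^ m)
        q := by
      have := hasSum_single (f := fun m : ℕ =>
        PowerSeries.coeff m (PowerSeries.X : PowerSeries ℂ) * q ^ m) 1
        (by intro m hm; simp [PowerSeries.coeff_X, hm])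
      simpa using this
    have h := JqExp.hasSum_coeff_mul hX (JqExp.hasSum_coeff_pow (JqExp.etaC_hasSum q hq1) 24)
    have hΔ : ModularForm.discriminant τ = q * (∏' n : ℕ, (1 - q ^ (n + 1))) ^ 24 := by
      rw [ModularForm.discriminant_eq_q_prod,
        (ModularForm.multipliable_one_sub_pow hq1).tprod_pow]
    rw [pow_zero, one_mul, hΔ]
    exact h
  obtain ⟨hpm, hL⟩ := qLaurentFun_eq_of_hasSum hmd hper hsum
  refine ⟨hpm, ?_⟩
  rw [hL, deltaInt, map_mul, coeffMap_single, coeffMap_ofPowerSeries,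
    map_one (Int.castRingHom ℂ)]
  have e1 : (PowerSeries.mk fun m : ℕ => PowerSeries.coeff m (PowerSeries.X * JqExp.etaC ^ 24)) =
      PowerSeries.X * JqExp.etaC ^ 24 := by
    ext m
    rw [PowerSeries.coeff_mk]
  have e2 : dedekindEtaUnit.map (Int.castRingHom ℂ) = JqExp.etaC ^ 24 := by
    rw [dedekindEtaUnit, map_pow]
    rfl
  rw [e1, e2, map_mul, HahnSeries.ofPowerSeries_X]
  simp

/-- The Laurent expansion of `Δ⁻¹`. -/
theorem isPM_disc_inv : IsPM (fun z : ℍ => (ModularForm.discriminant z)⁻¹) ∧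
    qLaurentFun (fun z : ℍ => (ModularForm.discriminant z)⁻¹) =
      coeffMap (Int.castRingHom ℂ) deltaInvInt := by
  have hmd0 : MDiff (fun z : ℍ => ModularForm.discriminant z) :=
    ModularFormClass.holo CuspForm.discriminant
  have hmd : MDiff (fun z : ℍ => (ModularForm.discriminant z)⁻¹) :=
    hmd0.inv ModularForm.discriminant_ne_zero
  have hper : Function.Periodic ((fun z : ℍ => (ModularForm.discriminant z)⁻¹) ∘ ofComplex)
      ((1 : ℝ) : ℂ) := by
    refine periodic_comp_ofComplex_of fun z => ?_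
    have h := vadd_of_periodic isPM_disc.1.per z
    show (ModularForm.discriminant ((1 : ℝ) +ᵥ z))⁻¹ = (ModularForm.discriminant z)⁻¹
    rw [h]
  have hsum : ∀ τ : ℍ, HasSum (fun m : ℕ =>
      PowerSeries.coeff m (dedekindEtaUnitInv.map (Int.castRingHom ℂ)) * qH τ ^ m)
      (qH τ ^ 1 * (ModularForm.discriminant τ)⁻¹) := by
    intro τ
    show HasSum (fun m : ℕ => PowerSeries.coeff m (dedekindEtaUnitInv.map (Int.castRingHom ℂ)) *
      Function.Periodic.qParam 1 (τ : ℂ) ^ m)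
      (Function.Periodic.qParam 1 (τ : ℂ) ^ 1 * (ModularForm.discriminant τ)⁻¹)
    set q : ℂ := Function.Periodic.qParam 1 (τ : ℂ) with hqdef
    have hq1 : ‖q‖ < 1 := norm_qH_lt_one τ
    have hq0 : q ≠ 0 := qH_ne_zero τ
    have h := JqExp.etaUnitInv_hasSum q hq1
    have hΔ : ModularForm.discriminant τ = q * (∏' n : ℕ, (1 - q ^ (n + 1))) ^ 24 := by
      rw [ModularForm.discriminant_eq_q_prod,
        (ModularForm.multipliable_one_sub_pow hq1).tprod_pow]
    have e : q ^ 1 * (ModularForm.discriminant τ)⁻¹ =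
        ((∏' n : ℕ, (1 - q ^ (n + 1))) ^ 24)⁻¹ := by
      rw [hΔ, pow_one, mul_inv, ← mul_assoc, mul_inv_cancel₀ hq0, one_mul]
    rw [e]
    exact h
  obtain ⟨hpm, hL⟩ := qLaurentFun_eq_of_hasSum hmd hper hsum
  refine ⟨hpm, ?_⟩
  rw [hL, deltaInvInt, map_mul, coeffMap_single, coeffMap_ofPowerSeries,
    map_one (Int.castRingHom ℂ)]
  have e1 : (PowerSeries.mk fun m : ℕ =>
      PowerSeries.coeff m (dedekindEtaUnitInv.map (Int.castRingHom ℂ))) =
      dedekindEtaUnitInv.map (Int.castRingHom ℂ) := by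
    ext m
    rw [PowerSeries.coeff_mk]
  rw [e1]
  rfl

end Fermat.Agent.S28.PMCore
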