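import Mathlib
import Fermat.Agent.S28.AnalyticDefs
import Fermat.Agent.S28.SeriesBasic
import Fermat.Agent.S24.QLaurent
import Fermat.Agent.S28.PMCore

set_option autoImplicit false

/-! # S28 Block 6, package H2a: Laurent `q`-expansions of the conjugate functions -/

open UpperHalfPlane
open Fermat.Agent.S20 Fermat.Agent.S24 ModularCurve

namespace Fermat.Agent.S28

/-- the twist parameter of `shiftPt r c`: `ζ_r^c = exp(2πi c/r)` -/
theorem coe_zetaC_pow (r : ℕ) (c : ℕ) :
    ((zetaC r ^ c : ℂˣ) : ℂ) = Complex.exp (2 * Real.pi * Complex.I * (((c : ℝ) / (r : ℝ) : ℝ))) := by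
  rw [Units.val_pow_eq_pow_val, zetaC, Units.val_mk0, ← Complex.exp_nat_mul]
  congr 1
  push_cast
  ring

theorem coe_shiftPt_real (r : ℕ) [NeZero r] (c : ℕ) (z : ℍ) :
    ((shiftPt r c z : ℍ) : ℂ) = (z : ℂ) + (((c : ℝ) / (r : ℝ) : ℝ) : ℂ) := by
  rw [coe_shiftPt]
  push_cast
  rfl

theorem qLaurent_j_dil (d : ℕ) [NeZero d] :
    IsPM (fun z => jFun (dilPt d z)) ∧
      qLaurentFun (fun z => jFun (dilPt d z)) = qExpand ℂ d (jS ℂ) := by
  have h := PMCore.isPM_comp_scale d (dilPt d) (fun z => coe_dilPt d z) PMCore.isPM_jFun.1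
  rw [PMCore.isPM_jFun.2] at h
  exact h

theorem qLaurent_j_shift (r : ℕ) [NeZero r] (c : ℕ) :
    IsPM (fun z => jFun (shiftPt r c z)) ∧
      qLaurentFun (fun z => jFun (shiftPt r c z)) = tw (zetaC r ^ c) (jS ℂ) := by
  have h := PMCore.isPM_comp_translate ((c : ℝ) / (r : ℝ)) (zetaC r ^ c) (coe_zetaC_pow r c)
    (shiftPt r c) (coe_shiftPt_real r c) PMCore.isPM_jFun.1
  rw [PMCore.isPM_jFun.2] at h
  exact h

theorem qLaurent_disc_dil (d : ℕ) [NeZero d] :
    IsPM (fun z => ModularForm.discriminant (dilPt d z)) ∧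
      qLaurentFun (fun z => ModularForm.discriminant (dilPt d z)) = qExpand ℂ d (deltaS ℂ) := by
  have h := PMCore.isPM_comp_scale d (dilPt d) (fun z => coe_dilPt d z) PMCore.isPM_disc.1
  rw [PMCore.isPM_disc.2] at h
  exact h

theorem qLaurent_disc_shift (r : ℕ) [NeZero r] (c : ℕ) :
    IsPM (fun z => ModularForm.discriminant (shiftPt r c z)) ∧
      qLaurentFun (fun z => ModularForm.discriminant (shiftPt r c z)) =
        tw (zetaC r ^ c) (deltaS ℂ) := by
  have h := PMCore.isPM_comp_translate ((c : ℝ) / (r : ℝ)) (zetaC r ^ c) (coe_zetaC_pow r c)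
    (shiftPt r c) (coe_shiftPt_real r c) PMCore.isPM_disc.1
  rw [PMCore.isPM_disc.2] at h
  exact h

theorem qLaurent_inv_disc_dil (d : ℕ) [NeZero d] :
    IsPM (fun z => (ModularForm.discriminant (dilPt d z))⁻¹) ∧
      qLaurentFun (fun z => (ModularForm.discriminant (dilPt d z))⁻¹) =
        qExpand ℂ d (deltaInvS ℂ) := by
  have h := PMCore.isPM_comp_scale d (dilPt d) (fun z => coe_dilPt d z) PMCore.isPM_disc_inv.1
  rw [PMCore.isPM_disc_inv.2] at h
  exact h

end Fermat.Agent.S28
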