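import Mathlib
import Fermat.Agent.S28.CosetPolys
import Fermat.Agent.S28.QExp

set_option autoImplicit false

/-! # S28 Block 6, package H2b: the modular polynomial data over `ℂ` -/

open UpperHalfPlane Polynomial
open Fermat.Agent.S20 Fermat.Agent.S24 ModularCurve

namespace Fermat.Agent.S28

namespace ModPolyC

/-- Evaluation at a point of `ℍ`, as a ring homomorphism on `PM`. -/
noncomputable def evPt (z : ℍ) : PM →+* ℂ :=
  (Pi.evalRingHom (fun _ : ℍ => ℂ) z).comp PM.val.toRingHom

theorem evPt_apply (z : ℍ) (f : PM) : evPt z f = (f : ℍ → ℂ) z := rfl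

/-- A polynomial over `PM` is determined by its pointwise evaluations. -/
theorem poly_ext {P Q : Polynomial PM} (h : ∀ z : ℍ, P.map (evPt z) = Q.map (evPt z)) :
    P = Q := by
  refine Polynomial.ext fun i => Subtype.ext (funext fun z => ?_)
  have := congrArg (fun p : Polynomial ℂ => p.coeff i) (h z)
  simpa only [Polynomial.coeff_map, evPt_apply] using this

theorem evPt_comp_aeval (z : ℍ) (f : PM) :
    (evPt z).comp (Polynomial.aeval f : Polynomial ℂ →ₐ[ℂ] PM).toRingHom =
      Polynomial.evalRingHom ((f : ℍ → ℂ) z) := by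
  refine Polynomial.ringHom_ext (fun a => ?_) ?_
  · simp [evPt]
  · simp [evPt]

theorem qLaurent_comp_aeval (f : PM) :
    (qLaurent : PM →+* LaurentSeries ℂ).comp
        (Polynomial.aeval f : Polynomial ℂ →ₐ[ℂ] PM).toRingHom =
      evalAt (qLaurent f) := by
  refine Polynomial.ringHom_ext (fun a => ?_) ?_
  · show qLaurent (Polynomial.aeval f (C a)) = Polynomial.eval₂ HahnSeries.C (qLaurent f) (C a)
    rw [Polynomial.aeval_C, AlgHom.commutes, Polynomial.eval₂_C,
      ModularCurve.algebraMap_laurentSeries_eq_single, HahnSeries.C_apply]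
  · simp [evalAt]

end ModPolyC

open ModPolyC in
/-- H2: `ModPolyData` over `ℂ` with `ζ = exp(2πi/r)`
(evaluate `exists_cosetPolys` at `r z` and take Laurent `q`-expansions with `qLaurent`). -/
theorem modPolyData_complex (r : ℕ) [NeZero r] (hr : r.Prime) :
    Nonempty (ModPolyData ℂ r (zetaC r)) := by
  obtain ⟨Φ, Ψ, Λ, h⟩ := exists_cosetPolys r hr
  -- the functions involved, as elements of `PM`
  let jD : PM := ⟨fun z => jFun (dilPt r z), (qLaurent_j_dil r).1⟩
  let jDD : PM := ⟨fun z => jFun (dilPt (r * r) z), (qLaurent_j_dil (r * r)).1⟩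
  let jSh : ℕ → PM := fun c => ⟨fun z => jFun (shiftPt r c z), (qLaurent_j_shift r c).1⟩
  let dDD : PM := ⟨fun z => ModularForm.discriminant (dilPt (r * r) z),
    (qLaurent_disc_dil (r * r)).1⟩
  let dInvD : PM := ⟨fun z => (ModularForm.discriminant (dilPt r z))⁻¹,
    (qLaurent_inv_disc_dil r).1⟩
  let dSh : ℕ → PM := fun c => ⟨fun z => ModularForm.discriminant (shiftPt r c z),
    (qLaurent_disc_shift r c).1⟩
  let wD : PM := algebraMap ℂ PM ((r : ℂ) ^ 12) * dDD * dInvD
  let vSh : ℕ → PM := fun c => dSh c * dInvD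
  -- their expansions
  have hjD : qLaurent jD = qExpand ℂ r (jS ℂ) := (qLaurent_j_dil r).2
  have hjDD : qLaurent jDD = qExpand ℂ (r * r) (jS ℂ) := (qLaurent_j_dil (r * r)).2
  have hjSh : ∀ c, qLaurent (jSh c) = tw (zetaC r ^ c) (jS ℂ) := fun c => (qLaurent_j_shift r c).2
  have hwD : qLaurent wD = (r : LaurentSeries ℂ) ^ 12 * qExpand ℂ r (WS ℂ r) := by
    have h1 : qLaurent dDD = qExpand ℂ (r * r) (deltaS ℂ) := (qLaurent_disc_dil (r * r)).2
    have h2 : qLaurent dInvD = qExpand ℂ r (deltaInvS ℂ) := (qLaurent_inv_disc_dil r).2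
    show qLaurent (algebraMap ℂ PM ((r : ℂ) ^ 12) * dDD * dInvD) = _
    rw [map_mul, map_mul, h1, h2, AlgHom.commutes, map_pow, map_natCast, WS_eq, map_mul,
      qExpand_qExpand, mul_assoc]
  have hvSh : ∀ c, qLaurent (vSh c) = tw (zetaC r ^ c) (VS ℂ r) := by
    intro c
    have h1 : qLaurent (dSh c) = tw (zetaC r ^ c) (deltaS ℂ) := (qLaurent_disc_shift r c).2
    have h2 : qLaurent dInvD = qExpand ℂ r (deltaInvS ℂ) := (qLaurent_inv_disc_dil r).2
    have hpow : (zetaC r ^ c) ^ r = 1 := by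
      rw [← pow_mul, mul_comm, pow_mul, (isPrimitiveRoot_zetaC r).pow_eq_one, one_pow]
    show qLaurent (dSh c * dInvD) = _
    rw [map_mul, h1, h2, VS_eq, map_mul, tw_qExpand_of_pow_eq_one _ _ hpow]
  -- pointwise values
  have hwDz : ∀ z : ℍ, (wD : ℍ → ℂ) z = (r : ℂ) ^ 12 *
      ModularForm.discriminant (dilPt r (dilPt r z)) / ModularForm.discriminant (dilPt r z) := by
    intro z
    rw [dilPt_dilPt, div_eq_mul_inv]
    rfl
  have hvShz : ∀ (c : ℕ) (z : ℍ), (vSh c : ℍ → ℂ) z =
      ModularForm.discriminant (rootPt r c (dilPt r z)) /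
        ModularForm.discriminant (dilPt r z) := by
    intro c z
    rw [rootPt_dilPt, div_eq_mul_inv]
    rfl
  have hjDDz : ∀ z : ℍ, (jDD : ℍ → ℂ) z = jFun (dilPt r (dilPt r z)) := by
    intro z
    rw [dilPt_dilPt]
  have hjShz : ∀ (c : ℕ) (z : ℍ), (jSh c : ℍ → ℂ) z = jFun (rootPt r c (dilPt r z)) := by
    intro c z
    rw [rootPt_dilPt]
  -- the three identities in `PM[X]`
  have keyΦ : Φ.map (Polynomial.aeval jD : Polynomial ℂ →ₐ[ℂ] PM).toRingHom =
      (X - C jDD) * ∏ c ∈ Finset.range r, (X - C (jSh c)) := by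
    refine poly_ext fun z => ?_
    rw [Polynomial.map_map, evPt_comp_aeval, (h (dilPt r z)).1]
    simp only [Polynomial.map_mul, Polynomial.map_sub, Polynomial.map_X, Polynomial.map_C,
      Polynomial.map_prod, evPt_apply, hjDDz, hjShz]
  have keyΨ : Ψ.map (Polynomial.aeval jD : Polynomial ℂ →ₐ[ℂ] PM).toRingHom =
      (X - C wD) * ∏ c ∈ Finset.range r, (X - C (vSh c)) := by
    refine poly_ext fun z => ?_
    rw [Polynomial.map_map, evPt_comp_aeval, (h (dilPt r z)).2.1]
    simp only [Polynomial.map_mul, Polynomial.map_sub, Polynomial.map_X, Polynomial.map_C,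
      Polynomial.map_prod, evPt_apply, hwDz, hvShz]
  have keyΛ : Λ.map (Polynomial.aeval jD : Polynomial ℂ →ₐ[ℂ] PM).toRingHom =
      C wD * ∏ c ∈ Finset.range r, (X - C (jSh c)) +
        (X - C jDD) * ∑ c ∈ Finset.range r, C (vSh c) *
          ∏ c' ∈ (Finset.range r).erase c, (X - C (jSh c')) := by
    refine poly_ext fun z => ?_
    rw [Polynomial.map_map, evPt_comp_aeval, (h (dilPt r z)).2.2]
    simp only [Polynomial.map_mul, Polynomial.map_sub, Polynomial.map_X, Polynomial.map_C,
      Polynomial.map_prod, Polynomial.map_add, Polynomial.map_sum, evPt_apply, hwDz, hvShz,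
      hjDDz, hjShz]
  refine ⟨⟨Φ, Ψ, Λ, ?_, ?_, ?_⟩⟩
  · have := congrArg (Polynomial.map (qLaurent : PM →+* LaurentSeries ℂ)) keyΦ
    rw [Polynomial.map_map, qLaurent_comp_aeval, hjD] at this
    rw [this]
    simp only [Polynomial.map_mul, Polynomial.map_sub, Polynomial.map_X, Polynomial.map_C,
      Polynomial.map_prod, RingHom.coe_coe, hjDD, hjSh]
  · have := congrArg (Polynomial.map (qLaurent : PM →+* LaurentSeries ℂ)) keyΨ
    rw [Polynomial.map_map, qLaurent_comp_aeval, hjD] at this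
    rw [this]
    simp only [Polynomial.map_mul, Polynomial.map_sub, Polynomial.map_X, Polynomial.map_C,
      Polynomial.map_prod, RingHom.coe_coe, hwD, hvSh]
  · have := congrArg (Polynomial.map (qLaurent : PM →+* LaurentSeries ℂ)) keyΛ
    rw [Polynomial.map_map, qLaurent_comp_aeval, hjD] at this
    rw [this]
    simp only [Polynomial.map_mul, Polynomial.map_sub, Polynomial.map_X, Polynomial.map_C,
      Polynomial.map_prod, Polynomial.map_add, Polynomial.map_sum, RingHom.coe_coe, hwD, hvSh,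
      hjDD, hjSh]

end Fermat.Agent.S28
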