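import Mathlib
import Fermat.Agent.S28.ModPolyC
import Fermat.Agent.S28.Descent

set_option autoImplicit false

/-! # S28 Block 6: the analytic block (modular polynomials with integral coefficients) -/

namespace Fermat.Agent.S28

/-- Block 6: for every prime `r` and every field `k` with a primitive `r`-th root of unity `ζ`,
the modular polynomial data exists over `k`. -/
theorem exists_modPolyData (k : Type*) [Field k] (r : ℕ) [NeZero r] (hr : r.Prime) (ζ : kˣ)
    (hζ : IsPrimitiveRoot ζ r) : Nonempty (ModPolyData k r ζ) := by
  obtain ⟨D⟩ := modPolyData_complex r hr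
  exact modPolyData_descent r hr (zetaC r) (isPrimitiveRoot_zetaC r) D k ζ hζ

end Fermat.Agent.S28
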