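import Mathlib
import Fermat.Prelude.Def_ModularCurve_X0
import Fermat.Prelude.Def_ModularCurve_LaurentCoeff

set_option autoImplicit false

noncomputable section

open ModularCurve Polynomial

namespace Fermat.Agent.S28

namespace PrimeBase

variable {k : Type*} [Field k]

/-- If `J` has order `-1`, then `P(J)` has a nonzero coefficient at `-deg P` for `P ≠ 0`. -/
theorem coeff_aeval_ne_zero (J : LaurentSeries k) (hJ : J.order = -1)
    (P : k[X]) (hP : P ≠ 0) :
    (Polynomial.aeval J P).coeff (-(P.natDegree : ℤ)) ≠ 0 := by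
  have hJ0 : J ≠ 0 := by
    rintro rfl
    rw [HahnSeries.order_zero] at hJ
    omega
  have hord : ∀ n : ℕ, (J ^ n).order = -(n : ℤ) := by
    intro n
    rw [HahnSeries.order_pow, hJ]
    simp
  rw [Polynomial.aeval_eq_sum_range, HahnSeries.coeff_sum, Finset.sum_range_succ,
    Finset.sum_eq_zero, zero_add]
  · rw [Algebra.smul_def, ModularCurve.algebraMap_laurentSeries_eq_single,
      HahnSeries.coeff_single_mul, sub_zero]
    refine mul_ne_zero (Polynomial.leadingCoeff_ne_zero.mpr hP) ?_
    rw [← hord P.natDegree]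
    exact fun h => pow_ne_zero _ hJ0 (HahnSeries.coeff_order_eq_zero.mp h)
  · intro i hi
    rw [Algebra.smul_def, ModularCurve.algebraMap_laurentSeries_eq_single,
      HahnSeries.coeff_single_mul, sub_zero, HahnSeries.coeff_eq_zero_of_lt_order, mul_zero]
    rw [hord]
    have := Finset.mem_range.mp hi
    omega

theorem aeval_injective (J : LaurentSeries k) (hJ : J.order = -1) :
    Function.Injective (Polynomial.aeval (R := k) J) := by
  rw [injective_iff_map_eq_zero]
  intro P hP
  by_contra hne
  exact coeff_aeval_ne_zero J hJ P hne (by rw [hP]; rfl)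

theorem order_aeval_le (J : LaurentSeries k) (hJ : J.order = -1)
    (P : k[X]) (hP : P ≠ 0) : (Polynomial.aeval J P).order ≤ 0 :=
  le_trans (HahnSeries.order_le_of_coeff_ne_zero (coeff_aeval_ne_zero J hJ P hP))
    (by omega)

end PrimeBase

/-- (G1) prime-level non-rationality: from the modular unit and its Lagrange interpolation. -/
theorem qExpand_notMem_adjoin_of_modPoly {k : Type*} [Field k] (r : ℕ) [NeZero r]
    (J U : LaurentSeries k) (hJ : J.order = -1) (hU0 : U ≠ 0) (hU : 0 < U.order)
    (Φ Ψ Λ : Polynomial (Polynomial k)) (hΨm : Ψ.Monic)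
    (hΨ : (Ψ.map (Polynomial.aeval J).toRingHom).eval U = 0)
    (hΛ : (Λ.map (Polynomial.aeval J).toRingHom).eval (qExpand k r J) =
      U * ((derivative Φ).map (Polynomial.aeval J).toRingHom).eval (qExpand k r J))
    (hsimple : ((derivative Φ).map (Polynomial.aeval J).toRingHom).eval (qExpand k r J) ≠ 0) :
    qExpand k r J ∉ IntermediateField.adjoin k {J} := by
  intro hmem
  have hinj := PrimeBase.aeval_injective J hJ
  -- the embedding of `k(X)` sending `X` to `J`
  let φ : RatFunc k →ₐ[k] LaurentSeries k := IsFractionRing.liftAlgHom (K := RatFunc k) hinj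
  have hφ : ∀ p : k[X], φ (algebraMap k[X] (RatFunc k) p) = Polynomial.aeval J p := by
    intro p
    show IsFractionRing.liftAlgHom (K := RatFunc k) hinj _ = _
    rw [IsFractionRing.liftAlgHom_apply]
    exact IsFractionRing.lift_algebraMap (K := RatFunc k) hinj p
  have hcomp : (φ : RatFunc k →+* LaurentSeries k).comp (algebraMap k[X] (RatFunc k)) =
      (Polynomial.aeval J).toRingHom := RingHom.ext hφ
  have hle : IntermediateField.adjoin k {J} ≤ φ.fieldRange := by
    rw [IntermediateField.adjoin_le_iff]
    rintro x rfl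
    exact ⟨algebraMap k[X] (RatFunc k) Polynomial.X, by
      show φ _ = _
      rw [hφ, Polynomial.aeval_X]⟩
  obtain ⟨ρ, hρ⟩ := hle hmem
  have hρ' : φ ρ = qExpand k r J := hρ
  have key : ∀ Q : Polynomial (Polynomial k),
      (Q.map (Polynomial.aeval J).toRingHom).eval (qExpand k r J) =
        φ ((Q.map (algebraMap k[X] (RatFunc k))).eval ρ) := by
    intro Q
    rw [Polynomial.eval_map, Polynomial.eval_map, ← hρ', ← hcomp]
    exact (Polynomial.hom_eval₂ Q (algebraMap k[X] (RatFunc k))
      (φ : RatFunc k →+* LaurentSeries k) ρ).symm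
  rw [key Λ, key (derivative Φ)] at hΛ
  rw [key (derivative Φ)] at hsimple
  set d : RatFunc k := ((derivative Φ).map (algebraMap k[X] (RatFunc k))).eval ρ with hd
  set l : RatFunc k := (Λ.map (algebraMap k[X] (RatFunc k))).eval ρ with hl
  have hd0 : d ≠ 0 := by
    rintro h
    rw [h, map_zero] at hsimple
    exact hsimple rfl
  have hUu : U = φ (l / d) := by
    rw [map_div₀, hΛ, mul_div_assoc, div_self hsimple, mul_one]
  -- `u = l / d` is integral over `k[X]`
  have hint : IsIntegral k[X] (l / d) := by
    refine ⟨Ψ, hΨm, ?_⟩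
    have h1 : φ (Polynomial.eval₂ (algebraMap k[X] (RatFunc k)) (l / d) Ψ) = 0 := by
      show (φ : RatFunc k →+* LaurentSeries k) _ = 0
      rw [Polynomial.hom_eval₂ Ψ (algebraMap k[X] (RatFunc k))
        (φ : RatFunc k →+* LaurentSeries k) (l / d)]
      have : Polynomial.eval₂ ((φ : RatFunc k →+* LaurentSeries k).comp
          (algebraMap k[X] (RatFunc k))) ((φ : RatFunc k →+* LaurentSeries k) (l / d)) Ψ =
          (Ψ.map (Polynomial.aeval J).toRingHom).eval U := by
        rw [Polynomial.eval_map, hcomp, hUu]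
        rfl
      rw [this, hΨ]
    exact (map_eq_zero_iff φ φ.injective).mp h1
  obtain ⟨P, hP⟩ := IsIntegrallyClosed.isIntegral_iff.mp hint
  have hUP : U = Polynomial.aeval J P := by
    rw [hUu, ← hP, hφ]
  have hP0 : P ≠ 0 := by
    rintro rfl
    exact hU0 (by rw [hUP, map_zero])
  have := PrimeBase.order_aeval_le J hJ P hP0
  rw [← hUP] at this
  omega

end Fermat.Agent.S28
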