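import Mathlib
import Fermat.Agent.S28.Defs
import Fermat.Agent.S28.SeriesBasic
import Fermat.Agent.S28.PrimeBase

set_option autoImplicit false

/-! # S28: `j(q^r)` is not a rational function of `j(q)` in characteristic prime to `r`

This is the level-one input `(H2_r)` of the mod-`ℓ` tower, deduced from `ModPolyData`. -/

open ModularCurve Polynomial

namespace Fermat.Agent.S28

noncomputable section

namespace NotRational

variable {k : Type*} [Field k]

theorem order_eq_of_coeff {x : LaurentSeries k} {n : ℤ} (h1 : x.coeff n ≠ 0)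
    (h2 : ∀ m < n, x.coeff m = 0) : x.order = n := by
  have hx : x ≠ 0 := HahnSeries.ne_zero_of_coeff_ne_zero h1
  refine le_antisymm (HahnSeries.order_le_of_coeff_ne_zero h1) ?_
  by_contra hlt
  exact hx (HahnSeries.coeff_order_eq_zero.mp (h2 _ (not_le.mp hlt)))

theorem evalAt_eq_aeval (x : LaurentSeries k) :
    evalAt x = (Polynomial.aeval x : Polynomial k →ₐ[k] LaurentSeries k).toRingHom := by
  refine Polynomial.ringHom_ext (fun a => ?_) ?_
  · show Polynomial.eval₂ HahnSeries.C x (C a) = Polynomial.aeval x (C a)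
    rw [Polynomial.aeval_C, Polynomial.eval₂_C,
      ModularCurve.algebraMap_laurentSeries_eq_single, HahnSeries.C_apply]
  · simp [evalAt]

theorem evalAt_qExpand (d : ℕ) [NeZero d] (x : LaurentSeries k) :
    evalAt (qExpand k d x) = (qExpand k d).comp (evalAt x) := by
  refine Polynomial.ringHom_ext (fun a => ?_) ?_
  · simp [evalAt]
  · simp [evalAt]

theorem order_jS : (jS k).order = -1 :=
  order_eq_of_coeff (by rw [jS_coeff_neg_one]; exact one_ne_zero) fun _ hm => jS_coeff_of_lt hm

theorem natCast_eq_C (n : ℕ) : (n : LaurentSeries k) = HahnSeries.C (n : k) :=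
  (map_natCast (HahnSeries.C : k →+* LaurentSeries k) n).symm

theorem coeff_hC_mul (a : k) (x : LaurentSeries k) (m : ℤ) :
    (HahnSeries.C a * x).coeff m = a * x.coeff m := by
  rw [HahnSeries.C_apply, HahnSeries.coeff_single_mul, sub_zero]

end NotRational

open NotRational in
/-- `(H2_r)`: for a prime `r` invertible in `k`, `j(q^r)` is not a rational function of `j(q)`. -/
theorem qExpand_jS_notMem (k : Type*) [Field k] (r : ℕ) [NeZero r] (hr : r.Prime) (ζ : kˣ)
    (hζ : IsPrimitiveRoot ζ r) (D : ModPolyData k r ζ) :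
    qExpand k r (jS k) ∉ IntermediateField.adjoin k {jS k} := by
  have hrk : (r : k) ≠ 0 := by
    have h1 : IsPrimitiveRoot (ζ : k) r := IsPrimitiveRoot.coe_units_iff.mpr hζ
    exact (h1.neZero').out
  have hr2 : 2 ≤ r := hr.two_le
  set J : LaurentSeries k := jS k with hJdef
  set U : LaurentSeries k := (r : LaurentSeries k) ^ 12 * WS k r with hUdef
  have hJ : J.order = -1 := order_jS
  -- the order of `U`
  have hUC : U = HahnSeries.C ((r : k) ^ 12) * WS k r := by
    rw [hUdef, natCast_eq_C, map_pow]
  have hUord : U.order = (r : ℤ) - 1 := by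
    refine order_eq_of_coeff ?_ fun m hm => ?_
    · rw [hUC, coeff_hC_mul, WS_coeff, mul_one]
      exact pow_ne_zero _ hrk
    · rw [hUC, coeff_hC_mul, WS_coeff_of_lt r hm, mul_zero]
  have hU0 : U ≠ 0 := by
    intro h
    rw [h, HahnSeries.order_zero] at hUord
    omega
  have hUpos : 0 < U.order := by
    rw [hUord]
    omega
  -- transport along `qExpand k r`
  have hinjq : Function.Injective (qExpand k r) := qExpand_injective r
  have hUq : (r : LaurentSeries k) ^ 12 * qExpand k r (WS k r) = qExpand k r U := by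
    rw [hUdef, map_mul, map_pow, map_natCast]
  have hJrr : qExpand k (r * r) J = qExpand k r (qExpand k r J) := (qExpand_qExpand r r J).symm
  have hmapmap : ∀ Q : Polynomial (Polynomial k),
      Q.map (evalAt (qExpand k r J)) = (Q.map (evalAt J)).map (qExpand k r) := by
    intro Q
    rw [Polynomial.map_map, evalAt_qExpand]
  set G : Polynomial (LaurentSeries k) := ∏ c ∈ Finset.range r, (X - C (tw (ζ ^ c) J)) with hG
  have hGne : G.eval (qExpand k (r * r) J) ≠ 0 := by
    rw [hG, Polynomial.eval_prod]
    refine Finset.prod_ne_zero_iff.mpr fun c _ => ?_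
    rw [Polynomial.eval_sub, Polynomial.eval_X, Polynomial.eval_C]
    intro h0
    have h1 := congrArg (fun x : LaurentSeries k => x.coeff (-1)) h0
    simp only [HahnSeries.coeff_sub, HahnSeries.coeff_zero, tw_coeff] at h1
    rw [qExpand_coeff_of_not_dvd (r * r) J, hJdef, jS_coeff_neg_one, mul_one, zero_sub,
      neg_eq_zero] at h1
    · exact (Units.ne_zero _) h1
    · intro hdvd
      have h2 : ((r * r : ℕ) : ℤ) ∣ 1 := by
        rcases hdvd with ⟨c, hc⟩
        exact ⟨-c, by linarith⟩
      have h3 : (r * r : ℕ) ∣ 1 := by exact_mod_cast h2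
      have h4 : r * r ≤ 1 := Nat.le_of_dvd one_pos h3
      nlinarith
  -- monicity of `Ψ`
  have hinjJ : Function.Injective (evalAt J) := by
    rw [evalAt_eq_aeval]
    exact PrimeBase.aeval_injective J hJ
  have hinj : Function.Injective (evalAt (qExpand k r J)) := by
    rw [evalAt_qExpand]
    exact hinjq.comp hinjJ
  have hΨm : D.Ψ.Monic := by
    refine Polynomial.monic_of_injective hinj ?_
    rw [D.hΨ]
    exact (Polynomial.monic_X_sub_C _).mul
      (Polynomial.monic_prod_of_monic _ _ fun c _ => Polynomial.monic_X_sub_C _)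
  -- `Ψ(U, J) = 0`
  have hΨ : (D.Ψ.map (evalAt J)).eval U = 0 := by
    apply hinjq
    rw [← Polynomial.eval_map_apply, ← hmapmap, D.hΨ, hUq, map_zero, Polynomial.eval_mul,
      Polynomial.eval_sub, Polynomial.eval_X, Polynomial.eval_C, sub_self, zero_mul]
  -- the Lagrange identity
  have hΛ1 : (D.Λ.map (evalAt (qExpand k r J))).eval (qExpand k (r * r) J) =
      qExpand k r U * G.eval (qExpand k (r * r) J) := by
    rw [D.hΛ, hUq, Polynomial.eval_add, Polynomial.eval_mul, Polynomial.eval_mul,
      Polynomial.eval_sub, Polynomial.eval_X, Polynomial.eval_C, Polynomial.eval_C, sub_self,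
      zero_mul, add_zero]
  have hΦ1 : (derivative (D.Φ.map (evalAt (qExpand k r J)))).eval (qExpand k (r * r) J) =
      G.eval (qExpand k (r * r) J) := by
    rw [D.hΦ, Polynomial.derivative_mul, Polynomial.eval_add, Polynomial.eval_mul,
      Polynomial.eval_mul, Polynomial.eval_sub, Polynomial.eval_X, Polynomial.eval_C, sub_self,
      zero_mul, add_zero, Polynomial.derivative_sub, Polynomial.derivative_X,
      Polynomial.derivative_C, sub_zero, Polynomial.eval_one, one_mul]
  have hΦ2 : (derivative (D.Φ.map (evalAt (qExpand k r J)))).eval (qExpand k (r * r) J) =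
      qExpand k r (((derivative D.Φ).map (evalAt J)).eval (qExpand k r J)) := by
    rw [Polynomial.derivative_map, hmapmap, hJrr, Polynomial.eval_map_apply]
  have hΛ : (D.Λ.map (evalAt J)).eval (qExpand k r J) =
      U * ((derivative D.Φ).map (evalAt J)).eval (qExpand k r J) := by
    apply hinjq
    rw [map_mul, ← hΦ2, hΦ1, ← hΛ1, hmapmap, hJrr, Polynomial.eval_map_apply]
  have hsimple : ((derivative D.Φ).map (evalAt J)).eval (qExpand k r J) ≠ 0 := by
    intro h0
    apply hGne
    rw [← hΦ1, hΦ2, h0, map_zero]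
  rw [evalAt_eq_aeval] at hΨ hΛ hsimple
  exact qExpand_notMem_adjoin_of_modPoly r J U hJ hU0 hUpos D.Φ D.Ψ D.Λ hΨm hΨ hΛ hsimple

end

end Fermat.Agent.S28
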