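import Mathlib

set_option autoImplicit false

/-! # S28 Block 5: generic field theory for the tower

* `TowerAlgX.exists_algHom_extend`: extension of an embedding to a simple extension with a
  prescribed image of the generator;
* `TowerAlgX.linearIndependent_mul_of_tower`: linear independence in towers;
* `TowerAlgX.linearIndependent_pow_of_irreducible`, `TowerAlgX.linearIndependent_step`. -/

open Polynomial IntermediateField

namespace Fermat.Agent.S28

namespace TowerAlgX

variable {k E : Type*} [Field k] [Field E] [Algebra k E]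

/-- Linear independence in a tower `K0 ≤ C ≤ E` of subfields: if the `v i ∈ C` are independent
over `K0` and the `w j` are independent over `C`, then the products are independent over
`K0`. -/
theorem linearIndependent_mul_of_tower (K0 C : IntermediateField k E) (hK0C : K0 ≤ C)
    {ι κ : Type*} [Fintype ι] [Fintype κ]
    (v : ι → E) (hvC : ∀ i, v i ∈ C) (hv : LinearIndependent K0 v)
    (w : κ → E) (hw : LinearIndependent C w) :
    LinearIndependent K0 (fun p : ι × κ => v p.1 * w p.2) := by
  classical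
  rw [Fintype.linearIndependent_iff] at hv hw ⊢
  intro g hg
  have hmem : ∀ j : κ, ∑ i, (g (i, j) : E) * v i ∈ C := fun j =>
    C.sum_mem fun i _ => C.mul_mem (hK0C (g (i, j)).2) (hvC i)
  have h1 : ∀ j : κ, (⟨∑ i, (g (i, j) : E) * v i, hmem j⟩ : C) = 0 := by
    refine hw (fun j => ⟨∑ i, (g (i, j) : E) * v i, hmem j⟩) ?_
    rw [← hg, Fintype.sum_prod_type, Finset.sum_comm]
    refine Finset.sum_congr rfl fun j _ => ?_
    rw [IntermediateField.smul_def, smul_eq_mul, Finset.sum_mul]
    refine Finset.sum_congr rfl fun i _ => ?_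
    rw [IntermediateField.smul_def, smul_eq_mul, mul_assoc]
  rintro ⟨i, j⟩
  refine hv (fun i => g (i, j)) ?_ i
  have h2 := congrArg Subtype.val (h1 j)
  simp only [ZeroMemClass.coe_zero] at h2
  rw [← h2]
  refine Finset.sum_congr rfl fun i _ => ?_
  rw [IntermediateField.smul_def, smul_eq_mul]

/-- If `x` is a root of an irreducible polynomial `P` over `C`, then `1, x, …, x^(deg P - 1)`
are linearly independent over `C`. -/
theorem linearIndependent_pow_of_irreducible (C : IntermediateField k E) (x : E)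
    (P : Polynomial C) (hP : Irreducible P) (hx : Polynomial.aeval x P = 0) :
    LinearIndependent C (fun e : Fin P.natDegree => x ^ (e : ℕ)) := by
  have hmin := minpoly.eq_of_irreducible hP hx
  have hdeg : (minpoly C x).natDegree = P.natDegree := by
    rw [← hmin, Polynomial.natDegree_mul_C]
    exact inv_ne_zero (Polynomial.leadingCoeff_ne_zero.mpr hP.ne_zero)
  have h := linearIndependent_pow (K := C) x
  exact h.comp (Fin.cast hdeg.symm) (Fin.cast_injective _)

/-- The induction step for independent families in the tower. -/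
theorem linearIndependent_step (K0 C : IntermediateField k E) (hK0C : K0 ≤ C)
    {m : ℕ} (v : Fin m → E) (hvC : ∀ i, v i ∈ C) (hv : LinearIndependent K0 v)
    (x : E) (P : Polynomial C) (hP : Irreducible P) (hx : Polynomial.aeval x P = 0) :
    LinearIndependent K0 (fun p : Fin m × Fin P.natDegree => v p.1 * x ^ (p.2 : ℕ)) :=
  linearIndependent_mul_of_tower K0 C hK0C (ι := Fin m) (κ := Fin P.natDegree) v hvC hv
    (fun e : Fin P.natDegree => x ^ (e : ℕ)) (linearIndependent_pow_of_irreducible C x P hP hx)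

/-- The same, indexed by `Fin (m * deg P)`. -/
theorem linearIndependent_step' (K0 C : IntermediateField k E) (hK0C : K0 ≤ C)
    {m : ℕ} (v : Fin m → E) (hvC : ∀ i, v i ∈ C) (hv : LinearIndependent K0 v)
    (x : E) (P : Polynomial C) (hP : Irreducible P) (hx : Polynomial.aeval x P = 0) :
    LinearIndependent K0 (fun i : Fin (m * P.natDegree) =>
      v (finProdFinEquiv.symm i).1 * x ^ ((finProdFinEquiv.symm i).2 : ℕ)) :=
  (linearIndependent_step K0 C hK0C v hvC hv x P hP hx).comp _ finProdFinEquiv.symm.injective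

/-- Extension of an embedding: if `x` is a root of the irreducible polynomial `P` over `C`,
`σ : C → Ω` is a `k`-embedding and `y ∈ Ω` is a root of `σ(P)`, then `σ` extends to every
intermediate field `C ≤ L ≤ C(x)` containing `x`, with `x ↦ y`. -/
theorem exists_algHom_extend {Ω : Type*} [Field Ω] [Algebra k Ω]
    (C : IntermediateField k E) (x : E) (σ : C →ₐ[k] Ω)
    (P : Polynomial C) (hP : Irreducible P) (hx : Polynomial.aeval x P = 0)
    (y : Ω) (hy : (P.map (σ : C →+* Ω)).eval y = 0)
    (L : IntermediateField k E) (hCL : C ≤ L) (hxL : x ∈ L)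
    (hL : L ≤ IntermediateField.adjoin k ((C : Set E) ∪ {x})) :
    ∃ σ' : L →ₐ[k] Ω, (∀ (c : E) (hc : c ∈ C), σ' ⟨c, hCL hc⟩ = σ ⟨c, hc⟩) ∧
      σ' ⟨x, hxL⟩ = y := by
  let algCΩ : Algebra C Ω := (σ : C →+* Ω).toAlgebra
  have hint : IsIntegral C x := isAlgebraic_iff_isIntegral.mp ⟨P, hP.ne_zero, hx⟩
  have hmin : Polynomial.aeval y (minpoly C x) = 0 := by
    rw [← minpoly.eq_of_irreducible hP hx, map_mul]
    have : Polynomial.aeval y P = 0 := by
      rw [Polynomial.aeval_def, ← Polynomial.eval_map]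
      exact hy
    rw [this, zero_mul]
  let pb := IntermediateField.adjoin.powerBasis hint
  have hgen : pb.gen = AdjoinSimple.gen C x := IntermediateField.adjoin.powerBasis_gen hint
  have hmin' : Polynomial.aeval y (minpoly C pb.gen) = 0 := by
    rw [hgen, IntermediateField.minpoly_gen]
    exact hmin
  let τ : C⟮x⟯ →ₐ[C] Ω := pb.lift y hmin'
  have hτgen : τ (AdjoinSimple.gen C x) = y := by
    rw [← hgen]
    exact pb.lift_gen y hmin'
  have hτC : ∀ c : C, τ (algebraMap C C⟮x⟯ c) = σ c := fun c => τ.commutes c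
  have hL' : ∀ z ∈ L, z ∈ C⟮x⟯ := by
    intro z hz
    have h1 := hL hz
    rw [← IntermediateField.restrictScalars_adjoin] at h1
    exact h1
  let σ' : L →ₐ[k] Ω :=
    { toFun := fun z => τ ⟨z.1, hL' z.1 z.2⟩
      map_one' := by
        have : (⟨(1 : L).1, hL' _ (1 : L).2⟩ : C⟮x⟯) = 1 := rfl
        rw [this, map_one]
      map_mul' := fun a b => by
        have : (⟨(a * b).1, hL' _ (a * b).2⟩ : C⟮x⟯) =
            ⟨a.1, hL' _ a.2⟩ * ⟨b.1, hL' _ b.2⟩ := rfl
        rw [this, map_mul]
      map_zero' := by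
        have : (⟨(0 : L).1, hL' _ (0 : L).2⟩ : C⟮x⟯) = 0 := rfl
        rw [this, map_zero]
      map_add' := fun a b => by
        have : (⟨(a + b).1, hL' _ (a + b).2⟩ : C⟮x⟯) =
            ⟨a.1, hL' _ a.2⟩ + ⟨b.1, hL' _ b.2⟩ := rfl
        rw [this, map_add]
      commutes' := fun a => by
        have : (⟨(algebraMap k L a).1, hL' _ (algebraMap k L a).2⟩ : C⟮x⟯) =
            algebraMap C C⟮x⟯ (algebraMap k C a) := rfl
        rw [this, hτC, σ.commutes] }
  refine ⟨σ', fun c hc => ?_, ?_⟩
  · show τ ⟨c, _⟩ = σ ⟨c, hc⟩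
    have : (⟨c, hL' c (hCL hc)⟩ : C⟮x⟯) = algebraMap C C⟮x⟯ ⟨c, hc⟩ := rfl
    rw [this, hτC]
  · show τ ⟨x, _⟩ = y
    have : (⟨x, hL' x hxL⟩ : C⟮x⟯) = AdjoinSimple.gen C x := rfl
    rw [this, hτgen]

end TowerAlgX

end Fermat.Agent.S28
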