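import Mathlib
import Fermat.Prelude.Def_ModularCurve_X0ModL
import Fermat.Agent.S28.SeriesBasic
import Fermat.Agent.S28.TowerAlgX

set_option autoImplicit false

/-! # S28 Block 5: the induction invariant of the tower and its generic step -/

open ModularCurve Polynomial

namespace Fermat.Agent.S28

section core

variable {k : Type*} [Field k]

/-- The level-`M` generators `jb(q^d)`, `d ∣ M`. -/
def towerGens (jb : LaurentSeries k) (M : ℕ) : Set (LaurentSeries k) :=
  {x : LaurentSeries k | ∃ (d : ℕ) (_ : NeZero d), d ∣ M ∧ x = qExpand k d jb}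

/-- The induction invariant on explicit data: a subfield `C` (the chain field of level `M`),
its descending embedding `σ` and `ψ(M)` independent elements. -/
structure GoodData (jb : LaurentSeries k) (M : ℕ) [NeZero M]
    (C : IntermediateField k (LaurentSeries k)) (σ : C →ₐ[k] LaurentSeries k)
    (v : Fin (dedekindPsi M) → LaurentSeries k) : Prop where
  le_gens : C ≤ IntermediateField.adjoin k (towerGens jb M)
  base_le : IntermediateField.adjoin k {jb} ≤ C
  top : ∃ h : qExpand k M jb ∈ C, σ ⟨_, h⟩ = jb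
  prev : ∀ (p : ℕ) [NeZero p] (m : ℕ) [NeZero m], p.Prime → M = m * p →
    (∀ p' : ℕ, p'.Prime → p' ∣ M → p ≤ p') →
    ∃ h : qExpand k m jb ∈ C, σ ⟨_, h⟩ = qExpand k p jb
  mem_closure : ∀ i, v i ∈ Subring.closure (towerGens jb M)
  mem : ∀ i, v i ∈ C
  indep : LinearIndependent ↥(IntermediateField.adjoin k {jb}) v

/-- The induction invariant. -/
def Good (jb : LaurentSeries k) (M : ℕ) [NeZero M] : Prop :=
  ∃ (C : IntermediateField k (LaurentSeries k)) (σ : C →ₐ[k] LaurentSeries k)
    (v : Fin (dedekindPsi M) → LaurentSeries k), GoodData jb M C σ v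

namespace TowerGood

theorem towerGens_mono (jb : LaurentSeries k) {M N : ℕ} (h : M ∣ N) :
    towerGens jb M ⊆ towerGens jb N := by
  rintro x ⟨d, hd, hdM, rfl⟩
  exact ⟨d, hd, hdM.trans h, rfl⟩

theorem mem_towerGens_self (jb : LaurentSeries k) (M : ℕ) [NeZero M] :
    qExpand k M jb ∈ towerGens jb M :=
  ⟨M, inferInstance, dvd_rfl, rfl⟩

end TowerGood

open TowerGood in
/-- (i) common part of the step: adjoin a root of an irreducible polynomial. -/
theorem good_of_irreducible (jb : LaurentSeries k) (M r : ℕ) [NeZero M] [NeZero r]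
    (hr : r.Prime) (hmin : ∀ p : ℕ, p.Prime → p ∣ M → r ≤ p)
    (C : IntermediateField k (LaurentSeries k)) (σ : C →ₐ[k] LaurentSeries k)
    (v : Fin (dedekindPsi M) → LaurentSeries k) (hG : GoodData jb M C σ v)
    (P : Polynomial C) (hP : Irreducible P)
    (hψ : dedekindPsi (M * r) = dedekindPsi M * P.natDegree)
    (hx : Polynomial.aeval (qExpand k (M * r) jb) P = 0)
    (hy : (P.map ((qExpand k r).comp (σ : C →+* LaurentSeries k))).eval jb = 0) :
    Good jb (M * r) := by
  set x : LaurentSeries k := qExpand k (M * r) jb with hxdef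
  let C' : IntermediateField k (LaurentSeries k) :=
    IntermediateField.adjoin k ((C : Set (LaurentSeries k)) ∪ {x})
  have hCC' : C ≤ C' := fun c hc => IntermediateField.subset_adjoin k _ (Or.inl hc)
  have hxC' : x ∈ C' := IntermediateField.subset_adjoin k _ (Or.inr rfl)
  let σ0 : C →ₐ[k] LaurentSeries k := (qExpandAlgHomC k r).comp σ
  have hσ0 : (σ0 : C →+* LaurentSeries k) = (qExpand k r).comp (σ : C →+* LaurentSeries k) :=
    RingHom.ext fun _ => rfl
  obtain ⟨σ', hσ'C, hσ'x⟩ := TowerAlgX.exists_algHom_extend C x σ0 P hP hx jb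
    (by rw [hσ0]; exact hy) C' hCC' hxC' le_rfl
  have hgens : towerGens jb M ⊆ towerGens jb (M * r) := towerGens_mono jb (dvd_mul_right M r)
  have hxgen : x ∈ towerGens jb (M * r) := mem_towerGens_self jb (M * r)
  let w : Fin (dedekindPsi M * P.natDegree) → LaurentSeries k := fun i =>
    v (finProdFinEquiv.symm i).1 * x ^ ((finProdFinEquiv.symm i).2 : ℕ)
  refine ⟨C', σ', fun i => w (Fin.cast hψ i), ?_, ?_, ?_, ?_, ?_, ?_, ?_⟩
  · -- le_gens
    refine IntermediateField.adjoin_le_iff.mpr ?_
    rintro y (hy | hy)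
    · exact IntermediateField.adjoin.mono k _ _ hgens (hG.le_gens hy)
    · rw [Set.mem_singleton_iff] at hy
      rw [hy]
      exact IntermediateField.subset_adjoin k _ hxgen
  · -- base_le
    exact hG.base_le.trans hCC'
  · -- top
    exact ⟨hxC', hσ'x⟩
  · -- prev
    intro p _ m _ hp hMr hpmin
    have hpr : p = r := by
      have h1 : p ≤ r := hpmin r hr (dvd_mul_left r M)
      have h2 : p ∣ M * r := ⟨m, by rw [hMr, mul_comm]⟩
      rcases (Nat.Prime.dvd_mul hp).mp h2 with h3 | h3
      · exact le_antisymm h1 (hmin p hp h3)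
      · exact (Nat.prime_dvd_prime_iff_eq hp hr).mp h3
    subst hpr
    have hmM : m = M := by
      have := Nat.eq_of_mul_eq_mul_right (Nat.pos_of_ne_zero (NeZero.ne p)) hMr
      exact this.symm
    subst hmM
    obtain ⟨hmem, hσ⟩ := hG.top
    refine ⟨hCC' hmem, ?_⟩
    rw [hσ'C _ hmem]
    show qExpand k p (σ ⟨_, hmem⟩) = qExpand k p jb
    rw [hσ]
  · -- mem_closure
    intro i
    exact Subring.mul_mem _ (Subring.closure_mono hgens (hG.mem_closure _))
      (Subring.pow_mem _ (Subring.subset_closure hxgen) _)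
  · -- mem
    intro i
    exact C'.mul_mem (hCC' (hG.mem _)) (pow_mem hxC' _)
  · -- indep
    have h := TowerAlgX.linearIndependent_step' (IntermediateField.adjoin k {jb}) C hG.base_le
      v hG.mem hG.indep x P hP hx
    exact h.comp (Fin.cast hψ) (Fin.cast_injective _)

open TowerGood in
/-- (iii) base case. -/
theorem good_one (jb : LaurentSeries k) : Good jb 1 := by
  have h1 : qExpand k 1 jb = jb := qExpand_one_apply jb
  have hmem : qExpand k 1 jb ∈ IntermediateField.adjoin k {jb} := by
    rw [h1]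
    exact IntermediateField.subset_adjoin k _ (Set.mem_singleton _)
  refine ⟨IntermediateField.adjoin k {jb}, (IntermediateField.adjoin k {jb}).val, fun _ => 1,
    ?_, le_rfl, ⟨hmem, ?_⟩, ?_, ?_, ?_, ?_⟩
  · refine IntermediateField.adjoin.mono k _ _ ?_
    rintro y hy
    rw [Set.mem_singleton_iff] at hy
    rw [hy]
    exact ⟨1, inferInstance, dvd_rfl, h1.symm⟩
  · show qExpand k 1 jb = jb
    exact h1
  · intro p _ m _ hp h _
    have : p ∣ 1 := ⟨m, by rw [h, mul_comm]⟩
    exact absurd (Nat.dvd_one.mp this) hp.ne_one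
  · intro i
    exact Subring.one_mem _
  · intro i
    exact one_mem _
  · have hψ : dedekindPsi 1 = 1 := dedekindPsi_one
    have : Subsingleton (Fin (dedekindPsi 1)) := by
      rw [hψ]
      infer_instance
    exact LinearIndependent.of_subsingleton (⟨0, by rw [hψ]; exact one_pos⟩ : Fin (dedekindPsi 1))
      one_ne_zero

end core

end Fermat.Agent.S28
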