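import Mathlib
import Fermat.Prelude.Def_ModularCurve_X0ModL
import Fermat.Agent.S28.SeriesBasic

/-!
# S28, tower block: the new-prime contradiction

For `r` prime, `r ∤ M`: `jb(q^(Mr)) ∉ k(jb(q^d) : d ∣ M)` inside `k((q))`, from the modular
equations (H1) at the primes dividing `M r` and the prime-level statement (H2) at `r`.
-/

set_option autoImplicit false

namespace Fermat.Agent.S28

open ModularCurve Polynomial

noncomputable section

namespace NewPrime

variable {k : Type*} [Field k]

/-! ### Formal points -/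

/-- The formal point `jb(c q^m)`. -/
def fp (jb : LaurentSeries k) (c : kˣ) (m : ℕ) [NeZero m] : LaurentSeries k :=
  qExpand k m (tw c jb)

theorem fp_one (jb : LaurentSeries k) (m : ℕ) [NeZero m] : fp jb 1 m = qExpand k m jb := by
  rw [fp, tw_one]

theorem fp_congr (jb : LaurentSeries k) (c : kˣ) {m n : ℕ} [NeZero m] [NeZero n] (h : m = n) :
    fp jb c m = fp jb c n := by
  subst h; rfl

theorem evalAt_C (x : LaurentSeries k) (c : k) : evalAt x (C c) = HahnSeries.C c := by
  rw [evalAt, Polynomial.coe_eval₂RingHom, Polynomial.eval₂_C]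

theorem evalAt_X (x : LaurentSeries k) : evalAt x X = x := by
  rw [evalAt, Polynomial.coe_eval₂RingHom, Polynomial.eval₂_X]

theorem tw_C (u : kˣ) (c : k) : tw u (HahnSeries.C c) = HahnSeries.C c := by
  ext n
  rw [tw_coeff, HahnSeries.C_apply, HahnSeries.coeff_single]
  split_ifs with h
  · subst h; simp
  · simp

/-- ring homomorphisms fixing the constants commute with `evalAt` -/
theorem comp_evalAt (φ : LaurentSeries k →+* LaurentSeries k)
    (hφ : ∀ c : k, φ (HahnSeries.C c) = HahnSeries.C c) (x : LaurentSeries k) :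
    φ.comp (evalAt x) = evalAt (φ x) := by
  apply Polynomial.ringHom_ext
  · intro c
    rw [RingHom.comp_apply, evalAt_C, evalAt_C, hφ]
  · rw [RingHom.comp_apply, evalAt_X, evalAt_X]

theorem qExpand_comp_evalAt (m : ℕ) [NeZero m] (x : LaurentSeries k) :
    (qExpand k m).comp (evalAt x) = evalAt (qExpand k m x) :=
  comp_evalAt _ (fun c => qExpand_C m c) x

theorem tw_comp_evalAt (u : kˣ) (x : LaurentSeries k) :
    (tw u).comp (evalAt x) = evalAt (tw u x) :=
  comp_evalAt _ (tw_C u) x

/-- The modular equation transported to an arbitrary formal point. -/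
theorem map_evalAt_fp (jb : LaurentSeries k) (p : ℕ) [NeZero p] (Φ : Polynomial (Polynomial k))
    (ζ : kˣ)
    (hΦ : Φ.map (evalAt (qExpand k p jb)) =
      (X - C (qExpand k (p * p) jb)) * ∏ c ∈ Finset.range p, (X - C (tw (ζ ^ c) jb)))
    (v : kˣ) (a : ℕ) [NeZero a] :
    Φ.map (evalAt (fp jb (v ^ p) (a * p))) =
      (X - C (fp jb (v ^ (p * p)) (a * p * p))) *
        ∏ c ∈ Finset.range p, (X - C (fp jb (v * ζ ^ c) a)) := by
  have h := congrArg (Polynomial.map ((qExpand k a).comp (tw v))) hΦ
  rw [Polynomial.map_map, Polynomial.map_mul, Polynomial.map_sub, Polynomial.map_X,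
    Polynomial.map_C, Polynomial.map_prod] at h
  have h1 : ((qExpand k a).comp (tw v)).comp (evalAt (qExpand k p jb)) =
      evalAt (fp jb (v ^ p) (a * p)) := by
    rw [RingHom.comp_assoc, tw_comp_evalAt, qExpand_comp_evalAt, tw_qExpand, qExpand_qExpand]
    rfl
  have h2 : ((qExpand k a).comp (tw v)) (qExpand k (p * p) jb) =
      fp jb (v ^ (p * p)) (a * p * p) := by
    rw [RingHom.comp_apply, tw_qExpand, qExpand_qExpand]
    exact qExpand_congr (mul_assoc a p p).symm _
  rw [h1, h2] at h
  rw [h]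
  congr 1
  refine Finset.prod_congr rfl fun c _ => ?_
  rw [Polynomial.map_sub, Polynomial.map_X, Polynomial.map_C, RingHom.comp_apply, ← tw_mul]
  rfl

/-! ### Lemma C: orders prime to `r` -/

theorem order_qExpand_dvd (r : ℕ) [NeZero r] (w : LaurentSeries k) :
    (r : ℤ) ∣ (qExpand k r w).order := by
  by_cases hw : qExpand k r w = 0
  · rw [hw, HahnSeries.order_zero]; exact dvd_zero _
  · by_contra hnd
    exact (HahnSeries.coeff_order_eq_zero.not.mpr hw) (qExpand_coeff_of_not_dvd r w hnd)

/-- Lemma C: if the order of `f` is prime to `r`, then `f` satisfies no nonzero polynomial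
relation of degree `< r` with coefficients in `k((q^r))`. -/
theorem eval₂_ne_zero_of_order {L : Type*} [Field L] (e : L →+* LaurentSeries k) (r : ℕ)
    [NeZero r] (he : ∀ x, e x ∈ Set.range (qExpand k r)) (f : LaurentSeries k) (hf0 : f ≠ 0)
    (hf : IsCoprime f.order (r : ℤ)) (Q : L[X]) (hQ : Q ≠ 0) (hdeg : Q.natDegree < r) :
    Q.eval₂ e f ≠ 0 := by
  classical
  set t : ℕ → LaurentSeries k := fun i => e (Q.coeff i) * f ^ i with ht
  have hsum : Q.eval₂ e f = ∑ i ∈ Q.support, t i := by
    rw [Polynomial.eval₂_eq_sum]; rfl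
  have hne : ∀ i ∈ Q.support, t i ≠ 0 := fun i hi =>
    mul_ne_zero ((map_ne_zero e).mpr (Polynomial.mem_support_iff.mp hi)) (pow_ne_zero _ hf0)
  have hord : ∀ i ∈ Q.support, ∃ z : ℤ, (t i).order = (r : ℤ) * z + i * f.order := by
    intro i hi
    obtain ⟨w, hw⟩ := he (Q.coeff i)
    obtain ⟨z, hz⟩ := order_qExpand_dvd r w
    refine ⟨z, ?_⟩
    have h1 : e (Q.coeff i) ≠ 0 := (map_ne_zero e).mpr (Polynomial.mem_support_iff.mp hi)
    rw [ht]
    simp only
    rw [HahnSeries.order_mul h1 (pow_ne_zero _ hf0), HahnSeries.order_pow, ← hw, hz]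
    simp
  obtain ⟨i0, hi0, hmin⟩ := Finset.exists_min_image Q.support (fun i => (t i).order)
    (Polynomial.support_nonempty.mpr hQ)
  have hlt : ∀ j ∈ Q.support, j ≠ i0 → (t i0).order < (t j).order := by
    intro j hj hne'
    refine lt_of_le_of_ne (hmin j hj) ?_
    intro heq
    obtain ⟨z1, h1⟩ := hord i0 hi0
    obtain ⟨z2, h2⟩ := hord j hj
    have hdvd : (r : ℤ) ∣ ((j : ℤ) - i0) * f.order := by
      refine ⟨z1 - z2, ?_⟩
      have : ((j : ℤ) - i0) * f.order = j * f.order - i0 * f.order := by ring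
      rw [this]
      linarith
    have hdvd' : (r : ℤ) ∣ (j : ℤ) - i0 := hf.symm.dvd_of_dvd_mul_right hdvd
    have hj' : j < r := lt_of_le_of_lt (Polynomial.le_natDegree_of_mem_supp j hj) hdeg
    have hi0' : i0 < r := lt_of_le_of_lt (Polynomial.le_natDegree_of_mem_supp i0 hi0) hdeg
    have := Int.eq_zero_of_abs_lt_dvd hdvd' (by rw [abs_lt]; constructor <;> omega)
    exact hne' (by omega)
  intro h0
  have hcoeff : (Q.eval₂ e f).coeff (t i0).order = (t i0).coeff (t i0).order := by
    rw [hsum, HahnSeries.coeff_sum, Finset.sum_eq_single i0]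
    · intro j hj hne'
      exact HahnSeries.coeff_eq_zero_of_lt_order (hlt j hj hne')
    · intro h; exact absurd hi0 h
  rw [h0, HahnSeries.coeff_zero] at hcoeff
  exact hne i0 hi0 (HahnSeries.coeff_order_eq_zero.mp hcoeff.symm)

/-! ### Orders and coefficients of formal points -/

theorem order_qExpand (m : ℕ) [NeZero m] (w : LaurentSeries k) (hw : w ≠ 0) :
    (qExpand k m w).order = (m : ℤ) * w.order := by
  have hm : (0 : ℤ) < m := by exact_mod_cast NeZero.pos m
  have hc : (qExpand k m w).coeff ((m : ℤ) * w.order) ≠ 0 := by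
    rw [qExpand_coeff_mul]
    exact HahnSeries.coeff_order_eq_zero.not.mpr hw
  refine le_antisymm (HahnSeries.order_le_of_coeff_ne_zero hc) ?_
  by_contra hlt
  rw [not_le] at hlt
  have hne : qExpand k m w ≠ 0 := HahnSeries.ne_zero_of_coeff_ne_zero hc
  apply HahnSeries.coeff_order_eq_zero.not.mpr hne
  by_cases hd : (m : ℤ) ∣ (qExpand k m w).order
  · obtain ⟨n, hn⟩ := hd
    rw [hn, qExpand_coeff_mul]
    apply HahnSeries.coeff_eq_zero_of_lt_order
    rw [hn] at hlt
    exact lt_of_mul_lt_mul_left hlt hm.le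
  · exact qExpand_coeff_of_not_dvd m w hd

theorem ne_zero_of_order {jb : LaurentSeries k} (hjb : jb.order = -1) : jb ≠ 0 := by
  rintro rfl
  rw [HahnSeries.order_zero] at hjb
  omega

theorem coeff_neg_one_ne_zero {jb : LaurentSeries k} (hjb : jb.order = -1) :
    jb.coeff (-1) ≠ 0 := by
  rw [← hjb]
  exact HahnSeries.coeff_order_eq_zero.not.mpr (ne_zero_of_order hjb)

/-- the coefficient of `jb(c q^m)` at `-m` is nonzero -/
theorem fp_coeff_ne_zero {jb : LaurentSeries k} (hjb : jb.order = -1) (c : kˣ) (m : ℕ)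
    [NeZero m] : (fp jb c m).coeff (-(m : ℤ)) ≠ 0 := by
  have h : -(m : ℤ) = (m : ℤ) * (-1) := by ring
  rw [h, fp, qExpand_coeff_mul, tw_coeff]
  exact mul_ne_zero (Units.ne_zero _) (coeff_neg_one_ne_zero hjb)

/-- `jb(c q^m)` is a series in `q^r` only if `r ∣ m` -/
theorem fp_notMem_range {jb : LaurentSeries k} (hjb : jb.order = -1) (c : kˣ) (m r : ℕ)
    [NeZero m] [NeZero r] (hrm : ¬ r ∣ m) : fp jb c m ∉ Set.range (qExpand k r) := by
  rintro ⟨w, hw⟩
  apply fp_coeff_ne_zero hjb c m
  rw [← hw]
  apply qExpand_coeff_of_not_dvd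
  rw [Int.dvd_neg]
  exact fun h => hrm (Int.natCast_dvd_natCast.mp h)

theorem fp_mem_range (jb : LaurentSeries k) (c : kˣ) (m r : ℕ) [NeZero m] [NeZero r]
    (hrm : r ∣ m) : fp jb c m ∈ Set.range (qExpand k r) := by
  obtain ⟨a, rfl⟩ := hrm
  have : NeZero a := ⟨right_ne_zero_of_mul (NeZero.ne (r * a))⟩
  exact ⟨qExpand k a (tw c jb), qExpand_qExpand a r (tw c jb)⟩

/-! ### Generic field theory -/

/-- Extension of an embedding of the base field into an algebraically closed field to a field
generated by integral elements, with a prescribed image of one element. -/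
theorem exists_ringHom_adjoin {F E K : Type*} [Field F] [Field E] [Algebra F E] [Field K]
    [IsAlgClosed K] (ι : F →+* K) (S : Set E) (hS : ∀ s ∈ S, IsIntegral F s) {x : E}
    (hx : x ∈ IntermediateField.adjoin F S) {y : K} (hy : (minpoly F x).eval₂ ι y = 0) :
    ∃ φ : ↥(IntermediateField.adjoin F S) →+* K,
      (∀ a : F, φ (algebraMap F ↥(IntermediateField.adjoin F S) a) = ι a) ∧ φ ⟨x, hx⟩ = y := by
  let _ : Algebra F K := ι.toAlgebra
  obtain ⟨φ, hφ⟩ := IntermediateField.exists_algHom_adjoin_of_splits_of_aeval (F := F) (E := E)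
    (K := K) (S := S) (fun s hs => ⟨hS s hs, IsAlgClosed.splits _⟩) hx (y := y) hy
  exact ⟨φ.toRingHom, fun a => φ.commutes a, hφ⟩

/-- Induction over the divisors of `M`, going down from `M` by prime steps. -/
theorem divisor_induction (M : ℕ) (hM : M ≠ 0) (P : ℕ → Prop) (base : P M)
    (step : ∀ d p : ℕ, p.Prime → d * p ∣ M → P (d * p) → P d) : ∀ d, d ∣ M → P d := by
  have key : ∀ n : ℕ, ∀ d, d ∣ M → M / d = n → P d := by
    intro n
    induction n using Nat.strong_induction_on with
    | _ n ih =>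
      intro d hd hn
      obtain ⟨e, rfl⟩ := hd
      have hd0 : d ≠ 0 := left_ne_zero_of_mul hM
      have hde : d * e / d = e := Nat.mul_div_cancel_left e (Nat.pos_of_ne_zero hd0)
      rw [hde] at hn
      subst hn
      by_cases he : e = 1
      · subst he
        rw [mul_one] at base
        exact base
      · have hp := Nat.minFac_prime he
        have hdvd : d * e.minFac ∣ d * e := Nat.mul_dvd_mul_left d (Nat.minFac_dvd e)
        apply step d e.minFac hp hdvd
        refine ih (d * e / (d * e.minFac)) ?_ (d * e.minFac) hdvd rfl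
        rw [Nat.mul_div_mul_left _ _ (Nat.pos_of_ne_zero hd0)]
        have he0 : e ≠ 0 := right_ne_zero_of_mul hM
        exact Nat.div_lt_self (Nat.pos_of_ne_zero he0) hp.one_lt
  exact fun d hd => key (M / d) d hd rfl

/-! ### The level-`M` copy of the prime-level extension -/

/-- evaluation `k[Y] → k(y)` -/
def evalK (y : LaurentSeries k) : k[X] →+* ↥(IntermediateField.adjoin k {y}) :=
  (Polynomial.aeval (IntermediateField.AdjoinSimple.gen k y)).toRingHom

theorem algebraMap_comp_evalK (y : LaurentSeries k) :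
    (algebraMap ↥(IntermediateField.adjoin k {y}) (LaurentSeries k)).comp (evalK y) =
      evalAt y := by
  apply Polynomial.ringHom_ext
  · intro c
    rw [RingHom.comp_apply, evalAt_C, evalK, AlgHom.toRingHom_eq_coe, RingHom.coe_coe,
      Polynomial.aeval_C, ← IsScalarTower.algebraMap_apply, algebraMap_laurentSeries_eq_single,
      HahnSeries.C_apply]
  · rw [RingHom.comp_apply, evalAt_X, evalK, AlgHom.toRingHom_eq_coe, RingHom.coe_coe,
      Polynomial.aeval_X, IntermediateField.AdjoinSimple.algebraMap_gen]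

/-- the roots of a split polynomial -/
theorem root_of_split {R Ω : Type*} [CommRing R] [Field Ω] (alg : R →+* Ω) (A0 : R)
    (F : ℕ → R) (n : ℕ) {y : Ω}
    (hy : (((X - C A0) * ∏ c ∈ Finset.range n, (X - C (F c))).map alg).eval y = 0) :
    y = alg A0 ∨ ∃ c ∈ Finset.range n, y = alg (F c) := by
  rw [Polynomial.map_mul, Polynomial.map_prod, eval_mul, eval_prod, mul_eq_zero,
    Finset.prod_eq_zero_iff] at hy
  rcases hy with h | ⟨c, hc, h⟩
  · left
    rwa [Polynomial.map_sub, Polynomial.map_X, Polynomial.map_C, eval_sub, eval_X, eval_C,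
      sub_eq_zero] at h
  · right
    refine ⟨c, hc, ?_⟩
    rwa [Polynomial.map_sub, Polynomial.map_X, Polynomial.map_C, eval_sub, eval_X, eval_C,
      sub_eq_zero] at h

section Level

variable (jb : LaurentSeries k) (M r : ℕ) [NeZero M] [NeZero r]

/-- The right-hand side of the modular equation at the formal point `(1, M)`. -/
def rhs (ζ : kˣ) : Polynomial (LaurentSeries k) :=
  (X - C (fp jb (1 ^ (r * r)) (M * r * r))) * ∏ c ∈ Finset.range r, (X - C (fp jb (1 * ζ ^ c) M))

theorem rhs_monic (ζ : kˣ) : (rhs jb M r ζ).Monic :=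
  (monic_X_sub_C _).mul (Polynomial.monic_prod_of_monic _ _ fun c _ => monic_X_sub_C _)

theorem rhs_natDegree (ζ : kˣ) : (rhs jb M r ζ).natDegree = r + 1 := by
  rw [rhs, Polynomial.Monic.natDegree_mul (monic_X_sub_C _)
    (Polynomial.monic_prod_of_monic _ _ fun _ _ => monic_X_sub_C _), natDegree_X_sub_C,
    Polynomial.natDegree_prod_of_monic _ _ fun _ _ => monic_X_sub_C _]
  simp only [natDegree_X_sub_C, Finset.sum_const, Finset.card_range, smul_eq_mul, mul_one]
  ring

theorem rhs_root (ζ : kˣ) {Ω : Type*} [Field Ω] (alg : LaurentSeries k →+* Ω) {y : Ω}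
    (hy : ((rhs jb M r ζ).map alg).eval y = 0) :
    y = alg (fp jb (1 ^ (r * r)) (M * r * r)) ∨
      ∃ c ∈ Finset.range r, y = alg (fp jb (1 * ζ ^ c) M) :=
  root_of_split alg _ _ r hy

theorem map_level (Φ : Polynomial (Polynomial k)) (ζ : kˣ)
    (hΦ : Φ.map (evalAt (qExpand k r jb)) =
      (X - C (qExpand k (r * r) jb)) * ∏ c ∈ Finset.range r, (X - C (tw (ζ ^ c) jb))) :
    (Φ.map (evalK (qExpand k M jb))).map
        ((qExpand k r).comp (algebraMap _ (LaurentSeries k))) = rhs jb M r ζ := by
  rw [Polynomial.map_map]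
  have h : ((qExpand k r).comp (algebraMap _ (LaurentSeries k))).comp
      (evalK (qExpand k M jb)) = evalAt (fp jb (1 ^ r) (M * r)) := by
    rw [RingHom.comp_assoc, algebraMap_comp_evalK, qExpand_comp_evalAt, qExpand_qExpand,
      one_pow, fp_one]
    exact congrArg evalAt (qExpand_congr (mul_comm r M) jb)
  rw [h]
  exact map_evalAt_fp jb r Φ ζ hΦ 1 M

theorem notMem_level (H2 : qExpand k r jb ∉ IntermediateField.adjoin k {jb}) :
    qExpand k (M * r) jb ∉ IntermediateField.adjoin k {qExpand k M jb} := by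
  intro hmem
  have hmap : IntermediateField.adjoin k {qExpand k M jb} =
      (IntermediateField.adjoin k {jb}).map (qExpandAlgHomC k M) := by
    rw [IntermediateField.adjoin_map, Set.image_singleton]
    rfl
  rw [hmap, ← qExpand_qExpand] at hmem
  obtain ⟨z, hz, hzx⟩ := hmem
  have hzr : z = qExpand k r jb := qExpand_injective M hzx
  exact H2 (hzr ▸ hz)

theorem fp_one_order {jb : LaurentSeries k} (hjb : jb.order = -1) (m : ℕ) [NeZero m] :
    (fp jb 1 m).order = -(m : ℤ) := by
  rw [fp_one, order_qExpand m jb (ne_zero_of_order hjb), hjb]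
  ring

theorem rhs_eval_fp (ζ : kˣ) (hr : 0 < r) : (rhs jb M r ζ).eval (fp jb 1 M) = 0 := by
  rw [rhs, eval_mul, eval_prod]
  apply mul_eq_zero_of_right
  apply Finset.prod_eq_zero (Finset.mem_range.mpr hr)
  rw [pow_zero, mul_one, eval_sub, eval_X, eval_C, sub_self]

/-- `Φ_r(X, jb(q^M))` is irreducible over `k(jb(q^M))`. -/
theorem level_irreducible (hjb : jb.order = -1) (hr : r.Prime) (hrM : ¬ r ∣ M)
    (Φ : Polynomial (Polynomial k)) (ζ : kˣ)
    (hΦ : Φ.map (evalAt (qExpand k r jb)) =
      (X - C (qExpand k (r * r) jb)) * ∏ c ∈ Finset.range r, (X - C (tw (ζ ^ c) jb)))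
    (H2 : qExpand k r jb ∉ IntermediateField.adjoin k {jb}) :
    Irreducible (Φ.map (evalK (qExpand k M jb))) := by
  set e : ↥(IntermediateField.adjoin k {qExpand k M jb}) →+* LaurentSeries k :=
    (qExpand k r).comp (algebraMap _ (LaurentSeries k)) with he
  set PK := Φ.map (evalK (qExpand k M jb)) with hPK
  have hmap : PK.map e = rhs jb M r ζ := map_level jb M r Φ ζ hΦ
  have hinj : Function.Injective e := e.injective
  have hmonic : PK.Monic :=
    Polynomial.monic_of_injective hinj (by rw [hmap]; exact rhs_monic jb M r ζ)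
  have hdeg : PK.natDegree = r + 1 := by
    rw [← Polynomial.natDegree_map_eq_of_injective hinj, hmap, rhs_natDegree]
  have hrange : ∀ x, e x ∈ Set.range (qExpand k r) := fun x => ⟨_, rfl⟩
  have hf0 : fp jb 1 M ≠ 0 := by
    rw [fp_one]
    exact (map_ne_zero_iff _ (qExpand_injective M)).mpr (ne_zero_of_order hjb)
  have hford : IsCoprime (fp jb 1 M).order (r : ℤ) := by
    rw [fp_one_order hjb]
    exact (Nat.isCoprime_iff_coprime.mpr
      ((Nat.Prime.coprime_iff_not_dvd hr).mpr hrM).symm).neg_left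
  have hroot_f : (PK.map e).eval (fp jb 1 M) = 0 := by
    rw [hmap]; exact rhs_eval_fp jb M r ζ hr.pos
  have key : ∀ A B : (↥(IntermediateField.adjoin k {qExpand k M jb}))[X], PK = A * B →
      A.eval₂ e (fp jb 1 M) = 0 → IsUnit B := by
    intro A B hAB hA
    have hA0 : A ≠ 0 := by
      rintro rfl
      rw [zero_mul] at hAB
      exact hmonic.ne_zero hAB
    have hB0 : B ≠ 0 := by
      rintro rfl
      rw [mul_zero] at hAB
      exact hmonic.ne_zero hAB
    have hAdeg : r ≤ A.natDegree := by
      by_contra hlt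
      exact eval₂_ne_zero_of_order e r hrange _ hf0 hford A hA0 (not_le.mp hlt) hA
    have hsum : A.natDegree + B.natDegree = r + 1 := by
      rw [← Polynomial.natDegree_mul hA0 hB0, ← hAB, hdeg]
    rcases Nat.lt_or_ge B.natDegree 1 with h0 | h1
    · have hB : B = C (B.coeff 0) := Polynomial.eq_C_of_natDegree_eq_zero (by omega)
      rw [hB]
      refine Polynomial.isUnit_C.mpr (isUnit_iff_ne_zero.mpr ?_)
      intro h
      rw [h, map_zero] at hB
      exact hB0 hB
    · exfalso
      have hB1 : B.natDegree = 1 := by omega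
      have hBd : B.degree = 1 := by
        rw [Polynomial.degree_eq_natDegree hB0, hB1]; rfl
      obtain ⟨b, hb⟩ := Polynomial.exists_root_of_degree_eq_one hBd
      have hPb : PK.eval b = 0 := by
        rw [hAB, eval_mul, hb.eq_zero, mul_zero]
      have hPb' : ((rhs jb M r ζ).map (RingHom.id _)).eval (e b) = 0 := by
        rw [Polynomial.map_id, ← hmap, Polynomial.eval_map, Polynomial.eval₂_at_apply, hPb,
          map_zero]
      rcases rhs_root jb M r ζ (RingHom.id _) hPb' with h | ⟨c, -, h⟩
      · rw [RingHom.id_apply, one_pow, fp_one] at h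
        have h2 : qExpand k (M * r * r) jb = qExpand k r (qExpand k (M * r) jb) := by
          rw [qExpand_qExpand]
          exact qExpand_congr (by ring) jb
        rw [h2] at h
        have h3 : algebraMap _ (LaurentSeries k) b = qExpand k (M * r) jb :=
          qExpand_injective r h
        exact notMem_level jb M r H2 (h3 ▸ b.2)
      · rw [RingHom.id_apply] at h
        exact fp_notMem_range hjb (1 * ζ ^ c) M r hrM ⟨_, h⟩
  rw [irreducible_iff]
  refine ⟨?_, fun A B hAB => ?_⟩
  · intro hu
    have := Polynomial.natDegree_eq_zero_of_isUnit hu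
    omega
  · have h0 : (A.map e).eval (fp jb 1 M) * (B.map e).eval (fp jb 1 M) = 0 := by
      rw [← eval_mul, ← Polynomial.map_mul, ← hAB]; exact hroot_f
    rcases mul_eq_zero.mp h0 with h | h
    · right
      exact key A B hAB (by rwa [Polynomial.eval_map] at h)
    · left
      exact key B A (by rw [hAB, mul_comm]) (by rwa [Polynomial.eval_map] at h)

/-- `Φ_r(X, jb(q^M))` is the minimal polynomial of `jb(q^(Mr))` over `k(jb(q^M))`. -/
theorem level_minpoly (hjb : jb.order = -1) (hr : r.Prime) (hrM : ¬ r ∣ M)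
    (Φ : Polynomial (Polynomial k)) (ζ : kˣ)
    (hΦ : Φ.map (evalAt (qExpand k r jb)) =
      (X - C (qExpand k (r * r) jb)) * ∏ c ∈ Finset.range r, (X - C (tw (ζ ^ c) jb)))
    (H2 : qExpand k r jb ∉ IntermediateField.adjoin k {jb}) :
    minpoly ↥(IntermediateField.adjoin k {qExpand k M jb}) (qExpand k (M * r) jb) =
      Φ.map (evalK (qExpand k M jb)) := by
  set e : ↥(IntermediateField.adjoin k {qExpand k M jb}) →+* LaurentSeries k :=
    (qExpand k r).comp (algebraMap _ (LaurentSeries k)) with he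
  have hmap : (Φ.map (evalK (qExpand k M jb))).map e = rhs jb M r ζ := map_level jb M r Φ ζ hΦ
  have hmonic : (Φ.map (evalK (qExpand k M jb))).Monic :=
    Polynomial.monic_of_injective e.injective (by rw [hmap]; exact rhs_monic jb M r ζ)
  refine (minpoly.eq_of_irreducible_of_monic
    (level_irreducible jb M r hjb hr hrM Φ ζ hΦ H2) ?_ hmonic).symm
  rw [Polynomial.aeval_def, ← Polynomial.eval_map]
  apply qExpand_injective r
  rw [map_zero, ← Polynomial.eval₂_at_apply, ← Polynomial.eval_map, Polynomial.map_map]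
  have hcomp : (qExpand k r).comp (algebraMap _ (LaurentSeries k)) = e := rfl
  rw [hcomp, hmap, rhs, eval_mul]
  apply mul_eq_zero_of_left
  rw [eval_sub, eval_X, eval_C, sub_eq_zero, one_pow, fp_one, qExpand_qExpand]
  exact qExpand_congr (by ring) jb

/-- The modular equation at the formal point `(1, d)`. -/
theorem map_evalAt_eq_rhs (p d : ℕ) [NeZero p] [NeZero d] (Φ : Polynomial (Polynomial k))
    (ζ : kˣ)
    (hΦ : Φ.map (evalAt (qExpand k p jb)) =
      (X - C (qExpand k (p * p) jb)) * ∏ c ∈ Finset.range p, (X - C (tw (ζ ^ c) jb))) :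
    Φ.map (evalAt (qExpand k (d * p) jb)) = rhs jb d p ζ := by
  have h := map_evalAt_fp jb p Φ ζ hΦ 1 d
  rw [one_pow, fp_one] at h
  exact h

end Level

/-! ### The generators and their integrality -/

/-- the generators `jb(q^d)`, `d ∣ M` -/
def gens (jb : LaurentSeries k) (M : ℕ) : Set (LaurentSeries k) :=
  {x | ∃ (d : ℕ) (_ : NeZero d), d ∣ M ∧ x = qExpand k d jb}

theorem isIntegral_gen (jb : LaurentSeries k) (M : ℕ) [NeZero M]
    (H1 : ∀ (p : ℕ) [NeZero p], p.Prime → p ∣ M →
      ∃ (Φ : Polynomial (Polynomial k)) (ζ : kˣ),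
        Φ.map (evalAt (qExpand k p jb)) =
          (X - C (qExpand k (p * p) jb)) * ∏ c ∈ Finset.range p, (X - C (tw (ζ ^ c) jb))) :
    ∀ d, d ∣ M → ∀ (_ : NeZero d),
      IsIntegral ↥(IntermediateField.adjoin k {qExpand k M jb}) (qExpand k d jb) := by
  apply divisor_induction M (NeZero.ne M) (fun d => ∀ (_ : NeZero d),
      IsIntegral ↥(IntermediateField.adjoin k {qExpand k M jb}) (qExpand k d jb))
  · intro _
    have h := isIntegral_algebraMap (R := ↥(IntermediateField.adjoin k {qExpand k M jb}))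
      (A := LaurentSeries k) (x := IntermediateField.AdjoinSimple.gen k (qExpand k M jb))
    rwa [IntermediateField.AdjoinSimple.algebraMap_gen] at h
  · intro d p hp hdvd ih hd
    have : NeZero p := ⟨hp.ne_zero⟩
    have ha := ih inferInstance
    obtain ⟨Φ, ζ, hΦ⟩ := H1 p hp (dvd_trans (Dvd.intro_left d rfl) hdvd)
    set K0 := IntermediateField.adjoin k {qExpand k M jb} with hK0
    let A : Subalgebra ↥K0 (LaurentSeries k) := integralClosure ↥K0 (LaurentSeries k)
    let a' : ↥A := ⟨qExpand k (d * p) jb, ha⟩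
    let evalA : k[X] →+* ↥A :=
      Polynomial.eval₂RingHom ((algebraMap ↥K0 ↥A).comp (algebraMap k ↥K0)) a'
    have hcomp : (algebraMap ↥A (LaurentSeries k)).comp evalA =
        evalAt (qExpand k (d * p) jb) := by
      apply Polynomial.ringHom_ext
      · intro c
        rw [RingHom.comp_apply, evalAt_C, Polynomial.coe_eval₂RingHom, Polynomial.eval₂_C,
          RingHom.comp_apply, ← IsScalarTower.algebraMap_apply,
          ← IsScalarTower.algebraMap_apply, algebraMap_laurentSeries_eq_single,
          HahnSeries.C_apply]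
      · rw [RingHom.comp_apply, evalAt_X, Polynomial.coe_eval₂RingHom, Polynomial.eval₂_X]
        rfl
    have hTA : (Φ.map evalA).map (algebraMap ↥A (LaurentSeries k)) = rhs jb d p ζ := by
      rw [Polynomial.map_map, hcomp]
      exact map_evalAt_eq_rhs jb p d Φ ζ hΦ
    have hinj : Function.Injective (algebraMap ↥A (LaurentSeries k)) :=
      fun x y h => Subtype.ext h
    have hmonic : (Φ.map evalA).Monic :=
      Polynomial.monic_of_injective hinj (by rw [hTA]; exact rhs_monic jb d p ζ)
    have hb : IsIntegral ↥A (qExpand k d jb) := by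
      refine ⟨Φ.map evalA, hmonic, ?_⟩
      rw [← Polynomial.eval_map, hTA, ← fp_one]
      exact rhs_eval_fp jb d p ζ hp.pos
    exact isIntegral_trans (R := ↥K0) (A := ↥A) _ hb

/-! ### The main argument -/

theorem main [IsAlgClosed k] (jb : LaurentSeries k) (hjb : jb.order = -1)
    (M r : ℕ) [NeZero M] [NeZero r] (hr : r.Prime) (hrM : ¬ r ∣ M)
    (H1 : ∀ (p : ℕ) [NeZero p], p.Prime → p ∣ M * r →
      ∃ (Φ : Polynomial (Polynomial k)) (ζ : kˣ),
        Φ.map (evalAt (qExpand k p jb)) =
          (X - C (qExpand k (p * p) jb)) * ∏ c ∈ Finset.range p, (X - C (tw (ζ ^ c) jb)))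
    (H2 : qExpand k r jb ∉ IntermediateField.adjoin k {jb}) :
    qExpand k (M * r) jb ∉ IntermediateField.adjoin k (gens jb M) := by
  intro hx
  obtain ⟨Φ, ζ, hΦ⟩ := H1 r hr (Dvd.intro_left M rfl)
  have H1M : ∀ (p : ℕ) [NeZero p], p.Prime → p ∣ M →
      ∃ (Φ : Polynomial (Polynomial k)) (ζ : kˣ),
        Φ.map (evalAt (qExpand k p jb)) =
          (X - C (qExpand k (p * p) jb)) * ∏ c ∈ Finset.range p, (X - C (tw (ζ ^ c) jb)) :=
    fun p _ hp hpM => H1 p hp (Dvd.dvd.mul_right hpM r)
  set K0 := IntermediateField.adjoin k {qExpand k M jb} with hK0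
  have hint : ∀ s ∈ gens jb M, IsIntegral ↥K0 s := by
    rintro s ⟨d, hd, hdM, rfl⟩
    exact isIntegral_gen jb M H1M d hdM hd
  have hx' : qExpand k (M * r) jb ∈ IntermediateField.adjoin ↥K0 (gens jb M) := by
    have hle : IntermediateField.adjoin k (gens jb M) ≤
        (IntermediateField.adjoin ↥K0 (gens jb M)).restrictScalars k :=
      IntermediateField.adjoin_le_iff.mpr
        (fun s hs => IntermediateField.subset_adjoin ↥K0 _ hs)
    exact hle hx
  -- the target field and the twisted embedding of `K0`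
  let alg : LaurentSeries k →+* AlgebraicClosure (LaurentSeries k) :=
    algebraMap (LaurentSeries k) (AlgebraicClosure (LaurentSeries k))
  let e : ↥K0 →+* LaurentSeries k := (qExpand k r).comp (algebraMap ↥K0 (LaurentSeries k))
  have hy : (minpoly ↥K0 (qExpand k (M * r) jb)).eval₂ (alg.comp e) (alg (fp jb 1 M)) = 0 := by
    rw [level_minpoly jb M r hjb hr hrM Φ ζ hΦ H2, ← Polynomial.eval_map,
      ← Polynomial.map_map, map_level jb M r Φ ζ hΦ, Polynomial.eval_map,
      Polynomial.eval₂_at_apply, rhs_eval_fp jb M r ζ hr.pos, map_zero]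
  obtain ⟨φ, hφ, hφx⟩ := exists_ringHom_adjoin (alg.comp e) (gens jb M) hint hx' hy
  -- images of the generators are formal points
  have hgen : ∀ d, d ∣ M → ∀ (_ : NeZero d)
      (z : ↥(IntermediateField.adjoin ↥K0 (gens jb M))),
      (z : LaurentSeries k) = qExpand k d jb →
      ∃ (c : kˣ) (m : ℕ) (_ : NeZero m), r * d ∣ m ∧ φ z = alg (fp jb c m) := by
    apply divisor_induction M (NeZero.ne M) (fun d => ∀ (_ : NeZero d)
      (z : ↥(IntermediateField.adjoin ↥K0 (gens jb M))),
      (z : LaurentSeries k) = qExpand k d jb →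
      ∃ (c : kˣ) (m : ℕ) (_ : NeZero m), r * d ∣ m ∧ φ z = alg (fp jb c m))
    · intro _ z hz
      refine ⟨1, r * M, inferInstance, dvd_rfl, ?_⟩
      have hz' : z = algebraMap ↥K0 ↥(IntermediateField.adjoin ↥K0 (gens jb M))
          (IntermediateField.AdjoinSimple.gen k (qExpand k M jb)) := Subtype.ext hz
      rw [hz', hφ, RingHom.comp_apply]
      congr 1
      show qExpand k r (algebraMap ↥K0 (LaurentSeries k)
        (IntermediateField.AdjoinSimple.gen k (qExpand k M jb))) = fp jb 1 (r * M)
      rw [IntermediateField.AdjoinSimple.algebraMap_gen, fp_one, qExpand_qExpand]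
    · intro d p hp hdvd ih hd z hz
      have : NeZero p := ⟨hp.ne_zero⟩
      obtain ⟨Φp, ζp, hΦp⟩ := H1M p hp (dvd_trans (Dvd.intro_left d rfl) hdvd)
      have hmem' : qExpand k (d * p) jb ∈ IntermediateField.adjoin ↥K0 (gens jb M) :=
        IntermediateField.subset_adjoin _ _ ⟨d * p, inferInstance, hdvd, rfl⟩
      obtain ⟨c, m, hm, hdm, hφz'⟩ := ih inferInstance ⟨_, hmem'⟩ rfl
      obtain ⟨a, ha⟩ : p ∣ m := dvd_trans (Dvd.intro_left (r * d) (by ring)) hdm
      have hma : m = a * p := by rw [ha, mul_comm]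
      subst hma
      have : NeZero a := ⟨left_ne_zero_of_mul (NeZero.ne (a * p))⟩
      obtain ⟨v0, hv0⟩ := IsAlgClosed.exists_pow_nat_eq (c : k) hp.pos
      have hv0ne : v0 ≠ 0 := by
        rintro rfl
        rw [zero_pow hp.ne_zero] at hv0
        exact c.ne_zero hv0.symm
      have hvc : (Units.mk0 v0 hv0ne) ^ p = c := Units.ext (by simpa using hv0)
      subst hvc
      have hsplit := map_evalAt_fp jb p Φp ζp hΦp (Units.mk0 v0 hv0ne) a
      -- lift the polynomial to the field `E'`
      let z' : ↥(IntermediateField.adjoin ↥K0 (gens jb M)) := ⟨_, hmem'⟩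
      let evalE : k[X] →+* ↥(IntermediateField.adjoin ↥K0 (gens jb M)) :=
        Polynomial.eval₂RingHom
          ((algebraMap ↥K0 ↥(IntermediateField.adjoin ↥K0 (gens jb M))).comp
            (algebraMap k ↥K0)) z'
      have hval : (algebraMap ↥(IntermediateField.adjoin ↥K0 (gens jb M))
          (LaurentSeries k)).comp evalE = evalAt (qExpand k (d * p) jb) := by
        apply Polynomial.ringHom_ext
        · intro c0
          rw [RingHom.comp_apply, evalAt_C, Polynomial.coe_eval₂RingHom, Polynomial.eval₂_C,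
            RingHom.comp_apply, ← IsScalarTower.algebraMap_apply,
            ← IsScalarTower.algebraMap_apply, algebraMap_laurentSeries_eq_single,
            HahnSeries.C_apply]
        · rw [RingHom.comp_apply, evalAt_X, Polynomial.coe_eval₂RingHom, Polynomial.eval₂_X]
          rfl
      have hroot : (Φp.map evalE).eval z = 0 := by
        apply (algebraMap ↥(IntermediateField.adjoin ↥K0 (gens jb M))
          (LaurentSeries k)).injective
        rw [map_zero, ← Polynomial.eval₂_at_apply, ← Polynomial.eval_map, Polynomial.map_map,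
          hval, map_evalAt_eq_rhs jb p d Φp ζp hΦp]
        have hzz : algebraMap ↥(IntermediateField.adjoin ↥K0 (gens jb M)) (LaurentSeries k) z =
            fp jb 1 d := by rw [fp_one]; exact hz
        rw [hzz]
        exact rhs_eval_fp jb d p ζp hp.pos
      have hφcomp : φ.comp evalE =
          alg.comp (evalAt (fp jb ((Units.mk0 v0 hv0ne) ^ p) (a * p))) := by
        apply Polynomial.ringHom_ext
        · intro c0
          rw [RingHom.comp_apply, RingHom.comp_apply, evalAt_C, Polynomial.coe_eval₂RingHom,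
            Polynomial.eval₂_C, RingHom.comp_apply, hφ, RingHom.comp_apply]
          congr 1
          show qExpand k r (algebraMap ↥K0 (LaurentSeries k) (algebraMap k ↥K0 c0)) = _
          rw [← IsScalarTower.algebraMap_apply, algebraMap_laurentSeries_eq_single,
            ← HahnSeries.C_apply, qExpand_C]
        · rw [RingHom.comp_apply, RingHom.comp_apply, evalAt_X, Polynomial.coe_eval₂RingHom,
            Polynomial.eval₂_X]
          exact hφz'
      have h0 : ((Φp.map (evalAt (fp jb ((Units.mk0 v0 hv0ne) ^ p) (a * p)))).map alg).eval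
          (φ z) = 0 := by
        rw [Polynomial.map_map, ← hφcomp, ← Polynomial.map_map, Polynomial.eval_map,
          Polynomial.eval₂_at_apply, hroot, map_zero]
      rw [hsplit] at h0
      have hda : r * d ∣ a :=
        Nat.dvd_of_mul_dvd_mul_right hp.pos (by rwa [← mul_assoc] at hdm)
      rcases root_of_split alg _ _ p h0 with h | ⟨c', -, h⟩
      · exact ⟨_, a * p * p, inferInstance, Dvd.dvd.mul_right (Dvd.dvd.mul_right hda p) p, h⟩
      · exact ⟨_, a, inferInstance, hda, h⟩
  -- the image of `φ` lies in the image of `k((q^r))`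
  have hall : ∀ (x : LaurentSeries k) (hx : x ∈ IntermediateField.adjoin ↥K0 (gens jb M)),
      φ ⟨x, hx⟩ ∈ (alg.comp (qExpand k r)).fieldRange := by
    intro x hx
    induction hx using IntermediateField.adjoin_induction with
    | mem s hs =>
      obtain ⟨d, hd, hdM, rfl⟩ := hs
      obtain ⟨c, m, hm, hdm, h⟩ := hgen d hdM hd
        ⟨_, IntermediateField.subset_adjoin _ _ ⟨d, hd, hdM, rfl⟩⟩ rfl
      rw [h]
      obtain ⟨w, hw⟩ := fp_mem_range jb c m r (dvd_trans (Dvd.intro d rfl) hdm)
      exact ⟨w, by rw [RingHom.comp_apply, hw]⟩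
    | algebraMap a =>
      have h := hφ a
      exact ⟨algebraMap ↥K0 (LaurentSeries k) a, h.symm⟩
    | add x y hx hy ihx ihy =>
      have h : (⟨x + y, add_mem hx hy⟩ : ↥(IntermediateField.adjoin ↥K0 (gens jb M))) =
          ⟨x, hx⟩ + ⟨y, hy⟩ := rfl
      rw [h, map_add]
      exact add_mem ihx ihy
    | inv x hx ih =>
      have h : (⟨x⁻¹, inv_mem hx⟩ : ↥(IntermediateField.adjoin ↥K0 (gens jb M))) =
          (⟨x, hx⟩ : ↥(IntermediateField.adjoin ↥K0 (gens jb M)))⁻¹ := rfl
      rw [h, map_inv₀]
      exact inv_mem ih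
    | mul x y hx hy ihx ihy =>
      have h : (⟨x * y, mul_mem hx hy⟩ : ↥(IntermediateField.adjoin ↥K0 (gens jb M))) =
          ⟨x, hx⟩ * ⟨y, hy⟩ := rfl
      rw [h, map_mul]
      exact mul_mem ihx ihy
  obtain ⟨w, hw⟩ := hall _ hx'
  rw [hφx] at hw
  have hw' : qExpand k r w = fp jb 1 M :=
    (algebraMap (LaurentSeries k) (AlgebraicClosure (LaurentSeries k))).injective hw
  exact fp_notMem_range hjb 1 M r hrM ⟨w, hw'⟩

end NewPrime

/-- **New-prime step of the tower.** For `r` prime, `r ∤ M`: `jb(q^(M r))` does not lie in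
the field generated over `k` by the `jb(q^d)`, `d ∣ M`. -/
theorem qExpand_mul_notMem_adjoin_divisors {k : Type*} [Field k] [IsAlgClosed k]
    (jb : LaurentSeries k) (hjb : jb.order = -1)
    (M r : ℕ) [NeZero M] [NeZero r] (hr : r.Prime) (hrM : ¬ r ∣ M)
    (H1 : ∀ (p : ℕ) [NeZero p], p.Prime → p ∣ M * r →
      ∃ (Φ : Polynomial (Polynomial k)) (ζ : kˣ),
        Φ.map (evalAt (qExpand k p jb)) =
          (X - C (qExpand k (p * p) jb)) * ∏ c ∈ Finset.range p, (X - C (tw (ζ ^ c) jb)))
    (H2 : qExpand k r jb ∉ IntermediateField.adjoin k {jb}) :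
    qExpand k (M * r) jb ∉ IntermediateField.adjoin k
      {x : LaurentSeries k | ∃ (d : ℕ) (_ : NeZero d), d ∣ M ∧ x = qExpand k d jb} :=
  NewPrime.main jb hjb M r hr hrM H1 H2

end

end Fermat.Agent.S28
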