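import Mathlib
import Fermat.Agent.S28.SeriesBasic
import Fermat.Agent.S28.NotRational

set_option autoImplicit false

/-! # S28 Block 5: the two steps of the mod-`ℓ` tower (abstract form)

`jb ∈ k((q))` has order `-1` and satisfies the modular equation `(H1_r)`.  `L` is the field
reached so far, with its inclusion `e` into `k((q))` and the descending embedding `σ`. -/

open ModularCurve Polynomial

namespace Fermat.Agent.S28

noncomputable section

namespace TowerStep

variable {k : Type*} [Field k]

/-- Lemma C (orders): a nonzero polynomial over `k((t^r))` having a root of order prime to `r`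
has degree at least `r`. -/
theorem le_natDegree_of_root (r : ℕ) [NeZero r] (f : LaurentSeries k) (hf : f ≠ 0)
    (hcop : IsCoprime f.order (r : ℤ)) (Q : Polynomial (LaurentSeries k)) (hQ0 : Q ≠ 0)
    (hQ : ∀ i, Q.coeff i ∈ Set.range (qExpand k r)) (hroot : Q.eval f = 0) :
    r ≤ Q.natDegree := by
  by_contra hlt
  have hlt' : Q.natDegree < r := not_le.mp hlt
  have hS : Q.support.Nonempty := Polynomial.support_nonempty.mpr hQ0
  let o : ℕ → ℤ := fun i => (Q.coeff i * f ^ i).order
  obtain ⟨i₀, hi₀, hmin⟩ := Finset.exists_min_image Q.support o hS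
  have hterm_ne : ∀ i ∈ Q.support, Q.coeff i * f ^ i ≠ 0 := fun i hi =>
    mul_ne_zero (Polynomial.mem_support_iff.mp hi) (pow_ne_zero _ hf)
  have ho : ∀ i ∈ Q.support, ∃ a : ℤ, o i = (r : ℤ) * a + (i : ℤ) * f.order := by
    intro i hi
    have hc : Q.coeff i ≠ 0 := Polynomial.mem_support_iff.mp hi
    obtain ⟨g, hg⟩ := hQ i
    have hdvd : (r : ℤ) ∣ (Q.coeff i).order := by
      by_contra hnd
      have h0 := qExpand_coeff_of_not_dvd r g hnd
      rw [hg] at h0
      exact hc (HahnSeries.coeff_order_eq_zero.mp h0)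
    obtain ⟨a, ha⟩ := hdvd
    refine ⟨a, ?_⟩
    show (Q.coeff i * f ^ i).order = _
    rw [HahnSeries.order_mul hc (pow_ne_zero _ hf), HahnSeries.order_pow, ha]
    simp
  have hinj : ∀ i ∈ Q.support, i ≠ i₀ → o i ≠ o i₀ := by
    intro i hi hne heq
    obtain ⟨a, ha⟩ := ho i hi
    obtain ⟨a₀, ha₀⟩ := ho i₀ hi₀
    have h1 : (r : ℤ) ∣ ((i : ℤ) - i₀) * f.order := ⟨a₀ - a, by linarith⟩
    have h2 : (r : ℤ) ∣ (i : ℤ) - i₀ := hcop.symm.dvd_of_dvd_mul_right h1
    have hi' := Polynomial.le_natDegree_of_mem_supp i hi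
    have hi₀' := Polynomial.le_natDegree_of_mem_supp i₀ hi₀
    have h3 : (i : ℤ) - i₀ = 0 := by
      refine Int.eq_zero_of_abs_lt_dvd h2 ?_
      rw [abs_lt]
      constructor <;> omega
    exact hne (by omega)
  have hcoeff : (Q.eval f).coeff (o i₀) = (Q.coeff i₀ * f ^ i₀).coeff (o i₀) := by
    rw [Polynomial.eval_eq_sum, Polynomial.sum_def, HahnSeries.coeff_sum]
    exact Finset.sum_eq_single i₀ (fun i hi hne => HahnSeries.coeff_eq_zero_of_lt_order
      (lt_of_le_of_ne (hmin i hi) (hinj i hi hne).symm)) (fun h => absurd hi₀ h)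
  rw [hroot] at hcoeff
  exact hterm_ne i₀ hi₀ (HahnSeries.coeff_order_eq_zero.mp hcoeff.symm)

theorem map_aeval_algHom {L : Type*} [Field L] [Algebra k L] (e : L →ₐ[k] LaurentSeries k)
    (x : L) (Φ : Polynomial (Polynomial k)) :
    (Φ.map (Polynomial.aeval x : Polynomial k →ₐ[k] L).toRingHom).map
        (e : L →+* LaurentSeries k) = Φ.map (evalAt (e x)) := by
  rw [Polynomial.map_map, NotRational.evalAt_eq_aeval, Polynomial.aeval_algHom]
  rfl

theorem map_evalAt_qExpand (d : ℕ) [NeZero d] (x : LaurentSeries k)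
    (Φ : Polynomial (Polynomial k)) :
    (Φ.map (evalAt x)).map (qExpand k d) = Φ.map (evalAt (qExpand k d x)) := by
  rw [Polynomial.map_map, NotRational.evalAt_qExpand]

/-- `(H1_r)` after the substitution `q ↦ q^d`. -/
theorem hPhi_qExpand (jb : LaurentSeries k) (r : ℕ) [NeZero r] (Φ : Polynomial (Polynomial k))
    (ζ : kˣ)
    (hΦ : Φ.map (evalAt (qExpand k r jb)) =
      (X - C (qExpand k (r * r) jb)) * ∏ c ∈ Finset.range r, (X - C (tw (ζ ^ c) jb)))
    (d : ℕ) [NeZero d] :
    Φ.map (evalAt (qExpand k d (qExpand k r jb))) =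
      (X - C (qExpand k d (qExpand k (r * r) jb))) *
        ∏ c ∈ Finset.range r, (X - C (qExpand k d (tw (ζ ^ c) jb))) := by
  rw [← map_evalAt_qExpand, hΦ, Polynomial.map_mul, Polynomial.map_sub, Polynomial.map_X,
    Polynomial.map_C, Polynomial.map_prod]
  congr 1
  refine Finset.prod_congr rfl fun c _ => ?_
  rw [Polynomial.map_sub, Polynomial.map_X, Polynomial.map_C]

/-- a polynomial whose image under a field embedding is a product of `n + 1` monic linear
factors is monic of degree `n + 1` -/
theorem monic_natDegree_of_map {L K : Type*} [Field L] [Field K] (f : L →+* K)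
    (p : Polynomial L) (a : K) (s : Finset ℕ) (g : ℕ → K)
    (h : p.map f = (X - C a) * ∏ c ∈ s, (X - C (g c))) :
    p.Monic ∧ p.natDegree = s.card + 1 := by
  have hm1 : (X - C a : Polynomial K).Monic := Polynomial.monic_X_sub_C a
  have hm2 : (∏ c ∈ s, (X - C (g c)) : Polynomial K).Monic :=
    Polynomial.monic_prod_of_monic _ _ fun c _ => Polynomial.monic_X_sub_C _
  have hmon : (p.map f).Monic := by
    rw [h]
    exact hm1.mul hm2
  refine ⟨Polynomial.monic_of_injective f.injective hmon, ?_⟩
  rw [← Polynomial.natDegree_map f, h, hm1.natDegree_mul hm2, Polynomial.natDegree_X_sub_C,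
    Polynomial.natDegree_prod_of_monic _ _ fun c _ => Polynomial.monic_X_sub_C _]
  simp [add_comm]

theorem order_qExpand (d : ℕ) [NeZero d] (f : LaurentSeries k) (hf : f ≠ 0) :
    (qExpand k d f).order = (d : ℤ) * f.order := by
  refine NotRational.order_eq_of_coeff ?_ fun m hm => ?_
  · rw [qExpand_coeff_mul]
    exact fun h => hf (HahnSeries.coeff_order_eq_zero.mp h)
  · by_cases hdvd : (d : ℤ) ∣ m
    · obtain ⟨n, rfl⟩ := hdvd
      rw [qExpand_coeff_mul]
      refine HahnSeries.coeff_eq_zero_of_lt_order ?_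
      have hd : (0 : ℤ) < d := by exact_mod_cast Nat.pos_of_ne_zero (NeZero.ne d)
      exact lt_of_mul_lt_mul_left hm hd.le
    · exact qExpand_coeff_of_not_dvd d f hdvd

theorem ne_zero_of_order {f : LaurentSeries k} (h : f.order = -1) : f ≠ 0 := by
  rintro rfl
  rw [HahnSeries.order_zero] at h
  omega

end TowerStep

open TowerStep

/-- **Repeated-prime step** of the tower (abstract form, no chain bookkeeping).
`L` is the field reached so far, `e` its inclusion into `k((q))`, `σ` the descending embedding;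
`x ↦ jb(q^(m r))`, `y ↦ jb(q^m)` under `e` and `x ↦ jb(t)`, `y ↦ jb(t^r)` under `σ`.
Then `P := Φ(X, x) / (X - y)` is monic irreducible of degree `r` over `L`, has the root
`jb(q^(m r r))` (after `e`), and its image under `(t ↦ t^r) ∘ σ` is `∏ (X - jb(ζ^c t))` (so the
embedding extends by `jb(q^(m r r)) ↦ jb(t)`). -/
theorem repeated_prime_step {k : Type*} [Field k] (jb : LaurentSeries k) (hjb : jb.order = -1)
    (r : ℕ) [NeZero r] (Φ : Polynomial (Polynomial k)) (ζ : kˣ)
    (hΦ : Φ.map (evalAt (qExpand k r jb)) =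
      (X - C (qExpand k (r * r) jb)) * ∏ c ∈ Finset.range r, (X - C (tw (ζ ^ c) jb)))
    (m : ℕ) [NeZero m]
    {L : Type*} [Field L] [Algebra k L] (e σ : L →ₐ[k] LaurentSeries k)
    (x y : L) (hx : e x = qExpand k (m * r) jb) (hy : e y = qExpand k m jb)
    (hσx : σ x = jb) (hσy : σ y = qExpand k r jb) :
    ∃ P : Polynomial L, P.Monic ∧ P.natDegree = r ∧ Irreducible P ∧
      (P.map (e : L →+* LaurentSeries k)).eval (qExpand k (m * r * r) jb) = 0 ∧
      P.map ((qExpand k r).comp (σ : L →+* LaurentSeries k)) =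
        ∏ c ∈ Finset.range r, (X - C (tw (ζ ^ c) jb)) := by
  classical
  have hr0 : 0 < r := Nat.pos_of_ne_zero (NeZero.ne r)
  have h0mem : 0 ∈ Finset.range r := Finset.mem_range.mpr hr0
  have hjb0 : jb ≠ 0 := ne_zero_of_order hjb
  set ΦL : Polynomial L := Φ.map (Polynomial.aeval x : Polynomial k →ₐ[k] L).toRingHom with hΦL
  set τ : L →+* LaurentSeries k := (qExpand k r).comp (σ : L →+* LaurentSeries k) with hτ
  have he : Function.Injective (e : L →+* LaurentSeries k) := (e : L →+* LaurentSeries k).injective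
  have htw0 : tw (ζ ^ 0) jb = jb := by rw [pow_zero, tw_one]
  -- the factorisation of `ΦL` over `k((q))`
  have h1 : ΦL.map (e : L →+* LaurentSeries k) =
      (X - C (qExpand k (m * r * r) jb)) *
        ∏ c ∈ Finset.range r, (X - C (qExpand k m (tw (ζ ^ c) jb))) := by
    rw [hΦL, map_aeval_algHom, hx, ← qExpand_qExpand r m jb, hPhi_qExpand jb r Φ ζ hΦ m,
      qExpand_qExpand, qExpand_congr (mul_assoc m r r).symm jb]
  -- the factorisation of the image of `ΦL` under `τ`
  have h2 : ΦL.map τ =
      (X - C (qExpand k (r * r) jb)) * ∏ c ∈ Finset.range r, (X - C (tw (ζ ^ c) jb)) := by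
    rw [hτ, ← Polynomial.map_map, hΦL, map_aeval_algHom, map_evalAt_qExpand, hσx, hΦ]
  -- `y` is a root of `ΦL`
  have hroot : ΦL.IsRoot y := by
    have h3 : (ΦL.map (e : L →+* LaurentSeries k)).eval ((e : L →+* LaurentSeries k) y) = 0 := by
      rw [h1, Polynomial.eval_mul, Polynomial.eval_prod,
        Finset.prod_eq_zero h0mem (by
          rw [Polynomial.eval_sub, Polynomial.eval_X, Polynomial.eval_C, htw0]
          exact sub_eq_zero.mpr hy), mul_zero]
    rw [Polynomial.eval_map_apply] at h3
    exact he (by rw [h3, map_zero])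
  set P : Polynomial L := ΦL /ₘ (X - C y) with hPdef
  have hP : (X - C y) * P = ΦL := Polynomial.mul_divByMonic_eq_iff_isRoot.mpr hroot
  obtain ⟨hΦLm, hΦLd⟩ := monic_natDegree_of_map (e : L →+* LaurentSeries k) ΦL _ _ _ h1
  rw [Finset.card_range] at hΦLd
  have hPm : P.Monic := by
    have : ((X - C y) * P).Monic := by rw [hP]; exact hΦLm
    exact (Polynomial.monic_X_sub_C y).of_mul_monic_left this
  have hPd : P.natDegree = r := by
    have h4 := (Polynomial.monic_X_sub_C y).natDegree_mul hPm
    rw [hP, hΦLd, Polynomial.natDegree_X_sub_C] at h4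
    omega
  -- the image of `P` under `τ`
  have hPτ : P.map τ = ∏ c ∈ Finset.range r, (X - C (tw (ζ ^ c) jb)) := by
    have h5 : (X - C (qExpand k (r * r) jb)) * P.map τ = ΦL.map τ := by
      rw [← hP, Polynomial.map_mul, Polynomial.map_sub, Polynomial.map_X, Polynomial.map_C]
      congr 3
      show _ = qExpand k r (σ y)
      rw [hσy, qExpand_qExpand]
    rw [h2] at h5
    exact mul_left_cancel₀ (Polynomial.X_sub_C_ne_zero _) h5
  -- the root of `P` over `k((q))`
  have hPe : (P.map (e : L →+* LaurentSeries k)).eval (qExpand k (m * r * r) jb) = 0 := by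
    have h6 : (X - C (qExpand k m jb)) * P.map (e : L →+* LaurentSeries k) =
        (X - C (qExpand k m jb)) * ((X - C (qExpand k (m * r * r) jb)) *
          ∏ c ∈ (Finset.range r).erase 0, (X - C (qExpand k m (tw (ζ ^ c) jb)))) := by
      have h7 : (X - C (qExpand k m jb)) * P.map (e : L →+* LaurentSeries k) =
          ΦL.map (e : L →+* LaurentSeries k) := by
        rw [← hP, Polynomial.map_mul, Polynomial.map_sub, Polynomial.map_X, Polynomial.map_C]
        congr 3
        exact hy.symm
      rw [h7, h1, ← Finset.mul_prod_erase _ _ h0mem, htw0]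
      ring
    rw [mul_left_cancel₀ (Polynomial.X_sub_C_ne_zero _) h6, Polynomial.eval_mul,
      Polynomial.eval_sub, Polynomial.eval_X, Polynomial.eval_C, sub_self, zero_mul]
  -- irreducibility
  have hirr : Irreducible P := by
    have hjbroot : (P.map τ).eval jb = 0 := by
      rw [hPτ, Polynomial.eval_prod]
      exact Finset.prod_eq_zero h0mem (by
        rw [Polynomial.eval_sub, Polynomial.eval_X, Polynomial.eval_C, htw0, sub_self])
    have hcop : IsCoprime jb.order (r : ℤ) := by
      rw [hjb]
      exact isCoprime_one_left.neg_left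
    have key : ∀ a b : Polynomial L, P = a * b → (a.map τ).eval jb = 0 → IsUnit b := by
      intro a b hab ha
      have hP0 : P ≠ 0 := hPm.ne_zero
      have ha0 : a ≠ 0 := by
        rintro rfl
        exact hP0 (by rw [hab, zero_mul])
      have hb0 : b ≠ 0 := by
        rintro rfl
        exact hP0 (by rw [hab, mul_zero])
      have hdeg : r ≤ (a.map τ).natDegree :=
        le_natDegree_of_root r jb hjb0 hcop (a.map τ) (Polynomial.map_ne_zero ha0)
          (fun i => ⟨σ (a.coeff i), by rw [Polynomial.coeff_map]; rfl⟩) ha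
      rw [Polynomial.natDegree_map] at hdeg
      have hsum : a.natDegree + b.natDegree = r := by
        rw [← Polynomial.natDegree_mul ha0 hb0, ← hab, hPd]
      have hb : b.natDegree = 0 := by omega
      rw [Polynomial.isUnit_iff_degree_eq_zero, Polynomial.degree_eq_natDegree hb0, hb]
      rfl
    refine irreducible_iff.mpr ⟨fun hu => ?_, fun a b hab => ?_⟩
    · have := Polynomial.natDegree_eq_zero_of_isUnit hu
      omega
    · have h8 : (a.map τ).eval jb * (b.map τ).eval jb = 0 := by
        rw [← Polynomial.eval_mul, ← Polynomial.map_mul, ← hab, hjbroot]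
      rcases mul_eq_zero.mp h8 with h | h
      · exact Or.inr (key a b hab h)
      · exact Or.inl (key b a (by rw [hab, mul_comm]) h)
  exact ⟨P, hPm, hPd, hirr, hPe, hPτ⟩

/-- **New-prime step** of the tower (abstract form): if `jb(q^(M r))` is not in the field `L`
reached so far (`r` prime to `M`), then `P := Φ(X, xM)` is monic irreducible of degree `r + 1`
over `L`, has the root `jb(q^(M r))` (after `e`), and its image under `(t ↦ t^r) ∘ σ` has the
root `jb(t)` (so the embedding extends by `jb(q^(M r)) ↦ jb(t)`). -/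
theorem new_prime_step {k : Type*} [Field k] (jb : LaurentSeries k) (hjb : jb.order = -1)
    (r : ℕ) [NeZero r] (Φ : Polynomial (Polynomial k)) (ζ : kˣ)
    (hΦ : Φ.map (evalAt (qExpand k r jb)) =
      (X - C (qExpand k (r * r) jb)) * ∏ c ∈ Finset.range r, (X - C (tw (ζ ^ c) jb)))
    (M : ℕ) [NeZero M] (hrM : Nat.Coprime M r)
    {L : Type*} [Field L] [Algebra k L] (e σ : L →ₐ[k] LaurentSeries k)
    (xM : L) (hxM : e xM = qExpand k M jb) (hσM : σ xM = jb)
    (hnot : qExpand k (M * r) jb ∉ Set.range e) :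
    ∃ P : Polynomial L, P.Monic ∧ P.natDegree = r + 1 ∧ Irreducible P ∧
      (P.map (e : L →+* LaurentSeries k)).eval (qExpand k (M * r) jb) = 0 ∧
      (P.map ((qExpand k r).comp (σ : L →+* LaurentSeries k))).eval jb = 0 := by
  classical
  have hr0 : 0 < r := Nat.pos_of_ne_zero (NeZero.ne r)
  have h0mem : 0 ∈ Finset.range r := Finset.mem_range.mpr hr0
  have hjb0 : jb ≠ 0 := ne_zero_of_order hjb
  have htw0 : tw (ζ ^ 0) jb = jb := by rw [pow_zero, tw_one]
  have hrM' : ¬ (r : ℤ) ∣ (M : ℤ) := by
    intro h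
    have h1 : r ∣ M := Int.natCast_dvd_natCast.mp h
    have h2 : r ∣ Nat.gcd M r := Nat.dvd_gcd h1 dvd_rfl
    rw [hrM.gcd_eq_one] at h2
    have h3 : M * r = M := by rw [Nat.dvd_one.mp h2, mul_one]
    exact hnot ⟨xM, by rw [hxM]; exact qExpand_congr h3.symm jb⟩
  set ΦL : Polynomial L := Φ.map (Polynomial.aeval xM : Polynomial k →ₐ[k] L).toRingHom with hΦL
  set τ' : L →+* LaurentSeries k := (qExpand k r).comp (e : L →+* LaurentSeries k) with hτ'
  set τ : L →+* LaurentSeries k := (qExpand k r).comp (σ : L →+* LaurentSeries k) with hτ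
  -- the factorisation of `ΦL` in the variable `s = q^(1/r)`
  have h1 : ΦL.map τ' =
      (X - C (qExpand k r (qExpand k (M * r) jb))) *
        ∏ c ∈ Finset.range r, (X - C (qExpand k M (tw (ζ ^ c) jb))) := by
    have hcomm : qExpand k r (qExpand k M jb) = qExpand k M (qExpand k r jb) := by
      rw [qExpand_qExpand, qExpand_qExpand]
      exact qExpand_congr (mul_comm r M) jb
    have hcomm2 : qExpand k M (qExpand k (r * r) jb) = qExpand k r (qExpand k (M * r) jb) := by
      rw [qExpand_qExpand, qExpand_qExpand]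
      exact qExpand_congr (by ring) jb
    rw [hτ', ← Polynomial.map_map, hΦL, map_aeval_algHom, map_evalAt_qExpand, hxM, hcomm,
      hPhi_qExpand jb r Φ ζ hΦ M, hcomm2]
  -- the factorisation of the image of `ΦL` under `τ`
  have h2 : ΦL.map τ =
      (X - C (qExpand k (r * r) jb)) * ∏ c ∈ Finset.range r, (X - C (tw (ζ ^ c) jb)) := by
    rw [hτ, ← Polynomial.map_map, hΦL, map_aeval_algHom, map_evalAt_qExpand, hσM, hΦ]
  obtain ⟨hΦLm, hΦLd⟩ := monic_natDegree_of_map τ' ΦL _ _ _ h1
  rw [Finset.card_range] at hΦLd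
  -- the root over `k((q))`
  have hroot : (ΦL.map (e : L →+* LaurentSeries k)).eval (qExpand k (M * r) jb) = 0 := by
    have h3 : qExpand k r
        ((ΦL.map (e : L →+* LaurentSeries k)).eval (qExpand k (M * r) jb)) = 0 := by
      rw [← Polynomial.eval_map_apply, Polynomial.map_map, ← hτ', h1, Polynomial.eval_mul,
        Polynomial.eval_sub, Polynomial.eval_X, Polynomial.eval_C, sub_self, zero_mul]
    exact qExpand_injective r (by rw [h3, map_zero])
  -- the root of the image
  have himg : (ΦL.map τ).eval jb = 0 := by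
    rw [h2, Polynomial.eval_mul, Polynomial.eval_prod,
      Finset.prod_eq_zero h0mem (by
        rw [Polynomial.eval_sub, Polynomial.eval_X, Polynomial.eval_C, htw0, sub_self]),
      mul_zero]
  -- irreducibility
  have hy₀ : qExpand k M jb ≠ 0 := fun h => hjb0 (qExpand_injective M (by rw [h, map_zero]))
  have hy₀ord : (qExpand k M jb).order = -(M : ℤ) := by
    rw [order_qExpand M jb hjb0, hjb]
    ring
  have hcop : IsCoprime (qExpand k M jb).order (r : ℤ) := by
    rw [hy₀ord]
    exact (Nat.isCoprime_iff_coprime.mpr hrM).neg_left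
  have hy₀root : (ΦL.map τ').eval (qExpand k M jb) = 0 := by
    rw [h1, Polynomial.eval_mul, Polynomial.eval_prod,
      Finset.prod_eq_zero h0mem (by
        rw [Polynomial.eval_sub, Polynomial.eval_X, Polynomial.eval_C, htw0, sub_self]),
      mul_zero]
  have hΦL0 : ΦL ≠ 0 := hΦLm.ne_zero
  have key : ∀ a b : Polynomial L, ΦL = a * b → (a.map τ').eval (qExpand k M jb) = 0 →
      IsUnit b := by
    intro a b hab ha
    have ha0 : a ≠ 0 := by
      rintro rfl
      exact hΦL0 (by rw [hab, zero_mul])
    have hb0 : b ≠ 0 := by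
      rintro rfl
      exact hΦL0 (by rw [hab, mul_zero])
    have hdeg : r ≤ (a.map τ').natDegree :=
      le_natDegree_of_root r _ hy₀ hcop (a.map τ') (Polynomial.map_ne_zero ha0)
        (fun i => ⟨e (a.coeff i), by rw [Polynomial.coeff_map]; rfl⟩) ha
    rw [Polynomial.natDegree_map] at hdeg
    have hsum : a.natDegree + b.natDegree = r + 1 := by
      rw [← Polynomial.natDegree_mul ha0 hb0, ← hab, hΦLd]
    by_contra hbu
    have hb1 : b.natDegree = 1 := by
      have hne : b.natDegree ≠ 0 := fun h0 => hbu (by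
        rw [Polynomial.isUnit_iff_degree_eq_zero, Polynomial.degree_eq_natDegree hb0, h0]
        rfl)
      omega
    obtain ⟨β, hβ⟩ := Polynomial.exists_root_of_degree_eq_one
      (show b.degree = 1 by rw [Polynomial.degree_eq_natDegree hb0, hb1]; rfl)
    have hβΦ : ΦL.eval β = 0 := by
      rw [hab, Polynomial.eval_mul, hβ.eq_zero, mul_zero]
    have h4 : (ΦL.map τ').eval (τ' β) = 0 := by
      rw [Polynomial.eval_map_apply, hβΦ, map_zero]
    rw [h1, Polynomial.eval_mul, Polynomial.eval_sub, Polynomial.eval_X, Polynomial.eval_C,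
      Polynomial.eval_prod] at h4
    rcases mul_eq_zero.mp h4 with h5 | h5
    · have h6 : e β = qExpand k (M * r) jb := qExpand_injective r (sub_eq_zero.mp h5)
      exact hnot ⟨β, h6⟩
    · obtain ⟨c, -, h6⟩ := Finset.prod_eq_zero_iff.mp h5
      rw [Polynomial.eval_sub, Polynomial.eval_X, Polynomial.eval_C, sub_eq_zero] at h6
      have hL : (τ' β).coeff (-(M : ℤ)) = 0 :=
        qExpand_coeff_of_not_dvd r _ (by rwa [dvd_neg])
      have hR : (qExpand k M (tw (ζ ^ c) jb)).coeff (-(M : ℤ)) ≠ 0 := by
        rw [show (-(M : ℤ)) = (M : ℤ) * (-1) by ring, qExpand_coeff_mul, tw_coeff]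
        refine mul_ne_zero (Units.ne_zero _) ?_
        rw [← hjb]
        exact fun h => hjb0 (HahnSeries.coeff_order_eq_zero.mp h)
      exact hR (by rw [← h6]; exact hL)
  have hirr : Irreducible ΦL := by
    refine irreducible_iff.mpr ⟨fun hu => ?_, fun a b hab => ?_⟩
    · have := Polynomial.natDegree_eq_zero_of_isUnit hu
      omega
    · have h8 : (a.map τ').eval (qExpand k M jb) * (b.map τ').eval (qExpand k M jb) = 0 := by
        rw [← Polynomial.eval_mul, ← Polynomial.map_mul, ← hab, hy₀root]
      rcases mul_eq_zero.mp h8 with h | h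
      · exact Or.inr (key a b hab h)
      · exact Or.inl (key b a (by rw [hab, mul_comm]) h)
  exact ⟨ΦL, hΦLm, hΦLd, hirr, hroot, himg⟩

end

end Fermat.Agent.S28
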