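import Mathlib
import Fermat.Agent.S28.SeriesBasic
import Fermat.Agent.S28.TowerAlgX
import Fermat.Agent.S28.TowerGood
import Fermat.Agent.S28.TowerStep
import Fermat.Agent.S28.TowerNewPrime
import Fermat.Agent.S20.CombIndex

set_option autoImplicit false

/-! # S28 Block 5: the chain induction of the mod-`ℓ` tower (`tower_indep`) -/

open ModularCurve Polynomial

namespace Fermat.Agent.S28

section core

variable {k : Type*} [Field k]

/-- (ii) the step. -/
theorem good_step [IsAlgClosed k] (jb : LaurentSeries k) (hjb : jb.order = -1)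
    (M r : ℕ) [NeZero M] [NeZero r] (hr : r.Prime)
    (hmin : ∀ p : ℕ, p.Prime → p ∣ M → r ≤ p)
    (H1 : ∀ (p : ℕ) [NeZero p], p.Prime → p ∣ M * r →
      ∃ (Φ : Polynomial (Polynomial k)) (ζ : kˣ),
        Φ.map (evalAt (qExpand k p jb)) =
          (X - C (qExpand k (p * p) jb)) * ∏ c ∈ Finset.range p, (X - C (tw (ζ ^ c) jb)))
    (H2 : qExpand k r jb ∉ IntermediateField.adjoin k {jb})
    (hM : Good jb M) : Good jb (M * r) := by
  obtain ⟨C₀, σ, v, hG⟩ := hM
  obtain ⟨Φ, ζ, hΦ⟩ := H1 r hr (Dvd.intro_left M rfl)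
  obtain ⟨hT, hσT⟩ := hG.top
  have hM0 : M ≠ 0 := NeZero.ne M
  by_cases hrM : r ∣ M
  · -- repeated prime
    obtain ⟨m, hm⟩ := hrM
    have hm' : M = m * r := by rw [hm, mul_comm]
    have hm0 : m ≠ 0 := by
      rintro rfl
      exact hM0 (by rw [hm', zero_mul])
    have : NeZero m := ⟨hm0⟩
    obtain ⟨hY, hσY⟩ := hG.prev r m hr hm' hmin
    have hx : C₀.val ⟨qExpand k M jb, hT⟩ = qExpand k (m * r) jb := by
      subst hm'
      rfl
    obtain ⟨P, -, hdeg, hirr, hroot, hmap⟩ :=
      repeated_prime_step jb hjb r Φ ζ hΦ m (C₀.val) σ ⟨qExpand k M jb, hT⟩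
        ⟨qExpand k m jb, hY⟩ hx rfl hσT hσY
    refine good_of_irreducible jb M r hr hmin C₀ σ v hG P hirr ?_ ?_ ?_
    · rw [hdeg, mul_comm M r, Fermat.Agent.S20.Comb.dedekindPsi_mul_of_dvd hM0 hr.ne_zero
        ⟨m, hm⟩, mul_comm]
    · have h1 : Polynomial.aeval (qExpand k (M * r) jb) P =
          (P.map (C₀.val : ↥C₀ →+* LaurentSeries k)).eval (qExpand k (M * r) jb) := by
        rw [Polynomial.aeval_def, Polynomial.eval₂_eq_eval_map]
        rfl
      rw [h1]
      subst hm'
      exact hroot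
    · rw [hmap, Polynomial.eval_prod]
      refine Finset.prod_eq_zero (Finset.mem_range.mpr hr.pos) ?_
      simp [tw_one]
  · -- new prime
    have hcop : Nat.Coprime M r := ((Nat.Prime.coprime_iff_not_dvd hr).mpr hrM).symm
    have hnot : qExpand k (M * r) jb ∉ Set.range (C₀.val : ↥C₀ →ₐ[k] LaurentSeries k) := by
      rintro ⟨⟨y, hy⟩, hy'⟩
      have h1 := qExpand_mul_notMem_adjoin_divisors jb hjb M r hr hrM H1 H2
      apply h1
      have h2 : y ∈ IntermediateField.adjoin k (towerGens jb M) := hG.le_gens hy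
      have h3 : y = qExpand k (M * r) jb := hy'
      rw [← h3]
      exact h2
    obtain ⟨P, -, hdeg, hirr, hroot, hroot'⟩ :=
      new_prime_step jb hjb r Φ ζ hΦ M hcop (C₀.val) σ ⟨qExpand k M jb, hT⟩ rfl hσT hnot
    refine good_of_irreducible jb M r hr hmin C₀ σ v hG P hirr ?_ ?_ hroot'
    · rw [hdeg, mul_comm M r, Fermat.Agent.S20.Comb.dedekindPsi_mul_of_not_dvd hM0 hr hrM,
        mul_comm]
    · have h1 : Polynomial.aeval (qExpand k (M * r) jb) P =
          (P.map (C₀.val : ↥C₀ →+* LaurentSeries k)).eval (qExpand k (M * r) jb) := by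
        rw [Polynomial.aeval_def, Polynomial.eval₂_eq_eval_map]
        rfl
      rw [h1]
      exact hroot

/-- (iii) the induction, with the `NeZero` instance as an explicit argument. -/
theorem TowerCore.good_all_aux [IsAlgClosed k] (jb : LaurentSeries k) (hjb : jb.order = -1) :
    ∀ (N : ℕ) [NeZero N],
      (∀ (r : ℕ) [NeZero r], r.Prime → r ∣ N →
        ∃ (Φ : Polynomial (Polynomial k)) (ζ : kˣ),
          Φ.map (evalAt (qExpand k r jb)) =
            (X - C (qExpand k (r * r) jb)) * ∏ c ∈ Finset.range r, (X - C (tw (ζ ^ c) jb))) →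
      (∀ (r : ℕ) [NeZero r], r.Prime → r ∣ N →
        qExpand k r jb ∉ IntermediateField.adjoin k {jb}) →
      Good jb N := by
  intro N
  induction N using Nat.strong_induction_on with
  | _ N ih =>
    intro hN H1 H2
    by_cases h1 : N = 1
    · subst h1
      exact good_one jb
    · obtain ⟨r, hr, hrN, hmin⟩ : ∃ r : ℕ, r.Prime ∧ r ∣ N ∧ ∀ p : ℕ, p.Prime → p ∣ N → r ≤ p :=
        ⟨N.minFac, Nat.minFac_prime h1, Nat.minFac_dvd N,
          fun p hp hpN => Nat.minFac_le_of_dvd hp.two_le hpN⟩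
      obtain ⟨M, hM⟩ := hrN
      have hN0 : N ≠ 0 := NeZero.ne N
      have hM0 : M ≠ 0 := by
        rintro rfl
        exact hN0 (by rw [hM, mul_zero])
      have hMlt : M < N := by
        rw [hM]
        calc M = 1 * M := (one_mul M).symm
          _ < r * M := Nat.mul_lt_mul_of_pos_right hr.one_lt (Nat.pos_of_ne_zero hM0)
      have hMN : M ∣ N := ⟨r, by rw [hM, mul_comm]⟩
      have hMinst : NeZero M := ⟨hM0⟩
      have hrinst : NeZero r := ⟨hr.ne_zero⟩
      have hgood : Good jb M :=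
        ih M hMlt (fun p _ hp hpM => H1 p hp (hpM.trans hMN))
          (fun p _ hp hpM => H2 p hp (hpM.trans hMN))
      have hN' : N = M * r := by rw [hM, mul_comm]
      subst hN'
      exact good_step jb hjb M r hr (fun p hp hpM => hmin p hp (hpM.trans hMN)) H1
        (H2 r hr (Dvd.intro_left M rfl)) hgood

/-- (iii) the induction. -/
theorem good_all [IsAlgClosed k] (jb : LaurentSeries k) (hjb : jb.order = -1) (N : ℕ) [NeZero N]
    (H1 : ∀ (r : ℕ) [NeZero r], r.Prime → r ∣ N →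
      ∃ (Φ : Polynomial (Polynomial k)) (ζ : kˣ),
        Φ.map (evalAt (qExpand k r jb)) =
          (X - C (qExpand k (r * r) jb)) * ∏ c ∈ Finset.range r, (X - C (tw (ζ ^ c) jb)))
    (H2 : ∀ (r : ℕ) [NeZero r], r.Prime → r ∣ N →
      qExpand k r jb ∉ IntermediateField.adjoin k {jb}) :
    Good jb N :=
  TowerCore.good_all_aux jb hjb N H1 H2

end core

/-- TT: the generic char-`ℓ` tower theorem. -/
theorem tower_indep {k : Type*} [Field k] [IsAlgClosed k] (jb : LaurentSeries k)
    (hjb : jb.order = -1) (N : ℕ) [NeZero N]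
    (H1 : ∀ (r : ℕ) [NeZero r], r.Prime → r ∣ N →
      ∃ (Φ : Polynomial (Polynomial k)) (ζ : kˣ),
        Φ.map (evalAt (qExpand k r jb)) =
          (X - C (qExpand k (r * r) jb)) * ∏ c ∈ Finset.range r, (X - C (tw (ζ ^ c) jb)))
    (H2 : ∀ (r : ℕ) [NeZero r], r.Prime → r ∣ N →
      qExpand k r jb ∉ IntermediateField.adjoin k {jb}) :
    ∃ v : Fin (dedekindPsi N) → LaurentSeries k,
      (∀ i, v i ∈ Subring.closure
        {x : LaurentSeries k | ∃ (d : ℕ) (_ : NeZero d), d ∣ N ∧ x = qExpand k d jb}) ∧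
      LinearIndependent ↥(IntermediateField.adjoin k {jb}) v := by
  obtain ⟨C, σ, v, hG⟩ := good_all jb hjb N H1 H2
  exact ⟨v, hG.mem_closure, hG.indep⟩

end Fermat.Agent.S28
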