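import Mathlib
import Fermat.Prelude.Def_ModularCurve_X0ModL
import Fermat.Agent.S28.SeriesBasic
import Fermat.Agent.S28.NotRational
import Fermat.Agent.S28.ModPoly
import Fermat.Agent.S28.TowerCore

set_option autoImplicit false

/-! # S28 Block 5: the mod-`ℓ` tower: `[𝔽_ℓ(j(q^d) : d ∣ N) : 𝔽_ℓ(j)] ≥ ψ(N)` (export) -/

open ModularCurve Polynomial

namespace Fermat.Agent.S28

noncomputable section

namespace Tower

theorem coeffMap_injective {k0 k : Type*} [Field k0] [Field k] (f : k0 →+* k) :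
    Function.Injective (coeffMap f) := by
  intro x y h
  ext n
  have := congrArg (fun z : LaurentSeries k => z.coeff n) h
  simp only [coeffMap_coeff] at this
  exact f.injective this

theorem coeffMap_mem_adjoin {k0 k : Type*} [Field k0] [Field k] (f : k0 →+* k)
    (J0 : LaurentSeries k0) {x : LaurentSeries k0} (hx : x ∈ IntermediateField.adjoin k0 {J0}) :
    coeffMap f x ∈ IntermediateField.adjoin k {coeffMap f J0} := by
  have hle : (IntermediateField.adjoin k0 {J0}).toSubfield ≤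
      (IntermediateField.adjoin k {coeffMap f J0}).toSubfield.comap (coeffMap f) := by
    rw [IntermediateField.adjoin_toSubfield, Subfield.closure_le]
    rintro y (⟨c, rfl⟩ | hy)
    · show coeffMap f (algebraMap k0 (LaurentSeries k0) c) ∈
        (IntermediateField.adjoin k {coeffMap f J0}).toSubfield
      rw [algebraMap_laurentSeries_eq_single, coeffMap_single,
        ← algebraMap_laurentSeries_eq_single]
      exact (IntermediateField.adjoin k {coeffMap f J0}).algebraMap_mem (f c)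
    · rw [Set.mem_singleton_iff] at hy
      subst hy
      exact IntermediateField.subset_adjoin k _ (Set.mem_singleton _)
  exact hle hx

/-- Linear independence over `k(J)` descends along an extension of the coefficient field. -/
theorem linearIndependent_descend {k0 k : Type*} [Field k0] [Field k] (f : k0 →+* k)
    (J0 : LaurentSeries k0) {n : ℕ} (β : Fin n → LaurentSeries k0)
    (h : LinearIndependent ↥(IntermediateField.adjoin k {coeffMap f J0})
      (fun i => coeffMap f (β i))) :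
    LinearIndependent ↥(IntermediateField.adjoin k0 {J0}) β := by
  rw [Fintype.linearIndependent_iff] at h ⊢
  intro g hg i
  have h1 := h (fun i => ⟨coeffMap f (g i : LaurentSeries k0), coeffMap_mem_adjoin f J0 (g i).2⟩)
    (by
      have h2 : coeffMap f (∑ i, g i • β i) = 0 := by rw [hg, map_zero]
      rw [map_sum] at h2
      rw [← h2]
      refine Finset.sum_congr rfl fun i _ => ?_
      rw [IntermediateField.smul_def, IntermediateField.smul_def, smul_eq_mul, smul_eq_mul,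
        map_mul]) i
  have h3 : coeffMap f (g i : LaurentSeries k0) = 0 := congrArg Subtype.val h1
  have h4 : (g i : LaurentSeries k0) = 0 := coeffMap_injective f (by rw [h3, map_zero])
  exact Subtype.ext h4

theorem jInt_eq_jqModC : jInt = jqModC ℤ := by
  have h : jNum.map (Int.castRingHom ℤ) = jNum := by
    ext n
    simp
  rw [jqModC, h, jInt]

theorem jS_eq_jqModC' (R : Type*) [CommRing R] : jS R = jqModC R := by
  rw [jS, jInt_eq_jqModC, coeffMap_jqModC]

end Tower

open Tower in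
/-- Block 5 (mod-`ℓ` degree bound): there are `ψ(N)` elements of `ℤ[j(q^d) : d ∣ N] ⊆ ℤ((q))`
whose reductions mod `ℓ` are linearly independent over `𝔽_ℓ(j) ⊆ 𝔽_ℓ((q))`. -/
theorem exists_indep_mod (N : ℕ) [NeZero N] (ℓ : ℕ) [Fact ℓ.Prime] (hℓN : ¬ ℓ ∣ N) :
    ∃ θ : Fin (dedekindPsi N) → LaurentSeries ℤ,
      (∀ i, θ i ∈ Subring.closure
        {x : LaurentSeries ℤ | ∃ (d : ℕ) (_ : NeZero d), d ∣ N ∧ x = qExpand ℤ d jInt}) ∧
      LinearIndependent ↥(IntermediateField.adjoin (ZMod ℓ) {jS (ZMod ℓ)})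
        (fun i => coeffMap (Int.castRingHom (ZMod ℓ)) (θ i)) := by
  have hℓ : ℓ.Prime := Fact.out
  let k := AlgebraicClosure (ZMod ℓ)
  have hjb : (jS k).order = -1 := NotRational.order_jS
  -- the modular polynomial data for every prime `r ∣ N`
  have hD : ∀ (r : ℕ) [NeZero r], r.Prime → r ∣ N →
      ∃ (ζ : kˣ) (_ : IsPrimitiveRoot ζ r), Nonempty (ModPolyData k r ζ) := by
    intro r _ hr hrN
    have hrk : (r : k) ≠ 0 := by
      intro h0
      have h1 : ℓ ∣ r := (CharP.cast_eq_zero_iff k ℓ r).mp h0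
      have h2 : ℓ = r := (Nat.prime_dvd_prime_iff_eq hℓ hr).mp h1
      exact hℓN (h2 ▸ hrN)
    have : NeZero (r : k) := ⟨hrk⟩
    obtain ⟨ζ0, hζ0⟩ := HasEnoughRootsOfUnity.exists_primitiveRoot k r
    obtain ⟨ζ, rfl⟩ := hζ0.isUnit (NeZero.ne r)
    have hζ : IsPrimitiveRoot ζ r := IsPrimitiveRoot.coe_units_iff.mp hζ0
    exact ⟨ζ, hζ, exists_modPolyData k r hr ζ hζ⟩
  have H1 : ∀ (r : ℕ) [NeZero r], r.Prime → r ∣ N →
      ∃ (Φ : Polynomial (Polynomial k)) (ζ : kˣ),
        Φ.map (evalAt (qExpand k r (jS k))) =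
          (X - C (qExpand k (r * r) (jS k))) *
            ∏ c ∈ Finset.range r, (X - C (tw (ζ ^ c) (jS k))) := by
    intro r _ hr hrN
    obtain ⟨ζ, hζ, ⟨D⟩⟩ := hD r hr hrN
    exact ⟨D.Φ, ζ, D.hΦ⟩
  have H2 : ∀ (r : ℕ) [NeZero r], r.Prime → r ∣ N →
      qExpand k r (jS k) ∉ IntermediateField.adjoin k {jS k} := by
    intro r _ hr hrN
    obtain ⟨ζ, hζ, ⟨D⟩⟩ := hD r hr hrN
    exact qExpand_jS_notMem k r hr ζ hζ D
  obtain ⟨v, hv, hli⟩ := tower_indep (jS k) hjb N H1 H2
  -- lift the `v i` to integral series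
  have hcl : Subring.closure
      {x : LaurentSeries k | ∃ (d : ℕ) (_ : NeZero d), d ∣ N ∧ x = qExpand k d (jS k)} =
      (Subring.closure
        {x : LaurentSeries ℤ | ∃ (d : ℕ) (_ : NeZero d), d ∣ N ∧ x = qExpand ℤ d jInt}).map
        (coeffMap (Int.castRingHom k)) := by
    rw [RingHom.map_closure]
    congr 1
    ext x
    constructor
    · rintro ⟨d, hd, hdN, rfl⟩
      exact ⟨qExpand ℤ d jInt, ⟨d, hd, hdN, rfl⟩, by rw [coeffMap_qExpand]; rfl⟩
    · rintro ⟨y, ⟨d, hd, hdN, rfl⟩, rfl⟩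
      exact ⟨d, hd, hdN, by rw [coeffMap_qExpand]; rfl⟩
  have hv' : ∀ i, ∃ θ ∈ Subring.closure
      {x : LaurentSeries ℤ | ∃ (d : ℕ) (_ : NeZero d), d ∣ N ∧ x = qExpand ℤ d jInt},
      coeffMap (Int.castRingHom k) θ = v i := by
    intro i
    have := hv i
    rw [hcl] at this
    exact Subring.mem_map.mp this
  choose θ hθ hθv using hv'
  refine ⟨θ, hθ, ?_⟩
  refine linearIndependent_descend (algebraMap (ZMod ℓ) k) (jS (ZMod ℓ)) _ ?_
  have e1 : coeffMap (algebraMap (ZMod ℓ) k) (jS (ZMod ℓ)) = jS k := coeffMap_jS _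
  have e2 : (fun i => coeffMap (algebraMap (ZMod ℓ) k)
      (coeffMap (Int.castRingHom (ZMod ℓ)) (θ i))) = v := by
    funext i
    rw [coeffMap_coeffMap, ← hθv i]
    exact coeffMap_congr (RingHom.ext_int _ _) _
  rw [e1, e2]
  exact hli

open Tower in
/-- The residue-degree interface: `ψ(N)` elements of `𝔽_ℓ(j(q^d) : d ∣ N)` that are linearly
independent over `𝔽_ℓ(j)`. -/
theorem residue_degree (N : ℕ) [NeZero N] (ℓ : ℕ) [Fact ℓ.Prime] (hℓN : ¬ ℓ ∣ N) :
    ∃ β : Fin (ModularCurve.dedekindPsi N) → LaurentSeries (ZMod ℓ),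
      (∀ i, β i ∈ ModularCurve.modularFunctionFieldFullC (ZMod ℓ) N) ∧
      LinearIndependent ↥(IntermediateField.adjoin (ZMod ℓ) {ModularCurve.jqModC (ZMod ℓ)}) β := by
  obtain ⟨θ, hθ, hli⟩ := exists_indep_mod N ℓ hℓN
  refine ⟨fun i => coeffMap (Int.castRingHom (ZMod ℓ)) (θ i), fun i => ?_, ?_⟩
  · have h1 : coeffMap (Int.castRingHom (ZMod ℓ)) (θ i) ∈
        (Subring.closure
          {x : LaurentSeries ℤ | ∃ (d : ℕ) (_ : NeZero d), d ∣ N ∧ x = qExpand ℤ d jInt}).map
          (coeffMap (Int.castRingHom (ZMod ℓ))) := Subring.mem_map.mpr ⟨θ i, hθ i, rfl⟩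
    rw [RingHom.map_closure] at h1
    have h2 : Subring.closure ((coeffMap (Int.castRingHom (ZMod ℓ))) ''
        {x : LaurentSeries ℤ | ∃ (d : ℕ) (_ : NeZero d), d ∣ N ∧ x = qExpand ℤ d jInt}) ≤
        (modularFunctionFieldFullC (ZMod ℓ) N).toSubfield.toSubring := by
      rw [Subring.closure_le]
      rintro y ⟨x, ⟨d, hd, hdN, rfl⟩, rfl⟩
      show coeffMap (Int.castRingHom (ZMod ℓ)) (qExpand ℤ d jInt) ∈
        modularFunctionFieldFullC (ZMod ℓ) N
      rw [coeffMap_qExpand]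
      have : coeffMap (Int.castRingHom (ZMod ℓ)) jInt = jqModC (ZMod ℓ) :=
        jS_eq_jqModC' (ZMod ℓ)
      rw [this]
      exact jqModCd_mem_full (ZMod ℓ) N hdN
    exact h2 h1
  · rw [← jS_eq_jqModC' (ZMod ℓ)]
    exact hli

end

end Fermat.Agent.S28
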