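import Fermat.Agent.S28.Charts
import Fermat.Agent.S28.Content

set_option autoImplicit false

noncomputable section

open AlgebraicGeometry CategoryTheory CategoryTheory.Limits ModularCurve ModularCurve.IgusaScheme
open IntermediateField

namespace Fermat.Agent.S28

namespace FromDegree

variable (N : ℕ) (ℓ : ℕ) [Fact ℓ.Prime]

/-- The content valuation ring of `F_N`. -/
def contentFull : ValuationSubring ↥(modularFunctionFieldFull N) :=
  { (contentRing ℓ).comap (algebraMap ↥(modularFunctionFieldFull N) (LaurentSeries ℚ)) with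
    mem_or_inv_mem' := fun x => by
      rcases mem_contentRing_or_inv_mem_of_mem_full ℓ N x.2 with h | h
      · exact Or.inl h
      · exact Or.inr h }

theorem mem_contentFull_iff (x : ↥(modularFunctionFieldFull N)) :
    x ∈ contentFull N ℓ ↔ (x : LaurentSeries ℚ) ∈ contentRing ℓ := Iff.rfl

/-- The residue map of the content valuation ring of `F_N`. -/
def redFull : contentFull N ℓ →+* LaurentSeries (ZMod ℓ) :=
  (red ℓ).comp
    { toFun := fun x => ⟨((x : ↥(modularFunctionFieldFull N)) : LaurentSeries ℚ), x.2⟩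
      map_one' := rfl
      map_mul' := fun _ _ => rfl
      map_zero' := rfl
      map_add' := fun _ _ => rfl }

theorem redFull_apply (x : contentFull N ℓ) :
    redFull N ℓ x = red ℓ ⟨((x : ↥(modularFunctionFieldFull N)) : LaurentSeries ℚ), x.2⟩ := rfl

theorem redFull_ker (x : contentFull N ℓ) (hx : redFull N ℓ x = 0) :
    ∃ g : contentFull N ℓ, x = (ℓ : contentFull N ℓ) * g := by
  rw [redFull_apply] at hx
  obtain ⟨g, hg⟩ := (red_eq_zero_iff ℓ _).mp hx
  have hg' : ((x : ↥(modularFunctionFieldFull N)) : LaurentSeries ℚ) =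
      (ℓ : LaurentSeries ℚ) * (g : LaurentSeries ℚ) := by
    simpa using congrArg Subtype.val hg
  have hℓ0 : (ℓ : LaurentSeries ℚ) ≠ 0 := Content.natCast_laurent_ne_zero ℓ
  have hℓF : (ℓ : ↥(modularFunctionFieldFull N)) ≠ 0 :=
    Nat.cast_ne_zero.mpr (Fact.out : ℓ.Prime).ne_zero
  have hcoe : (((ℓ : ↥(modularFunctionFieldFull N))⁻¹ * (x : ↥(modularFunctionFieldFull N)) :
      ↥(modularFunctionFieldFull N)) : LaurentSeries ℚ) = (g : LaurentSeries ℚ) := by
    push_cast
    rw [hg', inv_mul_cancel_left₀ hℓ0]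
  have hmem : (ℓ : ↥(modularFunctionFieldFull N))⁻¹ * (x : ↥(modularFunctionFieldFull N)) ∈
      contentFull N ℓ := by
    rw [mem_contentFull_iff, hcoe]
    exact g.2
  refine ⟨⟨_, hmem⟩, Subtype.ext ?_⟩
  push_cast
  rw [mul_inv_cancel_left₀ hℓF]

theorem redFull_unit (x : ↥(modularFunctionFieldFull N)) (hx : x ∈ contentFull N ℓ)
    (h : redFull N ℓ ⟨x, hx⟩ ≠ 0) : x⁻¹ ∈ contentFull N ℓ := by
  rw [mem_contentFull_iff]
  push_cast
  exact inv_mem_contentRing ℓ hx h

theorem contentFull_const (r : ℚ) :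
    algebraMap ℚ ↥(modularFunctionFieldFull N) r ∈ contentFull N ℓ ↔
      r ∈ GaloisRep.ratLocalizedAt ℓ := by
  have h : ((algebraMap ℚ ↥(modularFunctionFieldFull N) r : ↥(modularFunctionFieldFull N)) :
      LaurentSeries ℚ) = algebraMap ℚ (LaurentSeries ℚ) r := by
    simp
  rw [mem_contentFull_iff, h]
  exact algebraMap_mem_contentRing_iff ℓ r

theorem redFull_jqd (d : ℕ) [NeZero d] (hd : d ∣ N) :
    ∃ h : (⟨qExpand ℚ d jq, jqd_mem_full N hd⟩ : ↥(modularFunctionFieldFull N)) ∈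
        contentFull N ℓ,
      redFull N ℓ ⟨_, h⟩ = qExpand (ZMod ℓ) d (jqModC (ZMod ℓ)) :=
  ⟨jqd_mem_contentRing ℓ d, red_jqd ℓ d⟩

end FromDegree

set_option maxHeartbeats 4000000 in
set_option synthInstance.maxHeartbeats 400000 in
/-- **S28 from the two degree statements**: the char-0 degree bound `[F_N : ℚ(j)] ≤ ψ(N)` and
the residue degree bound `[𝔽_ℓ(j̄(q^d) : d ∣ N) : 𝔽_ℓ(j̄)] ≥ ψ(N)`. -/
theorem isIntegral_pullback_of_degrees (N : ℕ) [NeZero N] (ℓ : ℕ) [Fact ℓ.Prime]
    (htr0 : Transcendental ℚ (jFull N))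
    (hfin : FiniteDimensional ℚ⟮jFull N⟯ ↥(modularFunctionFieldFull N))
    (hdeg : Module.finrank ℚ⟮jFull N⟯ ↥(modularFunctionFieldFull N) ≤ dedekindPsi N)
    (hres : ∃ β : Fin (dedekindPsi N) → LaurentSeries (ZMod ℓ),
      (∀ i, β i ∈ modularFunctionFieldFullC (ZMod ℓ) N) ∧
      LinearIndependent ↥(IntermediateField.adjoin (ZMod ℓ) {jqModC (ZMod ℓ)}) β)
    (K : Type) [Field K] [CharP K ℓ] [Algebra ↥(GaloisRep.ratLocalizedAt ℓ) K] :
    AlgebraicGeometry.IsIntegral ↑(pullback (igusaTo N ℓ)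
      (Spec.map (CommRingCat.ofHom (algebraMap ↥(GaloisRep.ratLocalizedAt ℓ) K)))) :=
  Charts.isIntegral_pullback_of_valuation N ℓ (FromDegree.contentFull N ℓ)
    (FromDegree.redFull N ℓ) (FromDegree.redFull_ker N ℓ) (FromDegree.redFull_unit N ℓ)
    (FromDegree.contentFull_const N ℓ) (fun d _ hd => FromDegree.redFull_jqd N ℓ d hd)
    (Content.transcendental_jqModC (ZMod ℓ)) htr0 hfin hdeg hres K

end Fermat.Agent.S28
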