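import Fermat.Statements.S28

set_option autoImplicit false

noncomputable section

open AlgebraicGeometry CategoryTheory CategoryTheory.Limits ModularCurve ModularCurve.IgusaScheme
open scoped TensorProduct

namespace Fermat.Agent.S28

namespace Glue

/-- A topological space covered by two irreducible open subsets with nonempty intersection is
irreducible. -/
theorem irreducibleSpace_of_two {X : Type*} [TopologicalSpace X] {U V : Set X}
    (hU : IsOpen U) (hV : IsOpen V) (hUi : IsIrreducible U) (hVi : IsIrreducible V)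
    (hcov : ∀ x, x ∈ U ∨ x ∈ V) (hne : (U ∩ V).Nonempty) : IrreducibleSpace X := by
  have key : ∀ A : Set X, IsOpen A → A.Nonempty → (A ∩ U).Nonempty ∧ (A ∩ V).Nonempty := by
    intro A hA ⟨x, hx⟩
    rcases hcov x with hxU | hxV
    · refine ⟨⟨x, hx, hxU⟩, ?_⟩
      obtain ⟨y, hyU, hyA, hyV⟩ := hUi.2 A V hA hV ⟨x, hxU, hx⟩
        (by obtain ⟨z, hz⟩ := hne; exact ⟨z, hz.1, hz.2⟩)
      exact ⟨y, hyA, hyV⟩
    · refine ⟨?_, ⟨x, hx, hxV⟩⟩
      obtain ⟨y, hyV, hyA, hyU⟩ := hVi.2 A U hA hU ⟨x, hxV, hx⟩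
        (by obtain ⟨z, hz⟩ := hne; exact ⟨z, hz.2, hz.1⟩)
      exact ⟨y, hyA, hyU⟩
  have hne' : Nonempty X := ⟨hne.some⟩
  refine @IrreducibleSpace.mk X _ ⟨?_⟩ hne'
  intro A B hA hB hAn hBn
  obtain ⟨x, hxA, hxU⟩ := (key A hA (by simpa using hAn)).1
  obtain ⟨y, hyB, hyU⟩ := (key B hB (by simpa using hBn)).1
  obtain ⟨z, hzU, hzA, hzB⟩ := hUi.2 A B hA hB ⟨x, hxU, hxA⟩ ⟨y, hyU, hyB⟩
  exact ⟨z, Set.mem_univ z, hzA, hzB⟩

/-- A scheme covered by two integral open subschemes with a common point is integral. -/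
theorem isIntegral_of_two {X U V : Scheme.{0}} (f : U ⟶ X) (g : V ⟶ X)
    [IsOpenImmersion f] [IsOpenImmersion g] [IsIntegral U] [IsIntegral V]
    (hcov : ∀ x : X, x ∈ Set.range f ∨ x ∈ Set.range g)
    (hne : (Set.range f ∩ Set.range g).Nonempty) : IsIntegral X := by
  let 𝒰 : X.OpenCover := Scheme.Cover.mkOfCovers Bool (fun b => cond b U V)
    (fun b => match b with
      | true => f
      | false => g)
    (fun x => by
      rcases hcov x with ⟨y, hy⟩ | ⟨y, hy⟩
      · exact ⟨true, y, hy⟩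
      · exact ⟨false, y, hy⟩)
    (fun b => by
      cases b
      · exact (inferInstance : IsOpenImmersion g)
      · exact (inferInstance : IsOpenImmersion f))
  have hred : IsReduced X := by
    have : ∀ i, IsReduced (𝒰.X i) := by
      intro b
      cases b
      · exact (inferInstance : IsReduced V)
      · exact (inferInstance : IsReduced U)
    exact IsReduced.of_openCover X 𝒰
  have hirr : IrreducibleSpace X := by
    refine irreducibleSpace_of_two (U := Set.range f) (V := Set.range g)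
      f.isOpenEmbedding.isOpen_range g.isOpenEmbedding.isOpen_range ?_ ?_ hcov hne
    · rw [← Set.image_univ]
      exact (IrreducibleSpace.isIrreducible_univ U).image _ f.continuous.continuousOn
    · rw [← Set.image_univ]
      exact (IrreducibleSpace.isIrreducible_univ V).image _ g.continuous.continuousOn
  exact isIntegral_of_irreducibleSpace_of_isReduced X

end Glue

set_option maxHeartbeats 4000000 in
set_option synthInstance.maxHeartbeats 400000 in
/-- Scheme glue for the Igusa model: if the base changes of the two charts to `K` are domains and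
the base change of the middle chart is nontrivial, then the fibre over `K` is integral. -/
theorem isIntegral_pullback_of_charts
    (N : ℕ) [NeZero N] (ℓ : ℕ) [Fact ℓ.Prime]
    (K : Type) [Field K] [Algebra ↥(GaloisRep.ratLocalizedAt ℓ) K]
    (hFin : IsDomain (↥(chartAlgFin N ℓ) ⊗[↥(GaloisRep.ratLocalizedAt ℓ)] K))
    (hInf : IsDomain (↥(chartAlgInf N ℓ) ⊗[↥(GaloisRep.ratLocalizedAt ℓ)] K))
    (hMid : Nontrivial (↥(chartAlgMid N ℓ) ⊗[↥(GaloisRep.ratLocalizedAt ℓ)] K)) :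
    IsIntegral ↑(pullback (igusaTo N ℓ)
      (Spec.map (CommRingCat.ofHom (algebraMap ↥(GaloisRep.ratLocalizedAt ℓ) K)))) := by
  set g := Spec.map (CommRingCat.ofHom (algebraMap ↥(GaloisRep.ratLocalizedAt ℓ) K)) with hg
  -- the two charts of the fibre
  let a : pullback (ιFin N ℓ ≫ igusaTo N ℓ) g ⟶ pullback (igusaTo N ℓ) g :=
    pullback.map (ιFin N ℓ ≫ igusaTo N ℓ) g (igusaTo N ℓ) g (ιFin N ℓ) (𝟙 _) (𝟙 _)
      (by simp) (by simp)
  let b : pullback (ιInf N ℓ ≫ igusaTo N ℓ) g ⟶ pullback (igusaTo N ℓ) g :=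
    pullback.map (ιInf N ℓ ≫ igusaTo N ℓ) g (igusaTo N ℓ) g (ιInf N ℓ) (𝟙 _) (𝟙 _)
      (by simp) (by simp)
  have ha : IsOpenImmersion a := inferInstance
  have hb : IsOpenImmersion b := inferInstance
  have hra : Set.range a = pullback.fst (igusaTo N ℓ) g ⁻¹' Set.range (ιFin N ℓ) := by
    rw [Scheme.Pullback.range_map]
    simp
  have hrb : Set.range b = pullback.fst (igusaTo N ℓ) g ⁻¹' Set.range (ιInf N ℓ) := by
    rw [Scheme.Pullback.range_map]
    simp
  -- integrality of the charts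
  have hIa : IsIntegral (pullback (ιFin N ℓ ≫ igusaTo N ℓ) g) := by
    have e : ιFin N ℓ ≫ igusaTo N ℓ =
        Spec.map (CommRingCat.ofHom
          (algebraMap ↥(GaloisRep.ratLocalizedAt ℓ) ↥(chartAlgFin N ℓ))) := ιFin_igusaTo N ℓ
    rw [e]
    have : IsDomain ↑(CommRingCat.of
        (↥(chartAlgFin N ℓ) ⊗[↥(GaloisRep.ratLocalizedAt ℓ)] K)) := hFin
    exact IsIntegral.of_isIso
      (pullbackSpecIso ↥(GaloisRep.ratLocalizedAt ℓ) ↥(chartAlgFin N ℓ) K).inv
  have hIb : IsIntegral (pullback (ιInf N ℓ ≫ igusaTo N ℓ) g) := by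
    have e : ιInf N ℓ ≫ igusaTo N ℓ =
        Spec.map (CommRingCat.ofHom
          (algebraMap ↥(GaloisRep.ratLocalizedAt ℓ) ↥(chartAlgInf N ℓ))) := ιInf_igusaTo N ℓ
    rw [e]
    have : IsDomain ↑(CommRingCat.of
        (↥(chartAlgInf N ℓ) ⊗[↥(GaloisRep.ratLocalizedAt ℓ)] K)) := hInf
    exact IsIntegral.of_isIso
      (pullbackSpecIso ↥(GaloisRep.ratLocalizedAt ℓ) ↥(chartAlgInf N ℓ) K).inv
  -- covering
  have hcov : ∀ x : ↑(pullback (igusaTo N ℓ) g), x ∈ Set.range a ∨ x ∈ Set.range b := by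
    intro x
    rw [hra, hrb]
    exact mem_range_ιFin_or_mem_range_ιInf N ℓ (pullback.fst (igusaTo N ℓ) g x)
  -- a common point
  have hne : (Set.range a ∩ Set.range b).Nonempty := by
    have e : (fFin N ℓ ≫ ιFin N ℓ) ≫ igusaTo N ℓ =
        Spec.map (CommRingCat.ofHom
          (algebraMap ↥(GaloisRep.ratLocalizedAt ℓ) ↥(chartAlgMid N ℓ))) := by
      have h : (inclFin N ℓ).toRingHom.comp
          (algebraMap ↥(GaloisRep.ratLocalizedAt ℓ) ↥(chartAlgFin N ℓ)) =
          algebraMap ↥(GaloisRep.ratLocalizedAt ℓ) ↥(chartAlgMid N ℓ) :=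
        RingHom.ext fun r => (inclFin N ℓ).commutes r
      rw [Category.assoc, ιFin_igusaTo, ← Spec.map_comp, ← CommRingCat.ofHom_comp, h]
    let c : pullback ((fFin N ℓ ≫ ιFin N ℓ) ≫ igusaTo N ℓ) g ⟶ pullback (igusaTo N ℓ) g :=
      pullback.map ((fFin N ℓ ≫ ιFin N ℓ) ≫ igusaTo N ℓ) g (igusaTo N ℓ) g
        (fFin N ℓ ≫ ιFin N ℓ) (𝟙 _) (𝟙 _) (by simp) (by simp)
    have hNe : Nonempty ↑(pullback ((fFin N ℓ ≫ ιFin N ℓ) ≫ igusaTo N ℓ) g) := by
      rw [e]
      have : Nontrivial ↑(CommRingCat.of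
          (↥(chartAlgMid N ℓ) ⊗[↥(GaloisRep.ratLocalizedAt ℓ)] K)) := hMid
      exact Nonempty.map
        (pullbackSpecIso ↥(GaloisRep.ratLocalizedAt ℓ) ↥(chartAlgMid N ℓ) K).inv inferInstance
    obtain ⟨z⟩ := hNe
    have h1 : c ≫ pullback.fst (igusaTo N ℓ) g =
        pullback.fst ((fFin N ℓ ≫ ιFin N ℓ) ≫ igusaTo N ℓ) g ≫ fFin N ℓ ≫ ιFin N ℓ :=
      pullback.lift_fst _ _ _
    have h2 : c ≫ pullback.fst (igusaTo N ℓ) g =
        pullback.fst ((fFin N ℓ ≫ ιFin N ℓ) ≫ igusaTo N ℓ) g ≫ fInf N ℓ ≫ ιInf N ℓ := by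
      rw [h1, glue_condition]
    refine ⟨c z, ?_, ?_⟩
    · rw [hra]
      refine ⟨fFin N ℓ (pullback.fst ((fFin N ℓ ≫ ιFin N ℓ) ≫ igusaTo N ℓ) g z), ?_⟩
      have := congr($h1 z)
      simp only [Scheme.Hom.comp_apply] at this
      exact this.symm
    · rw [hrb]
      refine ⟨fInf N ℓ (pullback.fst ((fFin N ℓ ≫ ιFin N ℓ) ≫ igusaTo N ℓ) g z), ?_⟩
      have := congr($h2 z)
      simp only [Scheme.Hom.comp_apply] at this
      exact this.symm
  exact Glue.isIntegral_of_two a b hcov hne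

end Fermat.Agent.S28
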