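import Mathlib

set_option autoImplicit false

noncomputable section

namespace Fermat.Agent.S28

namespace Normality

open Polynomial

/-- Coefficients of the minimal polynomial of an element integral over an integrally closed
domain `A` (with fraction field `E`) lie in `A`. -/
theorem coeff_minpoly_mem_range {A E F : Type*} [CommRing A] [IsDomain A] [IsIntegrallyClosed A]
    [Field E] [Field F] [Algebra A E] [IsFractionRing A E] [Algebra E F] [Algebra A F]
    [IsScalarTower A E F] {x : F} (hx : IsIntegral A x) (i : ℕ) :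
    (minpoly E x).coeff i ∈ (algebraMap A E).range := by
  rw [minpoly.isIntegrallyClosed_eq_field_fractions' E hx, Polynomial.coeff_map]
  exact ⟨_, rfl⟩

/-- If all coefficients of the minimal polynomial of `x` over `E` lie in a subalgebra `T`,
then `x` is integral over `T`. -/
theorem isIntegral_of_coeff_minpoly_mem {E F R : Type*} [Field E] [Field F] [Algebra E F]
    [CommRing R] [Algebra R F]
    (T : Subalgebra R F) {x : F} (hx : IsIntegral E x)
    (h : ∀ i, algebraMap E F ((minpoly E x).coeff i) ∈ T) : IsIntegral T x := by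
  set q : F[X] := (minpoly E x).map (algebraMap E F) with hq
  have hqmonic : q.Monic := (minpoly.monic hx).map _
  have hqroot : q.eval x = 0 := by
    rw [hq, Polynomial.eval_map, ← Polynomial.aeval_def, minpoly.aeval]
  have hlifts : q ∈ Polynomial.lifts (algebraMap T F) :=
    (Polynomial.lifts_iff_coeff_lifts q).mpr fun i =>
      ⟨⟨q.coeff i, by rw [hq, Polynomial.coeff_map]; exact h i⟩, rfl⟩
  obtain ⟨q', hq'q, -, hq'monic⟩ := Polynomial.lifts_and_natDegree_eq_and_monic hlifts hqmonic
  refine ⟨q', hq'monic, ?_⟩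
  rw [Polynomial.eval₂_eq_eval_map, hq'q, hqroot]

/-- The intersection argument: an element integral over two integrally closed domains with the
same fraction field `E` is integral over every subalgebra containing the intersection of their
images. -/
theorem isIntegral_of_isIntegral_two {A₁ A₂ E F R : Type*} [CommRing A₁] [IsDomain A₁]
    [IsIntegrallyClosed A₁] [CommRing A₂] [IsDomain A₂] [IsIntegrallyClosed A₂]
    [Field E] [Field F] [Algebra E F]
    [Algebra A₁ E] [IsFractionRing A₁ E] [Algebra A₁ F] [IsScalarTower A₁ E F]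
    [Algebra A₂ E] [IsFractionRing A₂ E] [Algebra A₂ F] [IsScalarTower A₂ E F]
    [CommRing R] [Algebra R F] (T : Subalgebra R F)
    (hT : ∀ (a₁ : A₁) (a₂ : A₂), algebraMap A₁ E a₁ = algebraMap A₂ E a₂ →
      algebraMap A₁ F a₁ ∈ T)
    {x : F} (h₁ : IsIntegral A₁ x) (h₂ : IsIntegral A₂ x) : IsIntegral T x := by
  have hE : IsIntegral E x := h₁.tower_top
  refine isIntegral_of_coeff_minpoly_mem T hE fun i => ?_
  obtain ⟨a₁, ha₁⟩ := coeff_minpoly_mem_range (E := E) h₁ i
  obtain ⟨a₂, ha₂⟩ := coeff_minpoly_mem_range (E := E) h₂ i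
  rw [← ha₁, ← IsScalarTower.algebraMap_apply]
  exact hT a₁ a₂ (ha₁.trans ha₂.symm)

/-- Pivot lemma for the residue-basis argument. -/
theorem pivot {E F : Type*} [Field E] [Field F] [Algebra E F]
    (O : ValuationSubring F) {L : Type*} [Field L] (ρ : O →+* L)
    {n : ℕ} (θ : Fin n → O)
    (hθ : ∀ g : Fin n → O, (∀ i, (g i : F) ∈ (algebraMap E F).range) →
      ∑ i, ρ (g i) * ρ (θ i) = 0 → ∀ i, ρ (g i) = 0)
    (c : Fin n → E) (i0 : Fin n) (hi0 : c i0 ≠ 0)
    (hmax : ∀ i, O.valuation (algebraMap E F (c i)) ≤ O.valuation (algebraMap E F (c i0)))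
    (y : O) (hy : (y : F) = (algebraMap E F (c i0))⁻¹ * ∑ i, c i • (θ i : F)) : ρ y ≠ 0 := by
  have hc0 : algebraMap E F (c i0) ≠ 0 := by
    rwa [Ne, map_eq_zero_iff _ (algebraMap E F).injective]
  have hv0 : 0 < O.valuation (algebraMap E F (c i0)) :=
    zero_lt_iff.mpr ((Valuation.ne_zero_iff _).mpr hc0)
  have ha : ∀ i, algebraMap E F (c i / c i0) ∈ O := by
    intro i
    rw [← O.valuation_le_one_iff, map_div₀, map_div₀, div_le_one₀ hv0]
    exact hmax i
  have hy' : y = ∑ i, (⟨algebraMap E F (c i / c i0), ha i⟩ : O) * θ i := by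
    apply Subtype.ext
    rw [hy, Finset.mul_sum]
    have hcoe : ((∑ i, (⟨algebraMap E F (c i / c i0), ha i⟩ : O) * θ i : O) : F) =
        ∑ i, algebraMap E F (c i / c i0) * (θ i : F) := by
      rw [← ValuationSubring.coe_subtype, map_sum]
      rfl
    rw [hcoe]
    refine Finset.sum_congr rfl fun i _ => ?_
    rw [Algebra.smul_def, map_div₀]
    field_simp
  intro h0
  rw [hy', map_sum] at h0
  simp only [map_mul] at h0
  have h1 := hθ (fun i => ⟨algebraMap E F (c i / c i0), ha i⟩) (fun i => ⟨_, rfl⟩) h0 i0
  have h2 : (⟨algebraMap E F (c i0 / c i0), ha i0⟩ : O) = 1 := by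
    apply Subtype.ext
    simp [div_self hi0]
  rw [h2, map_one] at h1
  exact one_ne_zero h1

/-- Residue-basis argument: if `n ≥ [F : E]` elements of a valuation ring `O` of `F` have
residues linearly independent over the residues of `O ∩ E`, then `O` is integral over
`O ∩ E`. -/
theorem isIntegral_comap_of_residue {E F : Type*} [Field E] [Field F] [Algebra E F]
    [FiniteDimensional E F]
    (O : ValuationSubring F) {L : Type*} [Field L] (ρ : O →+* L)
    (hρ : ∀ (x : F) (hx : x ∈ O), ρ ⟨x, hx⟩ ≠ 0 → x⁻¹ ∈ O)
    (n : ℕ) (hn : Module.finrank E F ≤ n) (θ : Fin n → O)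
    (hθ : ∀ g : Fin n → O, (∀ i, (g i : F) ∈ (algebraMap E F).range) →
      ∑ i, ρ (g i) * ρ (θ i) = 0 → ∀ i, ρ (g i) = 0)
    (x : F) (hx : x ∈ O) : IsIntegral ↥(O.comap (algebraMap E F)) x := by
  classical
  -- linear independence over `E`
  have hli : LinearIndependent E (fun i => (θ i : F)) := by
    rw [Fintype.linearIndependent_iff]
    intro c hc
    by_contra hne
    obtain ⟨i1, hi1⟩ := not_forall.mp hne
    obtain ⟨i0, -, hmax⟩ := Finset.exists_max_image Finset.univ
      (fun i => O.valuation (algebraMap E F (c i))) ⟨i1, Finset.mem_univ _⟩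
    have hi0 : c i0 ≠ 0 := by
      intro h
      have := hmax i1 (Finset.mem_univ _)
      rw [h, map_zero, map_zero, le_zero_iff, Valuation.zero_iff,
        map_eq_zero_iff _ (algebraMap E F).injective] at this
      exact hi1 this
    exact pivot O ρ θ hθ c i0 hi0 (fun i => hmax i (Finset.mem_univ _)) 0
      (by rw [hc, mul_zero]; rfl) (map_zero ρ)
  have hcard : Fintype.card (Fin n) = Module.finrank E F := by
    refine le_antisymm hli.fintype_card_le_finrank ?_
    simpa using hn
  have hspan := hli.span_eq_top_of_card_eq_finrank' hcard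
  -- coefficients of elements of `O` lie in `O`
  have hcoef : ∀ (c : Fin n → E), (∑ i, c i • (θ i : F)) ∈ O → ∀ i, algebraMap E F (c i) ∈ O := by
    intro c hc
    by_contra hne
    obtain ⟨i1, hi1⟩ := not_forall.mp hne
    obtain ⟨i0, -, hmax⟩ := Finset.exists_max_image Finset.univ
      (fun i => O.valuation (algebraMap E F (c i))) ⟨i1, Finset.mem_univ _⟩
    have hlt : 1 < O.valuation (algebraMap E F (c i0)) := by
      refine lt_of_lt_of_le ?_ (hmax i1 (Finset.mem_univ _))
      rw [← not_le, O.valuation_le_one_iff]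
      exact hi1
    have hc0 : algebraMap E F (c i0) ≠ 0 := by
      intro h
      rw [h, map_zero] at hlt
      exact not_lt_of_ge zero_le hlt
    have hi0 : c i0 ≠ 0 := fun h => hc0 (by rw [h, map_zero])
    have hu : (algebraMap E F (c i0))⁻¹ ∈ O := by
      rw [← O.valuation_le_one_iff, map_inv₀]
      exact inv_le_one_of_one_le₀ hlt.le
    have hρu : ρ ⟨_, hu⟩ = 0 := by
      by_contra h
      have := hρ _ hu h
      rw [inv_inv, ← O.valuation_le_one_iff] at this
      exact not_lt_of_ge this hlt
    refine pivot O ρ θ hθ c i0 hi0 (fun i => hmax i (Finset.mem_univ _))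
      (⟨_, hu⟩ * ⟨_, hc⟩) rfl ?_
    rw [map_mul, hρu, zero_mul]
  -- `O` as a finitely generated module over `O ∩ E`
  let S : Subalgebra ↥(O.comap (algebraMap E F)) F :=
    { O.toSubring.toSubsemiring with
      algebraMap_mem' := fun a => a.2 }
  have hS : (Subalgebra.toSubmodule S).FG := by
    have : Subalgebra.toSubmodule S =
        Submodule.span ↥(O.comap (algebraMap E F)) (Set.range fun i => (θ i : F)) := by
      apply le_antisymm
      · intro y hy
        have hy' : y ∈ O := hy
        have hyspan : y ∈ Submodule.span E (Set.range fun i => (θ i : F)) := by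
          rw [hspan]; trivial
        obtain ⟨c, rfl⟩ := (Submodule.mem_span_range_iff_exists_fun E).mp hyspan
        have hc := hcoef c hy'
        rw [Submodule.mem_span_range_iff_exists_fun]
        exact ⟨fun i => ⟨c i, hc i⟩, rfl⟩
      · rw [Submodule.span_le]
        rintro _ ⟨i, rfl⟩
        exact (θ i).2
    rw [this]
    exact Submodule.fg_span (Set.finite_range _)
  exact IsIntegral.of_mem_of_fg S hS x hx

/-- `k[s]` is integrally closed for transcendental `s`. -/
theorem isIntegrallyClosed_adjoin_singleton {k F : Type*} [Field k] [Field F] [Algebra k F]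
    {s : F} (hs : Transcendental k s) : IsIntegrallyClosed ↥(Algebra.adjoin k {s}) :=
  IsIntegrallyClosed.of_equiv (Polynomial.algEquivOfTranscendental k s hs).toRingEquiv

open scoped IntermediateField.algebraAdjoinAdjoin in
/-- The intersection argument for `k[S]` and a valuation ring: an element of `F` integral over
`k[S]` and over `O ∩ k(S)` is integral over any subalgebra containing `k[S] ∩ O`. -/
theorem isIntegral_of_adjoin_of_comap {k F R : Type*} [Field k] [Field F] [Algebra k F]
    (S : Set F) [IsIntegrallyClosed ↥(Algebra.adjoin k S)]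
    (O : ValuationSubring F) [CommRing R] [Algebra R F] (T : Subalgebra R F)
    (hT : ∀ a ∈ Algebra.adjoin k S, a ∈ O → a ∈ T)
    {x : F} (h₁ : IsIntegral (Algebra.adjoin k S) x)
    (h₂ : IsIntegral ↥(O.comap (algebraMap (IntermediateField.adjoin k S) F)) x) :
    IsIntegral T x := by
  refine isIntegral_of_isIntegral_two (A₁ := Algebra.adjoin k S)
    (A₂ := ↥(O.comap (algebraMap (IntermediateField.adjoin k S) F)))
    (E := IntermediateField.adjoin k S) T ?_ h₁ h₂
  intro a₁ a₂ h
  have h' : (a₁ : F) ∈ O := by
    have h'' : ((algebraMap (Algebra.adjoin k S) (IntermediateField.adjoin k S) a₁ :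
        IntermediateField.adjoin k S) : F) = (a₁ : F) := rfl
    rw [← h'', h]
    exact a₂.2
  exact hT _ a₁.2 h'

end Normality

end Fermat.Agent.S28
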