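import Mathlib
import Fermat.Prelude.Def_ModularCurve_LaurentCoeff
import Fermat.Prelude.Def_GaloisRep_Flat

set_option autoImplicit false

noncomputable section

open scoped TensorProduct

namespace Fermat.Agent.S28

namespace TensorDomain

/-- Ring homomorphisms out of `ℤ_(ℓ)` are unique. -/
theorem ringHom_ratLocalizedAt_ext {ℓ : ℕ} {S : Type*} [Ring S]
    (f g : ↥(GaloisRep.ratLocalizedAt ℓ) →+* S) : f = g := by
  refine RingHom.ext fun r => ?_
  have hd : ((r : ℚ).den : ℚ) ≠ 0 := by exact_mod_cast (r : ℚ).den_nz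
  have hmem : ((r : ℚ).den : ℚ)⁻¹ ∈ GaloisRep.ratLocalizedAt ℓ := by
    change (((r : ℚ).den : ℚ)⁻¹).den.Coprime ℓ
    rw [Rat.inv_natCast_den, if_neg (r : ℚ).den_nz]
    exact r.2
  let u : ↥(GaloisRep.ratLocalizedAt ℓ) := ⟨_, hmem⟩
  have h1 : (((r : ℚ).den : ℕ) : ↥(GaloisRep.ratLocalizedAt ℓ)) * u = 1 := by
    apply Subtype.ext
    push_cast
    exact mul_inv_cancel₀ hd
  have h2 : r * (((r : ℚ).den : ℕ) : ↥(GaloisRep.ratLocalizedAt ℓ)) =
      (((r : ℚ).num : ℤ) : ↥(GaloisRep.ratLocalizedAt ℓ)) := by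
    apply Subtype.ext
    push_cast
    exact Rat.mul_den_eq_num _
  have hf : f r * (((r : ℚ).den : ℕ) : S) = (((r : ℚ).num : ℤ) : S) := by
    rw [← map_natCast f, ← map_mul, h2, map_intCast]
  have hg : g r * (((r : ℚ).den : ℕ) : S) = (((r : ℚ).num : ℤ) : S) := by
    rw [← map_natCast g, ← map_mul, h2, map_intCast]
  have hu : (((r : ℚ).den : ℕ) : S) * f u = 1 := by
    rw [← map_natCast f, ← map_mul, h1, map_one]
  calc f r = f r * ((((r : ℚ).den : ℕ) : S) * f u) := by rw [hu, mul_one]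
    _ = g r * ((((r : ℚ).den : ℕ) : S) * f u) := by rw [← mul_assoc, hf, ← hg, mul_assoc]
    _ = g r := by rw [hu, mul_one]

/-- The ring homomorphism `B ⊗ K → K((q))` induced by a ring homomorphism `B → 𝔽_ℓ((q))`. -/
theorem exists_ringHom (ℓ : ℕ) [Fact ℓ.Prime] (B : Type*) [CommRing B]
    [Algebra ↥(GaloisRep.ratLocalizedAt ℓ) B]
    (ρ : B →+* LaurentSeries (ZMod ℓ))
    (K : Type*) [Field K] [CharP K ℓ] [Algebra ↥(GaloisRep.ratLocalizedAt ℓ) K] :
    ∃ Φ : B ⊗[↥(GaloisRep.ratLocalizedAt ℓ)] K →+* LaurentSeries K,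
      ∀ (b : B) (κ : K), Φ (b ⊗ₜ κ) =
        ModularCurve.coeffMap (ZMod.castHom (dvd_refl ℓ) K) (ρ b) * HahnSeries.C κ := by
  let ρK : B →+* LaurentSeries K := (ModularCurve.coeffMap (ZMod.castHom (dvd_refl ℓ) K)).comp ρ
  let algL : Algebra ↥(GaloisRep.ratLocalizedAt ℓ) (LaurentSeries K) :=
    ((HahnSeries.C : K →+* LaurentSeries K).comp
      (algebraMap ↥(GaloisRep.ratLocalizedAt ℓ) K)).toAlgebra
  let ρA : B →ₐ[↥(GaloisRep.ratLocalizedAt ℓ)] LaurentSeries K :=
    { ρK with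
      commutes' := fun r => by
        have := ringHom_ratLocalizedAt_ext
          (ρK.comp (algebraMap ↥(GaloisRep.ratLocalizedAt ℓ) B))
          (algebraMap ↥(GaloisRep.ratLocalizedAt ℓ) (LaurentSeries K))
        exact congr($this r) }
  let gK : K →ₐ[↥(GaloisRep.ratLocalizedAt ℓ)] LaurentSeries K :=
    { (HahnSeries.C : K →+* LaurentSeries K) with
      commutes' := fun r => rfl }
  exact ⟨(Algebra.TensorProduct.productMap ρA gK).toRingHom,
    fun b κ => Algebra.TensorProduct.productMap_apply_tmul ρA gK b κ⟩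

end TensorDomain

/-- A ring homomorphism `B → 𝔽_ℓ((q))` from a `ℤ_(ℓ)`-algebra forces `B ⊗ K` to be nontrivial
for every field `K` of characteristic `ℓ`. -/
theorem nontrivial_tensor_of_ringHom (ℓ : ℕ) [Fact ℓ.Prime] (B : Type*) [CommRing B]
    [Algebra ↥(GaloisRep.ratLocalizedAt ℓ) B]
    (ρ : B →+* LaurentSeries (ZMod ℓ))
    (K : Type*) [Field K] [CharP K ℓ] [Algebra ↥(GaloisRep.ratLocalizedAt ℓ) K] :
    Nontrivial (B ⊗[↥(GaloisRep.ratLocalizedAt ℓ)] K) := by
  obtain ⟨Φ, -⟩ := TensorDomain.exists_ringHom ℓ B ρ K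
  exact Φ.domain_nontrivial

/-- If `ρ : B → 𝔽_ℓ((q))` is a ring homomorphism from a `ℤ_(ℓ)`-algebra whose kernel is `ℓ B`,
then `B ⊗ K` is a domain for every field `K` of characteristic `ℓ`. -/
theorem isDomain_tensor_of_reduction (ℓ : ℕ) [Fact ℓ.Prime] (B : Type*) [CommRing B]
    [Algebra ↥(GaloisRep.ratLocalizedAt ℓ) B]
    (ρ : B →+* LaurentSeries (ZMod ℓ)) (hρ : ∀ b : B, ρ b = 0 → ∃ b' : B, b = (ℓ : B) * b')
    (K : Type*) [Field K] [CharP K ℓ] [Algebra ↥(GaloisRep.ratLocalizedAt ℓ) K] :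
    IsDomain (B ⊗[↥(GaloisRep.ratLocalizedAt ℓ)] K) := by
  let _ : Algebra (ZMod ℓ) K := ZMod.algebra K ℓ
  obtain ⟨Φ, hΦ⟩ := TensorDomain.exists_ringHom ℓ B ρ K
  have : NeZero ℓ := ⟨(Fact.out : ℓ.Prime).ne_zero⟩
  -- basis of `K` over the prime field
  let e := Module.Basis.ofVectorSpace (ZMod ℓ) K
  have key : ∀ (c : ZMod ℓ) (x : K),
      c • x = ((c.val : ℕ) : ↥(GaloisRep.ratLocalizedAt ℓ)) • x := by
    intro c x
    rw [Algebra.smul_def, Algebra.smul_def, map_natCast]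
    congr 1
    conv_lhs => rw [← ZMod.natCast_zmod_val c]
    rw [map_natCast]
  -- every tensor is a finite sum `Σ f i ⊗ e i`
  have hsurj : ∀ t : B ⊗[↥(GaloisRep.ratLocalizedAt ℓ)] K,
      ∃ f : (Module.Basis.ofVectorSpaceIndex (ZMod ℓ) K) →₀ B,
        t = f.sum (fun i b => b ⊗ₜ[↥(GaloisRep.ratLocalizedAt ℓ)] (e i)) := by
    intro t
    induction t using TensorProduct.induction_on with
    | zero => exact ⟨0, by simp⟩
    | tmul b κ =>
      refine ⟨(e.repr κ).mapRange (fun c => ((c.val : ℕ) : ↥(GaloisRep.ratLocalizedAt ℓ)) • b)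
        (by simp), ?_⟩
      rw [Finsupp.sum_mapRange_index (by intro i; simp)]
      conv_lhs => rw [← e.linearCombination_repr κ]
      rw [Finsupp.linearCombination_apply, Finsupp.sum, TensorProduct.tmul_sum, Finsupp.sum]
      refine Finset.sum_congr rfl fun i _ => ?_
      rw [key, TensorProduct.smul_tmul]
    | add x y hx hy =>
      obtain ⟨f, rfl⟩ := hx
      obtain ⟨g, rfl⟩ := hy
      exact ⟨f + g, (Finsupp.sum_add_index' (by simp)
        (by intros; simp [TensorProduct.add_tmul])).symm⟩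
  have hinj : Function.Injective Φ := by
    rw [injective_iff_map_eq_zero]
    intro t ht
    obtain ⟨f, rfl⟩ := hsurj t
    have h0 : ∀ i ∈ f.support, ρ (f i) = 0 := by
      intro i hi
      ext n
      have hn := congr(HahnSeries.coeff $ht n)
      rw [map_finsuppSum, Finsupp.sum, HahnSeries.coeff_sum] at hn
      have hsum : ∑ j ∈ f.support, ((ρ (f j)).coeff n) • e j = 0 := by
        rw [HahnSeries.coeff_zero] at hn
        rw [← hn]
        refine Finset.sum_congr rfl fun j _ => ?_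
        rw [hΦ, mul_comm, HahnSeries.C_mul_eq_smul, HahnSeries.coeff_smul, Algebra.smul_def,
          smul_eq_mul, mul_comm]
        rfl
      exact linearIndependent_iff'.mp e.linearIndependent f.support
        (fun j => (ρ (f j)).coeff n) hsum i hi
    rw [Finsupp.sum]
    refine Finset.sum_eq_zero fun i hi => ?_
    obtain ⟨b', hb'⟩ := hρ _ (h0 i hi)
    have h1 : ((ℓ : B) * b') = ((ℓ : ℕ) : ↥(GaloisRep.ratLocalizedAt ℓ)) • b' := by
      rw [Algebra.smul_def, map_natCast]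
    rw [hb', h1, TensorProduct.smul_tmul, Algebra.smul_def, map_natCast, CharP.cast_eq_zero,
      zero_mul, TensorProduct.tmul_zero]
  exact hinj.isDomain Φ

end Fermat.Agent.S28
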