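import Fermat.Statements.S28
import Fermat.Agent.S28.Normality
import Fermat.Agent.S28.TensorDomain
import Fermat.Agent.S28.Glue

set_option autoImplicit false

noncomputable section

open AlgebraicGeometry CategoryTheory CategoryTheory.Limits ModularCurve ModularCurve.IgusaScheme
open IntermediateField Polynomial

namespace Fermat.Agent.S28

namespace Charts

section General

variable {ℓ : ℕ} [Fact ℓ.Prime]

/-- A primitive integer polynomial is nonzero modulo `ℓ`. -/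
theorem map_ne_zero_of_isPrimitive {p : ℤ[X]} (hp : p.IsPrimitive) :
    p.map (Int.castRingHom (ZMod ℓ)) ≠ 0 := by
  intro h
  have hdvd : C (ℓ : ℤ) ∣ p := by
    rw [Polynomial.C_dvd_iff_dvd_coeff]
    intro i
    have := congrArg (fun q => q.coeff i) h
    simp only [Polynomial.coeff_map, Polynomial.coeff_zero, eq_intCast] at this
    exact (ZMod.intCast_zmod_eq_zero_iff_dvd _ _).mp this
  have hu := hp _ hdvd
  have hℓ : (ℓ : ℤ).natAbs = 1 := Int.isUnit_iff_natAbs_eq.mp hu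
  have : ℓ = 1 := by simpa using hℓ
  exact (Fact.out : ℓ.Prime).one_lt.ne' this

/-- Clearing denominators: an element of `ℚ[s]` times a nonzero integer is an integer
polynomial in `s`. -/
theorem exists_int_mul_eq_aeval {F : Type*} [Field F] [Algebra ℚ F] {s a : F}
    (ha : a ∈ Algebra.adjoin ℚ {s}) :
    ∃ (b : ℤ) (P : ℤ[X]), b ≠ 0 ∧ (b : F) * a = aeval s P := by
  rw [Algebra.adjoin_singleton_eq_range_aeval] at ha
  obtain ⟨P₀, rfl⟩ := ha
  obtain ⟨b, hbM, hb⟩ := IsLocalization.integerNormalization_spec (nonZeroDivisors ℤ) P₀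
  refine ⟨b, IsLocalization.integerNormalization (nonZeroDivisors ℤ) P₀,
    nonZeroDivisors.ne_zero hbM, ?_⟩
  have h1 := congrArg (aeval s) hb
  rw [Polynomial.aeval_map_algebraMap] at h1
  rw [h1, map_zsmul, zsmul_eq_mul]
  rfl

end General

section Main

variable (N : ℕ) (ℓ : ℕ) [Fact ℓ.Prime]
variable (OFv : ValuationSubring ↥(modularFunctionFieldFull N))
variable (ρ : OFv →+* LaurentSeries (ZMod ℓ))

/-- The residue map commutes with evaluation of integer polynomials. -/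
theorem rho_aeval (s : OFv) (P : ℤ[X]) :
    ρ (aeval s P) = aeval (ρ s) (P.map (Int.castRingHom (ZMod ℓ))) := by
  rw [Polynomial.aeval_def, Polynomial.hom_eval₂, Polynomial.aeval_def, Polynomial.eval₂_map]
  congr 1
  exact RingHom.ext_int _ _

theorem coe_aeval (s : OFv) (P : ℤ[X]) :
    ((aeval s P : OFv) : ↥(modularFunctionFieldFull N)) =
      aeval (s : ↥(modularFunctionFieldFull N)) P := by
  rw [← ValuationSubring.coe_subtype, Polynomial.aeval_def, Polynomial.hom_eval₂,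
    Polynomial.aeval_def]
  congr 1

theorem rho_aeval_ne_zero (s : OFv) (htr : Transcendental (ZMod ℓ) (ρ s)) {P : ℤ[X]}
    (hP : P.IsPrimitive) : ρ (aeval s P) ≠ 0 := by
  rw [rho_aeval]
  intro h
  exact map_ne_zero_of_isPrimitive hP ((transcendental_iff.mp htr) _ h)

/-- Gauss step: an element of `ℚ[s] ∩ O` lies in `ℤ_(ℓ)[s]`, provided the residue of `s` is
transcendental over `𝔽_ℓ`. -/
theorem mem_adjoin_of_mem [NeZero N]
    (hunit : ∀ (x : ↥(modularFunctionFieldFull N)) (hx : x ∈ OFv), ρ ⟨x, hx⟩ ≠ 0 → x⁻¹ ∈ OFv)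
    (hconst : ∀ r : ℚ, algebraMap ℚ ↥(modularFunctionFieldFull N) r ∈ OFv →
      r ∈ GaloisRep.ratLocalizedAt ℓ)
    (s : ↥(modularFunctionFieldFull N)) (hs : s ∈ OFv)
    (htr : Transcendental (ZMod ℓ) (ρ ⟨s, hs⟩))
    {a : ↥(modularFunctionFieldFull N)} (ha : a ∈ Algebra.adjoin ℚ {s}) (haO : a ∈ OFv) :
    a ∈ Algebra.adjoin ↥(GaloisRep.ratLocalizedAt ℓ) {s} := by
  obtain ⟨b, P, hb, hP⟩ := exists_int_mul_eq_aeval ha
  have hbF : (b : ↥(modularFunctionFieldFull N)) ≠ 0 := Int.cast_ne_zero.mpr hb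
  by_cases hP0 : P = 0
  · rw [hP0, map_zero] at hP
    rcases mul_eq_zero.mp hP with h | h
    · exact absurd h hbF
    · rw [h]; exact zero_mem _
  have hc0 : P.content ≠ 0 := fun h => hP0 (Polynomial.content_eq_zero_iff.mp h)
  set u : OFv := aeval (⟨s, hs⟩ : OFv) P.primPart with hu_def
  have hu : ρ u ≠ 0 := rho_aeval_ne_zero N ℓ OFv ρ _ htr P.isPrimitive_primPart
  have hu' : (u : ↥(modularFunctionFieldFull N)) = aeval s P.primPart := coe_aeval N OFv _ _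
  have huinv : (u : ↥(modularFunctionFieldFull N))⁻¹ ∈ OFv := hunit _ u.2 hu
  have hune : (u : ↥(modularFunctionFieldFull N)) ≠ 0 := fun h =>
    hu (by rw [show u = 0 from Subtype.ext h, map_zero])
  have h1 : (b : ↥(modularFunctionFieldFull N)) * a =
      (P.content : ↥(modularFunctionFieldFull N)) * (u : ↥(modularFunctionFieldFull N)) := by
    rw [hP, hu']
    conv_lhs => rw [P.eq_C_content_mul_primPart]
    rw [map_mul, Polynomial.aeval_C, eq_intCast]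
  have hq : algebraMap ℚ ↥(modularFunctionFieldFull N) ((P.content : ℚ) / (b : ℚ)) =
      a * (u : ↥(modularFunctionFieldFull N))⁻¹ := by
    rw [map_div₀, map_intCast, map_intCast, div_eq_iff hbF, mul_comm a, mul_assoc, mul_comm _ (b : ↥(modularFunctionFieldFull N)), h1]
    field_simp
  have hqO : algebraMap ℚ ↥(modularFunctionFieldFull N) ((P.content : ℚ) / (b : ℚ)) ∈ OFv := by
    rw [hq]
    exact OFv.mul_mem _ _ haO huinv
  have hqZ := hconst _ hqO
  have ha' : a = algebraMap ↥(GaloisRep.ratLocalizedAt ℓ) ↥(modularFunctionFieldFull N)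
      ⟨_, hqZ⟩ * aeval s P.primPart := by
    have : algebraMap ↥(GaloisRep.ratLocalizedAt ℓ) ↥(modularFunctionFieldFull N) ⟨_, hqZ⟩ =
        algebraMap ℚ ↥(modularFunctionFieldFull N) ((P.content : ℚ) / (b : ℚ)) := rfl
    rw [this, hq, ← hu', inv_mul_cancel_right₀ hune]
  rw [ha']
  refine mul_mem (Subalgebra.algebraMap_mem _ _) ?_
  rw [← Polynomial.aeval_map_algebraMap ↥(GaloisRep.ratLocalizedAt ℓ) s P.primPart]
  exact Polynomial.aeval_mem_adjoin_singleton _ _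

/-- Unit form: an element of `ℚ[s]` is a rational multiple of a unit of `O` whose residue is a
polynomial in the residue of `s`. -/
theorem exists_unit_form
    (hunit : ∀ (x : ↥(modularFunctionFieldFull N)) (hx : x ∈ OFv), ρ ⟨x, hx⟩ ≠ 0 → x⁻¹ ∈ OFv)
    (s : ↥(modularFunctionFieldFull N)) (hs : s ∈ OFv)
    (htr : Transcendental (ZMod ℓ) (ρ ⟨s, hs⟩))
    {a : ↥(modularFunctionFieldFull N)} (ha : a ∈ Algebra.adjoin ℚ {s}) :
    ∃ (b c : ℤ) (u : OFv), b ≠ 0 ∧ ρ u ≠ 0 ∧ (u : ↥(modularFunctionFieldFull N))⁻¹ ∈ OFv ∧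
      ρ u ∈ IntermediateField.adjoin (ZMod ℓ) {ρ ⟨s, hs⟩} ∧
      (b : ↥(modularFunctionFieldFull N)) * a = (c : ↥(modularFunctionFieldFull N)) * u := by
  obtain ⟨b, P, hb, hP⟩ := exists_int_mul_eq_aeval ha
  set u : OFv := aeval (⟨s, hs⟩ : OFv) P.primPart with hu_def
  have hu : ρ u ≠ 0 := rho_aeval_ne_zero N ℓ OFv ρ _ htr P.isPrimitive_primPart
  have hu' : (u : ↥(modularFunctionFieldFull N)) = aeval s P.primPart := coe_aeval N OFv _ _
  refine ⟨b, P.content, u, hb, hu, hunit _ u.2 hu, ?_, ?_⟩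
  · rw [hu_def, rho_aeval]
    exact IntermediateField.algebra_adjoin_le_adjoin (ZMod ℓ) _
      (Polynomial.aeval_mem_adjoin_singleton _ _)
  · rw [hP, hu']
    conv_lhs => rw [P.eq_C_content_mul_primPart]
    rw [map_mul, Polynomial.aeval_C, eq_intCast]

/-- Residues of `ℤ_(ℓ)`-constants lie in every subfield. -/
theorem rho_const_mem (κ : IntermediateField (ZMod ℓ) (LaurentSeries (ZMod ℓ)))
    (r : ℚ) (hr : r ∈ GaloisRep.ratLocalizedAt ℓ)
    (h : algebraMap ℚ ↥(modularFunctionFieldFull N) r ∈ OFv) :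
    ρ ⟨algebraMap ℚ ↥(modularFunctionFieldFull N) r, h⟩ ∈ κ := by
  have h1 : (⟨algebraMap ℚ ↥(modularFunctionFieldFull N) r, h⟩ : OFv) * ((r.den : ℕ) : OFv) =
      ((r.num : ℤ) : OFv) := by
    apply Subtype.ext
    push_cast
    rw [← map_natCast (algebraMap ℚ ↥(modularFunctionFieldFull N)), ← map_mul,
      Rat.mul_den_eq_num, map_intCast]
  have h2 := congrArg ρ h1
  rw [map_mul, map_natCast, map_intCast] at h2
  have hd : ((r.den : ℕ) : LaurentSeries (ZMod ℓ)) ≠ 0 := by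
    rw [← map_natCast (algebraMap (ZMod ℓ) (LaurentSeries (ZMod ℓ))), Ne,
      map_eq_zero_iff _ (algebraMap (ZMod ℓ) (LaurentSeries (ZMod ℓ))).injective,
      ZMod.natCast_eq_zero_iff]
    intro hdvd
    have hr' : r.den.Coprime ℓ := hr
    have := Nat.dvd_gcd hdvd dvd_rfl
    rw [hr'] at this
    exact (Fact.out : ℓ.Prime).one_lt.ne' (Nat.dvd_one.mp this)
  rw [eq_div_of_mul_eq hd h2]
  exact div_mem (_root_.intCast_mem κ _) (_root_.natCast_mem κ _)

/-- Gauss step for the residue field: the residue of an element of `ℚ(s) ∩ O` lies in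
`𝔽_ℓ(s̄)`. -/
theorem rho_mem_of_mem_adjoin
    (hunit : ∀ (x : ↥(modularFunctionFieldFull N)) (hx : x ∈ OFv), ρ ⟨x, hx⟩ ≠ 0 → x⁻¹ ∈ OFv)
    (hconst : ∀ r : ℚ, algebraMap ℚ ↥(modularFunctionFieldFull N) r ∈ OFv →
      r ∈ GaloisRep.ratLocalizedAt ℓ)
    (s : ↥(modularFunctionFieldFull N)) (hs : s ∈ OFv)
    (htr : Transcendental (ZMod ℓ) (ρ ⟨s, hs⟩))
    (x : ↥(modularFunctionFieldFull N)) (hx : x ∈ ℚ⟮s⟯) (hxO : x ∈ OFv) :
    ρ ⟨x, hxO⟩ ∈ IntermediateField.adjoin (ZMod ℓ) {ρ ⟨s, hs⟩} := by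
  obtain ⟨r, t, rfl⟩ := (IntermediateField.mem_adjoin_simple_iff ℚ _).mp hx
  by_cases ht : aeval s t = 0
  · have h0 : (⟨aeval s r / aeval s t, hxO⟩ : OFv) = 0 := Subtype.ext (by simp [ht])
    rw [h0, map_zero]
    exact zero_mem _
  obtain ⟨b₁, c₁, u₁, hb₁, hu₁, hu₁inv, hu₁κ, h₁⟩ := exists_unit_form N ℓ OFv ρ hunit s hs htr
    (a := aeval s r) (Polynomial.aeval_mem_adjoin_singleton _ _)
  obtain ⟨b₂, c₂, u₂, hb₂, hu₂, hu₂inv, hu₂κ, h₂⟩ := exists_unit_form N ℓ OFv ρ hunit s hs htr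
    (a := aeval s t) (Polynomial.aeval_mem_adjoin_singleton _ _)
  have hb₁F : (b₁ : ↥(modularFunctionFieldFull N)) ≠ 0 := Int.cast_ne_zero.mpr hb₁
  have hb₂F : (b₂ : ↥(modularFunctionFieldFull N)) ≠ 0 := Int.cast_ne_zero.mpr hb₂
  have hu₁ne : (u₁ : ↥(modularFunctionFieldFull N)) ≠ 0 := fun h =>
    hu₁ (by rw [show u₁ = 0 from Subtype.ext h, map_zero])
  have hu₂ne : (u₂ : ↥(modularFunctionFieldFull N)) ≠ 0 := fun h =>
    hu₂ (by rw [show u₂ = 0 from Subtype.ext h, map_zero])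
  have hc₂F : (c₂ : ↥(modularFunctionFieldFull N)) ≠ 0 := by
    intro h
    rw [h, zero_mul] at h₂
    rcases mul_eq_zero.mp h₂ with h' | h'
    · exact hb₂F h'
    · exact ht h'
  have key : aeval s r / aeval s t * (u₂ : ↥(modularFunctionFieldFull N)) =
      algebraMap ℚ ↥(modularFunctionFieldFull N) (((b₂ * c₁ : ℤ) : ℚ) / ((b₁ * c₂ : ℤ) : ℚ)) *
        (u₁ : ↥(modularFunctionFieldFull N)) := by
    rw [map_div₀, map_intCast, map_intCast]
    push_cast
    have e₁ : aeval s r = (c₁ : ↥(modularFunctionFieldFull N)) * u₁ / b₁ := by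
      rw [eq_div_iff hb₁F, mul_comm, h₁]
    have e₂ : aeval s t = (c₂ : ↥(modularFunctionFieldFull N)) * u₂ / b₂ := by
      rw [eq_div_iff hb₂F, mul_comm, h₂]
    rw [e₁, e₂]
    field_simp
  have hqO : algebraMap ℚ ↥(modularFunctionFieldFull N)
      (((b₂ * c₁ : ℤ) : ℚ) / ((b₁ * c₂ : ℤ) : ℚ)) ∈ OFv := by
    have : algebraMap ℚ ↥(modularFunctionFieldFull N)
        (((b₂ * c₁ : ℤ) : ℚ) / ((b₁ * c₂ : ℤ) : ℚ)) =
        aeval s r / aeval s t * (u₂ : ↥(modularFunctionFieldFull N)) *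
          (u₁ : ↥(modularFunctionFieldFull N))⁻¹ := by
      rw [key, mul_inv_cancel_right₀ hu₁ne]
    rw [this]
    exact OFv.mul_mem _ _ (OFv.mul_mem _ _ hxO u₂.2) hu₁inv
  have hqZ := hconst _ hqO
  have key' : (⟨aeval s r / aeval s t, hxO⟩ : OFv) * u₂ = ⟨_, hqO⟩ * u₁ := Subtype.ext key
  have h3 := congrArg ρ key'
  rw [map_mul, map_mul] at h3
  rw [eq_div_of_mul_eq hu₂ h3]
  exact div_mem (mul_mem (rho_const_mem N ℓ OFv ρ _ _ hqZ hqO) hu₁κ) hu₂κ

/-- The residue map of `O ∩ F_N` is onto the mod-`ℓ` function field. -/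
theorem exists_rho_eq [NeZero N]
    (hunit : ∀ (x : ↥(modularFunctionFieldFull N)) (hx : x ∈ OFv), ρ ⟨x, hx⟩ ≠ 0 → x⁻¹ ∈ OFv)
    (hj : ∀ (d : ℕ) [NeZero d] (hd : d ∣ N),
      ∃ h : (⟨qExpand ℚ d jq, jqd_mem_full N hd⟩ : ↥(modularFunctionFieldFull N)) ∈ OFv,
        ρ ⟨_, h⟩ = qExpand (ZMod ℓ) d (jqModC (ZMod ℓ)))
    (β : LaurentSeries (ZMod ℓ)) (hβ : β ∈ modularFunctionFieldFullC (ZMod ℓ) N) :
    ∃ x : OFv, ρ x = β := by
  have : NeZero ℓ := ⟨(Fact.out : ℓ.Prime).ne_zero⟩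
  let R : IntermediateField (ZMod ℓ) (LaurentSeries (ZMod ℓ)) :=
    { ρ.rangeS with
      algebraMap_mem' := fun c => by
        refine ⟨((c.val : ℕ) : OFv), ?_⟩
        rw [map_natCast]
        conv_rhs => rw [← ZMod.natCast_zmod_val c]
        rw [map_natCast]
      inv_mem' := by
        rintro _ ⟨x, rfl⟩
        by_cases hx : ρ x = 0
        · exact ⟨0, by rw [hx, map_zero, inv_zero]⟩
        · have hinv := hunit (x : ↥(modularFunctionFieldFull N)) x.2 hx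
          refine ⟨⟨_, hinv⟩, ?_⟩
          have hx0 : (x : ↥(modularFunctionFieldFull N)) ≠ 0 := fun h =>
            hx (by rw [show x = 0 from Subtype.ext h, map_zero])
          have h1 : x * (⟨_, hinv⟩ : OFv) = 1 := Subtype.ext (mul_inv_cancel₀ hx0)
          have h2 := congrArg ρ h1
          rw [map_mul, map_one] at h2
          exact eq_inv_of_mul_eq_one_right h2 }
  have hle : modularFunctionFieldFullC (ZMod ℓ) N ≤ R := by
    rw [modularFunctionFieldFullC, IntermediateField.adjoin_le_iff]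
    rintro _ ⟨d, hne, hdvd, rfl⟩
    obtain ⟨h, hh⟩ := hj d hdvd
    exact ⟨⟨_, h⟩, hh⟩
  exact hle hβ

set_option synthInstance.maxHeartbeats 400000 in
/-- `O ∩ F_N` is integral over `O ∩ ℚ(s)`. -/
theorem isIntegral_comap [NeZero N]
    (hunit : ∀ (x : ↥(modularFunctionFieldFull N)) (hx : x ∈ OFv), ρ ⟨x, hx⟩ ≠ 0 → x⁻¹ ∈ OFv)
    (hconst : ∀ r : ℚ, algebraMap ℚ ↥(modularFunctionFieldFull N) r ∈ OFv →
      r ∈ GaloisRep.ratLocalizedAt ℓ)
    (hj : ∀ (d : ℕ) [NeZero d] (hd : d ∣ N),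
      ∃ h : (⟨qExpand ℚ d jq, jqd_mem_full N hd⟩ : ↥(modularFunctionFieldFull N)) ∈ OFv,
        ρ ⟨_, h⟩ = qExpand (ZMod ℓ) d (jqModC (ZMod ℓ)))
    (s : ↥(modularFunctionFieldFull N)) (hs : s ∈ OFv)
    (htr : Transcendental (ZMod ℓ) (ρ ⟨s, hs⟩))
    [FiniteDimensional ℚ⟮s⟯ ↥(modularFunctionFieldFull N)] (n : ℕ)
    (hn : Module.finrank ℚ⟮s⟯ ↥(modularFunctionFieldFull N) ≤ n)
    (β : Fin n → LaurentSeries (ZMod ℓ))
    (hβ : ∀ i, β i ∈ modularFunctionFieldFullC (ZMod ℓ) N)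
    (hli : LinearIndependent ↥(IntermediateField.adjoin (ZMod ℓ) {ρ ⟨s, hs⟩}) β)
    (x : ↥(modularFunctionFieldFull N)) (hx : x ∈ OFv) :
    _root_.IsIntegral ↥(OFv.comap (algebraMap ℚ⟮s⟯ ↥(modularFunctionFieldFull N))) x := by
  choose θ hθ using fun i => exists_rho_eq N ℓ OFv ρ hunit hj (β i) (hβ i)
  refine Normality.isIntegral_comap_of_residue OFv ρ hunit n hn θ ?_ x hx
  intro g hg h0
  have hmem : ∀ i, ρ (g i) ∈ IntermediateField.adjoin (ZMod ℓ) {ρ ⟨s, hs⟩} := by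
    intro i
    obtain ⟨e, he⟩ := hg i
    have hgi : ((g i : OFv) : ↥(modularFunctionFieldFull N)) ∈ ℚ⟮s⟯ := by
      rw [← he]
      exact e.2
    exact rho_mem_of_mem_adjoin N ℓ OFv ρ hunit hconst s hs htr _ hgi (g i).2
  have hsum : ∑ i, (⟨ρ (g i), hmem i⟩ :
      ↥(IntermediateField.adjoin (ZMod ℓ) {ρ ⟨s, hs⟩})) • β i = 0 := by
    rw [← h0]
    refine Finset.sum_congr rfl fun i _ => ?_
    rw [hθ i]
    rfl
  intro i
  have := Fintype.linearIndependent_iff.mp hli _ hsum i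
  exact congrArg Subtype.val this

omit [Fact (Nat.Prime ℓ)] in
/-- Elements integral over a subalgebra contained in `O` lie in `O`. -/
theorem mem_of_isIntegral [NeZero N]
    (A : Subalgebra ↥(GaloisRep.ratLocalizedAt ℓ) ↥(modularFunctionFieldFull N))
    (hA : ∀ a ∈ A, a ∈ OFv) (x : ↥(modularFunctionFieldFull N))
    (hx : _root_.IsIntegral A x) : x ∈ OFv := by
  let φ : ↥A →+* ↥OFv :=
    { toFun := fun y => ⟨y, hA y y.2⟩
      map_one' := rfl
      map_mul' := fun _ _ => rfl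
      map_zero' := rfl
      map_add' := fun _ _ => rfl }
  have hint : _root_.IsIntegral OFv x :=
    hx.map_of_comp_eq φ (RingHom.id ↥(modularFunctionFieldFull N)) (by ext; rfl)
  obtain ⟨y, hy⟩ := (IsIntegrallyClosed.isIntegral_iff (R := OFv)
    (K := ↥(modularFunctionFieldFull N))).mp hint
  rw [← hy]
  exact y.2

/-- The charts lie in `O`. -/
theorem chartAlg_le [NeZero N]
    (hconst' : ∀ r : ℚ, r ∈ GaloisRep.ratLocalizedAt ℓ →
      algebraMap ℚ ↥(modularFunctionFieldFull N) r ∈ OFv)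
    (S : Set ↥(modularFunctionFieldFull N)) (hS : ∀ s ∈ S, s ∈ OFv)
    (x : ↥(modularFunctionFieldFull N)) (hx : x ∈ chartAlg N ℓ S) : x ∈ OFv := by
  let OA : Subalgebra ↥(GaloisRep.ratLocalizedAt ℓ) ↥(modularFunctionFieldFull N) :=
    { OFv.toSubring.toSubsemiring with
      algebraMap_mem' := fun c => hconst' c c.2 }
  have hle : Algebra.adjoin ↥(GaloisRep.ratLocalizedAt ℓ) S ≤ OA := Algebra.adjoin_le hS
  exact mem_of_isIntegral N ℓ OFv _ (fun a ha => hle ha) x ((mem_chartAlg_iff N ℓ).mp hx)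

set_option synthInstance.maxHeartbeats 400000 in
/-- Normality step for the chart attached to `{s}`: the kernel of the residue map on the chart
is generated by `ℓ`. -/
theorem chart_kernel [NeZero N]
    (hker : ∀ x : OFv, ρ x = 0 → ∃ g : OFv, x = (ℓ : OFv) * g)
    (hunit : ∀ (x : ↥(modularFunctionFieldFull N)) (hx : x ∈ OFv), ρ ⟨x, hx⟩ ≠ 0 → x⁻¹ ∈ OFv)
    (hconst : ∀ r : ℚ, algebraMap ℚ ↥(modularFunctionFieldFull N) r ∈ OFv →
      r ∈ GaloisRep.ratLocalizedAt ℓ)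
    (hj : ∀ (d : ℕ) [NeZero d] (hd : d ∣ N),
      ∃ h : (⟨qExpand ℚ d jq, jqd_mem_full N hd⟩ : ↥(modularFunctionFieldFull N)) ∈ OFv,
        ρ ⟨_, h⟩ = qExpand (ZMod ℓ) d (jqModC (ZMod ℓ)))
    (s : ↥(modularFunctionFieldFull N)) (hs : s ∈ OFv)
    (htr : Transcendental (ZMod ℓ) (ρ ⟨s, hs⟩)) (htr0 : Transcendental ℚ s)
    [FiniteDimensional ℚ⟮s⟯ ↥(modularFunctionFieldFull N)] (n : ℕ)
    (hn : Module.finrank ℚ⟮s⟯ ↥(modularFunctionFieldFull N) ≤ n)
    (β : Fin n → LaurentSeries (ZMod ℓ))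
    (hβ : ∀ i, β i ∈ modularFunctionFieldFullC (ZMod ℓ) N)
    (hli : LinearIndependent ↥(IntermediateField.adjoin (ZMod ℓ) {ρ ⟨s, hs⟩}) β)
    (b : ↥(modularFunctionFieldFull N)) (hb : b ∈ chartAlg N ℓ {s}) (hbO : b ∈ OFv)
    (hρb : ρ ⟨b, hbO⟩ = 0) :
    ∃ b' ∈ chartAlg N ℓ {s}, b = (ℓ : ↥(modularFunctionFieldFull N)) * b' := by
  obtain ⟨g, hg⟩ := hker ⟨b, hbO⟩ hρb
  have hbg : b = (ℓ : ↥(modularFunctionFieldFull N)) * (g : ↥(modularFunctionFieldFull N)) := by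
    simpa using congrArg Subtype.val hg
  refine ⟨g, ?_, hbg⟩
  rw [mem_chartAlg_iff]
  have hic := Normality.isIntegrallyClosed_adjoin_singleton htr0
  have hℓ0 : (ℓ : ↥(modularFunctionFieldFull N)) ≠ 0 :=
    Nat.cast_ne_zero.mpr (Fact.out : ℓ.Prime).ne_zero
  refine Normality.isIntegral_of_adjoin_of_comap (k := ℚ) {s} OFv
    (Algebra.adjoin ↥(GaloisRep.ratLocalizedAt ℓ) {s}) ?_ ?_ ?_
  · exact fun a ha haO => mem_adjoin_of_mem N ℓ OFv ρ hunit hconst s hs htr ha haO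
  · have hb' : _root_.IsIntegral (Algebra.adjoin ↥(GaloisRep.ratLocalizedAt ℓ) {s}) b :=
      (mem_chartAlg_iff N ℓ).mp hb
    have hle : Algebra.adjoin ↥(GaloisRep.ratLocalizedAt ℓ) {s} ≤
        (Algebra.adjoin ℚ {s}).restrictScalars ↥(GaloisRep.ratLocalizedAt ℓ) :=
      Algebra.adjoin_le (by
        rintro _ rfl
        exact Algebra.self_mem_adjoin_singleton ℚ _)
    let φ : ↥(Algebra.adjoin ↥(GaloisRep.ratLocalizedAt ℓ) {s}) →+* ↥(Algebra.adjoin ℚ {s}) :=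
      { toFun := fun y => ⟨y, hle y.2⟩
        map_one' := rfl
        map_mul' := fun _ _ => rfl
        map_zero' := rfl
        map_add' := fun _ _ => rfl }
    have hb'' : _root_.IsIntegral (Algebra.adjoin ℚ {s}) b :=
      hb'.map_of_comp_eq φ (RingHom.id ↥(modularFunctionFieldFull N)) (by ext; rfl)
    have hgb : (g : ↥(modularFunctionFieldFull N)) =
        algebraMap (Algebra.adjoin ℚ {s}) ↥(modularFunctionFieldFull N)
          (algebraMap ℚ _ ((ℓ : ℚ)⁻¹)) * b := by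
      rw [hbg, ← IsScalarTower.algebraMap_apply, map_inv₀, map_natCast,
        inv_mul_cancel_left₀ hℓ0]
    rw [hgb]
    exact IsIntegral.mul isIntegral_algebraMap hb''
  · exact isIntegral_comap N ℓ OFv ρ hunit hconst hj s hs htr n hn β hβ hli g g.2

/-- The residue map restricted to a chart contained in `O`. -/
def chartRes [NeZero N] (S : Set ↥(modularFunctionFieldFull N))
    (hS : ∀ x ∈ chartAlg N ℓ S, x ∈ OFv) : ↥(chartAlg N ℓ S) →+* LaurentSeries (ZMod ℓ) :=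
  ρ.comp
    { toFun := fun y => ⟨y, hS y y.2⟩
      map_one' := rfl
      map_mul' := fun _ _ => rfl
      map_zero' := rfl
      map_add' := fun _ _ => rfl }

theorem chartRes_apply [NeZero N] (S : Set ↥(modularFunctionFieldFull N))
    (hS : ∀ x ∈ chartAlg N ℓ S, x ∈ OFv) (y : ↥(chartAlg N ℓ S)) :
    chartRes N ℓ OFv ρ S hS y = ρ ⟨y, hS y y.2⟩ := rfl

set_option maxHeartbeats 4000000 in
set_option synthInstance.maxHeartbeats 400000 in
/-- **S28 from a valuation ring with residue map.**  If `O` is a valuation ring of `F_N` with a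
residue map `ρ` to `𝔽_ℓ((q))` whose kernel is `ℓ O`, compatible with the `j(q^d)`, and the
residue degree is at least `ψ(N) ≥ [F_N : ℚ(j)]`, then the fibre of the Igusa model over any
field of characteristic `ℓ` is integral. -/
theorem isIntegral_pullback_of_valuation [NeZero N]
    (hker : ∀ x : OFv, ρ x = 0 → ∃ g : OFv, x = (ℓ : OFv) * g)
    (hunit : ∀ (x : ↥(modularFunctionFieldFull N)) (hx : x ∈ OFv), ρ ⟨x, hx⟩ ≠ 0 → x⁻¹ ∈ OFv)
    (hconst : ∀ r : ℚ, algebraMap ℚ ↥(modularFunctionFieldFull N) r ∈ OFv ↔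
      r ∈ GaloisRep.ratLocalizedAt ℓ)
    (hj : ∀ (d : ℕ) [NeZero d] (hd : d ∣ N),
      ∃ h : (⟨qExpand ℚ d jq, jqd_mem_full N hd⟩ : ↥(modularFunctionFieldFull N)) ∈ OFv,
        ρ ⟨_, h⟩ = qExpand (ZMod ℓ) d (jqModC (ZMod ℓ)))
    (htr : Transcendental (ZMod ℓ) (jqModC (ZMod ℓ)))
    (htr0 : Transcendental ℚ (jFull N))
    (hfin : FiniteDimensional ℚ⟮jFull N⟯ ↥(modularFunctionFieldFull N))
    (hdeg : Module.finrank ℚ⟮jFull N⟯ ↥(modularFunctionFieldFull N) ≤ dedekindPsi N)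
    (hres : ∃ β : Fin (dedekindPsi N) → LaurentSeries (ZMod ℓ),
      (∀ i, β i ∈ modularFunctionFieldFullC (ZMod ℓ) N) ∧
      LinearIndependent ↥(IntermediateField.adjoin (ZMod ℓ) {jqModC (ZMod ℓ)}) β)
    (K : Type) [Field K] [CharP K ℓ] [Algebra ↥(GaloisRep.ratLocalizedAt ℓ) K] :
    AlgebraicGeometry.IsIntegral ↑(pullback (igusaTo N ℓ)
      (Spec.map (CommRingCat.ofHom (algebraMap ↥(GaloisRep.ratLocalizedAt ℓ) K)))) := by
  obtain ⟨β, hβ, hli⟩ := hres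
  -- `j` and its residue
  have e1 : (⟨qExpand ℚ 1 jq, jqd_mem_full N (one_dvd N)⟩ : ↥(modularFunctionFieldFull N)) =
      jFull N := Subtype.ext (qExpand_one_apply jq)
  obtain ⟨h1, hh1⟩ := hj 1 (one_dvd N)
  have hjO : jFull N ∈ OFv := e1 ▸ h1
  have hρj : ρ ⟨jFull N, hjO⟩ = jqModC (ZMod ℓ) := by
    have : (⟨jFull N, hjO⟩ : OFv) = ⟨_, h1⟩ := Subtype.ext e1.symm
    rw [this, hh1, qExpand_one_apply]
  have hjbar0 : jqModC (ZMod ℓ) ≠ 0 := jqModC_ne_zero_of_nontrivial (ZMod ℓ)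
  -- `j⁻¹` and its residue
  have hjinvO : (jFull N)⁻¹ ∈ OFv := hunit _ hjO (by rw [hρj]; exact hjbar0)
  have hρjinv : ρ ⟨(jFull N)⁻¹, hjinvO⟩ = (jqModC (ZMod ℓ))⁻¹ := by
    have h2 : (⟨jFull N, hjO⟩ : OFv) * ⟨(jFull N)⁻¹, hjinvO⟩ = 1 :=
      Subtype.ext (mul_inv_cancel₀ (jFull_ne_zero N))
    have h3 := congrArg ρ h2
    rw [map_mul, map_one, hρj] at h3
    exact eq_inv_of_mul_eq_one_right h3
  have htrinv : Transcendental (ZMod ℓ) (jqModC (ZMod ℓ))⁻¹ := fun h =>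
    htr (by simpa using h.inv)
  have htr0inv : Transcendental ℚ (jFull N)⁻¹ := fun h => htr0 (by simpa using h.inv)
  -- the fields `ℚ(j⁻¹) = ℚ(j)` and `𝔽_ℓ(j̄⁻¹) = 𝔽_ℓ(j̄)`
  have hE : ℚ⟮(jFull N)⁻¹⟯ = ℚ⟮jFull N⟯ := by
    apply le_antisymm
    · exact adjoin_simple_le_iff.mpr (inv_mem (mem_adjoin_simple_self ℚ (jFull N)))
    · refine adjoin_simple_le_iff.mpr ?_
      have := inv_mem (mem_adjoin_simple_self ℚ (jFull N)⁻¹)
      rwa [inv_inv] at this
  have hκ : IntermediateField.adjoin (ZMod ℓ) {(jqModC (ZMod ℓ))⁻¹} =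
      IntermediateField.adjoin (ZMod ℓ) {jqModC (ZMod ℓ)} := by
    apply le_antisymm
    · exact adjoin_simple_le_iff.mpr (inv_mem (mem_adjoin_simple_self (ZMod ℓ) (jqModC (ZMod ℓ))))
    · refine adjoin_simple_le_iff.mpr ?_
      have := inv_mem (mem_adjoin_simple_self (ZMod ℓ) (jqModC (ZMod ℓ))⁻¹)
      rwa [inv_inv] at this
  have keyE : ∀ E' : IntermediateField ℚ ↥(modularFunctionFieldFull N), E' = ℚ⟮jFull N⟯ →
      FiniteDimensional E' ↥(modularFunctionFieldFull N) ∧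
        Module.finrank E' ↥(modularFunctionFieldFull N) ≤ dedekindPsi N := by
    rintro _ rfl
    exact ⟨hfin, hdeg⟩
  have keyκ : ∀ y : LaurentSeries (ZMod ℓ),
      IntermediateField.adjoin (ZMod ℓ) {y} = IntermediateField.adjoin (ZMod ℓ) {jqModC (ZMod ℓ)} →
      LinearIndependent ↥(IntermediateField.adjoin (ZMod ℓ) {y}) β := by
    intro y hy
    rw [hy]
    exact hli
  -- charts lie in `O`
  have hcFin : ∀ x ∈ chartAlg N ℓ {jFull N}, x ∈ OFv :=
    chartAlg_le N ℓ OFv (fun r hr => (hconst r).mpr hr) _ (by rintro _ rfl; exact hjO)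
  have hcInf : ∀ x ∈ chartAlg N ℓ {(jFull N)⁻¹}, x ∈ OFv :=
    chartAlg_le N ℓ OFv (fun r hr => (hconst r).mpr hr) _ (by rintro _ rfl; exact hjinvO)
  have hcMid : ∀ x ∈ chartAlg N ℓ {jFull N, (jFull N)⁻¹}, x ∈ OFv :=
    chartAlg_le N ℓ OFv (fun r hr => (hconst r).mpr hr) _ (by
      rintro _ (rfl | rfl)
      · exact hjO
      · exact hjinvO)
  -- the finite chart
  have hFin : IsDomain (TensorProduct ↥(GaloisRep.ratLocalizedAt ℓ) ↥(chartAlgFin N ℓ) K) := by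
    refine isDomain_tensor_of_reduction ℓ ↥(chartAlgFin N ℓ)
      (chartRes N ℓ OFv ρ {jFull N} hcFin) ?_ K
    intro b hb
    rw [chartRes_apply] at hb
    obtain ⟨b', hb', hbb'⟩ := chart_kernel N ℓ OFv ρ hker hunit (fun r => (hconst r).mp) hj
      (jFull N) hjO (by rw [hρj]; exact htr) htr0 (dedekindPsi N) hdeg β hβ
      (keyκ _ (by rw [hρj])) b b.2 (hcFin b b.2) hb
    exact ⟨⟨b', hb'⟩, Subtype.ext (by rw [hbb']; push_cast; rfl)⟩
  -- the chart at infinity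
  have hInf : IsDomain (TensorProduct ↥(GaloisRep.ratLocalizedAt ℓ) ↥(chartAlgInf N ℓ) K) := by
    refine isDomain_tensor_of_reduction ℓ ↥(chartAlgInf N ℓ)
      (chartRes N ℓ OFv ρ {(jFull N)⁻¹} hcInf) ?_ K
    intro b hb
    rw [chartRes_apply] at hb
    have := (keyE _ hE).1
    obtain ⟨b', hb', hbb'⟩ := chart_kernel N ℓ OFv ρ hker hunit (fun r => (hconst r).mp) hj
      (jFull N)⁻¹ hjinvO (by rw [hρjinv]; exact htrinv) htr0inv (dedekindPsi N) (keyE _ hE).2 β hβ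
      (keyκ _ (by rw [hρjinv, hκ])) b b.2 (hcInf b b.2) hb
    exact ⟨⟨b', hb'⟩, Subtype.ext (by rw [hbb']; push_cast; rfl)⟩
  -- the middle chart
  have hMid : Nontrivial (TensorProduct ↥(GaloisRep.ratLocalizedAt ℓ) ↥(chartAlgMid N ℓ) K) :=
    nontrivial_tensor_of_ringHom ℓ ↥(chartAlgMid N ℓ)
      (chartRes N ℓ OFv ρ {jFull N, (jFull N)⁻¹} hcMid) K
  exact isIntegral_pullback_of_charts N ℓ K hFin hInf hMid

end Main

end Charts

end Fermat.Agent.S28
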