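import Mathlib
import Fermat.Agent.S28.SeriesBasic
import Fermat.Prelude.Def_ModularCurve_X0ModL

/-!
# S28 Block 5: formal points `q ↦ c q ^ m` on Laurent series and a degree lemma

* `Tower.fpt c m` : the substitution `q ↦ c q ^ m` ("formal point"), `= qExpand m ∘ tw c`;
* `Tower.eval₂_ne_zero_of_order` (Lemma C): if the order of `f ∈ k((y))` is prime to `r`, then
  `1, f, …, f ^ (r - 1)` are linearly independent over every subfield all of whose elements
  have order divisible by `r` (e.g. a subfield of `k((y ^ r))`);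
* `Tower.irreducible_of_order`, `Tower.irreducible_or_root_of_order` : the resulting
  irreducibility criteria for polynomials of degree `r`, `r + 1` with root `f`.
-/

set_option autoImplicit false

open ModularCurve Polynomial

namespace Fermat.Agent.S28

namespace Tower

noncomputable section

section Rotate

variable {R : Type*} [CommRing R]

theorem tw_tw (c d : Rˣ) (f : LaurentSeries R) : tw c (tw d f) = tw (c * d) f :=
  (tw_mul c d f).symm

@[simp]
theorem tw_single (c : Rˣ) (n : ℤ) (a : R) :
    tw c (HahnSeries.single n a) = HahnSeries.single n (((c ^ n : Rˣ) : R) * a) := by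
  ext m
  rw [tw_coeff]
  by_cases hm : m = n
  · subst hm
    simp
  · simp [HahnSeries.coeff_single_of_ne hm]

@[simp]
theorem tw_C (c : Rˣ) (a : R) : tw c (HahnSeries.C a) = HahnSeries.C a := by
  rw [HahnSeries.C_apply]
  simp

theorem tw_eq_zero_iff (c : Rˣ) (f : LaurentSeries R) : tw c f = 0 ↔ f = 0 :=
  ⟨fun h => tw_injective c (by rw [h, map_zero]), fun h => by rw [h, map_zero]⟩

theorem order_tw (c : Rˣ) (f : LaurentSeries R) : (tw c f).order = f.order := by
  by_cases hf : f = 0
  · rw [hf, map_zero]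
  have hf' : tw c f ≠ 0 := fun h => hf ((tw_eq_zero_iff c f).mp h)
  apply le_antisymm
  · apply HahnSeries.order_le_of_coeff_ne_zero
    rw [tw_coeff]
    intro h
    exact hf (HahnSeries.coeff_order_eq_zero.mp ((Units.mul_right_eq_zero _).mp h))
  · apply HahnSeries.order_le_of_coeff_ne_zero
    intro h
    apply hf'
    apply HahnSeries.coeff_order_eq_zero.mp
    rw [tw_coeff, h, mul_zero]

theorem qExpand_eq_zero_iff (m : ℕ) [NeZero m] (f : LaurentSeries R) :
    qExpand R m f = 0 ↔ f = 0 :=
  ⟨fun h => qExpand_injective m (by rw [h, map_zero]), fun h => by rw [h, map_zero]⟩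

theorem order_qExpand (m : ℕ) [NeZero m] (f : LaurentSeries R) :
    (qExpand R m f).order = (m : ℤ) * f.order := by
  by_cases hf : f = 0
  · rw [hf, map_zero, HahnSeries.order_zero, mul_zero]
  have hf' : qExpand R m f ≠ 0 := fun h => hf ((qExpand_eq_zero_iff m f).mp h)
  apply le_antisymm
  · apply HahnSeries.order_le_of_coeff_ne_zero
    rw [qExpand_coeff_mul]
    exact fun h => hf (HahnSeries.coeff_order_eq_zero.mp h)
  · have h1 : (qExpand R m f).coeff (qExpand R m f).order ≠ 0 :=
      fun h => hf' (HahnSeries.coeff_order_eq_zero.mp h)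
    by_cases hdvd : (m : ℤ) ∣ (qExpand R m f).order
    · obtain ⟨l, hl⟩ := hdvd
      rw [hl, qExpand_coeff_mul] at h1
      rw [hl]
      exact mul_le_mul_of_nonneg_left (HahnSeries.order_le_of_coeff_ne_zero h1)
        (Int.natCast_nonneg m)
    · exact absurd (qExpand_coeff_of_not_dvd m f hdvd) h1

theorem dvd_order_qExpand (m : ℕ) [NeZero m] (f : LaurentSeries R) :
    (m : ℤ) ∣ (qExpand R m f).order := by
  rw [order_qExpand]
  exact dvd_mul_right _ _

/-- The substitution `q ↦ c q ^ m` ("formal point" `(c, m)`). -/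
def fpt (c : Rˣ) (m : ℕ) [NeZero m] : LaurentSeries R →+* LaurentSeries R :=
  (qExpand R m).comp (tw c)

theorem fpt_apply (c : Rˣ) (m : ℕ) [NeZero m] (f : LaurentSeries R) :
    fpt c m f = qExpand R m (tw c f) := rfl

theorem fpt_one_left (m : ℕ) [NeZero m] (f : LaurentSeries R) :
    fpt (1 : Rˣ) m f = qExpand R m f := by
  rw [fpt_apply, tw_one]

theorem fpt_one_right (c : Rˣ) (f : LaurentSeries R) : fpt c 1 f = tw c f := by
  rw [fpt_apply, qExpand_one_apply]

theorem fpt_fpt (c d : Rˣ) (m n : ℕ) [NeZero m] [NeZero n] (f : LaurentSeries R) :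
    fpt d n (fpt c m f) = fpt (c * d ^ m) (n * m) f := by
  rw [fpt_apply, fpt_apply, fpt_apply, tw_qExpand, tw_tw, qExpand_qExpand, mul_comm c]

theorem fpt_qExpand (c : Rˣ) (m n : ℕ) [NeZero m] [NeZero n] (f : LaurentSeries R) :
    fpt c m (qExpand R n f) = fpt (c ^ n) (m * n) f := by
  rw [fpt_apply, fpt_apply, tw_qExpand, qExpand_qExpand]

theorem qExpand_fpt (c : Rˣ) (m n : ℕ) [NeZero m] [NeZero n] (f : LaurentSeries R) :
    qExpand R n (fpt c m f) = fpt c (n * m) f := by
  rw [fpt_apply, fpt_apply, qExpand_qExpand]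

theorem fpt_tw (c d : Rˣ) (m : ℕ) [NeZero m] (f : LaurentSeries R) :
    fpt c m (tw d f) = fpt (d * c) m f := by
  rw [fpt_apply, fpt_apply, tw_tw, mul_comm]

theorem fpt_injective (c : Rˣ) (m : ℕ) [NeZero m] : Function.Injective (fpt (R := R) c m) :=
  (qExpand_injective m).comp (tw_injective c)

theorem order_fpt (c : Rˣ) (m : ℕ) [NeZero m] (f : LaurentSeries R) :
    (fpt c m f).order = (m : ℤ) * f.order := by
  rw [fpt_apply, order_qExpand, order_tw]

theorem fpt_mem_range_qExpand (c : Rˣ) (m r : ℕ) [NeZero m] [NeZero r] (h : r ∣ m)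
    (f : LaurentSeries R) : fpt c m f ∈ Set.range (qExpand R r) := by
  obtain ⟨l, rfl⟩ := h
  have hl : NeZero l := ⟨fun h0 => NeZero.ne (r * l) (by rw [h0, mul_zero])⟩
  exact ⟨fpt c l f, by rw [qExpand_fpt]⟩

end Rotate

section Field

variable {k : Type*} [Field k]

/-- `tw c` as a `k`-algebra homomorphism. -/
def twAlg (c : kˣ) : LaurentSeries k →ₐ[k] LaurentSeries k where
  __ := tw c
  commutes' a := by
    show tw c (algebraMap k (LaurentSeries k) a) = algebraMap k (LaurentSeries k) a
    rw [algebraMap_laurentSeries_eq_single, tw_single, zpow_zero, Units.val_one, one_mul]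

@[simp]
theorem twAlg_apply (c : kˣ) (f : LaurentSeries k) : twAlg c f = tw c f := rfl

/-- `fpt c m` as a `k`-algebra homomorphism. -/
def fptAlg (c : kˣ) (m : ℕ) [NeZero m] : LaurentSeries k →ₐ[k] LaurentSeries k :=
  (qExpandAlgHomC k m).comp (twAlg c)

@[simp]
theorem fptAlg_apply (c : kˣ) (m : ℕ) [NeZero m] (f : LaurentSeries k) :
    fptAlg c m f = fpt c m f := rfl

theorem isUnit_of_natDegree_eq_zero {L : Type*} [Field L] {p : L[X]} (hp : p ≠ 0)
    (h : p.natDegree = 0) : IsUnit p := by
  rw [Polynomial.isUnit_iff_degree_eq_zero, Polynomial.degree_eq_natDegree hp, h]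
  rfl

/-- Core of Lemma C: if the nonzero terms `e(a_i) f ^ i` of `Q(f)` have pairwise distinct
orders, then `Q(f) ≠ 0`. -/
theorem eval₂_ne_zero_of_orders {L : Type*} [Field L] (e : L →+* LaurentSeries k)
    (f : LaurentSeries k) (hf0 : f ≠ 0) (Q : L[X]) (hQ : Q ≠ 0)
    (hinj0 : ∀ i ∈ Q.support, ∀ i' ∈ Q.support,
      (e (Q.coeff i)).order + (i : ℤ) * f.order = (e (Q.coeff i')).order + (i' : ℤ) * f.order →
        i = i') :
    Q.eval₂ e f ≠ 0 := by
  classical
  set T : ℕ → LaurentSeries k := fun i => e (Q.coeff i) * f ^ i with hT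
  have hTne : ∀ i ∈ Q.support, T i ≠ 0 := by
    intro i hi
    rw [Polynomial.mem_support_iff] at hi
    exact mul_ne_zero ((map_ne_zero e).mpr hi) (pow_ne_zero _ hf0)
  have hTord : ∀ i ∈ Q.support, (T i).order = (e (Q.coeff i)).order + (i : ℤ) * f.order := by
    intro i hi
    rw [Polynomial.mem_support_iff] at hi
    rw [hT]
    simp only
    rw [HahnSeries.order_mul ((map_ne_zero e).mpr hi) (pow_ne_zero _ hf0), HahnSeries.order_pow,
      nsmul_eq_mul]
  have hinj : ∀ i ∈ Q.support, ∀ i' ∈ Q.support, (T i).order = (T i').order → i = i' := by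
    intro i hi i' hi' h
    rw [hTord i hi, hTord i' hi'] at h
    exact hinj0 i hi i' hi' h
  have hne : Q.support.Nonempty := Polynomial.support_nonempty.mpr hQ
  obtain ⟨i0, hi0, hmin⟩ := Finset.exists_min_image Q.support (fun i => (T i).order) hne
  have hsum : Q.eval₂ e f = ∑ i ∈ Q.support, T i := by
    rw [Polynomial.eval₂_eq_sum, Polynomial.sum_def]
  apply HahnSeries.ne_zero_of_coeff_ne_zero (g := (T i0).order)
  rw [hsum, HahnSeries.coeff_sum, Finset.sum_eq_single i0]
  · exact fun h => hTne i0 hi0 (HahnSeries.coeff_order_eq_zero.mp h)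
  · intro i hi hii0
    apply HahnSeries.coeff_eq_zero_of_lt_order
    exact lt_of_le_of_ne (hmin i hi) (fun h => hii0 (hinj i hi i0 hi0 h.symm))
  · exact fun h => absurd hi0 h

/-- **Lemma C.** If the order of `f` is prime to `r` and all elements of the image of `e` have
order divisible by `r`, then no nonzero polynomial of degree `< r` over `L` vanishes at `f`. -/
theorem eval₂_ne_zero_of_order {L : Type*} [Field L] (e : L →+* LaurentSeries k) (r : ℕ)
    (he : ∀ x : L, (r : ℤ) ∣ (e x).order) (f : LaurentSeries k)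
    (hf : IsCoprime f.order (r : ℤ)) (Q : L[X]) (hQ : Q ≠ 0) (hdeg : Q.natDegree < r) :
    Q.eval₂ e f ≠ 0 := by
  by_cases hf0 : f = 0
  · -- then `r = 1` and `Q` is a nonzero constant
    rw [hf0, HahnSeries.order_zero, isCoprime_zero_left] at hf
    have hr : r = 1 := by
      have := Int.isUnit_iff.mp hf
      omega
    have hd : Q.natDegree = 0 := by omega
    rw [Polynomial.eq_C_of_natDegree_eq_zero hd, Polynomial.eval₂_C]
    intro h
    apply hQ
    rw [Polynomial.eq_C_of_natDegree_eq_zero hd, (map_eq_zero e).mp h, Polynomial.C_0]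
  refine eval₂_ne_zero_of_orders e f hf0 Q hQ ?_
  intro i hi i' hi' h
  have hlt : i < r := lt_of_le_of_lt (Polynomial.le_natDegree_of_mem_supp i hi) hdeg
  have hlt' : i' < r := lt_of_le_of_lt (Polynomial.le_natDegree_of_mem_supp i' hi') hdeg
  have h1 : (r : ℤ) ∣ ((i : ℤ) - i') * f.order := by
    have h2 : ((i : ℤ) - i') * f.order = (e (Q.coeff i')).order - (e (Q.coeff i)).order := by
      linarith
    rw [h2]
    exact dvd_sub (he _) (he _)
  have h3 : (r : ℤ) ∣ (i : ℤ) - i' := hf.symm.dvd_of_dvd_mul_right h1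
  have h4 : ((i : ℤ) - i') = 0 := by
    apply Int.eq_zero_of_abs_lt_dvd h3
    rw [abs_lt]
    constructor <;> omega
  omega

/-- A polynomial in a series of nonzero order with constant coefficients is nonzero. -/
theorem aeval_ne_zero_of_order (z : LaurentSeries k) (hz : z.order ≠ 0) (P : k[X])
    (hP : P ≠ 0) : Polynomial.aeval z P ≠ 0 := by
  have hz0 : z ≠ 0 := by
    rintro rfl
    exact hz HahnSeries.order_zero
  have h := eval₂_ne_zero_of_orders (algebraMap k (LaurentSeries k)) z hz0 P hP (by
    intro i hi i' hi' h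
    have hord : ∀ a : k, a ≠ 0 → (algebraMap k (LaurentSeries k) a).order = 0 := by
      intro a ha
      rw [algebraMap_laurentSeries_eq_single, HahnSeries.order_single ha]
    rw [hord _ (Polynomial.mem_support_iff.mp hi), hord _ (Polynomial.mem_support_iff.mp hi'),
      zero_add, zero_add] at h
    exact_mod_cast mul_right_cancel₀ hz h)
  rwa [Polynomial.aeval_def]

theorem aeval_injective_of_order (z : LaurentSeries k) (hz : z.order ≠ 0) :
    Function.Injective (Polynomial.aeval (R := k) z) := by
  rw [injective_iff_map_eq_zero]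
  intro P hP
  by_contra hne
  exact aeval_ne_zero_of_order z hz P hne hP

/-- A polynomial of degree `r` over `L` with root `f` is irreducible (in the situation of
Lemma C). -/
theorem irreducible_of_order {L : Type*} [Field L] (e : L →+* LaurentSeries k) (r : ℕ)
    (he : ∀ x : L, (r : ℤ) ∣ (e x).order) (f : LaurentSeries k)
    (hf : IsCoprime f.order (r : ℤ)) (Q : L[X]) (hr : 0 < r) (hdeg : Q.natDegree = r)
    (hroot : Q.eval₂ e f = 0) : Irreducible Q := by
  have hQ0 : Q ≠ 0 := by
    rintro rfl
    rw [Polynomial.natDegree_zero] at hdeg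
    omega
  refine ⟨fun hu => ?_, fun A B hAB => ?_⟩
  · have := Polynomial.natDegree_eq_zero_of_isUnit hu
    omega
  · have hA0 : A ≠ 0 := fun h => hQ0 (by rw [hAB, h, zero_mul])
    have hB0 : B ≠ 0 := fun h => hQ0 (by rw [hAB, h, mul_zero])
    have hdeg' : A.natDegree + B.natDegree = r := by
      rw [← Polynomial.natDegree_mul hA0 hB0, ← hAB, hdeg]
    rw [hAB, Polynomial.eval₂_mul] at hroot
    rcases mul_eq_zero.mp hroot with h | h
    · right
      have : ¬ A.natDegree < r := fun hlt => eval₂_ne_zero_of_order e r he f hf A hA0 hlt h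
      exact isUnit_of_natDegree_eq_zero hB0 (by omega)
    · left
      have : ¬ B.natDegree < r := fun hlt => eval₂_ne_zero_of_order e r he f hf B hB0 hlt h
      exact isUnit_of_natDegree_eq_zero hA0 (by omega)

/-- A polynomial of degree `r + 1` over `L` with root `f` is irreducible or has a root in `L`
(in the situation of Lemma C). -/
theorem irreducible_or_root_of_order {L : Type*} [Field L] (e : L →+* LaurentSeries k) (r : ℕ)
    (he : ∀ x : L, (r : ℤ) ∣ (e x).order) (f : LaurentSeries k)
    (hf : IsCoprime f.order (r : ℤ)) (Q : L[X]) (hdeg : Q.natDegree = r + 1)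
    (hroot : Q.eval₂ e f = 0) : Irreducible Q ∨ ∃ x : L, Q.IsRoot x := by
  classical
  have hQ0 : Q ≠ 0 := by
    rintro rfl
    rw [Polynomial.natDegree_zero] at hdeg
    omega
  -- a divisor of `Q` of minimal degree vanishing at `f`
  have hex : ∃ n : ℕ, ∃ A : L[X], A ∣ Q ∧ A.eval₂ e f = 0 ∧ A.natDegree = n :=
    ⟨_, Q, dvd_rfl, hroot, rfl⟩
  obtain ⟨A, hAQ, hAf, hAn⟩ := Nat.find_spec hex
  have hAmin : ∀ A' : L[X], A' ∣ Q → A'.eval₂ e f = 0 → A.natDegree ≤ A'.natDegree := by
    intro A' h1 h2
    rw [hAn]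
    exact Nat.find_min' hex ⟨A', h1, h2, rfl⟩
  have hA0 : A ≠ 0 := ne_zero_of_dvd_ne_zero hQ0 hAQ
  have hAdeg : r ≤ A.natDegree := by
    by_contra hlt
    exact eval₂_ne_zero_of_order e r he f hf A hA0 (by omega) hAf
  obtain ⟨B, hB⟩ := hAQ
  have hB0 : B ≠ 0 := fun h => hQ0 (by rw [hB, h, mul_zero])
  have hsum : A.natDegree + B.natDegree = r + 1 := by
    rw [← Polynomial.natDegree_mul hA0 hB0, ← hB, hdeg]
  by_cases hBd : B.natDegree = 0
  · -- `Q` is associated to `A`, and `A` is irreducible by minimality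
    left
    have hBu : IsUnit B := isUnit_of_natDegree_eq_zero hB0 hBd
    have hAirr : Irreducible A := by
      refine ⟨fun hu => ?_, fun A1 A2 h12 => ?_⟩
      · have := Polynomial.natDegree_eq_zero_of_isUnit hu
        omega
      · have h10 : A1 ≠ 0 := fun h => hA0 (by rw [h12, h, zero_mul])
        have h20 : A2 ≠ 0 := fun h => hA0 (by rw [h12, h, mul_zero])
        have hd12 : A1.natDegree + A2.natDegree = A.natDegree := by
          rw [← Polynomial.natDegree_mul h10 h20, ← h12]
        rw [h12, Polynomial.eval₂_mul] at hAf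
        rcases mul_eq_zero.mp hAf with h | h
        · right
          have := hAmin A1 (Dvd.intro (A2 * B) (by rw [hB, h12, mul_assoc])) h
          exact isUnit_of_natDegree_eq_zero h20 (by omega)
        · left
          have := hAmin A2 (Dvd.intro (A1 * B) (by rw [hB, h12]; ring)) h
          exact isUnit_of_natDegree_eq_zero h10 (by omega)
    rw [hB]
    exact (irreducible_mul_isUnit hBu).mpr hAirr
  · right
    have hB1 : B.degree = 1 := by
      rw [Polynomial.degree_eq_natDegree hB0, show B.natDegree = 1 by omega]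
      rfl
    obtain ⟨x, hx⟩ := Polynomial.exists_root_of_degree_eq_one hB1
    exact ⟨x, by rw [hB]; exact Polynomial.root_mul_left_of_isRoot A hx⟩

end Field

end

end Tower

end Fermat.Agent.S28
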