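import Mathlib

/-!
# S28, package C1 (abstract part): independence of powers from a degree count

Let `k ⊆ L` be fields, `jj, y ∈ L` with `jj` transcendental over `k`, and let `χ ∈ k[J][X]` be
monic in `X` with `χ(jj, y) = 0`.  Assume
* every nonzero `S ∈ k[X][J]` of `J`-degree `< K` has `S(y, jj) ≠ 0`,
* `χ` has `J`-degree `≤ K`,
* no nonconstant monic `h ∈ k[X]` (constant in `J`) divides `χ`.
Then `1, y, …, y^(deg χ - 1)` are linearly independent over `k[jj]`: every nonzero
`G ∈ k[J][X]` of `X`-degree `< deg χ` has `G(jj, y) ≠ 0`.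
-/

set_option autoImplicit false

open Polynomial
open scoped Polynomial.Bivariate

namespace Fermat.Agent.S28

/-- `aevalAeval x y` is `eval₂` along `aeval x`. -/
theorem aevalAeval_eq_eval₂ {R A : Type*} [CommRing R] [CommRing A] [Algebra R A] (x y : A)
    (p : R[X][Y]) : aevalAeval x y p = eval₂ (aeval (R := R) x).toRingHom y p := by
  induction p using Polynomial.induction_on' with
  | add p q hp hq => rw [map_add, eval₂_add, hp, hq]
  | monomial n a =>
    rw [← C_mul_X_pow_eq_monomial, map_mul, map_pow, aevalAeval_C, aevalAeval_Y, eval₂_mul,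
      eval₂_pow, eval₂_C, eval₂_X]
    rfl

/-- The outer degree of `swap p` is bounded by the inner degrees of the coefficients of `p`. -/
theorem natDegree_swap_le {R : Type*} [CommRing R] (p : R[X][Y]) (K : ℕ)
    (h : ∀ i, (p.coeff i).natDegree ≤ K) : (Bivariate.swap p).natDegree ≤ K := by
  rw [← p.sum_monomial_eq, Polynomial.sum_def, map_sum]
  refine natDegree_sum_le_of_forall_le _ _ fun i _ => ?_
  rw [Bivariate.swap_monomial]
  refine (natDegree_mul_le).trans ?_
  rw [natDegree_C, add_zero]
  exact (natDegree_map_le).trans (h i)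

/-- **Abstract independence lemma.** -/
theorem indep_abstract {k L : Type*} [Field k] [Field L] [Algebra k L] (jj y : L) (K : ℕ)
    (hT : Function.Injective (aeval (R := k) jj))
    (hB : ∀ S : k[X][Y], S ≠ 0 → S.natDegree < K → aevalAeval y jj S ≠ 0)
    (χ : k[X][Y]) (hmon : χ.Monic) (hroot : aevalAeval jj y χ = 0)
    (hdeg : (Bivariate.swap χ).natDegree ≤ K)
    (hR : ∀ h : k[X], h.Monic → h.map C ∣ χ → h = 1)
    (G : k[X][Y]) (hG : G ≠ 0) (hGdeg : G.natDegree < χ.natDegree) :
    aevalAeval jj y G ≠ 0 := by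
  classical
  let alg : Algebra k[X] L := (aeval (R := k) jj).toRingHom.toAlgebra
  have halg : ∀ p : k[X], algebraMap k[X] L p = aeval jj p := fun p => rfl
  have hinj : Function.Injective (algebraMap k[X] L) := hT
  have : Module.IsTorsionFree k[X] L := by
    rw [← faithfulSMul_iff_algebraMap_injective] at hinj
    infer_instance
  have key : ∀ p : k[X][Y], aevalAeval jj y p = aeval (R := k[X]) y p := by
    intro p
    rw [aevalAeval_eq_eval₂]
    rfl
  have hint : IsIntegral k[X] y := ⟨χ, hmon, by rw [← aeval_def, ← key, hroot]⟩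
  intro hG0
  -- the minimal polynomial
  set m₀ := minpoly k[X] y with hm₀
  have hm₀mon : m₀.Monic := minpoly.monic hint
  have hdvd : m₀ ∣ χ := minpoly.isIntegrallyClosed_dvd hint (by rw [← key, hroot])
  obtain ⟨H, hH⟩ := hdvd
  have hHmon : H.Monic := hm₀mon.of_mul_monic_left (hH ▸ hmon)
  -- `deg_J`
  have hm₀ne : m₀ ≠ 0 := hm₀mon.ne_zero
  have hHne : H ≠ 0 := hHmon.ne_zero
  have hsm : Bivariate.swap m₀ ≠ 0 := (EmbeddingLike.map_ne_zero_iff (f := Bivariate.swap)).mpr hm₀ne
  have hsH : Bivariate.swap H ≠ 0 := (EmbeddingLike.map_ne_zero_iff (f := Bivariate.swap)).mpr hHne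
  have h1 : K ≤ (Bivariate.swap m₀).natDegree := by
    by_contra hlt
    refine hB _ hsm (not_le.mp hlt) ?_
    rw [Bivariate.aevalAeval_swap, key, hm₀]
    exact minpoly.aeval _ _
  have h2 : (Bivariate.swap χ).natDegree
      = (Bivariate.swap m₀).natDegree + (Bivariate.swap H).natDegree := by
    rw [hH, map_mul, natDegree_mul hsm hsH]
  have h3 : (Bivariate.swap H).natDegree = 0 := by omega
  obtain ⟨h, hh⟩ := natDegree_eq_zero.mp h3
  have hHh : H = h.map C := by
    have := congrArg Bivariate.swap hh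
    rw [Bivariate.swap_swap_apply, Bivariate.swap_C] at this
    exact this.symm
  have hhmon : h.Monic := by
    have : (h.map (C : k →+* k[X])).Monic := hHh ▸ hHmon
    exact monic_of_injective C_injective this
  have hh1 : h = 1 := hR h hhmon ⟨m₀, by rw [hH, hHh, mul_comm]⟩
  -- so `χ = m₀`
  have hχ : χ = m₀ := by rw [hH, hHh, hh1, Polynomial.map_one, mul_one]
  have hle := minpoly.IsIntegrallyClosed.degree_le_of_ne_zero (s := y) hG
    (by rw [← key, hG0])
  rw [← hm₀, ← hχ] at hle
  exact absurd (natDegree_le_natDegree hle) (not_le.mpr hGdeg)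

end Fermat.Agent.S28
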