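import Mathlib
import Fermat.Agent.S28.IndepAbstract

/-!
# S28, package C1: independence from a factorisation and orders

`k ⊆ L` fields, `v` a `ℤ`-valued additive valuation on `L`, trivial on `k`.  Let `jj ∈ L` with
`v jj = -a < 0` and `r i ∈ L` (`i : ι`) with `v (r i₀) = -a K`, and `r i ≠ 0`, `0 < v (r i)` for
`i ≠ i₀`.  If `χ ∈ k[J][X]` satisfies `χ(jj, X) = ∏ i, (X - r i)`, then
`1, r i₀, …, (r i₀)^(card ι - 1)` are linearly independent over `k[jj]`.
-/

set_option autoImplicit false

open Polynomial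
open scoped Polynomial.Bivariate

namespace Fermat.Agent.S28

section Val

variable {L : Type*} [Field L] (v : AddValuation L (WithTop ℤ))

/-- The valuation of a finite sum whose nonzero terms have pairwise distinct valuations. -/
theorem val_sum_eq_inf {ι : Type*} [DecidableEq ι] (s : Finset ι) (f : ι → L)
    (h : ∀ i ∈ s, ∀ j ∈ s, v (f i) = v (f j) → v (f i) ≠ ⊤ → i = j) :
    v (∑ i ∈ s, f i) = s.inf (fun i => v (f i)) := by
  induction s using Finset.induction_on with
  | empty => simp
  | insert a s ha ih =>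
    have ih' := ih (fun i hi j hj => h i (Finset.mem_insert_of_mem hi) j (Finset.mem_insert_of_mem hj))
    rw [Finset.sum_insert ha, Finset.inf_insert]
    rcases lt_trichotomy (v (f a)) (v (∑ i ∈ s, f i)) with hlt | heq | hgt
    · rw [v.map_add_eq_of_lt_left hlt, ← ih']
      exact (min_eq_left hlt.le).symm
    · by_cases htop : v (f a) = ⊤
      · have h1 : f a = 0 := (v.top_iff).mp htop
        have h2 : ∑ i ∈ s, f i = 0 := (v.top_iff).mp (heq ▸ htop)
        rw [h1, h2, add_zero, v.map_zero, ← ih', h2, v.map_zero]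
        simp
      · exfalso
        have hne : s.Nonempty := by
          by_contra hemp
          rw [Finset.not_nonempty_iff_eq_empty] at hemp
          rw [hemp] at heq
          simp at heq
          exact htop ((v.top_iff).mpr heq)
        obtain ⟨j, hj, hjeq⟩ := Finset.exists_mem_eq_inf s hne (fun i => v (f i))
        have : a = j := h a (Finset.mem_insert_self a s) j (Finset.mem_insert_of_mem hj)
          (by rw [heq, ih', hjeq]) htop
        exact ha (this ▸ hj)
    · rw [v.map_add_eq_of_lt_right hgt, ← ih']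
      exact (min_eq_right hgt.le).symm

variable {k : Type*} [Field k] [Algebra k L]

/-- The valuation of a polynomial value at an element of nonzero integer valuation. -/
theorem val_aeval (hv : ∀ a : k, a ≠ 0 → v (algebraMap k L a) = 0) (x : L) (c : ℤ) (hc : c ≠ 0)
    (hx : v x = (c : WithTop ℤ)) (p : k[X]) :
    v (aeval x p) = p.support.inf (fun i => (((i : ℤ) * c : ℤ) : WithTop ℤ)) := by
  classical
  have hterm : ∀ i ∈ p.support, v (algebraMap k L (p.coeff i) * x ^ i) = (((i : ℤ) * c : ℤ) : WithTop ℤ) := by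
    intro i hi
    rw [v.map_mul, v.map_pow, hv _ (mem_support_iff.mp hi), hx, zero_add]
    rw [← WithTop.coe_nsmul, nsmul_eq_mul]
  rw [aeval_def, eval₂_eq_sum, Polynomial.sum_def, val_sum_eq_inf v]
  · exact Finset.inf_congr rfl hterm
  · intro i hi j hj hij _
    rw [hterm i hi, hterm j hj, WithTop.coe_eq_coe] at hij
    exact_mod_cast mul_right_cancel₀ hc hij

theorem val_aeval_ne_top (hv : ∀ a : k, a ≠ 0 → v (algebraMap k L a) = 0) (x : L) (c : ℤ)
    (hc : c ≠ 0) (hx : v x = (c : WithTop ℤ)) (p : k[X]) (hp : p ≠ 0) : aeval x p ≠ 0 := by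
  intro h0
  have h := val_aeval v hv x c hc hx p
  rw [h0, v.map_zero] at h
  obtain ⟨i, hi, hie⟩ := Finset.exists_mem_eq_inf p.support (nonempty_support_iff.mpr hp)
    (fun i => (((i : ℤ) * c : ℤ) : WithTop ℤ))
  rw [hie] at h
  exact WithTop.coe_ne_top h.symm

theorem val_aeval_neg (hv : ∀ a : k, a ≠ 0 → v (algebraMap k L a) = 0) (x : L) (c : ℤ)
    (hc : c < 0) (hx : v x = (c : WithTop ℤ)) (p : k[X]) (hp : p ≠ 0) :
    v (aeval x p) = (((p.natDegree : ℤ) * c : ℤ) : WithTop ℤ) := by
  rw [val_aeval v hv x c hc.ne hx p]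
  apply le_antisymm
  · exact Finset.inf_le (natDegree_mem_support_of_nonzero hp)
  · refine Finset.le_inf fun i hi => ?_
    rw [WithTop.coe_le_coe]
    have : (i : ℤ) ≤ p.natDegree := by exact_mod_cast le_natDegree_of_mem_supp i hi
    nlinarith

/-- A lower bound for the valuations of the coefficients of `∏ (X - r i)`. -/
theorem val_coeff_prod_ge {ι : Type*} [DecidableEq ι] (s : Finset ι) (r : ι → L) (b : ι → ℤ)
    (hb0 : ∀ i ∈ s, b i ≤ 0) (hb : ∀ i ∈ s, ((b i : ℤ) : WithTop ℤ) ≤ v (r i)) (n : ℕ) :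
    (((∑ i ∈ s, b i : ℤ)) : WithTop ℤ) ≤ v ((∏ i ∈ s, (X - C (r i))).coeff n) := by
  induction s using Finset.induction_on generalizing n with
  | empty =>
    rw [Finset.prod_empty, Finset.sum_empty, coeff_one]
    split_ifs
    · rw [v.map_one]; rfl
    · rw [v.map_zero]; exact le_top
  | insert a s ha ih =>
    have ih' := ih (fun i hi => hb0 i (Finset.mem_insert_of_mem hi))
      (fun i hi => hb i (Finset.mem_insert_of_mem hi))
    have ha0 := hb0 a (Finset.mem_insert_self a s)
    have hav := hb a (Finset.mem_insert_self a s)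
    rw [Finset.prod_insert ha, Finset.sum_insert ha, sub_mul, coeff_sub, coeff_C_mul]
    refine v.map_le_sub ?_ ?_
    · cases n with
      | zero =>
        rw [mul_comm, coeff_mul_X_zero, v.map_zero]
        exact le_top
      | succ n =>
        rw [coeff_X_mul]
        refine le_trans ?_ (ih' n)
        rw [WithTop.coe_le_coe]
        linarith
    · rw [v.map_mul, WithTop.coe_add]
      exact add_le_add hav (ih' n)

end Val

/-- **Package C1.** Independence of the powers of the distinguished root over `k[jj]`. -/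
theorem indep_of_factorization {k L : Type*} [Field k] [Field L] [Algebra k L]
    (v : AddValuation L (WithTop ℤ)) (hv : ∀ a : k, a ≠ 0 → v (algebraMap k L a) = 0)
    {ι : Type*} [Fintype ι] (i₀ : ι) (r : ι → L) (jj : L) (a K : ℕ) (ha : 0 < a) (hK : 0 < K)
    (hjj : v jj = ((-(a : ℤ) : ℤ) : WithTop ℤ))
    (h0 : v (r i₀) = ((-((a : ℤ) * K) : ℤ) : WithTop ℤ))
    (hpos : ∀ i, i ≠ i₀ → 0 < v (r i) ∧ r i ≠ 0)
    (χ : k[X][Y]) (hχ : χ.map (aeval (R := k) jj).toRingHom = ∏ i, (X - C (r i)))
    (G : k[X][Y]) (hG : G ≠ 0) (hGdeg : G.natDegree < Fintype.card ι) :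
    aevalAeval jj (r i₀) G ≠ 0 := by
  classical
  have haZ : (0 : ℤ) < a := by exact_mod_cast ha
  have hKZ : (0 : ℤ) < K := by exact_mod_cast hK
  have hcj : (-(a : ℤ)) < 0 := by linarith
  have hcy : (-((a : ℤ) * K)) < 0 := by nlinarith
  -- transcendence of `jj`
  have hT : Function.Injective (aeval (R := k) jj) := by
    rw [injective_iff_map_eq_zero]
    intro p hp
    by_contra hne
    exact val_aeval_ne_top v hv jj _ hcj.ne hjj p hne hp
  set ev : k[X] →+* L := (aeval (R := k) jj).toRingHom with hev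
  have hevinj : Function.Injective ev := hT
  have hprodmon : (∏ i, (X - C (r i)) : L[X]).Monic := monic_prod_of_monic _ _ fun i _ => monic_X_sub_C _
  have hmon : χ.Monic := monic_of_injective hevinj (hχ ▸ hprodmon)
  have hnat : χ.natDegree = Fintype.card ι := by
    rw [← natDegree_map_eq_of_injective hevinj, hχ, natDegree_prod_of_monic _ _ fun i _ => monic_X_sub_C _]
    simp
  -- the root
  have hroot : aevalAeval jj (r i₀) χ = 0 := by
    rw [aevalAeval_eq_eval₂, ← eval_map, ← hev, hχ, eval_prod]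
    exact Finset.prod_eq_zero (Finset.mem_univ i₀) (by simp)
  -- the `J`-degree bound
  have hcoeff : ∀ n, (χ.coeff n).natDegree ≤ K := by
    intro n
    by_cases hc : χ.coeff n = 0
    · rw [hc, natDegree_zero]; exact Nat.zero_le _
    have h1 := val_aeval_neg v hv jj _ hcj hjj (χ.coeff n) hc
    have h2 := val_coeff_prod_ge v Finset.univ r (fun i => if i = i₀ then -((a : ℤ) * K) else 0)
      (fun i _ => by split_ifs <;> linarith)
      (fun i _ => by
        split_ifs with hi
        · rw [hi, h0]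
        · exact (hpos i hi).1.le) n
    rw [← hχ, coeff_map, hev] at h2
    change _ ≤ v (aeval jj (χ.coeff n)) at h2
    rw [h1, Finset.sum_ite_eq' Finset.univ i₀, if_pos (Finset.mem_univ _), WithTop.coe_le_coe] at h2
    have h3 : ((χ.coeff n).natDegree : ℤ) * a ≤ (K : ℤ) * a := by nlinarith
    exact_mod_cast le_of_mul_le_mul_right h3 haZ
  have hdeg := natDegree_swap_le χ K hcoeff
  -- `hB`
  have hB : ∀ S : k[X][Y], S ≠ 0 → S.natDegree < K → aevalAeval (r i₀) jj S ≠ 0 := by
    intro S hS hSdeg h0'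
    rw [aevalAeval_eq_eval₂, eval₂_eq_sum, Polynomial.sum_def] at h0'
    have hterm : ∀ i ∈ S.support, v ((aeval (R := k) (r i₀)).toRingHom (S.coeff i) * jj ^ i)
        = ((((S.coeff i).natDegree : ℤ) * (-((a : ℤ) * K)) + (i : ℤ) * (-(a : ℤ)) : ℤ) : WithTop ℤ) := by
      intro i hi
      rw [v.map_mul, v.map_pow, hjj]
      change v (aeval (r i₀) (S.coeff i)) + _ = _
      rw [val_aeval_neg v hv (r i₀) _ hcy h0 (S.coeff i) (mem_support_iff.mp hi),
        ← WithTop.coe_nsmul, nsmul_eq_mul, ← WithTop.coe_add]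
    have hval := val_sum_eq_inf v S.support
      (fun i => (aeval (R := k) (r i₀)).toRingHom (S.coeff i) * jj ^ i) (by
        intro i hi j hj hij _
        rw [hterm i hi, hterm j hj, WithTop.coe_eq_coe] at hij
        have hi' : i < K := lt_of_le_of_lt (le_natDegree_of_mem_supp i hi) hSdeg
        have hj' : j < K := lt_of_le_of_lt (le_natDegree_of_mem_supp j hj) hSdeg
        have h4 : ((S.coeff i).natDegree * K + i : ℤ) = ((S.coeff j).natDegree * K + j : ℤ) := by
          have h5 : (((S.coeff i).natDegree * K + i : ℤ)) * a = ((S.coeff j).natDegree * K + j : ℤ) * a := by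
            linarith
          exact mul_right_cancel₀ haZ.ne' h5
        have h6 : (S.coeff i).natDegree * K + i = (S.coeff j).natDegree * K + j := by exact_mod_cast h4
        have h7 := congrArg (· % K) h6
        simp only [Nat.mul_add_mod_self_right, Nat.mod_eq_of_lt hi', Nat.mod_eq_of_lt hj'] at h7
        exact h7)
    rw [h0', v.map_zero] at hval
    obtain ⟨i, hi, hie⟩ := Finset.exists_mem_eq_inf S.support (nonempty_support_iff.mpr hS)
      (fun i => v ((aeval (R := k) (r i₀)).toRingHom (S.coeff i) * jj ^ i))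
    rw [hie, hterm i hi] at hval
    exact WithTop.coe_ne_top hval.symm
  -- `hR`
  have hR : ∀ h : k[X], h.Monic → h.map C ∣ χ → h = 1 := by
    intro h hh hdvd
    by_contra hne
    have hdeg1 : h.natDegree ≠ 0 := fun h0' => hne (eq_one_of_monic_natDegree_zero hh h0')
    have hdvd' : h.map (algebraMap k L) ∣ ∏ i, (X - C (r i)) := by
      have := Polynomial.map_dvd ev hdvd
      rw [hχ, Polynomial.map_map] at this
      convert this using 2
      ext a
      simp [hev]
    have hsplit : (h.map (algebraMap k L)).Splits :=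
      (Splits.prod fun i _ => Splits.X_sub_C (r i)).of_dvd hprodmon.ne_zero hdvd'
    have hd : (h.map (algebraMap k L)).degree ≠ 0 := by
      rw [degree_map, degree_eq_natDegree hh.ne_zero]
      exact_mod_cast hdeg1
    obtain ⟨x, hx⟩ := hsplit.exists_eval_eq_zero hd
    have hx' : eval x (∏ i, (X - C (r i))) = 0 := by
      obtain ⟨q, hq⟩ := hdvd'
      rw [hq, eval_mul, hx, zero_mul]
    rw [eval_prod, Finset.prod_eq_zero_iff] at hx'
    obtain ⟨i, -, hi⟩ := hx'
    rw [eval_sub, eval_X, eval_C, sub_eq_zero] at hi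
    rw [hi, eval_map, ← aeval_def] at hx
    by_cases hii : i = i₀
    · rw [hii] at hx
      exact val_aeval_ne_top v hv (r i₀) _ hcy.ne h0 h hh.ne_zero hx
    · obtain ⟨hp1, hp2⟩ := hpos i hii
      have hnt : v (r i) ≠ ⊤ := (v.ne_top_iff).mpr hp2
      obtain ⟨c, hc⟩ := WithTop.ne_top_iff_exists.mp hnt
      have hc0 : c ≠ 0 := by
        rintro rfl
        rw [← hc] at hp1
        exact lt_irrefl _ hp1
      exact val_aeval_ne_top v hv (r i) c hc0 hc.symm h hh.ne_zero hx
  exact indep_abstract jj (r i₀) K hT hB χ hmon hroot hdeg hR G hG (hnat ▸ hGdeg)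

end Fermat.Agent.S28

namespace Fermat.Agent.S28

/-- The order valuation on Laurent series is trivial on nonzero constants. -/
theorem addVal_algebraMap_laurent {k : Type*} [Field k] (a : k) (ha : a ≠ 0) :
    HahnSeries.addVal ℤ k (algebraMap k (LaurentSeries k) a) = 0 := by
  rw [HahnSeries.addVal_apply]
  have h : algebraMap k (LaurentSeries k) a = HahnSeries.single 0 a := by
    have h1 : algebraMap k (PowerSeries k) a = PowerSeries.C a := by simp
    rw [HahnSeries.algebraMap_apply', h1, HahnSeries.ofPowerSeries_C]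
    rfl
  rw [h, HahnSeries.orderTop_single ha]
  rfl

/-- **Package C1 for Laurent series.** -/
theorem indep_of_factorization_laurent {k : Type*} [Field k]
    {ι : Type*} [Fintype ι] (i₀ : ι) (r : ι → LaurentSeries k) (jj : LaurentSeries k)
    (a K : ℕ) (ha : 0 < a) (hK : 0 < K)
    (hjj : jj.orderTop = ((-(a : ℤ) : ℤ) : WithTop ℤ))
    (h0 : (r i₀).orderTop = ((-((a : ℤ) * K) : ℤ) : WithTop ℤ))
    (hpos : ∀ i, i ≠ i₀ → 0 < (r i).orderTop ∧ r i ≠ 0)
    (χ : k[X][Y]) (hχ : χ.map (aeval (R := k) jj).toRingHom = ∏ i, (X - C (r i)))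
    (G : k[X][Y]) (hG : G ≠ 0) (hGdeg : G.natDegree < Fintype.card ι) :
    aevalAeval jj (r i₀) G ≠ 0 :=
  indep_of_factorization (HahnSeries.addVal ℤ k) addVal_algebraMap_laurent i₀ r jj a K ha hK
    (by rw [HahnSeries.addVal_apply]; exact hjj) (by rw [HahnSeries.addVal_apply]; exact h0)
    (fun i hi => by rw [HahnSeries.addVal_apply]; exact hpos i hi) χ hχ G hG hGdeg

/-- Transport of bivariate evaluation along a pair of compatible ring homomorphisms. -/
theorem map_aevalAeval {k0 k L0 L : Type*} [CommRing k0] [CommRing k] [CommRing L0] [CommRing L]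
    [Algebra k0 L0] [Algebra k L] (φ : k0 →+* k) (Θ : L0 →+* L)
    (hΘ : ∀ a, Θ (algebraMap k0 L0 a) = algebraMap k L (φ a)) (j0 y0 : L0) (G : k0[X][Y]) :
    Θ (aevalAeval j0 y0 G) = aevalAeval (Θ j0) (Θ y0) (G.map (mapRingHom φ)) := by
  have inner : ∀ p : k0[X], Θ (aeval j0 p) = aeval (Θ j0) (p.map φ) := by
    intro p
    induction p using Polynomial.induction_on' with
    | add p q hp hq => rw [map_add, map_add, hp, hq, Polynomial.map_add, map_add]
    | monomial n a =>
      rw [← C_mul_X_pow_eq_monomial, map_mul, map_pow, aeval_C, aeval_X, map_mul, map_pow, hΘ,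
        Polynomial.map_mul, Polynomial.map_pow, map_C, map_X, map_mul, map_pow, aeval_C, aeval_X]
  induction G using Polynomial.induction_on' with
  | add p q hp hq => rw [map_add, map_add, hp, hq, Polynomial.map_add, map_add]
  | monomial n a =>
    rw [← C_mul_X_pow_eq_monomial, map_mul, map_pow, aevalAeval_C, aevalAeval_Y, map_mul, map_pow,
      inner, Polynomial.map_mul, Polynomial.map_pow, map_C, map_X, map_mul, map_pow, aevalAeval_C,
      aevalAeval_Y]
    rfl

/-- Independence descends along injective coefficient/series maps. -/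
theorem indep_descend {k0 k L0 L : Type*} [Field k0] [Field k] [CommRing L0] [CommRing L]
    [Algebra k0 L0] [Algebra k L] (φ : k0 →+* k) (Θ : L0 →+* L)
    (hΘ : ∀ a, Θ (algebraMap k0 L0 a) = algebraMap k L (φ a)) (j0 y0 : L0) (n : ℕ)
    (h : ∀ G : k[X][Y], G ≠ 0 → G.natDegree < n → aevalAeval (Θ j0) (Θ y0) G ≠ 0)
    (G : k0[X][Y]) (hG : G ≠ 0) (hGdeg : G.natDegree < n) :
    aevalAeval j0 y0 G ≠ 0 := by
  intro h0
  have hinj : Function.Injective (mapRingHom φ) := map_injective φ φ.injective
  refine h (G.map (mapRingHom φ)) ?_ ?_ ?_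
  · exact (Polynomial.map_ne_zero_iff hinj).mpr hG
  · rw [natDegree_map_eq_of_injective hinj]
    exact hGdeg
  · rw [← map_aevalAeval φ Θ hΘ, h0, map_zero]

end Fermat.Agent.S28
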