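import Mathlib
import Fermat.Agent.S28.Defs
import Fermat.Agent.S24.QLaurent
import Fermat.Agent.S24.DescentSep
import Fermat.Agent.S28.PMCore

set_option autoImplicit false

/-! # S28: analytic `q`-expansion lemmas (scaling, translation, `Δ`, `j`) -/

open UpperHalfPlane hiding I
open Complex Filter Function
open scoped Manifold MatrixGroups ModularForm Topology

namespace Fermat.Agent.S28

open Fermat.Agent.S20 Fermat.Agent.S23.Sep Fermat.Agent.S24 ModularCurve

noncomputable section

/-- `exp(2πi t)` as a unit of `ℂ`. -/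
def expU (t : ℝ) : ℂˣ :=
  Units.mk0 (Complex.exp (2 * Real.pi * Complex.I * t)) (Complex.exp_ne_zero _)

/-- Scaling `z ↦ r z` acts on Laurent expansions by `q ↦ q^r`. -/
theorem isPM_comp_dil (r : ℕ) [NeZero r] {f : ℍ → ℂ} (hf : IsPM f) :
    IsPM (fun z => f (dil r • z)) ∧
      qLaurentFun (fun z => f (dil r • z)) = qExpand ℂ r (qLaurentFun f) :=
  PMCore.isPM_comp_scale r (fun z => dil r • z) (fun z => coe_dil_smul r z) hf

/-- Translation `z ↦ z + t` acts on Laurent expansions by the twist `q ↦ e^{2πit} q`. -/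
theorem isPM_vadd (t : ℝ) {f : ℍ → ℂ} (hf : IsPM f) :
    IsPM (fun z => f (t +ᵥ z)) ∧
      qLaurentFun (fun z => f (t +ᵥ z)) = tw (expU t) (qLaurentFun f) :=
  PMCore.isPM_comp_translate t (expU t) rfl (fun z => t +ᵥ z)
    (fun z => by rw [UpperHalfPlane.coe_vadd, add_comm]) hf

/-- The `q`-expansion of `Δ`. -/
theorem isPM_disc : IsPM (fun z : ℍ => ModularForm.discriminant z) ∧
    qLaurentFun (fun z : ℍ => ModularForm.discriminant z) =
      coeffMap (Int.castRingHom ℂ) deltaInt :=
  PMCore.isPM_disc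

/-- The `q`-expansion of `1/Δ`. -/
theorem isPM_disc_inv : IsPM (fun z : ℍ => (ModularForm.discriminant z)⁻¹) ∧
    qLaurentFun (fun z : ℍ => (ModularForm.discriminant z)⁻¹) =
      coeffMap (Int.castRingHom ℂ) deltaInvInt :=
  PMCore.isPM_disc_inv

/-- The `q`-expansion of `j`. -/
theorem isPM_jFun : IsPM jFun ∧ qLaurentFun jFun = coeffMap (Int.castRingHom ℂ) jInt :=
  PMCore.isPM_jFun

end

end Fermat.Agent.S28
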