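import Mathlib

/-!
# S28 Block 5: generic field theory for the tower

* `Tower.li_mul` : linear independence in a tower of intermediate fields;
* `Tower.linearIndependent_pow_of_irreducible` : powers of a root of an irreducible polynomial;
* `Tower.exists_extend_root` : extension of an embedding to a simple extension with a
  prescribed root;
* `Tower.exists_extend_algClosed` : extension of an embedding into an algebraically closed field.
-/

set_option autoImplicit false

open Polynomial IntermediateField

namespace Fermat.Agent.S28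

namespace Tower

section Generic

variable {k Ω Ω' : Type*} [Field k] [Field Ω] [Field Ω'] [Algebra k Ω] [Algebra k Ω']

/-- Linear independence in a tower `K0 ≤ C` of intermediate fields. -/
theorem li_mul (K0 C : IntermediateField k Ω) (h : K0 ≤ C) {ι ι' : Type*} (v : ι → Ω)
    (hv : ∀ i, v i ∈ C) (hli : LinearIndependent K0 v) (w : ι' → Ω)
    (hw : LinearIndependent C w) :
    LinearIndependent K0 (fun p : ι × ι' => v p.1 * w p.2) := by
  let _ : Algebra K0 C := (IntermediateField.inclusion h).toRingHom.toAlgebra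
  have : IsScalarTower K0 C Ω := IsScalarTower.of_algebraMap_eq (fun x => rfl)
  have hb : LinearIndependent K0 (fun i => (⟨v i, hv i⟩ : C)) := by
    refine LinearIndependent.of_comp (IsScalarTower.toAlgHom K0 C Ω).toLinearMap ?_
    exact hli
  have := linearIndependent_smul hb hw
  exact this

/-- The powers `1, x, …, x ^ (deg P - 1)` of a root of an irreducible polynomial `P` over `C`
are linearly independent over `C`. -/
theorem linearIndependent_pow_of_irreducible (C : IntermediateField k Ω) (x : Ω)
    (P : Polynomial C) (hP : Irreducible P) (hx : Polynomial.aeval x P = 0) :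
    LinearIndependent C (fun i : Fin P.natDegree => x ^ (i : ℕ)) := by
  have hint : IsIntegral C x := IsAlgebraic.isIntegral ⟨P, hP.ne_zero, hx⟩
  have hdvd : minpoly C x ∣ P := minpoly.dvd C x hx
  have hassoc : Associated (minpoly C x) P :=
    (minpoly.irreducible hint).associated_of_dvd hP hdvd
  have hdeg : (minpoly C x).natDegree = P.natDegree :=
    Polynomial.natDegree_eq_of_degree_eq (Polynomial.degree_eq_degree_of_associated hassoc)
  have := linearIndependent_pow (K := C) x
  rw [hdeg] at this
  exact this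

/-- Extension of `σ : C →ₐ[k] Ω'` to `C(x)`, sending `x` to a prescribed root `y` of `σ(P)`,
where `P` is irreducible over `C` with `P(x) = 0`. -/
theorem exists_extend_root (C C' : IntermediateField k Ω) (hCC' : C ≤ C') (x : Ω)
    (hxC' : x ∈ C') (hgen : C' ≤ IntermediateField.adjoin k (insert x (C : Set Ω)))
    (σ : C →ₐ[k] Ω') (P : Polynomial C) (hP : Irreducible P)
    (hPx : Polynomial.aeval x P = 0) (y : Ω') (hy : (P.map σ.toRingHom).eval y = 0) :
    ∃ σ' : C' →ₐ[k] Ω', (∀ c : C, σ' (IntermediateField.inclusion hCC' c) = σ c) ∧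
      σ' ⟨x, hxC'⟩ = y := by
  let _ : Algebra C Ω' := σ.toRingHom.toAlgebra
  have : IsScalarTower k C Ω' := IsScalarTower.of_algebraMap_eq (fun a => (σ.commutes a).symm)
  have hint : IsIntegral C x := IsAlgebraic.isIntegral ⟨P, hP.ne_zero, hPx⟩
  have hdvd : minpoly C x ∣ P := minpoly.dvd C x hPx
  obtain ⟨u, hu⟩ := (minpoly.irreducible hint).associated_of_dvd hP hdvd
  have hroot : Polynomial.aeval y (minpoly C x) = 0 := by
    have h1 : (P.map σ.toRingHom).eval y =
        Polynomial.aeval y (minpoly C x) * Polynomial.aeval y (u : Polynomial C) := by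
      rw [← hu, Polynomial.eval_map, ← Polynomial.aeval_mul]
      rfl
    rw [h1] at hy
    rcases mul_eq_zero.mp hy with h | h
    · exact h
    · exfalso
      have hu' : IsUnit (Polynomial.aeval y (u : Polynomial C)) := u.isUnit.map _
      exact hu'.ne_zero h
  let φ : C⟮x⟯ →ₐ[C] Ω' := (algHomAdjoinIntegralEquiv C hint).symm
    ⟨y, Polynomial.mem_aroots.mpr ⟨minpoly.ne_zero hint, hroot⟩⟩
  have hφ : φ (AdjoinSimple.gen C x) = y := algHomAdjoinIntegralEquiv_symm_apply_gen C hint _
  have hle : C' ≤ (C⟮x⟯).restrictScalars k := by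
    rw [IntermediateField.restrictScalars_adjoin]
    refine hgen.trans (IntermediateField.adjoin.mono k _ _ ?_)
    rintro z (rfl | hz)
    · exact Or.inr rfl
    · exact Or.inl hz
  let σ' : C' →ₐ[k] Ω' := (φ.restrictScalars k).comp (IntermediateField.inclusion hle)
  refine ⟨σ', fun c => ?_, ?_⟩
  · have h1 : σ' (IntermediateField.inclusion hCC' c) = φ (algebraMap C C⟮x⟯ c) := rfl
    rw [h1, φ.commutes]
    rfl
  · have h1 : σ' ⟨x, hxC'⟩ = φ (AdjoinSimple.gen C x) := rfl
    rw [h1, hφ]

/-- Extension of `τ : D →ₐ[k] Ω'` to a field generated over `D` by integral elements, into an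
algebraically closed field `Ω'`. -/
theorem exists_extend_algClosed [IsAlgClosed Ω'] (D C' : IntermediateField k Ω) (hDC : D ≤ C')
    (τ : D →ₐ[k] Ω') (S : Set Ω) (hS : ∀ s ∈ S, IsIntegral D s)
    (hgen : C' ≤ IntermediateField.adjoin k ((D : Set Ω) ∪ S)) :
    ∃ τ' : C' →ₐ[k] Ω', ∀ z : D, τ' (IntermediateField.inclusion hDC z) = τ z := by
  obtain ⟨φ, hφ⟩ := IntermediateField.exists_algHom_adjoin_of_splits' (F := k) (E := Ω) (K := Ω')
    (S := S) τ (fun s hs => ⟨hS s hs, IsAlgClosed.splits _⟩)
  have hle : C' ≤ (IntermediateField.adjoin D S).restrictScalars k := by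
    rw [IntermediateField.restrictScalars_adjoin]
    exact hgen
  refine ⟨φ.comp (IntermediateField.inclusion hle), fun z => ?_⟩
  have h1 : (φ.comp (IntermediateField.inclusion hle)) (IntermediateField.inclusion hDC z) =
      φ (algebraMap D (IntermediateField.adjoin D S) z) := rfl
  rw [h1, ← hφ]
  rfl

/-- An embedding of `k(S)` that sends the generators into an intermediate field `T` sends
everything into `T`. -/
theorem algHom_mem_of_gens (S : Set Ω) (τ' : ↥(IntermediateField.adjoin k S) →ₐ[k] Ω')
    (T : IntermediateField k Ω')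
    (hS : ∀ s (hs : s ∈ S), τ' ⟨s, IntermediateField.subset_adjoin k S hs⟩ ∈ T) :
    ∀ z : IntermediateField.adjoin k S, τ' z ∈ T := by
  rintro ⟨z, hz⟩
  induction hz using IntermediateField.adjoin_induction with
  | mem s hs => exact hS s hs
  | algebraMap a =>
    have h1 : τ' ⟨algebraMap k Ω a, IntermediateField.algebraMap_mem _ a⟩ = algebraMap k Ω' a :=
      τ'.commutes a
    rw [h1]
    exact T.algebraMap_mem a
  | add x y hx hy ihx ihy =>
    have h1 : τ' ⟨x + y, add_mem hx hy⟩ = τ' ⟨x, hx⟩ + τ' ⟨y, hy⟩ := map_add τ' ⟨x, hx⟩ ⟨y, hy⟩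
    rw [h1]
    exact T.add_mem ihx ihy
  | inv x hx ih =>
    have h1 : τ' ⟨x⁻¹, inv_mem hx⟩ = (τ' ⟨x, hx⟩)⁻¹ := map_inv₀ τ' ⟨x, hx⟩
    rw [h1]
    exact T.inv_mem ih
  | mul x y hx hy ihx ihy =>
    have h1 : τ' ⟨x * y, mul_mem hx hy⟩ = τ' ⟨x, hx⟩ * τ' ⟨y, hy⟩ := map_mul τ' ⟨x, hx⟩ ⟨y, hy⟩
    rw [h1]
    exact T.mul_mem ihx ihy

end Generic

end Tower

end Fermat.Agent.S28
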