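import Mathlib
import Fermat.Prelude.Def_ModularCurve_X0ModL
import Fermat.Agent.S20.CombIndex
import Fermat.Agent.S28.SeriesBasic
import Fermat.Agent.S28.TowerAlgX
import Fermat.Agent.S28.TowerStep
import Fermat.Agent.S28.TowerNewPrime

set_option autoImplicit false

/-! # S28 Block 5: the chain induction of the tower theorem

Assembly of `tower_indep` from the two step lemmas (`repeated_prime_step`, `new_prime_step`),
the new-prime non-membership lemma (`qExpand_mul_notMem_adjoin_divisors`) and the generic field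
theory of `TowerAlgX`.  Induction on `N` along `N = M * minFac N`. -/

open ModularCurve Polynomial

namespace Fermat.Agent.S28

namespace TowerChain

noncomputable section

variable {k : Type*} [Field k]

/-- The generators `jb(q^d)`, `d ∣ M`. -/
abbrev gens (jb : LaurentSeries k) (M : ℕ) : Set (LaurentSeries k) :=
  {x : LaurentSeries k | ∃ (d : ℕ) (_ : NeZero d), d ∣ M ∧ x = qExpand k d jb}

theorem gens_mono (jb : LaurentSeries k) {M N : ℕ} (h : M ∣ N) : gens jb M ⊆ gens jb N := by
  rintro x ⟨d, hd, hdM, rfl⟩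
  exact ⟨d, hd, hdM.trans h, rfl⟩

theorem mem_gens_self (jb : LaurentSeries k) (N : ℕ) [NeZero N] : qExpand k N jb ∈ gens jb N :=
  ⟨N, inferInstance, dvd_rfl, rfl⟩

/-- The induction invariant. -/
def Good (jb : LaurentSeries k) (M : ℕ) [NeZero M] : Prop :=
  ∃ (C : IntermediateField k (LaurentSeries k)) (σ : C →ₐ[k] LaurentSeries k)
    (v : Fin (dedekindPsi M) → LaurentSeries k),
    C ≤ IntermediateField.adjoin k (gens jb M) ∧
    jb ∈ C ∧
    (∃ x : C, (x : LaurentSeries k) = qExpand k M jb ∧ σ x = jb) ∧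
    (∀ (m r : ℕ) [NeZero m] [NeZero r], r.Prime → M = m * r → r = M.minFac →
      ∃ y : C, (y : LaurentSeries k) = qExpand k m jb ∧ σ y = qExpand k r jb) ∧
    (∀ i, v i ∈ C ∧ v i ∈ Subring.closure (gens jb M)) ∧
    LinearIndependent (IntermediateField.adjoin k {jb}) v

theorem good_one (jb : LaurentSeries k) : Good jb 1 := by
  refine ⟨IntermediateField.adjoin k {jb}, (IntermediateField.adjoin k {jb}).val,
    fun _ => 1, ?_, ?_, ?_, ?_, ?_, ?_⟩
  · refine IntermediateField.adjoin.mono k _ _ ?_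
    rintro x hx
    rw [Set.mem_singleton_iff] at hx
    subst hx
    exact ⟨1, inferInstance, dvd_rfl, (qExpand_one_apply x).symm⟩
  · exact IntermediateField.mem_adjoin_simple_self k jb
  · exact ⟨⟨jb, IntermediateField.mem_adjoin_simple_self k jb⟩, (qExpand_one_apply jb).symm, rfl⟩
  · intro m r _ _ hr h1 _
    exfalso
    have : r ∣ 1 := ⟨m, by rw [h1, mul_comm]⟩
    exact hr.one_lt.ne' (Nat.dvd_one.mp this)
  · intro i
    exact ⟨one_mem _, one_mem _⟩
  · haveI : Subsingleton (Fin (dedekindPsi 1)) := by rw [dedekindPsi_one]; infer_instance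
    have i0 : Fin (dedekindPsi 1) := ⟨0, by rw [dedekindPsi_one]; exact Nat.one_pos⟩
    exact LinearIndependent.of_subsingleton i0 one_ne_zero

/-- The common part of the two induction steps. -/
theorem good_extend (jb : LaurentSeries k) (M N r : ℕ) [NeZero M] [NeZero N] [NeZero r]
    (hMN : M ∣ N)
    (C : IntermediateField k (LaurentSeries k)) (σ : C →ₐ[k] LaurentSeries k)
    (v : Fin (dedekindPsi M) → LaurentSeries k)
    (hC : C ≤ IntermediateField.adjoin k (gens jb M)) (hjbC : jb ∈ C)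
    (hv : ∀ i, v i ∈ C ∧ v i ∈ Subring.closure (gens jb M))
    (hli : LinearIndependent (IntermediateField.adjoin k {jb}) v)
    (P : Polynomial C) (hP : Irreducible P)
    (hroot : (P.map (C.val : C →+* LaurentSeries k)).eval (qExpand k N jb) = 0)
    (hσroot : (P.map ((qExpand k r).comp (σ : C →+* LaurentSeries k))).eval jb = 0)
    (hψ : dedekindPsi N = dedekindPsi M * P.natDegree) :
    ∃ (C' : IntermediateField k (LaurentSeries k)) (σ' : C' →ₐ[k] LaurentSeries k)
      (v' : Fin (dedekindPsi N) → LaurentSeries k),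
      C ≤ C' ∧ C' ≤ IntermediateField.adjoin k (gens jb N) ∧
      (∀ (c : LaurentSeries k) (hc : c ∈ C) (hc' : c ∈ C'),
        σ' ⟨c, hc'⟩ = qExpand k r (σ ⟨c, hc⟩)) ∧
      (∃ x : C', (x : LaurentSeries k) = qExpand k N jb ∧ σ' x = jb) ∧
      (∀ i, v' i ∈ C' ∧ v' i ∈ Subring.closure (gens jb N)) ∧
      LinearIndependent (IntermediateField.adjoin k {jb}) v' := by
  classical
  set xN : LaurentSeries k := qExpand k N jb with hxN
  set C' : IntermediateField k (LaurentSeries k) :=
    IntermediateField.adjoin k ((C : Set (LaurentSeries k)) ∪ {xN}) with hC'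
  have hCC' : C ≤ C' := fun c hc => IntermediateField.subset_adjoin k _ (Or.inl hc)
  have hxC' : xN ∈ C' := IntermediateField.subset_adjoin k _ (Or.inr rfl)
  have hx : Polynomial.aeval xN P = 0 := by
    rw [Polynomial.aeval_def, Polynomial.eval₂_eq_eval_map]
    exact hroot
  have hK0C : IntermediateField.adjoin k {jb} ≤ C := by
    rw [IntermediateField.adjoin_simple_le_iff]
    exact hjbC
  -- the extended embedding
  set τ : C →ₐ[k] LaurentSeries k := (qExpandAlgHomC k r).comp σ with hτ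
  have hy : (P.map (τ : C →+* LaurentSeries k)).eval jb = 0 := hσroot
  obtain ⟨σ', hσ'C, hσ'x⟩ := TowerAlgX.exists_algHom_extend C xN τ P hP hx jb hy C' hCC' hxC'
    le_rfl
  -- the new family
  have hw := TowerAlgX.linearIndependent_step' (IntermediateField.adjoin k {jb}) C hK0C v
    (fun i => (hv i).1) hli xN P hP hx
  refine ⟨C', σ', fun i => v (finProdFinEquiv.symm (Fin.cast hψ i)).1 *
      xN ^ ((finProdFinEquiv.symm (Fin.cast hψ i)).2 : ℕ), hCC', ?_, ?_, ?_, ?_, ?_⟩
  · rw [hC', IntermediateField.adjoin_le_iff]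
    rintro c (hc | hc)
    · exact IntermediateField.adjoin.mono k _ _ (gens_mono jb hMN) (hC hc)
    · rw [Set.mem_singleton_iff] at hc
      rw [hc]
      exact IntermediateField.subset_adjoin k _ (mem_gens_self jb N)
  · intro c hc hc'
    rw [hσ'C c hc]
    rfl
  · exact ⟨⟨xN, hxC'⟩, rfl, hσ'x⟩
  · intro i
    refine ⟨C'.mul_mem (hCC' (hv _).1) (pow_mem hxC' _), ?_⟩
    refine Subring.mul_mem _ (Subring.closure_mono (gens_mono jb hMN) (hv _).2) ?_
    exact Subring.pow_mem _ (Subring.subset_closure (mem_gens_self jb N)) _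
  · exact hw.comp (Fin.cast hψ) (Fin.cast_injective _)

/-- The new-prime step. -/
theorem good_step_new [IsAlgClosed k] (jb : LaurentSeries k) (hjb : jb.order = -1)
    (M r : ℕ) [NeZero M] [NeZero r] (hr : r.Prime) (hrM : ¬ r ∣ M)
    (hmin : (M * r).minFac = r)
    (H1 : ∀ (p : ℕ) [NeZero p], p.Prime → p ∣ M * r →
      ∃ (Φ : Polynomial (Polynomial k)) (ζ : kˣ),
        Φ.map (evalAt (qExpand k p jb)) =
          (X - C (qExpand k (p * p) jb)) * ∏ c ∈ Finset.range p, (X - C (tw (ζ ^ c) jb)))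
    (H2 : qExpand k r jb ∉ IntermediateField.adjoin k {jb})
    (hG : Good jb M) : Good jb (M * r) := by
  obtain ⟨C₀, σ, v, hC, hjbC, ⟨xM, hxM, hσM⟩, -, hv, hli⟩ := hG
  obtain ⟨Φ, ζ, hΦ⟩ := H1 r hr (Dvd.intro_left M rfl)
  have hnot : qExpand k (M * r) jb ∉ Set.range (C₀.val : C₀ →ₐ[k] LaurentSeries k) := by
    rintro ⟨z, hz⟩
    have h1 := qExpand_mul_notMem_adjoin_divisors jb hjb M r hr hrM H1 H2
    apply h1
    have h2 : (z : LaurentSeries k) ∈ IntermediateField.adjoin k (gens jb M) := hC z.2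
    have h3 : (z : LaurentSeries k) = qExpand k (M * r) jb := hz
    rw [← h3]
    exact h2
  have hcop : Nat.Coprime M r := ((Nat.Prime.coprime_iff_not_dvd hr).mpr hrM).symm
  obtain ⟨P, -, hPdeg, hPirr, hroot, hσroot⟩ :=
    new_prime_step jb hjb r Φ ζ hΦ M hcop C₀.val σ xM hxM hσM hnot
  have hψ : dedekindPsi (M * r) = dedekindPsi M * P.natDegree := by
    rw [hPdeg, mul_comm M r, Fermat.Agent.S20.Comb.dedekindPsi_mul_of_not_dvd (NeZero.ne M) hr hrM,
      mul_comm]
  obtain ⟨C', σ', v', hCC', hC', hσ', hx', hv', hli'⟩ :=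
    good_extend jb M (M * r) r (Dvd.intro r rfl) C₀ σ v hC hjbC hv hli P hPirr hroot hσroot hψ
  refine ⟨C', σ', v', hC', hCC' hjbC, hx', ?_, hv', hli'⟩
  intro m' r' _ _ hr' hmr hr'min
  have hrr : r' = r := by rw [hr'min, hmin]
  subst hrr
  have hmM : m' = M := (Nat.eq_of_mul_eq_mul_right hr.pos hmr).symm
  subst hmM
  refine ⟨⟨xM, hCC' xM.2⟩, hxM, ?_⟩
  rw [hσ' (xM : LaurentSeries k) xM.2 (hCC' xM.2)]
  have : (⟨(xM : LaurentSeries k), xM.2⟩ : C₀) = xM := rfl
  rw [this, hσM]

/-- The repeated-prime step. -/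
theorem good_step_rep (jb : LaurentSeries k) (hjb : jb.order = -1)
    (m r : ℕ) [NeZero m] [NeZero r] (hr : r.Prime)
    (hmin : (m * r).minFac = r) (hmin' : (m * r * r).minFac = r)
    (H1 : ∃ (Φ : Polynomial (Polynomial k)) (ζ : kˣ),
        Φ.map (evalAt (qExpand k r jb)) =
          (X - C (qExpand k (r * r) jb)) * ∏ c ∈ Finset.range r, (X - C (tw (ζ ^ c) jb)))
    (hG : Good jb (m * r)) : Good jb (m * r * r) := by
  obtain ⟨C₀, σ, v, hC, hjbC, ⟨xM, hxM, hσM⟩, hd, hv, hli⟩ := hG
  obtain ⟨Φ, ζ, hΦ⟩ := H1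
  obtain ⟨y, hy, hσy⟩ := hd m r hr rfl hmin.symm
  obtain ⟨P, -, hPdeg, hPirr, hroot, hσmap⟩ :=
    repeated_prime_step jb hjb r Φ ζ hΦ m C₀.val σ xM y hxM hy hσM hσy
  have hσroot : (P.map ((qExpand k r).comp (σ : C₀ →+* LaurentSeries k))).eval jb = 0 := by
    rw [hσmap, Polynomial.eval_prod]
    refine Finset.prod_eq_zero (Finset.mem_range.mpr hr.pos) ?_
    rw [pow_zero, tw_one, Polynomial.eval_sub, Polynomial.eval_X, Polynomial.eval_C, sub_self]
  have hψ : dedekindPsi (m * r * r) = dedekindPsi (m * r) * P.natDegree := by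
    rw [hPdeg, mul_comm (m * r) r,
      Fermat.Agent.S20.Comb.dedekindPsi_mul_of_dvd (NeZero.ne (m * r)) hr.ne_zero
        (Dvd.intro_left m rfl), mul_comm]
  obtain ⟨C', σ', v', hCC', hC', hσ', hx', hv', hli'⟩ :=
    good_extend jb (m * r) (m * r * r) r (Dvd.intro r rfl) C₀ σ v hC hjbC hv hli P hPirr hroot
      hσroot hψ
  refine ⟨C', σ', v', hC', hCC' hjbC, hx', ?_, hv', hli'⟩
  intro m' r' _ _ hr' hmr hr'min
  have hrr : r' = r := by rw [hr'min, hmin']
  subst hrr
  have hmM : m' = m * r' := (Nat.eq_of_mul_eq_mul_right hr.pos hmr).symm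
  subst hmM
  refine ⟨⟨xM, hCC' xM.2⟩, hxM, ?_⟩
  rw [hσ' (xM : LaurentSeries k) xM.2 (hCC' xM.2)]
  have : (⟨(xM : LaurentSeries k), xM.2⟩ : C₀) = xM := rfl
  rw [this, hσM]

/-- The invariant holds at every level. -/
theorem good_of_hyps [IsAlgClosed k] (jb : LaurentSeries k) (hjb : jb.order = -1) :
    ∀ (N : ℕ) [NeZero N],
      (∀ (r : ℕ) [NeZero r], r.Prime → r ∣ N →
        ∃ (Φ : Polynomial (Polynomial k)) (ζ : kˣ),
          Φ.map (evalAt (qExpand k r jb)) =
            (X - C (qExpand k (r * r) jb)) * ∏ c ∈ Finset.range r, (X - C (tw (ζ ^ c) jb))) →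
      (∀ (r : ℕ) [NeZero r], r.Prime → r ∣ N →
        qExpand k r jb ∉ IntermediateField.adjoin k {jb}) →
      Good jb N := by
  intro N
  induction N using Nat.strong_induction_on with
  | _ N ih =>
    intro hN H1 H2
    by_cases hN1 : N = 1
    · subst hN1
      exact good_one jb
    · have hr : (N.minFac).Prime := Nat.minFac_prime hN1
      obtain ⟨M, hM⟩ : ∃ M, N = M * N.minFac :=
        ⟨N / N.minFac, (Nat.div_mul_cancel (Nat.minFac_dvd N)).symm⟩
      generalize hrdef : N.minFac = r at hr hM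
      subst hM
      have : NeZero r := ⟨hr.ne_zero⟩
      have hM0 : M ≠ 0 := by
        rintro rfl
        exact NeZero.ne (0 * r) (zero_mul r)
      have : NeZero M := ⟨hM0⟩
      have hlt : M < M * r := by
        have := hr.one_lt
        nlinarith [Nat.pos_of_ne_zero hM0]
      have hGM : Good jb M :=
        ih M hlt (fun p _ hp hpM => H1 p hp (hpM.trans (Dvd.intro r rfl)))
          (fun p _ hp hpM => H2 p hp (hpM.trans (Dvd.intro r rfl)))
      by_cases hrM : r ∣ M
      · obtain ⟨m, rfl⟩ : ∃ m, M = m * r := ⟨M / r, (Nat.div_mul_cancel hrM).symm⟩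
        have hm0 : m ≠ 0 := by
          rintro rfl
          exact hM0 (zero_mul r)
        have : NeZero m := ⟨hm0⟩
        have hmin : (m * r).minFac = r := by
          apply le_antisymm
          · exact Nat.minFac_le_of_dvd hr.two_le (Dvd.intro_left m rfl)
          · have hne1 : m * r ≠ 1 := by
              intro h1
              have : r ∣ 1 := h1 ▸ Dvd.intro_left m rfl
              exact hr.one_lt.ne' (Nat.dvd_one.mp this)
            calc r = (m * r * r).minFac := hrdef.symm
              _ ≤ (m * r).minFac := Nat.minFac_le_of_dvd (Nat.minFac_prime hne1).two_le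
                  ((Nat.minFac_dvd (m * r)).trans (Dvd.intro r rfl))
        exact good_step_rep jb hjb m r hr hmin hrdef (H1 r hr (Dvd.intro_left (m * r) rfl)) hGM
      · exact good_step_new jb hjb M r hr hrM hrdef (fun p _ hp hpN => H1 p hp hpN)
          (H2 r hr (Dvd.intro_left M rfl)) hGM

/-- **The tower theorem** (statement of `tower_indep`, findings #67, verbatim). -/
theorem tower_indep_chain {k : Type*} [Field k] [IsAlgClosed k] (jb : LaurentSeries k)
    (hjb : jb.order = -1) (N : ℕ) [NeZero N]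
    (H1 : ∀ (r : ℕ) [NeZero r], r.Prime → r ∣ N →
      ∃ (Φ : Polynomial (Polynomial k)) (ζ : kˣ),
        Φ.map (evalAt (qExpand k r jb)) =
          (X - C (qExpand k (r * r) jb)) * ∏ c ∈ Finset.range r, (X - C (tw (ζ ^ c) jb)))
    (H2 : ∀ (r : ℕ) [NeZero r], r.Prime → r ∣ N →
      qExpand k r jb ∉ IntermediateField.adjoin k {jb}) :
    ∃ v : Fin (dedekindPsi N) → LaurentSeries k,
      (∀ i, v i ∈ Subring.closure
        {x : LaurentSeries k | ∃ (d : ℕ) (_ : NeZero d), d ∣ N ∧ x = qExpand k d jb}) ∧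
      LinearIndependent ↥(IntermediateField.adjoin k {jb}) v := by
  obtain ⟨C₀, σ, v, _, _, _, _, hv, hli⟩ := good_of_hyps jb hjb N H1 H2
  exact ⟨v, fun i => (hv i).2, hli⟩

end

end TowerChain

end Fermat.Agent.S28
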