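import Mathlib
import Fermat.Agent.S28.SeriesBasic
import Fermat.Prelude.Def_ModularCurve_X0ModL

set_option autoImplicit false

/-! # S28 Block 5, export plumbing (TX)

From a `k(j)`-independent family of `ψ(N)` elements of `ℤ[j(q^d) : d ∣ N] ⊗ k` over a field `k`
of characteristic `ℓ` (output of the generic tower theorem) to the two export shapes:
integral lifts with `𝔽_ℓ(j)`-independent reductions, and a `𝔽_ℓ(j)`-independent family in
`𝔽_ℓ(j(q^d) : d ∣ N)`.  Also: the hypotheses of the tower theorem from the modular polynomial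
data. -/

open ModularCurve Polynomial

namespace Fermat.Agent.S28

noncomputable section

namespace TowerDescent

/-- the generators `j(q^d)`, `d ∣ N`, over a commutative ring `R` -/
def gens (R : Type*) [CommRing R] (N : ℕ) : Set (LaurentSeries R) :=
  {x : LaurentSeries R | ∃ (d : ℕ) (_ : NeZero d), d ∣ N ∧ x = qExpand R d (jS R)}

theorem jS_int : jS ℤ = jInt := by
  ext n
  simp [jS]

theorem gens_int (N : ℕ) :
    gens ℤ N =
      {x : LaurentSeries ℤ | ∃ (d : ℕ) (_ : NeZero d), d ∣ N ∧ x = qExpand ℤ d jInt} := by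
  rw [gens, jS_int]

theorem image_gens {R S : Type*} [CommRing R] [CommRing S] (f : R →+* S) (N : ℕ) :
    (coeffMap f) '' (gens R N) = gens S N := by
  ext x
  constructor
  · rintro ⟨y, ⟨d, hd, hdN, rfl⟩, rfl⟩
    exact ⟨d, hd, hdN, by rw [coeffMap_qExpand, coeffMap_jS]⟩
  · rintro ⟨d, hd, hdN, rfl⟩
    exact ⟨qExpand R d (jS R), ⟨d, hd, hdN, rfl⟩, by rw [coeffMap_qExpand, coeffMap_jS]⟩

theorem map_closure_gens {R S : Type*} [CommRing R] [CommRing S] (f : R →+* S) (N : ℕ) :
    (Subring.closure (gens R N)).map (coeffMap f) = Subring.closure (gens S N) := by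
  rw [RingHom.map_closure, image_gens]

theorem coeffMap_injective {R S : Type*} [CommRing R] [CommRing S] (f : R →+* S)
    (hf : Function.Injective f) : Function.Injective (coeffMap f) := by
  intro x y h
  ext n
  apply hf
  have := congrArg (fun z => z.coeff n) h
  simpa using this

/-- the coefficient map of a field homomorphism maps `K(j)` into `L(j)` -/
theorem coeffMap_mem_adjoin {K L : Type*} [Field K] [Field L] (f : K →+* L)
    {x : LaurentSeries K} (hx : x ∈ IntermediateField.adjoin K {jS K}) :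
    coeffMap f x ∈ IntermediateField.adjoin L {jS L} := by
  have hle : Subfield.closure (Set.range (algebraMap K (LaurentSeries K)) ∪ {jS K}) ≤
      (IntermediateField.adjoin L {jS L}).toSubfield.comap (coeffMap f) := by
    rw [Subfield.closure_le]
    rintro y (⟨c, rfl⟩ | rfl)
    · show coeffMap f (algebraMap K (LaurentSeries K) c) ∈ IntermediateField.adjoin L {jS L}
      rw [algebraMap_laurentSeries_eq_single, coeffMap_single,
        ← algebraMap_laurentSeries_eq_single]
      exact IntermediateField.algebraMap_mem _ _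
    · show coeffMap f (jS K) ∈ IntermediateField.adjoin L {jS L}
      rw [coeffMap_jS]
      exact IntermediateField.subset_adjoin _ _ rfl
  exact hle hx

/-- descent of linear independence over `L(j)` to `K(j)` along the coefficient map -/
theorem linearIndependent_descend {K L : Type*} [Field K] [Field L] (f : K →+* L)
    {ι : Type*} [Fintype ι] (β : ι → LaurentSeries K)
    (h : LinearIndependent ↥(IntermediateField.adjoin L {jS L}) (fun i => coeffMap f (β i))) :
    LinearIndependent ↥(IntermediateField.adjoin K {jS K}) β := by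
  rw [Fintype.linearIndependent_iff] at h ⊢
  intro g hg i
  have h1 := h (fun i => ⟨coeffMap f (g i), coeffMap_mem_adjoin f (g i).2⟩) ?_ i
  · have h0 : coeffMap f (g i : LaurentSeries K) = 0 := congrArg Subtype.val h1
    exact Subtype.ext ((map_eq_zero_iff _ (coeffMap_injective f f.injective)).mp h0)
  · have h2 := congrArg (coeffMap f) hg
    rw [map_sum, map_zero] at h2
    rw [← h2]
    refine Finset.sum_congr rfl fun i _ => ?_
    show coeffMap f (g i : LaurentSeries K) * coeffMap f (β i) =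
      coeffMap f ((g i : LaurentSeries K) * β i)
    rw [map_mul]

theorem order_eq_of_isMonicAt {R : Type*} [CommRing R] [Nontrivial R] {x : LaurentSeries R}
    {e : ℤ} (h : IsMonicAt x e) : x.order = e := by
  have hx : x ≠ 0 := by
    rintro rfl
    have := h.1
    simp at this
  refine le_antisymm (HahnSeries.order_le_of_coeff_ne_zero (by rw [h.1]; exact one_ne_zero)) ?_
  by_contra hlt
  exact hx (HahnSeries.coeff_order_eq_zero.mp (h.2 _ (not_le.mp hlt)))

theorem order_jS {R : Type*} [CommRing R] [Nontrivial R] : (jS R).order = -1 :=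
  order_eq_of_isMonicAt isMonicAt_jS

end TowerDescent

open TowerDescent

/-- (TX, step c+d) From a `k(j)`-independent family in `ℤ[j(q^d) : d ∣ N] ⊗ k` (`k` any field
which is an algebra over `𝔽_ℓ`): integral lifts with `𝔽_ℓ(j)`-independent reductions. -/
theorem exists_indep_mod_of_indep (N : ℕ) (ℓ : ℕ) [Fact ℓ.Prime]
    {k : Type*} [Field k] [Algebra (ZMod ℓ) k] {n : ℕ}
    (v : Fin n → LaurentSeries k)
    (hv : ∀ i, v i ∈ Subring.closure
      {x : LaurentSeries k | ∃ (d : ℕ) (_ : NeZero d), d ∣ N ∧ x = qExpand k d (jS k)})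
    (hli : LinearIndependent ↥(IntermediateField.adjoin k {jS k}) v) :
    ∃ θ : Fin n → LaurentSeries ℤ,
      (∀ i, θ i ∈ Subring.closure
        {x : LaurentSeries ℤ | ∃ (d : ℕ) (_ : NeZero d), d ∣ N ∧ x = qExpand ℤ d jInt}) ∧
      LinearIndependent ↥(IntermediateField.adjoin (ZMod ℓ) {jS (ZMod ℓ)})
        (fun i => coeffMap (Int.castRingHom (ZMod ℓ)) (θ i)) := by
  have hv' : ∀ i, ∃ θ ∈ Subring.closure (gens ℤ N), coeffMap (Int.castRingHom k) θ = v i := by
    intro i
    have := hv i
    change v i ∈ Subring.closure (gens k N) at this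
    rw [← map_closure_gens (Int.castRingHom k) N] at this
    exact this
  choose θ hθ hθv using hv'
  refine ⟨θ, fun i => ?_, ?_⟩
  · have := hθ i
    rwa [gens_int] at this
  · refine linearIndependent_descend (algebraMap (ZMod ℓ) k) _ ?_
    have : (fun i => coeffMap (algebraMap (ZMod ℓ) k)
        (coeffMap (Int.castRingHom (ZMod ℓ)) (θ i))) = v := by
      funext i
      rw [coeffMap_coeffMap, ← hθv i]
      exact coeffMap_congr (RingHom.ext_int _ _) _
    rw [this]
    exact hli

/-- (TX) the shape consumed by the assembly: a `𝔽_ℓ(j)`-independent family of `n` elements of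
`𝔽_ℓ(j(q^d) : d ∣ N)`. -/
theorem residue_degree_of_indep_mod (N : ℕ) [NeZero N] (ℓ : ℕ) [Fact ℓ.Prime] {n : ℕ}
    (θ : Fin n → LaurentSeries ℤ)
    (hθ : ∀ i, θ i ∈ Subring.closure
        {x : LaurentSeries ℤ | ∃ (d : ℕ) (_ : NeZero d), d ∣ N ∧ x = qExpand ℤ d jInt})
    (hli : LinearIndependent ↥(IntermediateField.adjoin (ZMod ℓ) {jS (ZMod ℓ)})
        (fun i => coeffMap (Int.castRingHom (ZMod ℓ)) (θ i))) :
    ∃ β : Fin n → LaurentSeries (ZMod ℓ),
      (∀ i, β i ∈ ModularCurve.modularFunctionFieldFullC (ZMod ℓ) N) ∧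
      LinearIndependent ↥(IntermediateField.adjoin (ZMod ℓ) {ModularCurve.jqModC (ZMod ℓ)}) β := by
  refine ⟨fun i => coeffMap (Int.castRingHom (ZMod ℓ)) (θ i), fun i => ?_, ?_⟩
  · have h1 : coeffMap (Int.castRingHom (ZMod ℓ)) (θ i) ∈
        (Subring.closure (gens ℤ N)).map (coeffMap (Int.castRingHom (ZMod ℓ))) := by
      refine Subring.mem_map.mpr ⟨θ i, ?_, rfl⟩
      rw [gens_int]
      exact hθ i
    rw [map_closure_gens] at h1
    have hle : Subring.closure (gens (ZMod ℓ) N) ≤
        (ModularCurve.modularFunctionFieldFullC (ZMod ℓ) N).toSubfield.toSubring := by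
      rw [Subring.closure_le]
      rintro x ⟨d, hd, hdN, rfl⟩
      have := hd
      show qExpand (ZMod ℓ) d (jS (ZMod ℓ)) ∈ ModularCurve.modularFunctionFieldFullC (ZMod ℓ) N
      rw [jS_eq_jqModC]
      exact ModularCurve.jqModCd_mem_full (ZMod ℓ) N hdN
    exact hle h1
  · rw [← jS_eq_jqModC]
    exact hli

/-- (TX, steps a+b) the hypotheses of the generic tower theorem over an algebraically closed
field of characteristic `ℓ ∤ N`, from the modular polynomial data and the prime-level
non-rationality. -/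
theorem tower_hyps (N : ℕ) (ℓ : ℕ) [Fact ℓ.Prime] (hℓN : ¬ ℓ ∣ N)
    (k : Type*) [Field k] [IsAlgClosed k] [CharP k ℓ]
    (MP : ∀ (r : ℕ) [NeZero r], r.Prime → ∀ ζ : kˣ, IsPrimitiveRoot ζ r →
      Nonempty (ModPolyData k r ζ))
    (NM : ∀ (r : ℕ) [NeZero r], r.Prime → ∀ ζ : kˣ, IsPrimitiveRoot ζ r → ModPolyData k r ζ →
      qExpand k r (jS k) ∉ IntermediateField.adjoin k {jS k}) :
    (jS k).order = -1 ∧
    (∀ (r : ℕ) [NeZero r], r.Prime → r ∣ N →
      ∃ (Φ : Polynomial (Polynomial k)) (ζ : kˣ),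
        Φ.map (evalAt (qExpand k r (jS k))) =
          (X - C (qExpand k (r * r) (jS k))) *
            ∏ c ∈ Finset.range r, (X - C (tw (ζ ^ c) (jS k)))) ∧
    (∀ (r : ℕ) [NeZero r], r.Prime → r ∣ N →
      qExpand k r (jS k) ∉ IntermediateField.adjoin k {jS k}) := by
  have hroot : ∀ (r : ℕ) [NeZero r], r.Prime → r ∣ N → ∃ ζ : kˣ, IsPrimitiveRoot ζ r := by
    intro r _ hr hrN
    have hrk : (r : k) ≠ 0 := by
      rw [Ne, CharP.cast_eq_zero_iff k ℓ r]
      intro hℓr
      have : ℓ = r := (Nat.prime_dvd_prime_iff_eq (Fact.out : ℓ.Prime) hr).mp hℓr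
      exact hℓN (this ▸ hrN)
    have : NeZero (r : k) := ⟨hrk⟩
    obtain ⟨ζ, hζ⟩ := HasEnoughRootsOfUnity.exists_primitiveRoot k r
    obtain ⟨u, rfl⟩ := hζ.isUnit (NeZero.ne r)
    exact ⟨u, IsPrimitiveRoot.coe_units_iff.mp hζ⟩
  refine ⟨order_jS, ?_, ?_⟩
  · intro r _ hr hrN
    obtain ⟨ζ, hζ⟩ := hroot r hr hrN
    obtain ⟨D⟩ := MP r hr ζ hζ
    exact ⟨D.Φ, ζ, D.hΦ⟩
  · intro r _ hr hrN
    obtain ⟨ζ, hζ⟩ := hroot r hr hrN
    obtain ⟨D⟩ := MP r hr ζ hζ
    exact NM r hr ζ hζ D

end

end Fermat.Agent.S28
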