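import Mathlib
import Fermat.Agent.S28.FormalPts

/-!
# S28 Block 5: consequences of the formal modular equation

`ModEq jb r Φ ζ` is the identity
`Φ(X, jb(y^r)) = (X - jb(y^(r²))) ∏_{c<r} (X - jb(ζ^c y))` in `k((y))[X]`.
We derive: the same identity at every formal point, monicity and degree of `Φ`, and the
description of the roots of `Φ(X, jb(P))` at formal points `P`.
-/

set_option autoImplicit false

open ModularCurve Polynomial

namespace Fermat.Agent.S28

namespace Tower

noncomputable section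

variable {k : Type*} [Field k]

/-- `Φ(X, z)` for `z` in a `k`-algebra `A`. -/
def pAt {A : Type*} [CommRing A] [Algebra k A] (Φ : Polynomial (Polynomial k)) (z : A) :
    Polynomial A :=
  Φ.map (Polynomial.aeval z : Polynomial k →ₐ[k] A).toRingHom

theorem pAt_map {A B : Type*} [CommRing A] [CommRing B] [Algebra k A] [Algebra k B]
    (g : A →ₐ[k] B) (Φ : Polynomial (Polynomial k)) (z : A) :
    (pAt Φ z).map g.toRingHom = pAt Φ (g z) := by
  unfold pAt
  rw [Polynomial.map_map, Polynomial.aeval_algHom]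
  rfl

theorem eval_pAt_map {A B : Type*} [CommRing A] [CommRing B] [Algebra k A] [Algebra k B]
    (g : A →ₐ[k] B) (Φ : Polynomial (Polynomial k)) (z y : A) :
    (pAt Φ (g z)).eval (g y) = g ((pAt Φ z).eval y) := by
  rw [← pAt_map, Polynomial.eval_map]
  exact Polynomial.eval₂_at_apply g.toRingHom y

theorem pAt_eq_evalAt (Φ : Polynomial (Polynomial k)) (z : LaurentSeries k) :
    pAt Φ z = Φ.map (evalAt z) := by
  unfold pAt
  congr 1
  apply Polynomial.ringHom_ext
  · intro a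
    show Polynomial.aeval z (Polynomial.C a) = Polynomial.eval₂ HahnSeries.C z (Polynomial.C a)
    rw [Polynomial.aeval_C, Polynomial.eval₂_C, algebraMap_laurentSeries_eq_single,
      HahnSeries.C_apply]
  · show Polynomial.aeval z Polynomial.X = Polynomial.eval₂ HahnSeries.C z Polynomial.X
    rw [Polynomial.aeval_X, Polynomial.eval₂_X]

/-- `jb(q^d)`, as a total function of `d`. -/
def Jd (jb : LaurentSeries k) (d : ℕ) : LaurentSeries k :=
  if h : d = 0 then 0 else @qExpand k _ d ⟨h⟩ jb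

theorem Jd_eq (jb : LaurentSeries k) (d : ℕ) [NeZero d] : Jd jb d = qExpand k d jb := by
  unfold Jd
  rw [dif_neg (NeZero.ne d)]

theorem Jd_one (jb : LaurentSeries k) : Jd jb 1 = jb := by
  rw [Jd_eq, qExpand_one_apply]

theorem Jd_eq_fpt (jb : LaurentSeries k) (d : ℕ) [NeZero d] : Jd jb d = fpt 1 d jb := by
  rw [Jd_eq, fpt_one_left]

theorem qExpand_Jd (jb : LaurentSeries k) (n d : ℕ) [NeZero n] (hd : d ≠ 0) :
    qExpand k n (Jd jb d) = Jd jb (n * d) := by
  have : NeZero d := ⟨hd⟩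
  rw [Jd_eq, Jd_eq, qExpand_qExpand]

theorem order_Jd (jb : LaurentSeries k) (hjb : jb.order = -1) (d : ℕ) (hd : d ≠ 0) :
    (Jd jb d).order = -(d : ℤ) := by
  have : NeZero d := ⟨hd⟩
  rw [Jd_eq, order_qExpand, hjb]
  ring

theorem Jd_ne_zero (jb : LaurentSeries k) (hjb : jb.order = -1) (d : ℕ) (hd : d ≠ 0) :
    Jd jb d ≠ 0 := by
  intro h
  have h1 := order_Jd jb hjb d hd
  rw [h, HahnSeries.order_zero] at h1
  omega

/-- The formal modular equation of level `r`. -/
def ModEq (jb : LaurentSeries k) (r : ℕ) [NeZero r] (Φ : Polynomial (Polynomial k))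
    (ζ : kˣ) : Prop :=
  pAt Φ (qExpand k r jb) =
    (X - C (qExpand k (r * r) jb)) * ∏ c ∈ Finset.range r, (X - C (tw (ζ ^ c) jb))

section ModEq

variable {jb : LaurentSeries k} {r : ℕ} [NeZero r] {Φ : Polynomial (Polynomial k)} {ζ : kˣ}

/-- The modular equation at a formal point. -/
theorem ModEq.at_fpt (h : ModEq jb r Φ ζ) (c : kˣ) (m : ℕ) [NeZero m] :
    pAt Φ (fpt (c ^ r) (m * r) jb) =
      (X - C (fpt (c ^ (r * r)) (m * (r * r)) jb)) *
        ∏ b ∈ Finset.range r, (X - C (fpt (ζ ^ b * c) m jb)) := by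
  have h1 := congrArg (Polynomial.map (fptAlg c m).toRingHom) h
  rw [pAt_map] at h1
  simp only [Polynomial.map_mul, Polynomial.map_sub, Polynomial.map_X, Polynomial.map_C,
    Polynomial.map_prod, AlgHom.toRingHom_eq_coe, RingHom.coe_coe, fptAlg_apply, fpt_qExpand,
    fpt_tw] at h1
  exact h1

theorem ModEq.monic_rhs (jb : LaurentSeries k) (r : ℕ) [NeZero r] (ζ : kˣ) :
    ((X - C (qExpand k (r * r) jb)) *
      ∏ c ∈ Finset.range r, (X - C (tw (ζ ^ c) jb)) : Polynomial (LaurentSeries k)).Monic :=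
  (Polynomial.monic_X_sub_C _).mul
    (Polynomial.monic_prod_of_monic _ _ fun _ _ => Polynomial.monic_X_sub_C _)

theorem ModEq.natDegree_rhs (jb : LaurentSeries k) (r : ℕ) [NeZero r] (ζ : kˣ) :
    ((X - C (qExpand k (r * r) jb)) *
      ∏ c ∈ Finset.range r, (X - C (tw (ζ ^ c) jb)) :
        Polynomial (LaurentSeries k)).natDegree = r + 1 := by
  rw [Polynomial.Monic.natDegree_mul (Polynomial.monic_X_sub_C _)
    (Polynomial.monic_prod_of_monic _ _ fun _ _ => Polynomial.monic_X_sub_C _),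
    Polynomial.natDegree_X_sub_C,
    Polynomial.natDegree_prod_of_monic _ _ (fun _ _ => Polynomial.monic_X_sub_C _)]
  simp only [Polynomial.natDegree_X_sub_C, Finset.sum_const, Finset.card_range, smul_eq_mul,
    mul_one]
  ring

theorem ModEq.monic (h : ModEq jb r Φ ζ) (hjb : jb.order = -1) : Φ.Monic := by
  have hinj : Function.Injective
      (Polynomial.aeval (qExpand k r jb) : Polynomial k →ₐ[k] LaurentSeries k).toRingHom := by
    apply aeval_injective_of_order
    rw [order_qExpand, hjb]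
    have := NeZero.ne r
    simp
    exact this
  apply Polynomial.monic_of_injective hinj
  have h' : Φ.map (Polynomial.aeval (qExpand k r jb) : Polynomial k →ₐ[k] LaurentSeries k).toRingHom
      = _ := h
  rw [h']
  exact ModEq.monic_rhs jb r ζ

theorem ModEq.natDegree (h : ModEq jb r Φ ζ) (hjb : jb.order = -1) : Φ.natDegree = r + 1 := by
  have hm := h.monic hjb
  have h1 : (pAt Φ (qExpand k r jb)).natDegree = Φ.natDegree := hm.natDegree_map _
  rw [← h1, h, ModEq.natDegree_rhs]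

theorem ModEq.monic_pAt (h : ModEq jb r Φ ζ) (hjb : jb.order = -1) {A : Type*} [CommRing A]
    [Algebra k A] (z : A) : (pAt Φ z).Monic :=
  (h.monic hjb).map _

theorem ModEq.natDegree_pAt (h : ModEq jb r Φ ζ) (hjb : jb.order = -1) {A : Type*} [CommRing A]
    [Nontrivial A] [Algebra k A] (z : A) : (pAt Φ z).natDegree = r + 1 := by
  rw [← h.natDegree hjb]
  exact (h.monic hjb).natDegree_map _

/-- The roots of `Φ(X, jb(P^r))` at a formal point, in any field extension. -/
theorem ModEq.root_or (h : ModEq jb r Φ ζ) (c : kˣ) (m : ℕ) [NeZero m] {B : Type*} [Field B]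
    [Algebra k B] (g : LaurentSeries k →ₐ[k] B) (y : B)
    (hy : (pAt Φ (g (fpt (c ^ r) (m * r) jb))).eval y = 0) :
    y = g (fpt (c ^ (r * r)) (m * (r * r)) jb) ∨
      ∃ b, b < r ∧ y = g (fpt (ζ ^ b * c) m jb) := by
  rw [← pAt_map, h.at_fpt c m] at hy
  simp only [Polynomial.map_mul, Polynomial.map_sub, Polynomial.map_X, Polynomial.map_C,
    Polynomial.map_prod, Polynomial.eval_mul, Polynomial.eval_sub, Polynomial.eval_X,
    Polynomial.eval_C, Polynomial.eval_prod, mul_eq_zero, Finset.prod_eq_zero_iff,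
    Finset.mem_range, sub_eq_zero] at hy
  rcases hy with hy | ⟨b, hb, hy⟩
  · exact Or.inl hy
  · exact Or.inr ⟨b, hb, hy⟩

theorem ModEq.eval_low (h : ModEq jb r Φ ζ) (c : kˣ) (m : ℕ) [NeZero m] :
    (pAt Φ (fpt (c ^ r) (m * r) jb)).eval (fpt c m jb) = 0 := by
  rw [h.at_fpt c m, Polynomial.eval_mul, Polynomial.eval_prod]
  apply mul_eq_zero_of_right
  apply Finset.prod_eq_zero (Finset.mem_range.mpr (Nat.pos_of_ne_zero (NeZero.ne r)))
  simp

theorem ModEq.eval_high (h : ModEq jb r Φ ζ) (c : kˣ) (m : ℕ) [NeZero m] :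
    (pAt Φ (fpt (c ^ r) (m * r) jb)).eval (fpt (c ^ (r * r)) (m * (r * r)) jb) = 0 := by
  rw [h.at_fpt c m, Polynomial.eval_mul]
  apply mul_eq_zero_of_left
  simp

theorem ModEq.eval_Jd_low (h : ModEq jb r Φ ζ) (M : ℕ) (hM : M ≠ 0) :
    (pAt Φ (Jd jb (r * M))).eval (Jd jb M) = 0 := by
  have : NeZero M := ⟨hM⟩
  have h1 := h.eval_low 1 M
  rwa [one_pow, ← Jd_eq_fpt, ← Jd_eq_fpt, mul_comm M r] at h1

theorem ModEq.eval_Jd_high (h : ModEq jb r Φ ζ) (M : ℕ) (hM : M ≠ 0) :
    (pAt Φ (Jd jb M)).eval (Jd jb (r * M)) = 0 := by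
  have : NeZero M := ⟨hM⟩
  have h1 := h.eval_high 1 M
  rw [one_pow, one_pow, ← Jd_eq_fpt, ← Jd_eq_fpt] at h1
  have h2 : (pAt Φ (qExpand k r (Jd jb M))).eval (qExpand k r (Jd jb (r * M))) =
      qExpand k r ((pAt Φ (Jd jb M)).eval (Jd jb (r * M))) :=
    eval_pAt_map (qExpandAlgHomC k r) Φ _ _
  have e1 : qExpand k r (Jd jb M) = Jd jb (M * r) := by
    rw [qExpand_Jd jb r M hM, mul_comm]
  have e2 : qExpand k r (Jd jb (r * M)) = Jd jb (M * (r * r)) := by
    rw [qExpand_Jd jb r (r * M) (mul_ne_zero (NeZero.ne r) hM)]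
    congr 1
    ring
  rw [e1, e2, h1] at h2
  exact (qExpand_eq_zero_iff r _).mp h2.symm

/-- For `r ∤ M` the only root of `Φ(X, jb(q^M))` in `k((q))` is `jb(q^(rM))`. -/
theorem ModEq.root_unique (h : ModEq jb r Φ ζ) (hjb : jb.order = -1) (M : ℕ) (hM : M ≠ 0)
    (hrM : ¬ r ∣ M) (x' : LaurentSeries k) (hx' : (pAt Φ (Jd jb M)).eval x' = 0) :
    x' = Jd jb (r * M) := by
  have : NeZero M := ⟨hM⟩
  have h2 : (pAt Φ (qExpand k r (Jd jb M))).eval (qExpand k r x') =
      qExpand k r ((pAt Φ (Jd jb M)).eval x') :=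
    eval_pAt_map (qExpandAlgHomC k r) Φ _ _
  have e1 : qExpand k r (Jd jb M) = fpt ((1 : kˣ) ^ r) (M * r) jb := by
    rw [qExpand_Jd jb r M hM, mul_comm, Jd_eq_fpt, one_pow]
  rw [hx', map_zero, e1] at h2
  have h3 : (pAt Φ ((AlgHom.id k (LaurentSeries k)) (fpt ((1 : kˣ) ^ r) (M * r) jb))).eval
      (qExpand k r x') = 0 := h2
  rcases h.root_or 1 M (AlgHom.id k _) _ h3 with h4 | ⟨b, -, h4⟩
  · rw [AlgHom.id_apply, one_pow, ← Jd_eq_fpt] at h4
    apply qExpand_injective r
    rw [h4, qExpand_Jd jb r (r * M) (mul_ne_zero (NeZero.ne r) hM)]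
    congr 1
    ring
  · exfalso
    rw [AlgHom.id_apply] at h4
    have h5 := dvd_order_qExpand r x'
    rw [h4, order_fpt, hjb] at h5
    apply hrM
    have h6 : (r : ℤ) ∣ (M : ℤ) := by
      have : (M : ℤ) = -((M : ℤ) * -1) := by ring
      rw [this]
      exact (dvd_neg).mpr h5
    exact_mod_cast h6

end ModEq

end

end Tower

end Fermat.Agent.S28
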